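/-
S27 / (GR) — brick (PLX): Chevalley's place-extension theorem with a prescribed target, and the
two valuation rings used by the good-reduction layer (helper78).  Mathlib only.

* `exists_valuationSubring_extending` (PLX-1) : a ring hom `f : R → k` from a subring `R` of a
  field `K` to an algebraically closed field `k` extends to a valuation subring `A ⊇ R` of `K`,
  with a ring hom `π : A → k` whose kernel is the maximal ideal of `A` (Zorn on graphs in `K × k`).
* `isAlgClosed_residueField` : residue fields of valuation subrings of algebraically closed fields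
  are algebraically closed.
* `exists_valuationSubring_mixed` (PLX-2) : `K` algebraically closed, `s ⊆ K` finite, `(N : K) ≠ 0`:
  a prime `p ∤ N` and a valuation subring `A ∋ s` whose residue field is an algebraic closure of
  `𝔽_p` (characteristic `p`, algebraically closed, every element fixed by some `y ↦ y ^ p ^ n`).
* `exists_valuationSubring_const` (PLX-3) : `K ⊆ Ω`, `K` algebraically closed: a valuation subring
  of `Ω` containing `K` with residue field `K` (`exists_valuationSubring_const_residue`).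
-/
import Mathlib

set_option autoImplicit false

namespace Fermat.Agent.S27P.GR.PlaceExt

open Polynomial

universe u v

section Graph

variable {K : Type u} [Field K] {k : Type v} [Field k]

/-- A subring of `K × k` is a *graph* when the first projection is injective on it. -/
def IsGraph (Γ : Subring (K × k)) : Prop := ∀ y : k, ((0 : K), y) ∈ Γ → y = 0

/-- First projection of a subring of `K × k`. -/
def pr₁ (Γ : Subring (K × k)) : Γ →+* K := (RingHom.fst K k).comp Γ.subtype

/-- Second projection of a subring of `K × k`. -/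
def pr₂ (Γ : Subring (K × k)) : Γ →+* k := (RingHom.snd K k).comp Γ.subtype

theorem pr₁_apply (Γ : Subring (K × k)) (γ : Γ) : pr₁ Γ γ = (γ : K × k).1 := rfl

theorem pr₂_apply (Γ : Subring (K × k)) (γ : Γ) : pr₂ Γ γ = (γ : K × k).2 := rfl

theorem pr₁_injective {Γ : Subring (K × k)} (hΓ : IsGraph Γ) : Function.Injective (pr₁ Γ) := by
  rw [injective_iff_map_eq_zero]
  rintro ⟨⟨a, b⟩, hab⟩ h
  have ha : a = 0 := h
  subst ha
  have hb := hΓ b hab
  subst hb
  rfl

/-- The admissible graphs above `Γ₀`. -/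
def Adm (Γ₀ : Subring (K × k)) (Γ : Subring (K × k)) : Prop := Γ₀ ≤ Γ ∧ IsGraph Γ

/-- Zorn: every graph lies in a maximal graph. -/
theorem exists_maximal_graph (Γ₀ : Subring (K × k)) (h₀ : IsGraph Γ₀) :
    ∃ Γ : Subring (K × k), Maximal (Adm Γ₀) Γ := by
  have H := zorn_le₀ {Γ : Subring (K × k) | Adm Γ₀ Γ} ?_
  · obtain ⟨Γ, hΓ⟩ := H
    exact ⟨Γ, hΓ⟩
  · intro c hcs hc
    rcases c.eq_empty_or_nonempty with rfl | hne
    · exact ⟨Γ₀, ⟨le_rfl, h₀⟩, fun z hz => absurd hz (Set.notMem_empty z)⟩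
    · refine ⟨sSup c, ⟨?_, ?_⟩, fun z hz => le_sSup hz⟩
      · obtain ⟨Γ₁, h₁⟩ := hne
        exact (hcs h₁).1.trans (le_sSup h₁)
      · intro y hy
        obtain ⟨Γ₁, h₁, hy₁⟩ := (Subring.mem_sSup_of_directedOn hne hc.directedOn).mp hy
        exact (hcs h₁).2 y hy₁

variable {Γ₀ Γ : Subring (K × k)}

/-- **Extension criterion**: if `y` kills (through `pr₂`) every polynomial over `Γ` that kills `x`
(through `pr₁`), then `(x, y)` lies in the maximal graph `Γ`. -/
theorem mem_of_maximal (hmax : Maximal (Adm Γ₀) Γ) (x : K) (y : k)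
    (h : ∀ P : Polynomial Γ, P.eval₂ (pr₁ Γ) x = 0 → P.eval₂ (pr₂ Γ) y = 0) :
    ((x, y) : K × k) ∈ Γ := by
  set Φ : Polynomial Γ →+* K × k := Polynomial.eval₂RingHom Γ.subtype (x, y) with hΦ
  have hΦ1 : ∀ P, (Φ P).1 = P.eval₂ (pr₁ Γ) x := fun P =>
    Polynomial.hom_eval₂ P Γ.subtype (RingHom.fst K k) (x, y)
  have hΦ2 : ∀ P, (Φ P).2 = P.eval₂ (pr₂ Γ) y := fun P =>
    Polynomial.hom_eval₂ P Γ.subtype (RingHom.snd K k) (x, y)
  have hle : Γ ≤ Φ.range := by
    intro γ hγ
    refine ⟨Polynomial.C ⟨γ, hγ⟩, ?_⟩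
    rw [hΦ, Polynomial.coe_eval₂RingHom, Polynomial.eval₂_C]
    rfl
  have hgraph : IsGraph Φ.range := by
    rintro b ⟨P, hP⟩
    have h1 : P.eval₂ (pr₁ Γ) x = 0 := by rw [← hΦ1, hP]
    have h2 := h P h1
    rw [← hΦ2, hP] at h2
    exact h2
  have hle' : Φ.range ≤ Γ := hmax.2 ⟨hmax.1.1.trans hle, hgraph⟩ hle
  refine hle' ⟨Polynomial.X, ?_⟩
  rw [hΦ, Polynomial.coe_eval₂RingHom, Polynomial.eval₂_X]

/-- In a maximal graph, every element whose second coordinate is nonzero is invertible. -/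
theorem inv_mem_of_maximal (hmax : Maximal (Adm Γ₀) Γ) (γ : Γ) (hγ : pr₂ Γ γ ≠ 0) :
    (((pr₁ Γ γ)⁻¹, (pr₂ Γ γ)⁻¹) : K × k) ∈ Γ := by
  have hinj := pr₁_injective hmax.1.2
  have h1 : pr₁ Γ γ ≠ 0 := by
    intro h0
    have h2 : γ = 0 := hinj (by rw [h0, map_zero])
    exact hγ (by rw [h2, map_zero])
  refine mem_of_maximal hmax _ _ fun P hP => ?_
  have e1 := Polynomial.scaleRoots_eval₂_mul (p := P) (pr₁ Γ) (pr₁ Γ γ)⁻¹ γ
  rw [mul_inv_cancel₀ h1, hP, mul_zero] at e1
  have e2 : pr₁ Γ ((P.scaleRoots γ).eval 1) = 0 := by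
    rw [← e1, Polynomial.eval, Polynomial.hom_eval₂, RingHom.comp_id, map_one]
  have e3 : (P.scaleRoots γ).eval 1 = 0 := hinj (by rw [e2, map_zero])
  have e4 := Polynomial.scaleRoots_eval₂_mul (p := P) (pr₂ Γ) (pr₂ Γ γ)⁻¹ γ
  rw [mul_inv_cancel₀ hγ] at e4
  have e5 : (P.scaleRoots γ).eval₂ (pr₂ Γ) 1 = 0 := by
    have e6 := Polynomial.hom_eval₂ (P.scaleRoots γ) (RingHom.id Γ) (pr₂ Γ) 1
    rw [RingHom.comp_id, map_one] at e6
    rw [← e6]
    change pr₂ Γ ((P.scaleRoots γ).eval 1) = 0
    rw [e3, map_zero]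
  rw [e5] at e4
  exact (mul_eq_zero.mp e4.symm).resolve_left (pow_ne_zero _ hγ)

/-- In a maximal graph, an element with nonzero second coordinate is a unit. -/
theorem isUnit_of_maximal (hmax : Maximal (Adm Γ₀) Γ) (γ : Γ) (hγ : pr₂ Γ γ ≠ 0) : IsUnit γ := by
  have hinj := pr₁_injective hmax.1.2
  have h1 : pr₁ Γ γ ≠ 0 := by
    intro h0
    have h2 : γ = 0 := hinj (by rw [h0, map_zero])
    exact hγ (by rw [h2, map_zero])
  refine IsUnit.of_mul_eq_one ⟨_, inv_mem_of_maximal hmax γ hγ⟩ (Subtype.ext ?_)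
  refine Prod.ext ?_ ?_
  · exact mul_inv_cancel₀ h1
  · exact mul_inv_cancel₀ hγ

/-- The kernel of the second projection of a maximal graph is a maximal ideal. -/
theorem ker_pr₂_isMaximal (hmax : Maximal (Adm Γ₀) Γ) : (RingHom.ker (pr₂ Γ)).IsMaximal := by
  rw [Ideal.isMaximal_iff]
  refine ⟨?_, fun J γ _ hγ hγJ => ?_⟩
  · rw [RingHom.mem_ker, map_one]
    exact one_ne_zero
  · have hu := isUnit_of_maximal hmax γ (fun h0 => hγ (RingHom.mem_ker.mpr h0))
    obtain ⟨δ, hδ⟩ := hu.exists_left_inv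
    rw [← hδ]
    exact J.mul_mem_left δ hγJ

/-- The kernel of the second projection of a maximal graph lies in the Jacobson radical. -/
theorem ker_pr₂_le_jacobson (hmax : Maximal (Adm Γ₀) Γ) :
    RingHom.ker (pr₂ Γ) ≤ Ideal.jacobson ⊥ := by
  intro a ha
  rw [Ideal.mem_jacobson_bot]
  intro b
  refine isUnit_of_maximal hmax _ ?_
  rw [map_add, map_mul, RingHom.mem_ker.mp ha, zero_mul, zero_add, map_one]
  exact one_ne_zero

end Graph

section Aux

/-- Over a ring `R` with a hom `g` to an algebraically closed field whose kernel is maximal: an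
ideal `I` of `R[X]` either contains a polynomial reducing to `1`, or all its members have a
common root (through `g`). -/
theorem exists_map_eq_one_or_exists_root {R : Type u} [CommRing R] {k : Type v} [Field k]
    [IsAlgClosed k] (g : R →+* k) (hm : (RingHom.ker g).IsMaximal) (I : Ideal R[X]) :
    (∃ P ∈ I, P.map (Ideal.Quotient.mk (RingHom.ker g)) = 1) ∨
      ∃ y : k, ∀ P ∈ I, P.eval₂ g y = 0 := by
  let _ := Ideal.Quotient.field (RingHom.ker g)
  have hg : (RingHom.kerLift g).comp (Ideal.Quotient.mk (RingHom.ker g)) = g := by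
    ext r
    exact RingHom.kerLift_mk g r
  by_cases htop : Ideal.map (Polynomial.mapRingHom (Ideal.Quotient.mk (RingHom.ker g))) I = ⊤
  · left
    have h1 : (1 : (R ⧸ RingHom.ker g)[X]) ∈
        Ideal.map (Polynomial.mapRingHom (Ideal.Quotient.mk (RingHom.ker g))) I :=
      htop ▸ Submodule.mem_top
    obtain ⟨P, hP, hP1⟩ := (Ideal.mem_map_iff_of_surjective
      (Polynomial.mapRingHom (Ideal.Quotient.mk (RingHom.ker g)))
      (Polynomial.map_surjective _ Ideal.Quotient.mk_surjective)).mp h1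
    exact ⟨P, hP, hP1⟩
  · right
    obtain ⟨d, hd⟩ : ∃ d, Ideal.map (Polynomial.mapRingHom (Ideal.Quotient.mk (RingHom.ker g))) I
        = Ideal.span {d} :=
      (IsPrincipalIdealRing.principal _).principal
    have hdu : ¬ IsUnit d := fun hu =>
      htop (by rw [hd]; exact Ideal.span_singleton_eq_top.mpr hu)
    obtain ⟨y, hy⟩ : ∃ y : k, (d.map (RingHom.kerLift g)).eval y = 0 := by
      by_cases hd0 : d = 0
      · exact ⟨0, by rw [hd0, Polynomial.map_zero, Polynomial.eval_zero]⟩
      · have hdeg : (d.map (RingHom.kerLift g)).degree ≠ 0 := by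
          rw [Polynomial.degree_map]
          intro h0
          exact hdu (Polynomial.isUnit_iff_degree_eq_zero.mpr h0)
        obtain ⟨y, hy⟩ := IsAlgClosed.exists_root _ hdeg
        exact ⟨y, hy⟩
    refine ⟨y, fun P hP => ?_⟩
    have h2 : P.map (Ideal.Quotient.mk (RingHom.ker g)) ∈
        Ideal.map (Polynomial.mapRingHom (Ideal.Quotient.mk (RingHom.ker g))) I :=
      Ideal.mem_map_of_mem _ hP
    rw [hd, Ideal.mem_span_singleton] at h2
    obtain ⟨c, hc⟩ := h2
    rw [← Polynomial.eval_map, ← hg, ← Polynomial.map_map, hc, Polynomial.map_mul,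
      Polynomial.eval_mul, hy, zero_mul]

/-- Nakayama: an element `z` integral over `R` (through `f : R → K`) cannot satisfy a relation
`Q(z) = 0` with `Q ≡ 1` modulo an ideal contained in the Jacobson radical. -/
theorem not_map_eq_one_of_monic {R : Type u} [CommRing R] {K : Type v} [Field K] (f : R →+* K)
    (m : Ideal R) (hm : m ≤ Ideal.jacobson ⊥) (z : K) (M : R[X]) (hM : M.Monic)
    (hMz : M.eval₂ f z = 0) (Q : R[X]) (hQ : Q.eval₂ f z = 0)
    (hQ1 : Q.map (Ideal.Quotient.mk m) = 1) : False := by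
  let _ := f.toAlgebra
  have hint : IsIntegral R z := ⟨M, hM, hMz⟩
  have hfg := hint.fg_adjoin_singleton
  have hcoef : ∀ i, (Q - 1).coeff i ∈ m := by
    intro i
    have h0 : ((Q - 1).map (Ideal.Quotient.mk m)).coeff i = 0 := by
      rw [Polynomial.map_sub, hQ1, Polynomial.map_one, sub_self, Polynomial.coeff_zero]
    rw [Polynomial.coeff_map] at h0
    exact Ideal.Quotient.eq_zero_iff_mem.mp h0
  have hev : (Q - 1).eval₂ f z = -1 := by
    rw [Polynomial.eval₂_sub, hQ, Polynomial.eval₂_one, zero_sub]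
  rw [Polynomial.eval₂_eq_sum_range] at hev
  have hle : Subalgebra.toSubmodule (Algebra.adjoin R {z}) ≤
      m • Subalgebra.toSubmodule (Algebra.adjoin R {z}) := by
    intro w hw
    have hw' : w = - ∑ i ∈ Finset.range ((Q - 1).natDegree + 1),
        (Q - 1).coeff i • (z ^ i * w) := by
      have h3 : ∑ i ∈ Finset.range ((Q - 1).natDegree + 1), (Q - 1).coeff i • (z ^ i * w) =
          (∑ i ∈ Finset.range ((Q - 1).natDegree + 1), f ((Q - 1).coeff i) * z ^ i) * w := by
        rw [Finset.sum_mul]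
        refine Finset.sum_congr rfl fun i _ => ?_
        rw [Algebra.smul_def, mul_assoc]
        rfl
      rw [h3, hev]
      ring
    rw [hw']
    refine neg_mem (Submodule.sum_mem _ fun i _ => Submodule.smul_mem_smul (hcoef i) ?_)
    exact (Algebra.adjoin R {z}).mul_mem
      ((Algebra.adjoin R {z}).pow_mem (Algebra.self_mem_adjoin_singleton R z) i) hw
  have hbot := Submodule.eq_bot_of_le_smul_of_le_jacobson_bot m _ hfg hle hm
  have h1 : (1 : K) ∈ Subalgebra.toSubmodule (Algebra.adjoin R {z}) :=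
    (Algebra.adjoin R {z}).one_mem
  rw [hbot, Submodule.mem_bot] at h1
  exact one_ne_zero h1

/-- If `P(x) = 0` with `P ≡ 1` modulo an ideal `m` whose complement consists of units, then
`x⁻¹` is integral. -/
theorem exists_monic_inv {R : Type u} [CommRing R] {K : Type v} [Field K] (f : R →+* K)
    (m : Ideal R) (hunit : ∀ r, r ∉ m → IsUnit r) (hm1 : (1 : R) ∉ m) (x : K) (hx : x ≠ 0)
    (P : R[X]) (hPx : P.eval₂ f x = 0) (hP1 : P.map (Ideal.Quotient.mk m) = 1) :
    ∃ M : R[X], M.Monic ∧ M.eval₂ f x⁻¹ = 0 := by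
  have h0 : P.coeff 0 ∉ m := by
    intro hmem
    have h1 : (P.map (Ideal.Quotient.mk m)).coeff 0 = 1 := by
      rw [hP1, Polynomial.coeff_one_zero]
    rw [Polynomial.coeff_map, Ideal.Quotient.eq_zero_iff_mem.mpr hmem] at h1
    have h2 : (Ideal.Quotient.mk m) 1 = 0 := by rw [map_one]; exact h1.symm
    exact hm1 (Ideal.Quotient.eq_zero_iff_mem.mp h2)
  have hc0 : P.coeff 0 ≠ 0 := fun h => h0 (h ▸ m.zero_mem)
  have H : IsUnit P.reverse.leadingCoeff := by
    rw [Polynomial.reverse_leadingCoeff, Polynomial.trailingCoeff_eq_coeff_zero hc0]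
    exact hunit _ h0
  let _ : Invertible x := invertibleOfNonzero hx
  have hrev : P.reverse.eval₂ f x⁻¹ = 0 := by
    have := (Polynomial.eval₂_reverse_eq_zero_iff f x P).mpr hPx
    rwa [invOf_eq_inv] at this
  refine ⟨Polynomial.C H.unit⁻¹.1 * P.reverse, ?_, ?_⟩
  · exact Polynomial.monic_C_mul_of_mul_leadingCoeff_eq_one (IsUnit.val_inv_mul H)
  · rw [Polynomial.eval₂_mul, hrev, mul_zero]

end Aux

section Chevalley

variable {K : Type u} [Field K] {k : Type v} [Field k] [IsAlgClosed k]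
  {Γ₀ Γ : Subring (K × k)}

/-- The valuation property of a maximal graph. -/
theorem mem_or_inv_mem_of_maximal (hmax : Maximal (Adm Γ₀) Γ) (x : K) :
    (∃ y : k, ((x, y) : K × k) ∈ Γ) ∨ ∃ y : k, ((x⁻¹, y) : K × k) ∈ Γ := by
  by_cases hx : x = 0
  · left
    exact ⟨0, by rw [hx]; exact Γ.zero_mem⟩
  have hmx := ker_pr₂_isMaximal hmax
  rcases exists_map_eq_one_or_exists_root (pr₂ Γ) hmx
    (RingHom.ker (Polynomial.eval₂RingHom (pr₁ Γ) x)) with ⟨P, hP, hP1⟩ | ⟨y, hy⟩
  · right
    have hPx : P.eval₂ (pr₁ Γ) x = 0 := RingHom.mem_ker.mp hP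
    obtain ⟨M, hM, hMx⟩ := exists_monic_inv (pr₁ Γ) (RingHom.ker (pr₂ Γ))
      (fun r hr => isUnit_of_maximal hmax r (fun h0 => hr (RingHom.mem_ker.mpr h0)))
      (by rw [RingHom.mem_ker, map_one]; exact one_ne_zero) x hx P hPx hP1
    rcases exists_map_eq_one_or_exists_root (pr₂ Γ) hmx
      (RingHom.ker (Polynomial.eval₂RingHom (pr₁ Γ) x⁻¹)) with ⟨Q, hQ, hQ1⟩ | ⟨y, hy⟩
    · exact (not_map_eq_one_of_monic (pr₁ Γ) (RingHom.ker (pr₂ Γ)) (ker_pr₂_le_jacobson hmax)
        x⁻¹ M hM hMx Q (RingHom.mem_ker.mp hQ) hQ1).elim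
    · exact ⟨y, mem_of_maximal hmax _ _ fun P hP => hy P (RingHom.mem_ker.mpr hP)⟩
  · left
    exact ⟨y, mem_of_maximal hmax _ _ fun P hP => hy P (RingHom.mem_ker.mpr hP)⟩

/-- **(PLX-1) Chevalley's place-extension theorem with prescribed target**: a ring hom `f` from a
subring `R` of a field `K` to an algebraically closed field `k` extends to a valuation subring
`A ⊇ R` of `K`, with a ring hom `π : A → k` whose kernel is the maximal ideal of `A`. -/
theorem exists_valuationSubring_extending (R : Subring K) (f : R →+* k) :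
    ∃ (A : ValuationSubring K) (hRA : R ≤ A.toSubring) (π : A →+* k),
      (∀ r : R, π ⟨r, hRA r.2⟩ = f r) ∧
        ∀ a : A, π a = 0 ↔ a ∈ IsLocalRing.maximalIdeal A := by
  have h₀ : IsGraph (R.subtype.prod f).range := by
    rintro y ⟨r, hr⟩
    have h1 : (r : K) = 0 := congrArg Prod.fst hr
    have h2 : f r = y := congrArg Prod.snd hr
    have h3 : r = 0 := Subtype.ext h1
    rw [← h2, h3, map_zero]
  obtain ⟨Γ, hmax⟩ := exists_maximal_graph (R.subtype.prod f).range h₀
  have hinj := pr₁_injective hmax.1.2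
  let A : ValuationSubring K :=
    { (pr₁ Γ).range with
      mem_or_inv_mem' := fun x => by
        rcases mem_or_inv_mem_of_maximal hmax x with ⟨y, hy⟩ | ⟨y, hy⟩
        · exact Or.inl ⟨⟨(x, y), hy⟩, rfl⟩
        · exact Or.inr ⟨⟨(x⁻¹, y), hy⟩, rfl⟩ }
  let e : Γ ≃+* A := RingEquiv.ofBijective (pr₁ Γ).rangeRestrict
    ⟨fun a b hab => hinj (congrArg Subtype.val hab), (pr₁ Γ).rangeRestrict_surjective⟩
  have he : ∀ γ : Γ, ((e γ : A) : K) = pr₁ Γ γ := fun γ => rfl
  have hRΓ : ∀ r : R, (((r : K), f r) : K × k) ∈ Γ := fun r => hmax.1.1 ⟨r, rfl⟩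
  have hRA : R ≤ A.toSubring := fun r hr => ⟨⟨_, hRΓ ⟨r, hr⟩⟩, rfl⟩
  refine ⟨A, hRA, (pr₂ Γ).comp (e.symm : A →+* Γ), fun r => ?_, fun a => ?_⟩
  · have h1 : e.symm ⟨r, hRA r.2⟩ = ⟨_, hRΓ r⟩ := by
      rw [RingEquiv.symm_apply_eq]
      exact Subtype.ext rfl
    change pr₂ Γ (e.symm ⟨r, hRA r.2⟩) = f r
    rw [h1]
    rfl
  · change pr₂ Γ (e.symm a) = 0 ↔ _
    constructor
    · intro h0
      by_contra hmem
      have hu : IsUnit a := IsLocalRing.notMem_maximalIdeal.mp hmem
      have hu' : IsUnit (pr₂ Γ (e.symm a)) := (hu.map e.symm).map (pr₂ Γ)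
      exact hu'.ne_zero h0
    · intro hmem
      by_contra h0
      have hu : IsUnit (e.symm a) := isUnit_of_maximal hmax _ h0
      have hu' : IsUnit (e (e.symm a)) := hu.map e
      rw [RingEquiv.apply_symm_apply] at hu'
      exact (IsLocalRing.mem_maximalIdeal a).mp hmem hu'

end Chevalley

section Residue

/-- The residue field of a valuation subring of an algebraically closed field is algebraically
closed. -/
theorem isAlgClosed_residueField {L : Type u} [Field L] [IsAlgClosed L] (A : ValuationSubring L) :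
    IsAlgClosed (IsLocalRing.ResidueField A) := by
  refine IsAlgClosed.of_exists_root _ fun p hp hirr => ?_
  have hlift : p ∈ Polynomial.lifts (IsLocalRing.residue A) :=
    (Polynomial.mem_lifts p).2 (Polynomial.map_surjective _ IsLocalRing.residue_surjective p)
  obtain ⟨q, hqp, hqdeg, hqm⟩ := Polynomial.lifts_and_natDegree_eq_and_monic hlift hp
  have hdeg : (q.map (algebraMap A L)).degree ≠ 0 := by
    rw [Polynomial.degree_map_eq_of_injective (FaithfulSMul.algebraMap_injective A L)]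
    have h1 : 0 < p.natDegree := hirr.natDegree_pos
    have h2 : 0 < q.natDegree := by omega
    exact (Polynomial.natDegree_pos_iff_degree_pos.1 h2).ne'
  obtain ⟨α, hα⟩ := IsAlgClosed.exists_root (q.map (algebraMap A L)) hdeg
  have hαint : IsIntegral A α := ⟨q, hqm, by rw [← Polynomial.eval_map]; exact hα⟩
  obtain ⟨a, ha⟩ := IsIntegrallyClosed.algebraMap_eq_of_integral hαint
  refine ⟨IsLocalRing.residue A a, ?_⟩
  have h0 : q.eval a = 0 := by
    apply FaithfulSMul.algebraMap_injective A L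
    rw [map_zero, ← Polynomial.eval₂_at_apply, Polynomial.eval₂_eq_eval_map, ha]
    exact hα
  rw [← hqp, Polynomial.eval_map, Polynomial.eval₂_at_apply, h0, map_zero]

/-- Every element of an algebraic closure of `𝔽_p` lies in a finite field. -/
theorem exists_pow_card_eq (p : ℕ) [Fact p.Prime] (z : AlgebraicClosure (ZMod p)) :
    ∃ n : ℕ, 0 < n ∧ z ^ (p ^ n) = z := by
  have hz : IsIntegral (ZMod p) z := (Algebra.IsAlgebraic.isAlgebraic z).isIntegral
  have hfd : FiniteDimensional (ZMod p) (IntermediateField.adjoin (ZMod p) {z}) :=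
    IntermediateField.adjoin.finiteDimensional hz
  have hfin : Finite (IntermediateField.adjoin (ZMod p) {z}) := Module.finite_of_finite (ZMod p)
  let _ : Fintype (IntermediateField.adjoin (ZMod p) {z}) := Fintype.ofFinite _
  obtain ⟨n, -, hn⟩ := FiniteField.card (IntermediateField.adjoin (ZMod p) {z}) p
  refine ⟨n, n.pos, ?_⟩
  have h1 := FiniteField.pow_card
    (⟨z, IntermediateField.mem_adjoin_simple_self (ZMod p) z⟩ :
      IntermediateField.adjoin (ZMod p) {z})
  rw [hn] at h1
  exact congrArg Subtype.val h1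

/-- `ℤ` is a Jacobson ring. -/
theorem isJacobsonRing_int : IsJacobsonRing ℤ := by
  rw [isJacobsonRing_iff_prime_eq]
  intro P hP
  by_cases h0 : P = ⊥
  · subst h0
    refine le_antisymm (fun x hx => ?_) Ideal.le_jacobson
    rw [Ideal.mem_jacobson_bot] at hx
    have h1 := hx (2 * x)
    rw [Int.isUnit_iff] at h1
    rw [Ideal.mem_bot]
    rcases h1 with h1 | h1 <;> nlinarith [sq_nonneg x]
  · have : P.IsMaximal := IsPrime.to_maximal_ideal h0
    exact Ideal.jacobson_eq_self_of_isMaximal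

/-- A field which is a finitely generated `ℤ`-module has positive characteristic. -/
theorem char_ne_zero_of_finite_int (F : Type u) [Field F] [Module.Finite ℤ F]
    (p : ℕ) [CharP F p] : p ≠ 0 := by
  intro hp0
  subst hp0
  have : CharZero F := CharP.charP_to_charZero F
  have hle : (⊤ : Submodule ℤ F) ≤ Ideal.span {(2 : ℤ)} • (⊤ : Submodule ℤ F) := by
    intro w _
    have h2 : w = (2 : ℤ) • (w / 2) := by
      rw [zsmul_eq_mul]
      push_cast
      field_simp
    rw [h2]
    exact Submodule.smul_mem_smul (Ideal.mem_span_singleton_self 2) Submodule.mem_top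
  obtain ⟨r, hr, hr0⟩ := Submodule.exists_sub_one_mem_and_smul_eq_zero_of_fg_of_le_smul
    (Ideal.span {(2 : ℤ)}) (⊤ : Submodule ℤ F) Module.Finite.fg_top hle
  have h1 := hr0 1 Submodule.mem_top
  rw [zsmul_eq_mul, mul_one] at h1
  have h3 : r = 0 := by exact_mod_cast h1
  rw [h3, Ideal.mem_span_singleton] at hr
  omega

/-- A field of finite type over `ℤ` embeds into an algebraic closure of some `𝔽_p`. -/
theorem exists_ringHom_of_finiteType_field (F : Type u) [Field F] [Algebra ℤ F]
    [Algebra.FiniteType ℤ F] :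
    ∃ (p : ℕ) (_ : Fact p.Prime), Nonempty (F →+* AlgebraicClosure (ZMod p)) := by
  have hJ := isJacobsonRing_int
  have hfin0 := finite_of_finite_type_of_isJacobsonRing ℤ F
  have hfin : Module.Finite ℤ F := by
    have hmod : AddCommGroup.toIntModule F = (Algebra.toModule : Module ℤ F) :=
      Subsingleton.elim _ _
    rw [hmod]
    exact hfin0
  have hint : Algebra.IsIntegral ℤ F := Algebra.IsIntegral.of_finite ℤ F
  obtain ⟨p, hp⟩ := CharP.exists F
  have hp0 : p ≠ 0 := char_ne_zero_of_finite_int F p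
  have hpp : p.Prime := (CharP.char_is_prime_or_zero F p).resolve_right hp0
  have hF : Fact p.Prime := ⟨hpp⟩
  let _ := ZMod.algebra F p
  have halg : Algebra.IsAlgebraic (ZMod p) F := ⟨fun x => by
    have hx : IsIntegral ℤ x := Algebra.IsIntegral.isIntegral x
    obtain ⟨P, hP, hPx⟩ := hx
    refine IsIntegral.isAlgebraic ⟨P.map (Int.castRingHom (ZMod p)), hP.map _, ?_⟩
    rw [Polynomial.eval₂_map]
    have h1 : (algebraMap (ZMod p) F).comp (Int.castRingHom (ZMod p)) = algebraMap ℤ F :=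
      RingHom.ext_int _ _
    rw [h1]
    exact hPx⟩
  exact ⟨p, hF, ⟨((IsAlgClosed.lift : F →ₐ[ZMod p] AlgebraicClosure (ZMod p)) : F →+* _)⟩⟩

end Residue

section Instances

/-- A finitely generated `ℤ`-subalgebra of a field admits a ring hom to an algebraic closure of
some `𝔽_p`. -/
theorem exists_ringHom_algClosure_zmod {K : Type u} [Field K] (s : Finset K) :
    ∃ (p : ℕ) (_ : Fact p.Prime),
      Nonempty ((Algebra.adjoin ℤ (s : Set K)).toSubring →+* AlgebraicClosure (ZMod p)) := by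
  have hft : Algebra.FiniteType ℤ (Algebra.adjoin ℤ (s : Set K)) :=
    (Subalgebra.fg_iff_finiteType _).mp (Subalgebra.fg_adjoin_finset s)
  obtain ⟨M, hM⟩ := Ideal.exists_maximal (Algebra.adjoin ℤ (s : Set K))
  let _ := Ideal.Quotient.field M
  have hft' : Algebra.FiniteType ℤ (Algebra.adjoin ℤ (s : Set K) ⧸ M) :=
    Algebra.FiniteType.of_surjective (Ideal.Quotient.mkₐ ℤ M) Ideal.Quotient.mk_surjective
  obtain ⟨p, hF, ⟨g⟩⟩ :=
    exists_ringHom_of_finiteType_field (Algebra.adjoin ℤ (s : Set K) ⧸ M)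
  exact ⟨p, hF, ⟨g.comp (Ideal.Quotient.mk M)⟩⟩

/-- **(PLX-2) The valuation ring of the MIXED instance**: `K` algebraically closed, finitely many
elements `s ⊆ K` and a natural number `N` with `(N : K) ≠ 0`: there are a prime `p ∤ N` and a
valuation subring `A ∋ s` of `K` whose residue field is an algebraic closure of `𝔽_p`. -/
theorem exists_valuationSubring_mixed {K : Type u} [Field K] [IsAlgClosed K]
    (s : Finset K) (N : ℕ) (hN : (N : K) ≠ 0) :
    ∃ (p : ℕ) (A : ValuationSubring K), p.Prime ∧ ¬ p ∣ N ∧ (∀ a ∈ s, a ∈ A) ∧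
      CharP (IsLocalRing.ResidueField A) p ∧ IsAlgClosed (IsLocalRing.ResidueField A) ∧
      ∀ y : IsLocalRing.ResidueField A, ∃ n : ℕ, 0 < n ∧ y ^ (p ^ n) = y := by
  classical
  obtain ⟨p, hF, ⟨f⟩⟩ := exists_ringHom_algClosure_zmod (insert ((N : K)⁻¹) s)
  obtain ⟨A, hRA, π, hπ, hker⟩ := exists_valuationSubring_extending _ f
  have hsub : ∀ a ∈ insert ((N : K)⁻¹) s, a ∈ A := fun a ha =>
    hRA (Algebra.subset_adjoin (Finset.mem_coe.mpr ha))
  have hcastp : π (p : A) = 0 := by
    rw [map_natCast]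
    exact CharP.cast_eq_zero _ p
  have hpA : ((p : ℕ) : IsLocalRing.ResidueField A) = 0 := by
    have h1 : (p : A) ∈ IsLocalRing.maximalIdeal A := (hker _).mp hcastp
    have h2 := (IsLocalRing.residue_eq_zero_iff (p : A)).mpr h1
    rwa [map_natCast] at h2
  have hchar : CharP (IsLocalRing.ResidueField A) p :=
    (CharP.charP_iff_prime_eq_zero hF.out).mpr hpA
  refine ⟨p, A, hF.out, ?_, fun a ha => hsub a (Finset.mem_insert_of_mem ha), hchar,
    isAlgClosed_residueField A, fun y => ?_⟩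
  · intro hdvd
    have hNA : (N : K)⁻¹ ∈ A := hsub _ (Finset.mem_insert_self _ _)
    have h1 : (⟨(N : K)⁻¹, hNA⟩ : A) * (N : A) = 1 := by
      apply Subtype.ext
      push_cast
      exact inv_mul_cancel₀ hN
    have h2 := congrArg π h1
    rw [map_mul, map_natCast, map_one] at h2
    have h3 : ((N : ℕ) : AlgebraicClosure (ZMod p)) = 0 :=
      (CharP.cast_eq_zero_iff (AlgebraicClosure (ZMod p)) p N).mpr hdvd
    rw [h3, mul_zero] at h2
    exact zero_ne_one h2
  · obtain ⟨a, rfl⟩ := IsLocalRing.residue_surjective y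
    obtain ⟨n, hn, hpow⟩ := exists_pow_card_eq p (π a)
    refine ⟨n, hn, ?_⟩
    rw [← map_pow, ← sub_eq_zero, ← map_sub, IsLocalRing.residue_eq_zero_iff, ← hker, map_sub,
      map_pow, hpow, sub_self]

/-- (PLX-2) in characteristic zero: any `N ≠ 0` can be made a unit. -/
theorem exists_valuationSubring_mixed_charZero {K : Type u} [Field K] [IsAlgClosed K]
    [CharZero K] (s : Finset K) (N : ℕ) (hN : N ≠ 0) :
    ∃ (p : ℕ) (A : ValuationSubring K), p.Prime ∧ ¬ p ∣ N ∧ (∀ a ∈ s, a ∈ A) ∧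
      CharP (IsLocalRing.ResidueField A) p ∧ IsAlgClosed (IsLocalRing.ResidueField A) ∧
      ∀ y : IsLocalRing.ResidueField A, ∃ n : ℕ, 0 < n ∧ y ^ (p ^ n) = y :=
  exists_valuationSubring_mixed s N (Nat.cast_ne_zero.mpr hN)

/-- **(PLX-3) The valuation ring of the CONSTANT instance**: for `K ⊆ Ω` with `K` algebraically
closed there is a valuation subring `A` of `Ω` containing `K`, with a ring hom `π : A → K` which
is the identity on `K` and whose kernel is the maximal ideal (so the residue field is `K`). -/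
theorem exists_valuationSubring_const {K : Type u} [Field K] [IsAlgClosed K] {Ω : Type v}
    [Field Ω] [Algebra K Ω] :
    ∃ (A : ValuationSubring Ω) (π : A →+* K),
      (∀ c : K, ∃ hc : algebraMap K Ω c ∈ A, π ⟨_, hc⟩ = c) ∧
        ∀ a : A, π a = 0 ↔ a ∈ IsLocalRing.maximalIdeal A := by
  let e : K ≃+* (algebraMap K Ω).range :=
    RingEquiv.ofBijective (algebraMap K Ω).rangeRestrict
      ⟨fun a b hab => (algebraMap K Ω).injective (congrArg Subtype.val hab),
        (algebraMap K Ω).rangeRestrict_surjective⟩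
  obtain ⟨A, hRA, π, hπ, hker⟩ :=
    exists_valuationSubring_extending (algebraMap K Ω).range (e.symm : _ →+* K)
  refine ⟨A, π, fun c => ⟨hRA ⟨c, rfl⟩, ?_⟩, hker⟩
  have h1 := hπ ⟨algebraMap K Ω c, ⟨c, rfl⟩⟩
  rw [h1]
  change e.symm (e c) = c
  exact e.symm_apply_apply c

/-- A surjective ring hom from a valuation subring whose kernel is the maximal ideal identifies the
residue field with the target. -/
theorem exists_residueField_ringEquiv {L : Type u} [Field L] {k : Type v} [Field k]
    (A : ValuationSubring L) (π : A →+* k) (hsurj : Function.Surjective π)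
    (hker : ∀ a : A, π a = 0 ↔ a ∈ IsLocalRing.maximalIdeal A) :
    ∃ e : IsLocalRing.ResidueField A ≃+* k, ∀ a : A, e (IsLocalRing.residue A a) = π a := by
  have h : IsLocalRing.maximalIdeal A = RingHom.ker π := by
    ext a
    rw [RingHom.mem_ker, hker]
  exact ⟨(Ideal.quotEquivOfEq h).trans (RingHom.quotientKerEquivOfSurjective hsurj), fun a => rfl⟩

/-- (PLX-3), residue-field form: the residue field of the valuation ring of the constant instance
is `K`, compatibly with the inclusion of `K`. -/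
theorem exists_valuationSubring_const_residue {K : Type u} [Field K] [IsAlgClosed K] {Ω : Type v}
    [Field Ω] [Algebra K Ω] :
    ∃ (A : ValuationSubring Ω) (hKA : ∀ c : K, algebraMap K Ω c ∈ A)
      (e : IsLocalRing.ResidueField A ≃+* K),
      ∀ c : K, e (IsLocalRing.residue A ⟨algebraMap K Ω c, hKA c⟩) = c := by
  obtain ⟨A, π, hπ, hker⟩ := exists_valuationSubring_const (K := K) (Ω := Ω)
  have hsurj : Function.Surjective π := fun c => by
    obtain ⟨hc, h1⟩ := hπ c
    exact ⟨_, h1⟩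
  obtain ⟨e, he⟩ := exists_residueField_ringEquiv A π hsurj hker
  refine ⟨A, fun c => (hπ c).1, e, fun c => ?_⟩
  rw [he]
  exact (hπ c).2

end Instances

end Fermat.Agent.S27P.GR.PlaceExt
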