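import Mathlib

/-!
# S27 / (GR): good reduction by a spread-out model — vocabulary

* `LocalCertN k R z a m` : local certificate at the point `z = a` of a chart ring `R/k` with `m`
  uniformisers (finitely many polynomial identities; stable under any base change).
* `ChartCert k R z β` : `R` is free over `k[z]` on `β`, with a trace-dual certificate for a split
  "discriminant" `d = l ∏ (X - a q)` (`l` a unit) and a local certificate at every `a q`.
* `Model Λ U n` : two charts `B ∋ x`, `B' ∋ x' = 1/x` inside the overlap ring `U`, each with a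
  `ChartCert`, and ONE uniformiser at `x' = 0` (a single pole of `x`).
* `Real M κ E φ ψ` : a realisation of the model in a function field `E/κ`.
-/

set_option autoImplicit false

noncomputable section

namespace Fermat.Agent.S27P.GR

open Polynomial

/-- Local certificate with `m` uniformisers `τ j` at the point `z = a` of the chart ring `R`:
(C1) `v j (z - a) = u j τ j`; (C2) `v j ≡ c j` (a unit constant) mod `(τ j, z - a)`;
(C3) `R = k + (τ j, z - a)`; (C4) `(∏ τ j) ^ N ∈ (z - a) R`. -/
def LocalCertN (k : Type*) [CommRing k] (R : Type*) [CommRing R] [Algebra k R] (z : R) (a : k)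
    (m : ℕ) : Prop :=
  ∃ (τ v u : Fin m → R) (c : Fin m → kˣ) (N : ℕ) (w : R),
    (∀ j, v j * (z - algebraMap k R a) = u j * τ j) ∧
    (∀ j, ∃ r s : R, v j - algebraMap k R (c j : k) = τ j * r + (z - algebraMap k R a) * s) ∧
    (∀ j, ∀ f : R, ∃ (κ : k) (r s : R),
      f - algebraMap k R κ = τ j * r + (z - algebraMap k R a) * s) ∧
    (∏ j, τ j) ^ N = (z - algebraMap k R a) * w

/-- Chart certificate: `R` is free over `k[z]` with basis `β`; `βd` is `d` times the trace-dual
basis (`T i j s t` = the `β t`-coordinate of `β i * βd j * β s`, so `∑ s, T i j s s` is the trace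
of `β i * βd j`), where `d = l ∏ (X - a q)` with `l` a unit; and a local certificate at each
`a q`. -/
structure ChartCert (k : Type*) [CommRing k] (R : Type*) [CommRing R] [Algebra k R] (z : R)
    {n : ℕ} (β : Fin n → R) : Prop where
  free : ∀ f : R, ∃! p : Fin n → k[X], f = ∑ i, aeval z (p i) * β i
  disc : ∃ (βd : Fin n → R) (T : Fin n → Fin n → Fin n → Fin n → k[X]) (m : ℕ) (a : Fin m → k)
      (l : kˣ),
    (∀ i j s, β i * βd j * β s = ∑ t, aeval z (T i j s t) * β t) ∧
    (∀ i j, ∑ s, T i j s s = if i = j then C (l : k) * ∏ q, (X - C (a q)) else 0) ∧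
    ∀ q, ∃ m' : ℕ, LocalCertN k R z (a q) m'

/-- A two-chart model of a curve over the ring `Λ`, inside the overlap ring `U`. -/
structure Model (Λ : Type*) [CommRing Λ] (U : Type*) [CommRing U] [Algebra Λ U] (n : ℕ) where
  x : U
  x' : U
  B : Subalgebra Λ U
  B' : Subalgebra Λ U
  b : Fin n → B
  b' : Fin n → B'
  hxx' : x * x' = 1
  hx : x ∈ B
  hx' : x' ∈ B'
  cert : ChartCert Λ B ⟨x, hx⟩ b
  cert' : ChartCert Λ B' ⟨x', hx'⟩ b'
  cert_inf : LocalCertN Λ B' ⟨x', hx'⟩ 0 1
  hB : ∀ u : U, ∃ m : ℕ, x ^ m * u ∈ B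
  hB' : ∀ u : U, ∃ m : ℕ, x' ^ m * u ∈ B'
  pos : 0 < n

/-- A realisation of the model `M` in the field extension `E/κ`: compatible ring homs, the image of
`x` transcendental, the images of the `b i` a basis of `E` over `κ(x)`. -/
structure Real {Λ U : Type*} [CommRing Λ] [CommRing U] [Algebra Λ U] {n : ℕ} (M : Model Λ U n)
    (κ E : Type*) [Field κ] [Field E] [Algebra κ E] (φ : Λ →+* κ) (ψ : U →+* E) : Prop where
  compat : ∀ a : Λ, ψ (algebraMap Λ U a) = algebraMap κ E (φ a)
  trans : Transcendental κ (ψ M.x)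
  span : ∀ y : E, ∃ (p : Fin n → κ[X]) (s : κ[X]), s ≠ 0 ∧
    aeval (ψ M.x) s * y = ∑ i, aeval (ψ M.x) (p i) * ψ (M.b i : U)
  indep : ∀ p : Fin n → κ[X], ∑ i, aeval (ψ M.x) (p i) * ψ (M.b i : U) = 0 → p = 0

end Fermat.Agent.S27P.GR
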