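import Mathlib
import Fermat.Agent.S27P.GR.Defs

/-!
# S27 / (GR), row GR-D: domain-ness from one uniformiser

`R` a `k`-algebra (`k` a field), free of positive rank over `k[t]`, with a local certificate
`LocalCertN k R t 0 1` at `t = 0` with ONE uniformiser `τ`:
`v t = u τ`, `v ≡ c` (a unit constant) mod `(τ, t)`, `R = k + (τ, t)`, `τ ^ N ∈ t R`.
Then `R` is a domain (`isDomain_of_localCert`).

The proof is elementary and stays inside `R` (no localisation, no Noetherian hypothesis, no Krull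
intersection theorem): `𝔫 = (τ, t)` is a maximal ideal; every `s ∉ 𝔫` is a unit modulo `t ^ m` for
every `m`, hence a non-zero-divisor (`R` is `t`-adically separated); every `a ≠ 0` satisfies
`s a = τ ^ m e` with `s, e ∉ 𝔫`; so a relation `a b = 0` with `a, b ≠ 0` would give `τ ^ M = 0`,
hence `t ^ M = 0`, which is impossible.
-/

set_option autoImplicit false

namespace Fermat.Agent.S27P.GR

open Polynomial

namespace Domain

section Core

variable {k R : Type*} [Field k] [CommRing R] [Algebra k R]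

/-- `τ` is nilpotent modulo `t ^ m` if `τ ^ N ∈ t R`. -/
theorem isNilpotent_mk_of_pow_eq (t τ w : R) (N m : ℕ) (h4 : τ ^ N = t * w) :
    IsNilpotent (Ideal.Quotient.mk (Ideal.span {t ^ m}) τ) := by
  refine ⟨N * m, ?_⟩
  rw [← map_pow, pow_mul, h4, mul_pow, Ideal.Quotient.eq_zero_iff_mem]
  exact Ideal.mul_mem_right _ _ (Ideal.subset_span rfl)

/-- `t` is nilpotent modulo `t ^ m`. -/
theorem isNilpotent_mk_self (t : R) (m : ℕ) :
    IsNilpotent (Ideal.Quotient.mk (Ideal.span {t ^ m}) t) :=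
  ⟨m, by rw [← map_pow, Ideal.Quotient.eq_zero_iff_mem]; exact Ideal.subset_span rfl⟩

/-- **Domain-ness from one uniformiser** (hypothesis form): a nontrivial `k`-algebra `R` in
which `t` is a non-zero-divisor with `⋂ t ^ m R = 0`, together with `τ, v, u, w, c, N` such that
`v t = u τ`, `v ≡ c ∈ kˣ` mod `(τ, t)`, `R = k + (τ, t)` and `τ ^ N = t w`, is a domain. -/
theorem isDomain_of_uniformiser (t τ v u w : R) (c : kˣ) (N : ℕ) [Nontrivial R]
    (hreg : ∀ f : R, t * f = 0 → f = 0)
    (hsep : ∀ f : R, (∀ m : ℕ, ∃ g : R, f = t ^ m * g) → f = 0)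
    (h1 : v * t = u * τ)
    (h2 : ∃ r s : R, v - algebraMap k R (c : k) = τ * r + t * s)
    (h3 : ∀ f : R, ∃ (κ : k) (r s : R), f - algebraMap k R κ = τ * r + t * s)
    (h4 : τ ^ N = t * w) : IsDomain R := by
  set 𝔫 : Ideal R := Ideal.span {τ, t} with h𝔫
  have hτ𝔫 : τ ∈ 𝔫 := Ideal.subset_span (Set.mem_insert _ _)
  have ht𝔫 : t ∈ 𝔫 := Ideal.subset_span (Set.mem_insert_of_mem _ rfl)
  have hmem : ∀ r s : R, τ * r + t * s ∈ 𝔫 := fun r s =>
    𝔫.add_mem (𝔫.mul_mem_right _ hτ𝔫) (𝔫.mul_mem_right _ ht𝔫)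
  -- `1 ∉ 𝔫`
  have h1n : (1 : R) ∉ 𝔫 := by
    intro h
    obtain ⟨a, b, hab⟩ := Ideal.mem_span_pair.1 h
    have hnil := isNilpotent_mk_of_pow_eq t τ w N 1 h4
    have htz : Ideal.Quotient.mk (Ideal.span {t ^ 1}) t = 0 := by
      rw [Ideal.Quotient.eq_zero_iff_mem, pow_one]; exact Ideal.subset_span rfl
    have h1' : (1 : R ⧸ Ideal.span {t ^ 1})
        = Ideal.Quotient.mk _ a * Ideal.Quotient.mk _ τ := by
      rw [← map_one (Ideal.Quotient.mk (Ideal.span {t ^ 1})), ← hab, map_add, map_mul, map_mul,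
        htz, mul_zero, add_zero]
    have hnil1 : IsNilpotent (1 : R ⧸ Ideal.span {t ^ 1}) := by
      rw [h1', ← mem_nilradical]
      exact Ideal.mul_mem_left _ _ (mem_nilradical.2 hnil)
    obtain ⟨j, hj⟩ := hnil1
    rw [one_pow, ← map_one (Ideal.Quotient.mk (Ideal.span {t ^ 1})),
      Ideal.Quotient.eq_zero_iff_mem, pow_one] at hj
    obtain ⟨g, hg⟩ := Ideal.mem_span_singleton'.1 hj
    have h10 : (1 : R) = 0 :=
      hsep 1 fun m => ⟨g ^ m, by rw [← mul_pow, mul_comm, hg, one_pow]⟩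
    exact one_ne_zero h10
  -- a constant in `𝔫` is zero
  have hconst : ∀ κ : k, algebraMap k R κ ∈ 𝔫 → κ = 0 := by
    intro κ hκ
    by_contra h0
    apply h1n
    have h := 𝔫.mul_mem_left (algebraMap k R κ⁻¹) hκ
    rwa [← map_mul, inv_mul_cancel₀ h0, map_one] at h
  -- `𝔫` is maximal
  have hmax : 𝔫.IsMaximal := by
    rw [Ideal.isMaximal_iff]
    refine ⟨h1n, fun J x hJ hx hxJ => ?_⟩
    obtain ⟨κ, r, s, hκ⟩ := h3 x
    have hκJ : algebraMap k R κ ∈ J := by
      have h : algebraMap k R κ = x - (τ * r + t * s) := by rw [← hκ]; ring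
      rw [h]; exact J.sub_mem hxJ (hJ (hmem r s))
    have hκ0 : κ ≠ 0 := by
      rintro rfl
      apply hx
      have h : x = τ * r + t * s := by rw [← hκ, map_zero, sub_zero]
      rw [h]; exact hmem r s
    have h := J.mul_mem_left (algebraMap k R κ⁻¹) hκJ
    rwa [← map_mul, inv_mul_cancel₀ hκ0, map_one] at h
  have hprime : 𝔫.IsPrime := hmax.isPrime
  -- `v ∉ 𝔫`
  have hv : v ∉ 𝔫 := by
    intro hv
    obtain ⟨r, s, hrs⟩ := h2
    have h : algebraMap k R (c : k) ∈ 𝔫 := by
      have h' : algebraMap k R (c : k) = v - (τ * r + t * s) := by rw [← hrs]; ring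
      rw [h']; exact 𝔫.sub_mem hv (hmem r s)
    exact c.ne_zero (hconst _ h)
  -- every `s ∉ 𝔫` is a unit modulo `t ^ m`
  have hunit : ∀ (m : ℕ) (s : R), s ∉ 𝔫 → ∃ s' g : R, s' * s = 1 + t ^ m * g := by
    intro m s hs
    obtain ⟨κ, r, s₁, hκ⟩ := h3 s
    have hκ0 : κ ≠ 0 := by
      rintro rfl
      apply hs
      have h : s = τ * r + t * s₁ := by rw [← hκ, map_zero, sub_zero]
      rw [h]; exact hmem r s₁
    have hy : IsNilpotent (Ideal.Quotient.mk (Ideal.span {t ^ m}) (τ * r + t * s₁)) := by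
      rw [← mem_nilradical, map_add, map_mul, map_mul]
      exact Ideal.add_mem _
        (Ideal.mul_mem_right _ _ (mem_nilradical.2 (isNilpotent_mk_of_pow_eq t τ w N m h4)))
        (Ideal.mul_mem_right _ _ (mem_nilradical.2 (isNilpotent_mk_self t m)))
    have hu : IsUnit (Ideal.Quotient.mk (Ideal.span {t ^ m}) (algebraMap k R κ)) :=
      ((IsUnit.mk0 κ hκ0).map (algebraMap k R)).map _
    have hs' : IsUnit (Ideal.Quotient.mk (Ideal.span {t ^ m}) s) := by
      have h : Ideal.Quotient.mk (Ideal.span {t ^ m}) s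
          = Ideal.Quotient.mk (Ideal.span {t ^ m}) (algebraMap k R κ)
            + Ideal.Quotient.mk (Ideal.span {t ^ m}) (τ * r + t * s₁) := by
        rw [← map_add, ← hκ]; congr 1; ring
      rw [h]
      exact hy.isUnit_add_left_of_commute hu (Commute.all _ _)
    obtain ⟨q, hq⟩ := hs'.exists_left_inv
    obtain ⟨s', rfl⟩ := Ideal.Quotient.mk_surjective q
    have hmem' : s' * s - 1 ∈ Ideal.span {t ^ m} := by
      rw [← Ideal.Quotient.eq_zero_iff_mem, map_sub, map_mul, map_one]; exact sub_eq_zero.2 hq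
    obtain ⟨g, hg⟩ := Ideal.mem_span_singleton'.1 hmem'
    exact ⟨s', g, by rw [mul_comm (t ^ m) g, hg]; ring⟩
  -- every `s ∉ 𝔫` is a non-zero-divisor
  have hnzd : ∀ s : R, s ∉ 𝔫 → ∀ f : R, s * f = 0 → f = 0 := by
    intro s hs f hsf
    apply hsep
    intro m
    obtain ⟨s', g, hg⟩ := hunit m s hs
    refine ⟨-(g * f), ?_⟩
    have h : (1 + t ^ m * g) * f = 0 := by rw [← hg, mul_assoc, hsf, mul_zero]
    linear_combination h
  -- every nonzero element is `τ ^ m` times a "unit", up to a "unit"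
  have hkey : ∀ a : R, a ≠ 0 →
      ∃ (m : ℕ) (s e : R), s ∉ 𝔫 ∧ e ∉ 𝔫 ∧ s * a = τ ^ m * e := by
    intro a ha
    by_contra hneg
    have hP : ∀ m : ℕ, ∃ s g : R, s ∉ 𝔫 ∧ s * a = τ ^ m * g := by
      intro m
      induction m with
      | zero => exact ⟨1, a, h1n, by ring⟩
      | succ m ih =>
        obtain ⟨s, g, hs, hsg⟩ := ih
        have hg : g ∈ 𝔫 := by
          by_contra hg
          exact hneg ⟨m, s, g, hs, hg, hsg⟩
        obtain ⟨c₁, c₂, hc⟩ := Ideal.mem_span_pair.1 hg
        refine ⟨v * s, c₁ * v + c₂ * u, fun h => ?_, ?_⟩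
        · rcases hprime.mem_or_mem h with h | h
          · exact hv h
          · exact hs h
        · rw [mul_assoc, hsg, ← hc]
          linear_combination (τ ^ m * c₂) * h1
    apply ha
    apply hsep
    intro m
    obtain ⟨s, g, hs, hsg⟩ := hP (N * m)
    obtain ⟨s', g', hg'⟩ := hunit m s hs
    refine ⟨s' * w ^ m * g - g' * a, ?_⟩
    have e1 : τ ^ (N * m) = t ^ m * w ^ m := by rw [pow_mul, h4, mul_pow]
    have e2 : (1 + t ^ m * g') * a = s' * (τ ^ (N * m) * g) := by
      rw [← hg', mul_assoc, hsg]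
    rw [e1] at e2
    linear_combination e2
  -- conclusion
  have hnzdR : NoZeroDivisors R := by
    refine ⟨fun {a b} hab => ?_⟩
    by_contra hne
    rw [not_or] at hne
    obtain ⟨ha, hb⟩ := hne
    obtain ⟨m, s, e, hs, he, hse⟩ := hkey a ha
    obtain ⟨l, s', e', hs', he', hse'⟩ := hkey b hb
    have hee : e * e' ∉ 𝔫 := fun h => (hprime.mem_or_mem h).elim he he'
    have h5 : (e * e') * τ ^ (m + l) = 0 := by
      have h : (s * a) * (s' * b) = 0 := by
        have h' : (s * a) * (s' * b) = s * s' * (a * b) := by ring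
        rw [h', hab, mul_zero]
      rw [hse, hse'] at h
      rw [← h]; ring
    have h6 : τ ^ (m + l) = 0 := hnzd _ hee _ h5
    have hvM : v ^ (m + l) ∉ 𝔫 := fun h => hv (hprime.mem_of_pow_mem _ h)
    have h7 : v ^ (m + l) * t ^ (m + l) = 0 := by
      rw [← mul_pow, h1, mul_pow, h6, mul_zero]
    have h8 : t ^ (m + l) = 0 := hnzd _ hvM _ h7
    have h9 : ∀ j : ℕ, t ^ j = 0 → False := by
      intro j
      induction j with
      | zero => intro h; rw [pow_zero] at h; exact one_ne_zero h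
      | succ j ih => intro h; rw [pow_succ'] at h; exact ih (hreg _ h)
    exact h9 _ h8
  exact NoZeroDivisors.to_isDomain R

end Core

section Free

variable {k R : Type*} [Field k] [CommRing R] [Algebra k R]

/-- A ring which is free of positive rank over `k[t]` is nontrivial. -/
theorem nontrivial_of_free {n : ℕ} (hn : 0 < n) (t : R) (β : Fin n → R)
    (hfree : ∀ f : R, ∃! p : Fin n → k[X], f = ∑ i, aeval t (p i) * β i) : Nontrivial R := by
  by_contra hnt
  rw [not_nontrivial_iff_subsingleton] at hnt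
  obtain ⟨p, -, huniq⟩ := hfree 0
  have h1 := huniq 0 (Subsingleton.elim _ _)
  have h2 := huniq (fun _ => 1) (Subsingleton.elim _ _)
  have h3 := congrFun (h1.trans h2.symm) ⟨0, hn⟩
  exact zero_ne_one h3

/-- `t` is a non-zero-divisor on a ring which is free over `k[t]`. -/
theorem eq_zero_of_mul_eq_zero_of_free {n : ℕ} (t : R) (β : Fin n → R)
    (hfree : ∀ f : R, ∃! p : Fin n → k[X], f = ∑ i, aeval t (p i) * β i) (f : R)
    (hf : t * f = 0) : f = 0 := by
  obtain ⟨p, hp, -⟩ := hfree f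
  obtain ⟨p0, -, huniq⟩ := hfree 0
  have h1 : (0 : Fin n → k[X]) = p0 := huniq 0 (by simp)
  have h2 : (fun i => X * p i) = p0 := huniq _ (by
    rw [← hf, hp, Finset.mul_sum]
    refine Finset.sum_congr rfl fun i _ => ?_
    rw [map_mul, aeval_X, mul_assoc])
  have h3 : ∀ i, p i = 0 := by
    intro i
    have h := congrFun (h2.trans h1.symm) i
    have h' : X * p i = 0 := h
    exact (mul_eq_zero.1 h').resolve_left X_ne_zero
  rw [hp]
  exact Finset.sum_eq_zero fun i _ => by rw [h3 i, map_zero, zero_mul]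

/-- A ring which is free over `k[t]` is `t`-adically separated. -/
theorem eq_zero_of_forall_pow_dvd_of_free {n : ℕ} (t : R) (β : Fin n → R)
    (hfree : ∀ f : R, ∃! p : Fin n → k[X], f = ∑ i, aeval t (p i) * β i) (f : R)
    (hf : ∀ m : ℕ, ∃ g : R, f = t ^ m * g) : f = 0 := by
  obtain ⟨p, hp, huniq⟩ := hfree f
  have h3 : ∀ i, p i = 0 := by
    intro i
    by_contra hpi
    obtain ⟨g, hg⟩ := hf ((p i).natDegree + 1)
    obtain ⟨q, hq, -⟩ := hfree g
    have h2 : (fun j => X ^ ((p i).natDegree + 1) * q j) = p := huniq _ (by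
      rw [hg, hq, Finset.mul_sum]
      refine Finset.sum_congr rfl fun j _ => ?_
      rw [map_mul, map_pow, aeval_X, mul_assoc])
    have h4 : p i = X ^ ((p i).natDegree + 1) * q i := (congrFun h2 i).symm
    have hqi : q i ≠ 0 := by
      intro h0
      rw [h0, mul_zero] at h4
      exact hpi h4
    have h5 := congrArg natDegree h4
    rw [natDegree_mul (pow_ne_zero _ X_ne_zero) hqi, natDegree_X_pow] at h5
    omega
  rw [hp]
  exact Finset.sum_eq_zero fun i _ => by rw [h3 i, map_zero, zero_mul]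

end Free

end Domain

section Main

/-- **GR-D: domain-ness from one uniformiser.** A `k`-algebra `R` which is free of positive rank
over `k[t]` and carries a local certificate at `t = 0` with a single uniformiser is a domain. -/
theorem isDomain_of_localCert {k R : Type*} [Field k] [CommRing R] [Algebra k R] {n : ℕ}
    (hn : 0 < n) (t : R) (β : Fin n → R)
    (hfree : ∀ f : R, ∃! p : Fin n → k[X], f = ∑ i, aeval t (p i) * β i)
    (h : LocalCertN k R t 0 1) : IsDomain R := by
  obtain ⟨τ, v, u, c, N, w, h1, h2, h3, h4⟩ := h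
  have hnt : Nontrivial R := Domain.nontrivial_of_free hn t β hfree
  simp only [map_zero, sub_zero] at h1 h2 h3 h4
  rw [Fin.prod_univ_one] at h4
  exact Domain.isDomain_of_uniformiser t (τ 0) (v 0) (u 0) w (c 0) N
    (Domain.eq_zero_of_mul_eq_zero_of_free t β hfree)
    (Domain.eq_zero_of_forall_pow_dvd_of_free t β hfree)
    (h1 0) (h2 0) (h3 0) h4

end Main

end Fermat.Agent.S27P.GR
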