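/-
S27 / (GR), row GR-TR (helper11): certificates are stable under base change.

`φ : Λ →+* k`, `ψ : B →+* R` compatible ring homomorphisms with `R` spanned over `k` by the image
of `ψ` (e.g. `R = k ⊗[Λ] B`, or `R` a quotient / localisation-free realisation of the chart ring).
Then a local certificate `LocalCertN Λ B z a m` is transported to `LocalCertN k R (ψ z) (φ a) m`,
and a chart certificate `ChartCert Λ B z β` to `ChartCert k R (ψ z) (ψ ∘ β)` as soon as the
transported family is still a free basis over `k[ψ z]`.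

Mathlib + `S27P/GR/Defs`; universe polymorphic.
-/
import Mathlib
import Fermat.Agent.S27P.GR.Defs

set_option autoImplicit false

namespace Fermat.Agent.S27P.GR

open Polynomial

section Transport

variable {Λ B k R : Type*} [CommRing Λ] [CommRing B] [Algebra Λ B] [CommRing k] [CommRing R]
  [Algebra k R]

/-- Evaluation of polynomials commutes with a compatible pair of ring homomorphisms. -/
theorem map_aeval_eq (φ : Λ →+* k) (ψ : B →+* R)
    (hψ : ∀ a, ψ (algebraMap Λ B a) = algebraMap k R (φ a)) (z : B) (P : Λ[X]) :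
    ψ (aeval z P) = aeval (ψ z) (P.map φ) := by
  have hcomp : ψ.comp (algebraMap Λ B) = (algebraMap k R).comp φ := RingHom.ext hψ
  rw [aeval_def, aeval_def, hom_eval₂, eval₂_map, hcomp]

/-- The image of `ψ` spans `R` over `k` as soon as `R` is generated over `k[ψ z]` by the images
of a family `β`. -/
theorem mem_span_range_of_repr (ψ : B →+* R) {n : ℕ} (z : B) (β : Fin n → B)
    (hgen : ∀ f : R, ∃ p : Fin n → k[X], f = ∑ i, aeval (ψ z) (p i) * ψ (β i)) (f : R) :
    f ∈ Submodule.span k (Set.range ψ) := by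
  obtain ⟨p, rfl⟩ := hgen f
  refine Submodule.sum_mem _ fun i _ => ?_
  rw [aeval_eq_sum_range, Finset.sum_mul]
  refine Submodule.sum_mem _ fun j _ => ?_
  rw [smul_mul_assoc]
  refine Submodule.smul_mem _ _ (Submodule.subset_span ⟨z ^ j * β i, ?_⟩)
  rw [map_mul, map_pow]

/-- **Local certificates are stable under base change.** -/
theorem LocalCertN.map (φ : Λ →+* k) (ψ : B →+* R)
    (hψ : ∀ a, ψ (algebraMap Λ B a) = algebraMap k R (φ a))
    (hspan : ∀ f : R, f ∈ Submodule.span k (Set.range ψ)) {z : B} {a : Λ} {m : ℕ}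
    (h : LocalCertN Λ B z a m) : LocalCertN k R (ψ z) (φ a) m := by
  obtain ⟨τ, v, u, c, N, w, h1, h2, h3, h4⟩ := h
  refine ⟨fun j => ψ (τ j), fun j => ψ (v j), fun j => ψ (u j), fun j => Units.map φ.toMonoidHom (c j),
    N, ψ w, fun j => ?_, fun j => ?_, fun j f => ?_, ?_⟩
  · have e := congrArg ψ (h1 j)
    rw [map_mul, map_mul, map_sub, hψ] at e
    exact e
  · obtain ⟨r, s, hrs⟩ := h2 j
    refine ⟨ψ r, ψ s, ?_⟩
    have e := congrArg ψ hrs
    rw [map_sub, map_add, map_mul, map_mul, map_sub, hψ, hψ] at e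
    exact e
  · -- (C3): by linearity from the image of `ψ`
    have key : ∀ f : R, f ∈ Submodule.span k (Set.range ψ) → ∃ (κ : k) (r s : R),
        f - algebraMap k R κ = ψ (τ j) * r + (ψ z - algebraMap k R (φ a)) * s := by
      intro f hf
      induction hf using Submodule.span_induction with
      | mem x hx =>
        obtain ⟨b, rfl⟩ := hx
        obtain ⟨κ, r, s, hκ⟩ := h3 j b
        refine ⟨φ κ, ψ r, ψ s, ?_⟩
        have e := congrArg ψ hκ
        rw [map_sub, map_add, map_mul, map_mul, map_sub, hψ, hψ] at e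
        exact e
      | zero => exact ⟨0, 0, 0, by simp⟩
      | add x y _ _ hx hy =>
        obtain ⟨κ₁, r₁, s₁, e₁⟩ := hx
        obtain ⟨κ₂, r₂, s₂, e₂⟩ := hy
        refine ⟨κ₁ + κ₂, r₁ + r₂, s₁ + s₂, ?_⟩
        rw [map_add]
        linear_combination e₁ + e₂
      | smul t x _ hx =>
        obtain ⟨κ, r, s, e⟩ := hx
        refine ⟨t * κ, algebraMap k R t * r, algebraMap k R t * s, ?_⟩
        rw [map_mul, Algebra.smul_def]
        linear_combination algebraMap k R t * e
    exact key f (hspan f)
  · have e := congrArg ψ h4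
    rw [map_pow, map_prod, map_mul, map_sub, hψ] at e
    exact e

/-- **Chart certificates are stable under base change**, provided the transported family is still
a free basis over `k[ψ z]`. -/
theorem ChartCert.map (φ : Λ →+* k) (ψ : B →+* R)
    (hψ : ∀ a, ψ (algebraMap Λ B a) = algebraMap k R (φ a)) {n : ℕ} {z : B} {β : Fin n → B}
    (h : ChartCert Λ B z β)
    (hfree : ∀ f : R, ∃! p : Fin n → k[X], f = ∑ i, aeval (ψ z) (p i) * ψ (β i)) :
    ChartCert k R (ψ z) (fun i => ψ (β i)) := by
  have hspan : ∀ f : R, f ∈ Submodule.span k (Set.range ψ) :=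
    mem_span_range_of_repr ψ z β fun f => (hfree f).exists
  refine ⟨hfree, ?_⟩
  obtain ⟨βd, T, m, a, l, hT, htr, hloc⟩ := h.disc
  refine ⟨fun j => ψ (βd j), fun i j s t => (T i j s t).map φ, m, fun q => φ (a q),
    Units.map φ.toMonoidHom l, fun i j s => ?_, fun i j => ?_, fun q => ?_⟩
  · have e := congrArg ψ (hT i j s)
    rw [map_mul, map_mul, map_sum] at e
    rw [e]
    refine Finset.sum_congr rfl fun t _ => ?_
    rw [map_mul, map_aeval_eq φ ψ hψ]
  · have e := congrArg (Polynomial.map φ) (htr i j)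
    rw [Polynomial.map_sum] at e
    rw [e]
    split_ifs with hij
    · rw [Polynomial.map_mul, Polynomial.map_prod, Polynomial.map_C]
      congr 1
      refine Finset.prod_congr rfl fun q _ => ?_
      rw [Polynomial.map_sub, Polynomial.map_X, Polynomial.map_C]
    · rw [Polynomial.map_zero]
  · obtain ⟨m', hm'⟩ := hloc q
    exact ⟨m', LocalCertN.map φ ψ hψ hspan hm'⟩

end Transport

end Fermat.Agent.S27P.GR
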