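import Mathlib
import Fermat.Agent.S27P.GR.Defs
import Fermat.Agent.S27P.GR.Domain
import Fermat.Agent.S27P.GR.Transport
import Fermat.Agent.Lib.FF.PolyChart

/-!
# S27 / (GR), row GR-FB: the special fibre of a model

For a model `M : Model Λ U n` and a ring hom `φ : Λ →+* k` into a field, the special fibre is
`Ft := FractionRing (k ⊗[Λ] M.B')`.

* `Fibre.free_baseChange` : freeness over `Λ[z]` on `β` base-changes to freeness of `k ⊗[Λ] B`
  over `k[1 ⊗ z]` on `1 ⊗ β`;
* `Fibre.span_includeRight` : `k ⊗[Λ] B` is spanned over `k` by the elements `1 ⊗ b`;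
* `Fibre.exists_real_of_isDomain` : the realisation `Ft`, `ψ`, with its functoriality for the
  automorphisms of `k` fixing `φ Λ` and the generation of `Ft` by `k` and `ψ U`, as soon as
  `k ⊗[Λ] M.B'` is a domain.
-/

set_option autoImplicit false
set_option linter.unusedSectionVars false
set_option linter.style.haveILetI false

noncomputable section

namespace Fermat.Agent.S27P.GR

open Polynomial TensorProduct

namespace Fibre

universe u v w

/-! ### Base change of freeness -/

section BaseChange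

variable {Λ : Type u} {B : Type v} [CommRing Λ] [CommRing B] [Algebra Λ B]
  (k : Type w) [CommRing k] [Algebra Λ k] {n : ℕ} (z : B) (β : Fin n → B)

/-- `includeRight` commutes with `aeval`. -/
theorem includeRight_aeval (q : Λ[X]) :
    ((1 : k) ⊗ₜ[Λ] (aeval z q) : k ⊗[Λ] B)
      = aeval ((1 : k) ⊗ₜ[Λ] z : k ⊗[Λ] B) (q.map (algebraMap Λ k)) := by
  rw [aeval_map_algebraMap]
  exact (aeval_algHom_apply (Algebra.TensorProduct.includeRight : B →ₐ[Λ] k ⊗[Λ] B) z q).symm

variable (hfree : ∀ f : B, ∃! p : Fin n → Λ[X], f = ∑ i, aeval z (p i) * β i)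

/-- The coordinates of an element in the basis `β` over `Λ[z]`. -/
def coord (f : B) : Fin n → Λ[X] := (hfree f).choose

theorem coord_spec (f : B) : f = ∑ i, aeval z (coord z β hfree f i) * β i :=
  (hfree f).choose_spec.1

theorem coord_unique (f : B) (p : Fin n → Λ[X]) (hp : f = ∑ i, aeval z (p i) * β i) :
    coord z β hfree f = p :=
  ((hfree f).choose_spec.2 p hp).symm

/-- The coordinate map, as a `Λ`-linear map. -/
def coordL : B →ₗ[Λ] (Fin n → Λ[X]) where
  toFun := coord z β hfree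
  map_add' f g := by
    refine coord_unique z β hfree _ _ ?_
    conv_lhs => rw [coord_spec z β hfree f, coord_spec z β hfree g]
    rw [← Finset.sum_add_distrib]
    refine Finset.sum_congr rfl fun i _ => ?_
    rw [Pi.add_apply, map_add, add_mul]
  map_smul' a f := by
    refine coord_unique z β hfree _ _ ?_
    conv_lhs => rw [coord_spec z β hfree f]
    rw [Finset.smul_sum]
    refine Finset.sum_congr rfl fun i _ => ?_
    rw [RingHom.id_apply, Pi.smul_apply, map_smul, smul_mul_assoc]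

theorem coordL_apply (f : B) : coordL z β hfree f = coord z β hfree f := rfl

theorem coord_pow_mul (i : Fin n) (j : ℕ) :
    coord z β hfree (z ^ j * β i) = Pi.single i (X ^ j) := by
  classical
  refine coord_unique z β hfree _ _ ?_
  rw [Finset.sum_eq_single i]
  · rw [Pi.single_eq_same, map_pow, aeval_X]
  · intro i' _ hi'
    rw [Pi.single_eq_of_ne hi', map_zero, zero_mul]
  · intro hi
    exact absurd (Finset.mem_univ i) hi

/-- The coordinates, base-changed to `k`, as a `Λ`-linear map `B → (Fin n → k[X])`. -/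
def coordK : B →ₗ[Λ] (Fin n → k[X]) where
  toFun f := fun i => (coord z β hfree f i).map (algebraMap Λ k)
  map_add' f g := by
    funext i
    have h := (coordL z β hfree).map_add f g
    rw [coordL_apply, coordL_apply, coordL_apply] at h
    rw [h, Pi.add_apply, Pi.add_apply, Polynomial.map_add]
  map_smul' a f := by
    funext i
    have h := (coordL z β hfree).map_smul a f
    rw [coordL_apply, coordL_apply] at h
    rw [h, RingHom.id_apply, Pi.smul_apply, Pi.smul_apply, Polynomial.map_smul,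
      algebraMap_smul]

theorem coordK_apply (f : B) (i : Fin n) :
    coordK k z β hfree f i = (coord z β hfree f i).map (algebraMap Λ k) := rfl

/-- The `k`-linear coordinate map of `k ⊗[Λ] B`. -/
def coordT : k ⊗[Λ] B →ₗ[k] (Fin n → k[X]) :=
  TensorProduct.AlgebraTensorModule.lift
    (LinearMap.toSpanSingleton k (B →ₗ[Λ] (Fin n → k[X])) (coordK k z β hfree))

theorem coordT_tmul (c : k) (f : B) :
    coordT k z β hfree (c ⊗ₜ[Λ] f) = c • coordK k z β hfree f := by
  rw [coordT, TensorProduct.AlgebraTensorModule.lift_tmul, LinearMap.toSpanSingleton_apply]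
  rfl

/-- The elements `1 ⊗ f` are the obvious combinations. -/
theorem one_tmul_eq (f : B) :
    ((1 : k) ⊗ₜ[Λ] f : k ⊗[Λ] B) = ∑ i, aeval ((1 : k) ⊗ₜ[Λ] z : k ⊗[Λ] B)
      (coordK k z β hfree f i) * ((1 : k) ⊗ₜ[Λ] β i) := by
  conv_lhs => rw [coord_spec z β hfree f]
  rw [TensorProduct.tmul_sum]
  refine Finset.sum_congr rfl fun i _ => ?_
  rw [coordK_apply, ← includeRight_aeval, Algebra.TensorProduct.tmul_mul_tmul, mul_one]

theorem coordT_aeval_mul (i : Fin n) (q : k[X]) :
    coordT k z β hfree (aeval ((1 : k) ⊗ₜ[Λ] z : k ⊗[Λ] B) q * ((1 : k) ⊗ₜ[Λ] β i))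
      = Pi.single i q := by
  classical
  induction q using Polynomial.induction_on' with
  | add p q hp hq =>
    rw [map_add, add_mul, map_add, hp, hq, Pi.single_add]
  | monomial j c =>
    have h1 : aeval ((1 : k) ⊗ₜ[Λ] z : k ⊗[Λ] B) (monomial j c) * ((1 : k) ⊗ₜ[Λ] β i)
        = c ⊗ₜ[Λ] (z ^ j * β i) := by
      rw [aeval_monomial, Algebra.TensorProduct.algebraMap_apply, Algebra.algebraMap_self_apply,
        Algebra.TensorProduct.tmul_pow, one_pow, Algebra.TensorProduct.tmul_mul_tmul,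
        Algebra.TensorProduct.tmul_mul_tmul, mul_one, mul_one, one_mul]
    rw [h1, coordT_tmul]
    funext i'
    rw [Pi.smul_apply, coordK_apply, coord_pow_mul]
    by_cases hi : i' = i
    · subst hi
      rw [Pi.single_eq_same, Pi.single_eq_same, Polynomial.map_pow, Polynomial.map_X,
        smul_eq_C_mul, C_mul_X_pow_eq_monomial]
    · rw [Pi.single_eq_of_ne hi, Pi.single_eq_of_ne hi, Polynomial.map_zero, smul_zero]

theorem coordT_sum (p : Fin n → k[X]) :
    coordT k z β hfree (∑ i, aeval ((1 : k) ⊗ₜ[Λ] z : k ⊗[Λ] B) (p i) * ((1 : k) ⊗ₜ[Λ] β i))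
      = p := by
  classical
  rw [map_sum]
  simp_rw [coordT_aeval_mul]
  exact Finset.univ_sum_single p

include hfree in
/-- **Base change of freeness**: if `B` is free over `Λ[z]` on `β`, then `k ⊗[Λ] B` is free over
`k[1 ⊗ z]` on `1 ⊗ β`. -/
theorem free_baseChange (f : k ⊗[Λ] B) :
    ∃! p : Fin n → k[X], f = ∑ i, aeval ((1 : k) ⊗ₜ[Λ] z : k ⊗[Λ] B) (p i) *
      ((1 : k) ⊗ₜ[Λ] β i) := by
  have hex : ∃ p : Fin n → k[X], f = ∑ i, aeval ((1 : k) ⊗ₜ[Λ] z : k ⊗[Λ] B) (p i) *
      ((1 : k) ⊗ₜ[Λ] β i) := by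
    induction f using TensorProduct.induction_on with
    | zero => exact ⟨0, by simp⟩
    | tmul c f =>
      refine ⟨c • coordK k z β hfree f, ?_⟩
      have h1 : (c ⊗ₜ[Λ] f : k ⊗[Λ] B) = c • ((1 : k) ⊗ₜ[Λ] f) := by
        rw [TensorProduct.smul_tmul', smul_eq_mul, mul_one]
      rw [h1, one_tmul_eq k z β hfree f, Finset.smul_sum]
      refine Finset.sum_congr rfl fun i _ => ?_
      rw [Pi.smul_apply, map_smul, smul_mul_assoc]
    | add f g hf hg =>
      obtain ⟨p, hp⟩ := hf
      obtain ⟨q, hq⟩ := hg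
      refine ⟨p + q, ?_⟩
      rw [hp, hq, ← Finset.sum_add_distrib]
      refine Finset.sum_congr rfl fun i _ => ?_
      rw [Pi.add_apply, map_add, add_mul]
  obtain ⟨p, hp⟩ := hex
  refine ⟨p, hp, fun p' hp' => ?_⟩
  have hp'' : f = ∑ i, aeval ((1 : k) ⊗ₜ[Λ] z : k ⊗[Λ] B) (p' i) * ((1 : k) ⊗ₜ[Λ] β i) := hp'
  rw [← coordT_sum k z β hfree p', ← hp'', hp, coordT_sum]

end BaseChange

/-- `k ⊗[Λ] B` is spanned over `k` by the elements `1 ⊗ b`. -/
theorem span_includeRight {Λ : Type u} {B : Type v} [CommRing Λ] [CommRing B] [Algebra Λ B]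
    (k : Type w) [CommRing k] [Algebra Λ k] (f : k ⊗[Λ] B) :
    f ∈ Submodule.span k
      (Set.range ((Algebra.TensorProduct.includeRight : B →ₐ[Λ] k ⊗[Λ] B) : B →+* k ⊗[Λ] B)) := by
  induction f using TensorProduct.induction_on with
  | zero => exact Submodule.zero_mem _
  | tmul c b =>
    have h1 : (c ⊗ₜ[Λ] b : k ⊗[Λ] B) = c • ((1 : k) ⊗ₜ[Λ] b) := by
      rw [TensorProduct.smul_tmul', smul_eq_mul, mul_one]
    rw [h1]
    exact Submodule.smul_mem _ _ (Submodule.subset_span ⟨b, rfl⟩)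
  | add f g hf hg => exact Submodule.add_mem _ hf hg

/-! ### The overlap ring is a localisation of the chart ring `B'` -/

section Core

variable {Λ : Type u} {U : Type v} [CommRing Λ] [CommRing U] [Algebra Λ U] {n : ℕ}
  (M : Model Λ U n)

/-- `U` is the localisation of `B'` at the powers of `x'`. -/
theorem isLocalization_B' :
    IsLocalization (Submonoid.powers (⟨M.x', M.hx'⟩ : M.B')) U := by
  rw [isLocalization_iff]
  refine ⟨?_, ?_, ?_⟩
  · rintro ⟨y, m, rfl⟩
    show IsUnit ((((⟨M.x', M.hx'⟩ : M.B') ^ m : M.B') : U))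
    rw [SubmonoidClass.coe_pow]
    exact (IsUnit.of_mul_eq_one M.x (by rw [mul_comm]; exact M.hxx')).pow m
  · intro u
    obtain ⟨m, hm⟩ := M.hB' u
    refine ⟨(⟨M.x' ^ m * u, hm⟩, ⟨(⟨M.x', M.hx'⟩ : M.B') ^ m, m, rfl⟩), ?_⟩
    show u * (((⟨M.x', M.hx'⟩ : M.B') ^ m : M.B') : U) = M.x' ^ m * u
    rw [SubmonoidClass.coe_pow, mul_comm]
  · intro a b hab
    exact ⟨1, by rw [Subtype.ext hab]⟩

variable {k : Type w} [Field k] (φ : Λ →+* k)
  {R : Type*} [CommRing R] [IsDomain R] [Algebra k R] (j : M.B' →+* R)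
  (hfree : ∀ f : R, ∃! p : Fin n → k[X], f = ∑ i, aeval (j ⟨M.x', M.hx'⟩) (p i) * j (M.b' i))

include hfree in
/-- `j x'` is transcendental over `k`. -/
theorem aeval_injective_of_free :
    Function.Injective (aeval (j ⟨M.x', M.hx'⟩) : k[X] → R) := by
  classical
  intro p q hpq
  set i0 : Fin n := ⟨0, M.pos⟩
  have key : ∀ r : k[X], aeval (j ⟨M.x', M.hx'⟩) r * j (M.b' i0)
      = ∑ i, aeval (j ⟨M.x', M.hx'⟩) ((Pi.single i0 r : Fin n → k[X]) i) * j (M.b' i) := by
    intro r
    rw [Finset.sum_eq_single i0]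
    · rw [Pi.single_eq_same]
    · intro i _ hi
      rw [Pi.single_eq_of_ne hi, map_zero, zero_mul]
    · intro hi
      exact absurd (Finset.mem_univ i0) hi
  have h1 := key p
  have h2 := key q
  rw [hpq] at h1
  have h3 := (hfree _).unique h1 h2
  exact Pi.single_injective i0 h3

include hfree in
/-- Every nonzero element of `R` divides a nonzero polynomial in `j x'`. -/
theorem exists_dvd_aeval {r : R} (hr : r ≠ 0) :
    ∃ d : k[X], d ≠ 0 ∧ ∃ r' : R, aeval (j ⟨M.x', M.hx'⟩) d = r * r' := by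
  letI : Algebra k[X] R := (aeval (j ⟨M.x', M.hx'⟩) : k[X] →ₐ[k] R).toRingHom.toAlgebra
  have hfin : Module.Finite k[X] R := by
    refine Module.Finite.of_surjective (Fintype.linearCombination k[X] (fun i => j (M.b' i)))
      fun f => ?_
    obtain ⟨p, hp, -⟩ := hfree f
    refine ⟨p, ?_⟩
    rw [Fintype.linearCombination_apply, hp]
    refine Finset.sum_congr rfl fun i _ => ?_
    rw [Algebra.smul_def]
    rfl
  have hint : Algebra.IsIntegral k[X] R := Algebra.IsIntegral.of_finite k[X] R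
  have halg : IsAlgebraic k[X] r := (Algebra.IsIntegral.isIntegral r).isAlgebraic
  obtain ⟨d, hd, r', hr'⟩ := halg.exists_nonzero_dvd (mem_nonZeroDivisors_of_ne_zero hr)
  exact ⟨d, hd, r', hr'⟩

/-- An element of `k⟮α⟯` is a quotient of polynomials in `α` with nonzero denominator. -/
theorem exists_ratio {E : Type*} [Field E] [Algebra k E] {α : E} {c : E}
    (hc : c ∈ IntermediateField.adjoin k {α}) :
    ∃ r s : k[X], s ≠ 0 ∧ c * aeval α s = aeval α r := by
  obtain ⟨r, s, hrs⟩ := (IntermediateField.mem_adjoin_simple_iff k c).1 hc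
  by_cases hs : aeval α s = 0
  · refine ⟨0, 1, one_ne_zero, ?_⟩
    rw [hrs, hs, div_zero, zero_mul, map_zero]
  · have hs0 : s ≠ 0 := fun h => hs (by rw [h, map_zero])
    refine ⟨r, s, hs0, ?_⟩
    rw [hrs, div_mul_cancel₀ _ hs]

theorem aeval_mem_adjoin {E : Type*} [Field E] [Algebra k E] (α : E) (p : k[X]) :
    aeval α p ∈ IntermediateField.adjoin k {α} :=
  IntermediateField.algebra_adjoin_le_adjoin k _ (aeval_mem_adjoin_singleton k α)

variable (hj : ∀ a : Λ, j (algebraMap Λ M.B' a) = algebraMap k R (φ a))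

include hfree hj in
/-- **The realisation in the fraction field of a free domain** `R ⊇ j(B')`. -/
theorem exists_real_core {E : Type*} [Field E] [Algebra R E] [IsFractionRing R E] [Algebra k E]
    [IsScalarTower k R E] :
    ∃ ψ : U →+* E, (∀ b : M.B', ψ (b : U) = algebraMap R E (j b)) ∧ Real M k E φ ψ := by
  classical
  have hι : Function.Injective (algebraMap R E) := IsFractionRing.injective R E
  set T : R := j ⟨M.x', M.hx'⟩ with hT
  have hTinj := aeval_injective_of_free M j hfree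
  have hT0 : algebraMap R E T ≠ 0 := by
    intro h0
    have h1 : T = 0 := hι (h0.trans (map_zero _).symm)
    have h2 : aeval T (X : k[X]) = aeval T (0 : k[X]) := by rw [aeval_X, map_zero, h1]
    exact X_ne_zero (hTinj h2)
  -- the ring hom on `U`
  haveI := isLocalization_B' M
  have hg : ∀ y : Submonoid.powers (⟨M.x', M.hx'⟩ : M.B'),
      IsUnit (((algebraMap R E).comp j) (y : M.B')) := by
    rintro ⟨y, m, rfl⟩
    show IsUnit (algebraMap R E (j ((⟨M.x', M.hx'⟩ : M.B') ^ m)))
    rw [map_pow, map_pow]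
    exact (isUnit_iff_ne_zero.2 hT0).pow m
  set ψ : U →+* E := IsLocalization.lift hg with hψ
  have hψB : ∀ b : M.B', ψ (b : U) = algebraMap R E (j b) := fun b => IsLocalization.lift_eq hg b
  have hψx' : ψ M.x' = algebraMap R E T := hψB ⟨M.x', M.hx'⟩
  have hψx : ψ M.x = (algebraMap R E T)⁻¹ := by
    refine eq_inv_of_mul_eq_one_left ?_
    rw [← hψx', ← map_mul, M.hxx', map_one]
  have hcompat : ∀ a : Λ, ψ (algebraMap Λ U a) = algebraMap k E (φ a) := by
    intro a
    have h1 : algebraMap Λ U a = ((algebraMap Λ M.B' a : M.B') : U) := rfl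
    rw [h1, hψB, hj, ← IsScalarTower.algebraMap_apply]
  have hψaeval : ∀ (u : U) (q : Λ[X]), ψ (aeval u q) = aeval (ψ u) (q.map φ) := by
    intro u q
    rw [aeval_def, hom_eval₂, aeval_def, eval₂_map]
    congr 1
    ext a
    exact hcompat a
  have hιaeval : ∀ p : k[X], algebraMap R E (aeval T p) = aeval (algebraMap R E T) p :=
    fun p => (aeval_algebraMap_apply E T p).symm
  have hTtrans : Transcendental k (algebraMap R E T) := by
    rw [transcendental_iff_injective]
    intro p q hpq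
    apply hTinj
    apply hι
    rw [hιaeval, hιaeval]
    exact hpq
  have hXtrans : Transcendental k (ψ M.x) := by
    rw [hψx]
    exact Fermat.Agent.Lib.FF.PolyChart.transcendental_inv' hTtrans
  have hXinv : (ψ M.x)⁻¹ = algebraMap R E T := by rw [hψx, inv_inv]
  -- the chart `B'`: a basis of `E` over `k(ψ x)`
  letI algK := Fermat.Agent.Lib.FF.PolyChart.algK k (ψ M.x)
    (Fermat.Agent.Lib.FF.PolyChart.genInv k (ψ M.x))
  letI algF := Fermat.Agent.Lib.FF.PolyChart.algF k (ψ M.x)
    (Fermat.Agent.Lib.FF.PolyChart.genInv k (ψ M.x))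
  haveI : IsScalarTower k[X] (IntermediateField.adjoin k {ψ M.x}) E :=
    Fermat.Agent.Lib.FF.PolyChart.isScalarTower_algK_algF _
  haveI : IsFractionRing k[X] (IntermediateField.adjoin k {ψ M.x}) :=
    Fermat.Agent.Lib.FF.PolyChart.isFractionRing_inv hXtrans
  have hsmul : ∀ (p : k[X]) (y : E), p • y = aeval (algebraMap R E T) p * y := by
    intro p y
    rw [Algebra.smul_def]
    show aeval ((Fermat.Agent.Lib.FF.PolyChart.genInv k (ψ M.x) :
      IntermediateField.adjoin k {ψ M.x}) : E) p * y = _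
    rw [Fermat.Agent.Lib.FF.PolyChart.coe_genInv, hXinv]
  have hLsmul : ∀ (c : IntermediateField.adjoin k {ψ M.x}) (y : E), c • y = (c : E) * y :=
    fun c y => rfl
  have hli0 : LinearIndependent k[X] (fun i => algebraMap R E (j (M.b' i))) := by
    rw [Fintype.linearIndependent_iff]
    intro g hg0 i
    simp_rw [hsmul] at hg0
    have h1 : algebraMap R E (∑ i, aeval T (g i) * j (M.b' i)) = algebraMap R E 0 := by
      rw [map_sum, map_zero, ← hg0]
      refine Finset.sum_congr rfl fun i _ => ?_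
      rw [map_mul, hιaeval]
    have h2 := hι h1
    have h3 : (0 : R) = ∑ i, aeval T ((0 : Fin n → k[X]) i) * j (M.b' i) := by simp
    have h4 := (hfree 0).unique h2.symm h3
    rw [h4]
    rfl
  have hli : LinearIndependent (IntermediateField.adjoin k {ψ M.x})
      (fun i => algebraMap R E (j (M.b' i))) :=
    (LinearIndependent.iff_fractionRing k[X] (IntermediateField.adjoin k {ψ M.x})).1 hli0
  have hXmem : ψ M.x ∈ IntermediateField.adjoin k {ψ M.x} :=
    IntermediateField.mem_adjoin_simple_self k _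
  have hTmem : algebraMap R E T ∈ IntermediateField.adjoin k {ψ M.x} := by
    rw [← hXinv]
    exact inv_mem hXmem
  have hTaeval_mem : ∀ p : k[X],
      aeval (algebraMap R E T) p ∈ IntermediateField.adjoin k {ψ M.x} := by
    intro p
    have h1 := aeval_mem_adjoin (k := k) (algebraMap R E T) p
    have h2 : IntermediateField.adjoin k {algebraMap R E T} ≤
        IntermediateField.adjoin k {ψ M.x} := by
      rw [IntermediateField.adjoin_simple_le_iff]
      exact hTmem
    exact h2 h1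
  have hspan' : ⊤ ≤ Submodule.span (IntermediateField.adjoin k {ψ M.x})
      (Set.range fun i => algebraMap R E (j (M.b' i))) := by
    intro y _
    obtain ⟨r1, r2, hr2, rfl⟩ := IsFractionRing.div_surjective R y
    have hr20 : r2 ≠ 0 := nonZeroDivisors.ne_zero hr2
    obtain ⟨d, hd, r3, hr3⟩ := exists_dvd_aeval M j hfree hr20
    obtain ⟨p, hp, -⟩ := hfree (r1 * r3)
    have hd0 : aeval (algebraMap R E T) d ≠ 0 := by
      intro h0
      have h1 : aeval (algebraMap R E T) d = aeval (algebraMap R E T) (0 : k[X]) := by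
        rw [h0, map_zero]
      exact hd ((transcendental_iff_injective.1 hTtrans) h1)
    have hr2E : algebraMap R E r2 ≠ 0 := fun h0 => hr20 (hι (h0.trans (map_zero _).symm))
    have hy : algebraMap R E r1 / algebraMap R E r2
        = ∑ i, (⟨aeval (algebraMap R E T) (p i) / aeval (algebraMap R E T) d,
            div_mem (hTaeval_mem _) (hTaeval_mem _)⟩ : IntermediateField.adjoin k {ψ M.x}) •
            algebraMap R E (j (M.b' i)) := by
      simp_rw [hLsmul]
      have h1 : algebraMap R E (r1 * r3) = ∑ i, aeval (algebraMap R E T) (p i) *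
          algebraMap R E (j (M.b' i)) := by
        rw [hp, map_sum]
        refine Finset.sum_congr rfl fun i _ => ?_
        rw [map_mul, hιaeval]
      have h2 : algebraMap R E r2 * algebraMap R E r3 = aeval (algebraMap R E T) d := by
        rw [← map_mul, ← hr3, hιaeval]
      have hr3E : algebraMap R E r3 ≠ 0 := by
        intro h0
        rw [h0, mul_zero] at h2
        exact hd0 h2.symm
      rw [map_mul] at h1
      have h3 : algebraMap R E r1 / algebraMap R E r2
          = (algebraMap R E r1 * algebraMap R E r3) / aeval (algebraMap R E T) d := by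
        rw [← h2]
        field_simp
      rw [h3, h1, Finset.sum_div]
      refine Finset.sum_congr rfl fun i _ => ?_
      rw [div_mul_eq_mul_div]
    rw [hy]
    exact Submodule.sum_mem _ fun i _ =>
      Submodule.smul_mem _ _ (Submodule.subset_span ⟨i, rfl⟩)
  have hfr : Module.finrank (IntermediateField.adjoin k {ψ M.x}) E = n := by
    rw [Module.finrank_eq_card_basis (Module.Basis.mk hli hspan'), Fintype.card_fin]
  -- the chart `B`: its basis spans, hence is a basis
  have hXaeval_mem : ∀ p : k[X], aeval (ψ M.x) p ∈ IntermediateField.adjoin k {ψ M.x} :=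
    fun p => aeval_mem_adjoin (k := k) (ψ M.x) p
  have hspan_b : ⊤ ≤ Submodule.span (IntermediateField.adjoin k {ψ M.x})
      (Set.range fun i => ψ (M.b i : U)) := by
    refine le_trans hspan' (Submodule.span_le.2 ?_)
    rintro _ ⟨j0, rfl⟩
    obtain ⟨m, hm⟩ := M.hB (M.b' j0 : U)
    obtain ⟨q, hq, -⟩ := M.cert.free ⟨M.x ^ m * (M.b' j0 : U), hm⟩
    have hq' : M.x ^ m * (M.b' j0 : U) = ∑ i, aeval M.x (q i) * (M.b i : U) := by
      have h1 : M.x ^ m * (M.b' j0 : U)
          = ((∑ i, aeval (⟨M.x, M.hx⟩ : M.B) (q i) * M.b i : M.B) : U) :=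
        congrArg (Subtype.val : M.B → U) hq
      rw [h1, AddSubmonoidClass.coe_finsetSum]
      refine Finset.sum_congr rfl fun i _ => ?_
      rw [MulMemClass.coe_mul, ← Subalgebra.aeval_coe]
    have h2 := congrArg ψ hq'
    rw [map_mul, map_pow, map_sum, hψB] at h2
    simp_rw [map_mul, hψaeval] at h2
    have hX0 : ψ M.x ≠ 0 := by
      rw [hψx]
      exact inv_ne_zero hT0
    have h3 : algebraMap R E (j (M.b' j0))
        = ∑ i, (⟨((ψ M.x)⁻¹) ^ m * aeval (ψ M.x) ((q i).map φ),
            mul_mem (pow_mem (inv_mem hXmem) m) (hXaeval_mem _)⟩ :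
              IntermediateField.adjoin k {ψ M.x}) • ψ (M.b i : U) := by
      simp_rw [hLsmul]
      have h4 : algebraMap R E (j (M.b' j0))
          = ((ψ M.x)⁻¹) ^ m * (ψ M.x ^ m * algebraMap R E (j (M.b' j0))) := by
        rw [← mul_assoc, ← mul_pow, inv_mul_cancel₀ hX0, one_pow, one_mul]
      rw [h4, h2, Finset.mul_sum]
      refine Finset.sum_congr rfl fun i _ => ?_
      rw [mul_assoc]
    show algebraMap R E (j (M.b' j0)) ∈ _
    rw [h3]
    exact Submodule.sum_mem _ fun i _ =>
      Submodule.smul_mem _ _ (Submodule.subset_span ⟨i, rfl⟩)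
  have hli_b : LinearIndependent (IntermediateField.adjoin k {ψ M.x})
      (fun i => ψ (M.b i : U)) :=
    linearIndependent_of_top_le_span_of_card_eq_finrank hspan_b
      (by rw [Fintype.card_fin, hfr])
  refine ⟨ψ, hψB, ⟨hcompat, hXtrans, fun y => ?_, fun p hp => ?_⟩⟩
  · -- span
    have hy : y ∈ Submodule.span (IntermediateField.adjoin k {ψ M.x})
        (Set.range fun i => ψ (M.b i : U)) := hspan_b Submodule.mem_top
    obtain ⟨c, rfl⟩ := (Submodule.mem_span_range_iff_exists_fun _).1 hy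
    have hc : ∀ i, ∃ r s : k[X], s ≠ 0 ∧ (c i : E) * aeval (ψ M.x) s = aeval (ψ M.x) r :=
      fun i => exists_ratio (c i).2
    choose r s hs hrs using hc
    refine ⟨fun i => r i * ∏ l ∈ Finset.univ.erase i, s l, ∏ l, s l,
      Finset.prod_ne_zero_iff.2 fun l _ => hs l, ?_⟩
    rw [Finset.mul_sum]
    refine Finset.sum_congr rfl fun i _ => ?_
    rw [hLsmul, ← Finset.mul_prod_erase Finset.univ s (Finset.mem_univ i), map_mul, map_mul,
      ← hrs i]
    ring
  · -- independence
    funext i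
    have h1 : ∑ i, (⟨aeval (ψ M.x) (p i), hXaeval_mem _⟩ :
        IntermediateField.adjoin k {ψ M.x}) • ψ (M.b i : U) = 0 := by
      simp_rw [hLsmul]
      exact hp
    have h2 := Fintype.linearIndependent_iff.1 hli_b _ h1 i
    have h3 : aeval (ψ M.x) (p i) = 0 := congrArg Subtype.val h2
    exact (transcendental_iff.1 hXtrans) (p i) h3

/-- Functoriality: a ring automorphism of `R` which is `σ`-semilinear and fixes `j(B')` induces
an automorphism of the fraction field fixing `ψ(U)`. -/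
theorem functorial_core {E : Type*} [Field E] [Algebra R E] [IsFractionRing R E] [Algebra k E]
    [IsScalarTower k R E] (ψ : U →+* E) (hψB : ∀ b : M.B', ψ (b : U) = algebraMap R E (j b))
    (σ : k ≃+* k) (τ : R ≃+* R)
    (hτk : ∀ c : k, τ (algebraMap k R c) = algebraMap k R (σ c))
    (hτj : ∀ b : M.B', τ (j b) = j b) :
    ∃ Φ : E ≃+* E, (∀ c : k, Φ (algebraMap k E c) = algebraMap k E (σ c)) ∧
      ∀ u : U, Φ (ψ u) = ψ u := by
  set Φ : E ≃+* E := IsFractionRing.ringEquivOfRingEquiv τ with hΦ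
  have hΦι : ∀ r : R, Φ (algebraMap R E r) = algebraMap R E (τ r) :=
    fun r => IsFractionRing.ringEquivOfRingEquiv_algebraMap τ r
  have hΦB : ∀ b : M.B', Φ (ψ (b : U)) = ψ (b : U) := by
    intro b
    rw [hψB, hΦι, hτj]
  refine ⟨Φ, fun c => ?_, fun u => ?_⟩
  · rw [IsScalarTower.algebraMap_apply k R E, hΦι, hτk, ← IsScalarTower.algebraMap_apply]
  · obtain ⟨m, hm⟩ := M.hB' u
    have hx'0 : ψ M.x' ≠ 0 := by
      intro h0
      have h1 : ψ M.x * ψ M.x' = 1 := by rw [← map_mul, M.hxx', map_one]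
      rw [h0, mul_zero] at h1
      exact zero_ne_one h1
    have h1 : ψ M.x' ^ m * ψ u = ψ ((⟨M.x' ^ m * u, hm⟩ : M.B') : U) := by
      rw [← map_pow, ← map_mul]
    have h2 := congrArg Φ h1
    rw [hΦB, ← h1, map_mul, map_pow] at h2
    have h3 : Φ (ψ M.x') = ψ M.x' := hΦB ⟨M.x', M.hx'⟩
    rw [h3] at h2
    exact mul_left_cancel₀ (pow_ne_zero m hx'0) h2

variable (hspan : ∀ f : R, f ∈ Submodule.span k (Set.range j))

include hspan in
/-- Every element of `R` is a finite `k`-combination of elements of `j(B')`. -/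
theorem exists_fin_repr (r : R) :
    ∃ (m : ℕ) (c : Fin m → k) (u : Fin m → M.B'), r = ∑ i, algebraMap k R (c i) * j (u i) := by
  induction hspan r using Submodule.span_induction with
  | mem x h =>
    obtain ⟨b, rfl⟩ := h
    exact ⟨1, fun _ => 1, fun _ => b, by simp⟩
  | zero => exact ⟨0, Fin.elim0, Fin.elim0, by simp⟩
  | add x y _ _ ihx ihy =>
    obtain ⟨m1, c1, u1, rfl⟩ := ihx
    obtain ⟨m2, c2, u2, rfl⟩ := ihy
    refine ⟨m1 + m2, Fin.append c1 c2, Fin.append u1 u2, ?_⟩
    rw [Fin.sum_univ_add]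
    simp only [Fin.append_left, Fin.append_right]
  | smul a x _ ih =>
    obtain ⟨m, c, u, rfl⟩ := ih
    refine ⟨m, fun i => a * c i, u, ?_⟩
    rw [Finset.smul_sum]
    refine Finset.sum_congr rfl fun i _ => ?_
    rw [map_mul, Algebra.smul_def, mul_assoc]

include hspan in
/-- Generation: every element of the fraction field is a quotient of `k`-combinations of
elements of `ψ(U)`. -/
theorem generation_core {E : Type*} [Field E] [Algebra R E] [IsFractionRing R E] [Algebra k E]
    [IsScalarTower k R E] (ψ : U →+* E) (hψB : ∀ b : M.B', ψ (b : U) = algebraMap R E (j b))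
    (f : E) :
    ∃ (m : ℕ) (c d : Fin m → k) (u w : Fin m → U),
      (∑ i, algebraMap k E (d i) * ψ (w i)) ≠ 0 ∧
      f * (∑ i, algebraMap k E (d i) * ψ (w i)) = ∑ i, algebraMap k E (c i) * ψ (u i) := by
  obtain ⟨r1, r2, hr2, rfl⟩ := IsFractionRing.div_surjective R f
  have hr20 : algebraMap R E r2 ≠ 0 := by
    intro h0
    exact nonZeroDivisors.ne_zero hr2
      (IsFractionRing.injective R E (h0.trans (map_zero _).symm))
  obtain ⟨m1, c1, u1, rfl⟩ := exists_fin_repr M j hspan r1
  obtain ⟨m2, d2, w2, rfl⟩ := exists_fin_repr M j hspan r2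
  have hrep : ∀ (m : ℕ) (c : Fin m → k) (u : Fin m → M.B'),
      algebraMap R E (∑ i, algebraMap k R (c i) * j (u i))
        = ∑ i, algebraMap k E (c i) * ψ (u i : U) := by
    intro m c u
    rw [map_sum]
    refine Finset.sum_congr rfl fun i _ => ?_
    rw [map_mul, ← IsScalarTower.algebraMap_apply, hψB]
  have h1 : ∑ i, algebraMap k E ((Fin.append c1 (fun _ : Fin m2 => (0 : k))) i) *
      ψ ((Fin.append (fun i => (u1 i : U)) (fun _ : Fin m2 => (0 : U))) i)
      = ∑ i, algebraMap k E (c1 i) * ψ (u1 i : U) := by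
    rw [Fin.sum_univ_add]
    simp only [Fin.append_left, Fin.append_right, map_zero, zero_mul, Finset.sum_const_zero,
      add_zero]
  have h2 : ∑ i, algebraMap k E ((Fin.append (fun _ : Fin m1 => (0 : k)) d2) i) *
      ψ ((Fin.append (fun _ : Fin m1 => (0 : U)) (fun i => (w2 i : U))) i)
      = ∑ i, algebraMap k E (d2 i) * ψ (w2 i : U) := by
    rw [Fin.sum_univ_add]
    simp only [Fin.append_left, Fin.append_right, map_zero, zero_mul, Finset.sum_const_zero,
      zero_add]
  refine ⟨m1 + m2, Fin.append c1 (fun _ => 0), Fin.append (fun _ => 0) d2,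
    Fin.append (fun i => (u1 i : U)) (fun _ => 0), Fin.append (fun _ => 0) (fun i => (w2 i : U)),
    ?_, ?_⟩
  · rw [h2, ← hrep]
    exact hr20
  · rw [h1, h2, ← hrep, ← hrep, div_mul_cancel₀ _ hr20]

end Core

/-! ### The special fibre -/

section Final

variable {Λ : Type u} {U : Type v} [CommRing Λ] [CommRing U] [Algebra Λ U] {n : ℕ}

/-- The special fibre of a model, as soon as `k ⊗[Λ] M.B'` is a domain. -/
theorem exists_real_of_isDomain (M : Model Λ U n) {k : Type w} [Field k] (φ : Λ →+* k)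
    (hdom : letI := φ.toAlgebra; IsDomain (k ⊗[Λ] M.B')) :
    ∃ (Ft : Type (max v w)) (_ : Field Ft) (_ : Algebra k Ft) (ψ : U →+* Ft),
      Real M k Ft φ ψ ∧
      (∀ σ : k ≃+* k, (∀ a : Λ, σ (φ a) = φ a) → ∃ Φ : Ft ≃+* Ft,
        (∀ c : k, Φ (algebraMap k Ft c) = algebraMap k Ft (σ c)) ∧ ∀ u : U, Φ (ψ u) = ψ u) ∧
      (∀ f : Ft, ∃ (m : ℕ) (c d : Fin m → k) (u w : Fin m → U),
        (∑ i, algebraMap k Ft (d i) * ψ (w i)) ≠ 0 ∧
        f * (∑ i, algebraMap k Ft (d i) * ψ (w i)) = ∑ i, algebraMap k Ft (c i) * ψ (u i)) := by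
  letI : Algebra Λ k := φ.toAlgebra
  haveI : IsDomain (k ⊗[Λ] M.B') := hdom
  set j : M.B' →+* k ⊗[Λ] M.B' :=
    ((Algebra.TensorProduct.includeRight : M.B' →ₐ[Λ] k ⊗[Λ] M.B') : M.B' →+* k ⊗[Λ] M.B')
    with hjdef
  have hj1 : ∀ b : M.B', j b = (1 : k) ⊗ₜ[Λ] b := fun b => rfl
  have hj : ∀ a : Λ, j (algebraMap Λ M.B' a) = algebraMap k (k ⊗[Λ] M.B') (φ a) := by
    intro a
    rw [hj1, Algebra.TensorProduct.algebraMap_apply, Algebra.algebraMap_self_apply,
      Algebra.algebraMap_eq_smul_one, ← TensorProduct.smul_tmul, Algebra.smul_def, mul_one]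
    rfl
  have hfree : ∀ f : k ⊗[Λ] M.B', ∃! p : Fin n → k[X],
      f = ∑ i, aeval (j ⟨M.x', M.hx'⟩) (p i) * j (M.b' i) :=
    free_baseChange k (⟨M.x', M.hx'⟩ : M.B') M.b' M.cert'.free
  obtain ⟨ψ, hψB, hReal⟩ :=
    exists_real_core M φ j hfree hj (E := FractionRing (k ⊗[Λ] M.B'))
  refine ⟨FractionRing (k ⊗[Λ] M.B'), inferInstance, inferInstance, ψ, hReal, ?_, ?_⟩
  · intro σ hσ
    let σ' : k ≃ₐ[Λ] k := AlgEquiv.ofRingEquiv (f := σ) hσ
    let τ : k ⊗[Λ] M.B' ≃+* k ⊗[Λ] M.B' :=
      (Algebra.TensorProduct.congr σ' (AlgEquiv.refl : M.B' ≃ₐ[Λ] M.B')).toRingEquiv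
    have hτ : ∀ (c : k) (b : M.B'), τ (c ⊗ₜ[Λ] b) = (σ c) ⊗ₜ[Λ] b := fun c b => rfl
    refine functorial_core M j ψ hψB σ τ (fun c => ?_) (fun b => ?_)
    · rw [Algebra.TensorProduct.algebraMap_apply, Algebra.TensorProduct.algebraMap_apply,
        Algebra.algebraMap_self_apply, Algebra.algebraMap_self_apply, hτ]
    · rw [hj1, hτ, map_one]
  · intro f
    exact generation_core M j (span_includeRight k) ψ hψB f

end Final

end Fibre

/-- **GR-FB: the special fibre exists**, with its Galois/Frobenius functoriality and the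
generation of `Ft` by `k` and `ψ U`. -/
theorem Model.exists_real.{u, v, w} {Λ : Type u} {U : Type v} [CommRing Λ] [CommRing U]
    [Algebra Λ U] {n : ℕ} (M : Model Λ U n) {k : Type w} [Field k] (φ : Λ →+* k) :
    ∃ (Ft : Type (max v w)) (_ : Field Ft) (_ : Algebra k Ft) (ψ : U →+* Ft), Real M k Ft φ ψ ∧ (∀ σ : k ≃+* k, (∀ a : Λ, σ (φ a) = φ a) → ∃ Φ : Ft ≃+* Ft, (∀ c : k, Φ (algebraMap k Ft c) = algebraMap k Ft (σ c)) ∧ ∀ u : U, Φ (ψ u) = ψ u) ∧ (∀ f : Ft, ∃ (m : ℕ) (c d : Fin m → k) (u w : Fin m → U), (∑ i, algebraMap k Ft (d i) * ψ (w i)) ≠ 0 ∧ f * (∑ i, algebraMap k Ft (d i) * ψ (w i)) = ∑ i, algebraMap k Ft (c i) * ψ (u i)) := by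
  refine Fibre.exists_real_of_isDomain M φ ?_
  letI : Algebra Λ k := φ.toAlgebra
  have hj : ∀ a : Λ, ((Algebra.TensorProduct.includeRight : M.B' →ₐ[Λ] k ⊗[Λ] M.B') :
      M.B' →+* k ⊗[Λ] M.B') (algebraMap Λ M.B' a) = algebraMap k (k ⊗[Λ] M.B') (φ a) := by
    intro a
    show (1 : k) ⊗ₜ[Λ] (algebraMap Λ M.B' a) = _
    rw [Algebra.TensorProduct.algebraMap_apply, Algebra.algebraMap_self_apply,
      Algebra.algebraMap_eq_smul_one, ← TensorProduct.smul_tmul, Algebra.smul_def, mul_one]
    rfl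
  have hcert := LocalCertN.map φ
    ((Algebra.TensorProduct.includeRight : M.B' →ₐ[Λ] k ⊗[Λ] M.B') : M.B' →+* k ⊗[Λ] M.B')
    hj (Fibre.span_includeRight k) M.cert_inf
  rw [map_zero] at hcert
  exact isDomain_of_localCert M.pos _ _
    (Fibre.free_baseChange k (⟨M.x', M.hx'⟩ : M.B') M.b' M.cert'.free) hcert

end Fermat.Agent.S27P.GR
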