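import Mathlib
import Fermat.Agent.Lib.Red.TorsionOneStep

/-!
# S27 / (GR-GAUSS): the Gauss valuation ring of a model

Abstract, cut-independent form of the "Gauss valuation" of a model of a function field.

`F/L` and `Ft/k` are fields with constants; `A` is a valuation subring of `L` (any rank) with a
ring homomorphism `π : A → k` killing the non-units; `B ⊆ F` is an `A`-lattice (a subring
containing the constants of `A`) with a reduction homomorphism `ρ : B → Ft` extending `π`.
`IsModel A π B ρ` asks in addition that `F` is the fraction field of `B` (`frac`) and that every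
nonzero element of `B` is a constant times an element of `B` with nonzero reduction (`content`:
for a free lattice, divide by a coefficient of smallest value).

Then `gaussRing h = {a / b | a b ∈ B, ρ b ≠ 0}` is a valuation subring of `F`,
`gaussRed h : gaussRing h →+* Ft`, `a / b ↦ ρ a / ρ b`, is a ring homomorphism, and the three
fields `scale`, `ker`, `const` of `Lib.Red.OneStep.IsRed` hold, as well as the lifting of constants
(`lift`) when `π` is surjective.  The fourth field `spec` (`r_* div u = div (red u)` for units) only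
has to be proved for the elements of `B` with nonzero reduction (`spec_of_mem`).

* `content_of_basis` : `content` for a lattice spanned over `A` by a family whose reductions are
  linearly independent over `k`.
-/

set_option autoImplicit false

noncomputable section

namespace Fermat.Agent.S27P.GR.GaussModel

open AlgebraicCurve Fermat.Agent.Lib.Red.OneStep

variable {L : Type*} {F : Type*} {k : Type*} {Ft : Type*} [Field L] [Field F] [Algebra L F]
  [Field k] [Field Ft] [Algebra k Ft]

/-- **A model**: `B ⊆ F` is an `A`-lattice with a reduction `ρ : B →+* Ft` extending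
`π : A →+* k`; `F` is the fraction field of `B` and every nonzero element of `B` has a content. -/
structure IsModel (A : ValuationSubring L) (π : A →+* k) (B : Subring F) (ρ : B →+* Ft) :
    Prop where
  /-- `π` kills the non-units of `A` -/
  ker_π : ∀ a : A, ¬ IsUnit a → π a = 0
  /-- the constants of `A` lie in `B` -/
  const_mem : ∀ a : A, algebraMap L F (a : L) ∈ B
  /-- `ρ` extends `π` -/
  ρ_const : ∀ a : A, ρ ⟨algebraMap L F (a : L), const_mem a⟩ = algebraMap k Ft (π a)
  /-- `F` is the fraction field of `B` -/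
  frac : ∀ y : F, ∃ a b : B, (b : F) ≠ 0 ∧ y = (a : F) / (b : F)
  /-- every nonzero element of `B` is a constant times an element with nonzero reduction -/
  content : ∀ b : B, (b : F) ≠ 0 →
    ∃ (c : L) (b₀ : B), (b : F) = algebraMap L F c * (b₀ : F) ∧ ρ b₀ ≠ 0

section Basic

variable {A : ValuationSubring L} {π : A →+* k} {B : Subring F} {ρ : B →+* Ft}

theorem coe_ne_zero_of_red_ne_zero {b : B} (hb : ρ b ≠ 0) : (b : F) ≠ 0 := by
  intro h0
  apply hb
  have : b = 0 := Subtype.ext h0
  rw [this, map_zero]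

/-- Two fractions with the same value have the same reduction. -/
theorem red_div_eq {a b a' b' : B} (hb : ρ b ≠ 0) (hb' : ρ b' ≠ 0)
    (h : (a : F) / (b : F) = (a' : F) / (b' : F)) : ρ a / ρ b = ρ a' / ρ b' := by
  have hbF := coe_ne_zero_of_red_ne_zero hb
  have hb'F := coe_ne_zero_of_red_ne_zero hb'
  rw [div_eq_div_iff hbF hb'F] at h
  have h' : a * b' = a' * b := Subtype.ext (by push_cast; exact h)
  rw [div_eq_div_iff hb hb', ← map_mul, ← map_mul, h']

/-- The carrier of the Gauss ring: fractions `a / b` with `ρ b ≠ 0`. -/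
def gaussSet (B : Subring F) (ρ : B →+* Ft) : Set F :=
  {y | ∃ a b : B, ρ b ≠ 0 ∧ y = (a : F) / (b : F)}

theorem coe_mem_gaussSet (b : B) : (b : F) ∈ gaussSet B ρ :=
  ⟨b, 1, by rw [map_one]; exact one_ne_zero, by simp⟩

theorem mul_mem_gaussSet {x y : F} (hx : x ∈ gaussSet B ρ) (hy : y ∈ gaussSet B ρ) :
    x * y ∈ gaussSet B ρ := by
  obtain ⟨a, b, hb, rfl⟩ := hx
  obtain ⟨a', b', hb', rfl⟩ := hy
  refine ⟨a * a', b * b', by rw [map_mul]; exact mul_ne_zero hb hb', ?_⟩
  push_cast
  rw [div_mul_div_comm]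

theorem add_mem_gaussSet {x y : F} (hx : x ∈ gaussSet B ρ) (hy : y ∈ gaussSet B ρ) :
    x + y ∈ gaussSet B ρ := by
  obtain ⟨a, b, hb, rfl⟩ := hx
  obtain ⟨a', b', hb', rfl⟩ := hy
  refine ⟨a * b' + b * a', b * b', by rw [map_mul]; exact mul_ne_zero hb hb', ?_⟩
  push_cast
  rw [div_add_div _ _ (coe_ne_zero_of_red_ne_zero hb) (coe_ne_zero_of_red_ne_zero hb')]

theorem neg_mem_gaussSet {x : F} (hx : x ∈ gaussSet B ρ) : -x ∈ gaussSet B ρ := by
  obtain ⟨a, b, hb, rfl⟩ := hx
  refine ⟨-a, b, hb, ?_⟩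
  push_cast
  rw [neg_div]

/-- The non-unit `c⁻¹` of `A` when `c ∉ A`. -/
theorem not_isUnit_inv_of_not_mem {c : L} (hc : c ∉ A) (hc' : c⁻¹ ∈ A) :
    ¬ IsUnit (⟨c⁻¹, hc'⟩ : A) := by
  intro hu
  obtain ⟨b, hb⟩ := hu.exists_right_inv
  apply hc
  have hc0 : c ≠ 0 := fun h0 => hc (h0 ▸ A.zero_mem)
  have h1 : c⁻¹ * (b : L) = 1 := by
    have := congrArg (Subtype.val) hb
    simpa using this
  have h2 : (b : L) = c := by
    have := congrArg (fun t => c * t) h1
    simp only [mul_one] at this
    rw [← mul_assoc, mul_inv_cancel₀ hc0, one_mul] at this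
    exact this
  rw [← h2]
  exact b.2

end Basic

section Ring

variable {A : ValuationSubring L} {π : A →+* k} {B : Subring F} {ρ : B →+* Ft}

/-- A nonzero function is a constant times a fraction `a₀ / b₀` with `ρ a₀ ≠ 0`, `ρ b₀ ≠ 0`. -/
theorem exists_const_mul_div (h : IsModel A π B ρ) {y : F} (hy : y ≠ 0) :
    ∃ (c : L) (a₀ b₀ : B), c ≠ 0 ∧ ρ a₀ ≠ 0 ∧ ρ b₀ ≠ 0 ∧
      y = algebraMap L F c * ((a₀ : F) / (b₀ : F)) := by
  obtain ⟨a, b, hb, rfl⟩ := h.frac y
  have ha : (a : F) ≠ 0 := fun h0 => hy (by rw [h0, zero_div])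
  obtain ⟨ca, a₀, hca, ha₀⟩ := h.content a ha
  obtain ⟨cb, b₀, hcb, hb₀⟩ := h.content b hb
  have hca0 : ca ≠ 0 := by
    rintro rfl
    rw [map_zero, zero_mul] at hca
    exact ha hca
  have hcb0 : cb ≠ 0 := by
    rintro rfl
    rw [map_zero, zero_mul] at hcb
    exact hb hcb
  refine ⟨ca / cb, a₀, b₀, div_ne_zero hca0 hcb0, ha₀, hb₀, ?_⟩
  rw [hca, hcb, map_div₀, mul_div_mul_comm]

/-- **The Gauss valuation ring of the model**: `{a / b | a b ∈ B, ρ b ≠ 0}`. -/
def gaussRing (h : IsModel A π B ρ) : ValuationSubring F where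
  carrier := gaussSet B ρ
  mul_mem' := mul_mem_gaussSet
  one_mem' := by
    have := coe_mem_gaussSet (ρ := ρ) (1 : B)
    simpa using this
  add_mem' := add_mem_gaussSet
  zero_mem' := by
    have := coe_mem_gaussSet (ρ := ρ) (0 : B)
    simpa using this
  neg_mem' := neg_mem_gaussSet
  mem_or_inv_mem' := by
    intro y
    by_cases hy : y = 0
    · left
      rw [hy]
      have := coe_mem_gaussSet (ρ := ρ) (0 : B)
      simpa using this
    obtain ⟨c, a₀, b₀, hc0, ha₀, hb₀, rfl⟩ := exists_const_mul_div h hy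
    rcases A.mem_or_inv_mem c with hc | hc
    · left
      refine ⟨⟨algebraMap L F c, h.const_mem ⟨c, hc⟩⟩ * a₀, b₀, hb₀, ?_⟩
      rw [Subring.coe_mul, mul_div_assoc]
    · right
      refine ⟨⟨algebraMap L F c⁻¹, h.const_mem ⟨c⁻¹, hc⟩⟩ * b₀, a₀, ha₀, ?_⟩
      show (algebraMap L F c * ((a₀ : F) / (b₀ : F)))⁻¹
        = algebraMap L F c⁻¹ * (b₀ : F) / (a₀ : F)
      rw [mul_inv, inv_div, map_inv₀, mul_div_assoc]

theorem mem_gaussRing_iff (h : IsModel A π B ρ) {y : F} :
    y ∈ gaussRing h ↔ ∃ a b : B, ρ b ≠ 0 ∧ y = (a : F) / (b : F) := Iff.rfl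

/-- `B ⊆ O`. -/
theorem coe_mem (h : IsModel A π B ρ) (b : B) : (b : F) ∈ gaussRing h := coe_mem_gaussSet b

/-- The reduction of the Gauss ring, as a function (`a / b ↦ ρ a / ρ b`). -/
def redFun (h : IsModel A π B ρ) (y : gaussRing h) : Ft :=
  ρ (Classical.choose y.2) / ρ (Classical.choose (Classical.choose_spec y.2))

theorem redFun_eq (h : IsModel A π B ρ) (y : gaussRing h) {a b : B} (hb : ρ b ≠ 0)
    (hy : (y : F) = (a : F) / (b : F)) : redFun h y = ρ a / ρ b := by
  have hs := Classical.choose_spec (Classical.choose_spec y.2)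
  exact red_div_eq hs.1 hb (hs.2.symm.trans hy)

/-- **The reduction of the Gauss ring**: `a / b ↦ ρ a / ρ b`. -/
def gaussRed (h : IsModel A π B ρ) : gaussRing h →+* Ft where
  toFun := redFun h
  map_one' := by
    rw [redFun_eq h 1 (a := 1) (b := 1) (by rw [map_one]; exact one_ne_zero) (by simp)]
    simp
  map_mul' := by
    intro x y
    obtain ⟨a, b, hb, hx⟩ := x.2
    obtain ⟨a', b', hb', hy⟩ := y.2
    rw [redFun_eq h x hb hx, redFun_eq h y hb' hy,
      redFun_eq h (x * y) (a := a * a') (b := b * b')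
        (by rw [map_mul]; exact mul_ne_zero hb hb')
        (by push_cast; rw [hx, hy, div_mul_div_comm]),
      map_mul, map_mul, div_mul_div_comm]
  map_zero' := by
    rw [redFun_eq h 0 (a := 0) (b := 1) (by rw [map_one]; exact one_ne_zero) (by simp)]
    simp
  map_add' := by
    intro x y
    obtain ⟨a, b, hb, hx⟩ := x.2
    obtain ⟨a', b', hb', hy⟩ := y.2
    rw [redFun_eq h x hb hx, redFun_eq h y hb' hy,
      redFun_eq h (x + y) (a := a * b' + b * a') (b := b * b')
        (by rw [map_mul]; exact mul_ne_zero hb hb')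
        (by
          push_cast
          rw [hx, hy, div_add_div _ _ (coe_ne_zero_of_red_ne_zero hb)
            (coe_ne_zero_of_red_ne_zero hb')]),
      map_add, map_mul, map_mul, map_mul, div_add_div _ _ hb hb']

/-- The reduction of a fraction. -/
theorem gaussRed_div (h : IsModel A π B ρ) (y : gaussRing h) {a b : B} (hb : ρ b ≠ 0)
    (hy : (y : F) = (a : F) / (b : F)) : gaussRed h y = ρ a / ρ b := redFun_eq h y hb hy

/-- On `B` the reduction is `ρ`. -/
theorem gaussRed_coe (h : IsModel A π B ρ) (b : B) : gaussRed h ⟨(b : F), coe_mem h b⟩ = ρ b := by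
  rw [gaussRed_div h _ (a := b) (b := 1) (by rw [map_one]; exact one_ne_zero) (by simp), map_one,
    div_one]

/-- On the constants of `A` the reduction is `π`. -/
theorem gaussRed_algebraMap (h : IsModel A π B ρ) (a : A) :
    gaussRed h ⟨algebraMap L F (a : L), coe_mem h ⟨_, h.const_mem a⟩⟩ = algebraMap k Ft (π a) := by
  rw [gaussRed_coe h ⟨_, h.const_mem a⟩, h.ρ_const]

/-- The units of the Gauss ring are the elements with nonzero reduction. -/
theorem isUnit_iff (h : IsModel A π B ρ) (y : gaussRing h) : IsUnit y ↔ gaussRed h y ≠ 0 := by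
  constructor
  · intro hu
    exact (hu.map (gaussRed h)).ne_zero
  · intro hne
    obtain ⟨a, b, hb, hy⟩ := y.2
    rw [gaussRed_div h y hb hy] at hne
    have ha : ρ a ≠ 0 := fun h0 => hne (by rw [h0, zero_div])
    have haF := coe_ne_zero_of_red_ne_zero ha
    have hbF := coe_ne_zero_of_red_ne_zero hb
    have hinv : (b : F) / (a : F) ∈ gaussRing h := ⟨b, a, ha, rfl⟩
    refine IsUnit.of_mul_eq_one (⟨(b : F) / (a : F), hinv⟩ : gaussRing h) (Subtype.ext ?_)
    push_cast
    rw [hy, div_mul_div_comm, mul_comm, div_self (mul_ne_zero hbF haF)]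

/-- `IsRed.scale`: every nonzero function is a constant times a unit of the Gauss ring. -/
theorem scale (h : IsModel A π B ρ) : ∀ y : F, y ≠ 0 →
    ∃ (c : L) (u : (gaussRing h)ˣ), y = algebraMap L F c * ((u : gaussRing h) : F) := by
  intro y hy
  obtain ⟨c, a₀, b₀, -, ha₀, hb₀, rfl⟩ := exists_const_mul_div h hy
  have hmem : (a₀ : F) / (b₀ : F) ∈ gaussRing h := ⟨a₀, b₀, hb₀, rfl⟩
  have hu : IsUnit (⟨(a₀ : F) / (b₀ : F), hmem⟩ : gaussRing h) := by
    rw [isUnit_iff h, gaussRed_div h _ hb₀ rfl]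
    exact div_ne_zero ha₀ hb₀
  exact ⟨c, hu.unit, rfl⟩

/-- `IsRed.ker`: the non-units of the Gauss ring reduce to `0`. -/
theorem ker (h : IsModel A π B ρ) : ∀ y : gaussRing h, ¬ IsUnit y → gaussRed h y = 0 := by
  intro y hy
  by_contra hne
  exact hy ((isUnit_iff h y).2 hne)

/-- The trace of the Gauss ring on the constants is `A`. -/
theorem algebraMap_mem_gaussRing_iff (h : IsModel A π B ρ) (c : L) :
    algebraMap L F c ∈ gaussRing h ↔ c ∈ A := by
  constructor
  · intro hc
    by_contra hcA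
    have hc' : c⁻¹ ∈ A := (A.mem_or_inv_mem c).resolve_left hcA
    have hc0 : c ≠ 0 := fun h0 => hcA (h0 ▸ A.zero_mem)
    have hπ : π ⟨c⁻¹, hc'⟩ = 0 := h.ker_π _ (not_isUnit_inv_of_not_mem hcA hc')
    have h1 : (⟨algebraMap L F c, hc⟩ : gaussRing h) *
        ⟨algebraMap L F c⁻¹, coe_mem h ⟨_, h.const_mem ⟨c⁻¹, hc'⟩⟩⟩ = 1 := by
      refine Subtype.ext ?_
      show algebraMap L F c * algebraMap L F c⁻¹ = 1
      rw [← map_mul, mul_inv_cancel₀ hc0, map_one]
    have h2 := congrArg (gaussRed h) h1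
    rw [map_mul, map_one, gaussRed_algebraMap h ⟨c⁻¹, hc'⟩, hπ, map_zero, mul_zero] at h2
    exact zero_ne_one h2
  · intro hc
    exact coe_mem h ⟨_, h.const_mem ⟨c, hc⟩⟩

/-- `IsRed.const`: the constants of the Gauss ring reduce to constants. -/
theorem const (h : IsModel A π B ρ) : ∀ y : gaussRing h, IsConst L y →
    ∃ κ : k, gaussRed h y = algebraMap k Ft κ := by
  rintro y ⟨c, hc⟩
  have hcA : c ∈ A := (algebraMap_mem_gaussRing_iff h c).1 (hc ▸ y.2)
  refine ⟨π ⟨c, hcA⟩, ?_⟩
  rw [← gaussRed_algebraMap h ⟨c, hcA⟩]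
  congr 1
  exact Subtype.ext hc.symm

/-- `hlift` of `principal_of_torsion_ff1`: every constant of `k` lifts to a constant of the Gauss
ring, when `π` is surjective. -/
theorem lift (h : IsModel A π B ρ) (hπ : Function.Surjective π) :
    ∀ γ : k, ∃ c : gaussRing h, IsConst L c ∧ gaussRed h c = algebraMap k Ft γ := by
  intro γ
  obtain ⟨a, rfl⟩ := hπ γ
  exact ⟨⟨algebraMap L F (a : L), coe_mem h ⟨_, h.const_mem a⟩⟩, ⟨(a : L), rfl⟩,
    gaussRed_algebraMap h a⟩

/-- **`IsRed` for the Gauss ring of a model**, given the divisor compatibility `spec`. -/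
theorem isRed_of_spec (h : IsModel A π B ρ) (r : Place L F → Place k Ft)
    (hspec : ∀ (u : (gaussRing h)ˣ) (D : Divisor L F),
      (∀ P, D P = P.ord (((u : gaussRing h) : F))) →
      ∀ Q, Finsupp.mapDomain r D Q = Q.ord (gaussRed h u)) :
    IsRed (gaussRing h) (gaussRed h) r :=
  ⟨scale h, ker h, const h, hspec⟩

/-- **`spec` from the elements of `B`**: the compatibility `r_* div u = div (red u)` for the units
of the Gauss ring follows from the same statement for the elements of `B` with nonzero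
reduction. -/
theorem spec_of_mem [HasPrincipalDivisors L F] (h : IsModel A π B ρ)
    (r : Place L F → Place k Ft)
    (hB : ∀ b : B, ρ b ≠ 0 → ∀ D : Divisor L F, (∀ P, D P = P.ord (b : F)) →
      ∀ Q, Finsupp.mapDomain r D Q = Q.ord (ρ b)) :
    ∀ (u : (gaussRing h)ˣ) (D : Divisor L F),
      (∀ P, D P = P.ord (((u : gaussRing h) : F))) →
      ∀ Q, Finsupp.mapDomain r D Q = Q.ord (gaussRed h u) := by
  intro u D hD Q
  obtain ⟨a, b, hb, hy⟩ := (u : gaussRing h).2
  have hne : gaussRed h u ≠ 0 := (isUnit_iff h _).1 u.isUnit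
  rw [gaussRed_div h _ hb hy] at hne ⊢
  have ha : ρ a ≠ 0 := fun h0 => hne (by rw [h0, zero_div])
  have haF := coe_ne_zero_of_red_ne_zero ha
  have hbF := coe_ne_zero_of_red_ne_zero hb
  have hDeq : D = pdiv L (a : F) - pdiv L (b : F) := by
    ext P
    rw [hD P, hy, Finsupp.sub_apply, pdiv_apply, pdiv_apply, div_eq_mul_inv,
      P.ord_mul haF (inv_ne_zero hbF), P.ord_inv]
    ring
  have h1 := hB a ha (pdiv L (a : F)) (fun P => pdiv_apply _ P) Q
  have h2 := hB b hb (pdiv L (b : F)) (fun P => pdiv_apply _ P) Q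
  rw [hDeq, Finsupp.mapDomain_sub, Finsupp.sub_apply, h1, h2, div_eq_mul_inv,
    Q.ord_mul ha (inv_ne_zero hb), Q.ord_inv]
  ring

end Ring

/-! ### Free lattices -/

section Basis

variable {A : ValuationSubring L} {π : A →+* k} {B : Subring F} {ρ : B →+* Ft}

/-- **`content` for a free lattice**: if `B` is spanned over `A` by a family `e` whose reductions
are linearly independent over `k`, every nonzero element of `B` is a constant (a coefficient of
smallest value) times an element with nonzero reduction. -/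
theorem content_of_basis {ι : Type*}
    (hmem : ∀ a : A, algebraMap L F (a : L) ∈ B)
    (hρ : ∀ a : A, ρ ⟨algebraMap L F (a : L), hmem a⟩ = algebraMap k Ft (π a))
    (e : ι → B)
    (hspan : ∀ b : B, ∃ (s : Finset ι) (c : ι → A),
      (b : F) = ∑ i ∈ s, algebraMap L F (c i : L) * (e i : F))
    (hindep : LinearIndependent k (fun i => ρ (e i))) :
    ∀ b : B, (b : F) ≠ 0 →
      ∃ (c : L) (b₀ : B), (b : F) = algebraMap L F c * (b₀ : F) ∧ ρ b₀ ≠ 0 := by
  classical
  intro b hb
  obtain ⟨s₀, c, hbc⟩ := hspan b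
  -- restrict to the nonzero coefficients
  set s := s₀.filter (fun i => c i ≠ 0) with hs
  have hbs : (b : F) = ∑ i ∈ s, algebraMap L F (c i : L) * (e i : F) := by
    rw [hbc, hs, Finset.sum_filter]
    refine Finset.sum_congr rfl fun i _ => ?_
    split_ifs with hi
    · rfl
    · rw [not_not] at hi
      rw [hi, ZeroMemClass.coe_zero, map_zero, zero_mul]
  have hsne : s.Nonempty := by
    rw [Finset.nonempty_iff_ne_empty]
    intro hemp
    rw [hemp, Finset.sum_empty] at hbs
    exact hb hbs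
  -- a coefficient of largest valuation
  obtain ⟨i₀, hi₀, hmax⟩ := Finset.exists_max_image s (fun i => A.valuation (c i : L)) hsne
  have hci₀ : (c i₀ : L) ≠ 0 := by
    intro h0
    have : c i₀ ≠ 0 := (Finset.mem_filter.1 hi₀).2
    exact this (Subtype.ext h0)
  have hdiv : ∀ i : ι, ∃ d : A, i ∈ s → (d : L) = (c i : L) / (c i₀ : L) := by
    intro i
    by_cases hi : i ∈ s
    · have hle : A.valuation ((c i : L) / (c i₀ : L)) ≤ 1 := by
        rw [map_div₀]
        exact div_le_one_of_le₀ (hmax i hi) zero_le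
      exact ⟨⟨_, (A.valuation_le_one_iff _).1 hle⟩, fun _ => rfl⟩
    · exact ⟨0, fun h => absurd h hi⟩
  choose d hd using hdiv
  refine ⟨(c i₀ : L), ∑ i ∈ s, (⟨algebraMap L F (d i : L), hmem (d i)⟩ : B) * e i, ?_, ?_⟩
  · rw [hbs, AddSubmonoidClass.coe_finsetSum, Finset.mul_sum]
    refine Finset.sum_congr rfl fun i hi => ?_
    rw [Subring.coe_mul, ← mul_assoc, ← map_mul, hd i hi, mul_div_cancel₀ _ hci₀]
  · intro h0
    rw [map_sum] at h0
    have h1 : ∑ i ∈ s, π (d i) • ρ (e i) = 0 := by
      rw [← h0]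
      refine Finset.sum_congr rfl fun i _ => ?_
      rw [map_mul, hρ, Algebra.smul_def]
    have h2 := linearIndependent_iff'.1 hindep s (fun i => π (d i)) h1 i₀ hi₀
    have h3 : d i₀ = 1 := Subtype.ext (by rw [hd i₀ hi₀, div_self hci₀]; rfl)
    rw [h3, map_one] at h2
    exact one_ne_zero h2

/-- **A free lattice with independent reductions is a model.** -/
theorem isModel_of_basis {ι : Type*} (hπ : ∀ a : A, ¬ IsUnit a → π a = 0)
    (hmem : ∀ a : A, algebraMap L F (a : L) ∈ B)
    (hρ : ∀ a : A, ρ ⟨algebraMap L F (a : L), hmem a⟩ = algebraMap k Ft (π a))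
    (hfrac : ∀ y : F, ∃ a b : B, (b : F) ≠ 0 ∧ y = (a : F) / (b : F))
    (e : ι → B)
    (hspan : ∀ b : B, ∃ (s : Finset ι) (c : ι → A),
      (b : F) = ∑ i ∈ s, algebraMap L F (c i : L) * (e i : F))
    (hindep : LinearIndependent k (fun i => ρ (e i))) :
    IsModel A π B ρ :=
  ⟨hπ, hmem, hρ, hfrac, content_of_basis hmem hρ e hspan hindep⟩

end Basis

end Fermat.Agent.S27P.GR.GaussModel
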