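import Mathlib
import Fermat.Agent.S27P.GR.GaussModel

/-!
# S27 / (GR-G): the Gauss valuation ring from two compatible lattices

`F'/K'` and `Ft/k` are fields, `A` a valuation subring of `K'` (any rank) with a surjective ring
homomorphism `π : A → k` killing the non-units.  `x : F'` and `xt : Ft` are transcendental,
`b : Fin n → F'` is a `K'(x)`-basis of `F'` and `c : Fin n → Ft` a `k(xt)`-basis of `Ft` (both in
"polynomial" form), and the two lattices `⊕ A[x] b_i`, `⊕ k[xt] c_i` are rings with the *same*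
structure constants `γ i j l ∈ A[X]` and the same coordinates `υ l ∈ A[X]` of `1`.

`exists_gauss` : there is a valuation subring `O` of `F'` with a surjective ring homomorphism
`red : O → Ft` whose kernel is the maximal ideal, which restricts to `(A, π)` on the constants,
such that every nonzero function is a constant times a unit of `O`, and
`O = {(∑ p_i(x) b_i) / s(x) | p_i, s ∈ A[X], s̄ ≠ 0}` with
`red ((∑ p_i(x) b_i) / s(x)) = (∑ p̄_i(xt) c_i) / s̄(xt)`.

Route: the lattice `B = {∑ p_i(x) b_i}` is a subring of `F'` with a reduction `ρ : B →+* Ft`;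
it is a model in the sense of `GR/GaussModel.lean` (contents = division by a coefficient of
largest valuation), whose Gauss ring is `O`.  The description of `O` with *polynomial*
denominators comes from the adjugate of the multiplication matrix of a lattice element with
nonzero reduction (its determinant reduces to a nonzero polynomial because `Ft` is a field).
-/

set_option autoImplicit false

noncomputable section

namespace Fermat.Agent.S27P.GR.Gauss

open Polynomial

/-! ### Coefficient vectors of a lattice -/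

section Lin

variable {R E : Type*} [CommRing R] [CommRing E] {n : ℕ}

/-- The element `∑ e (p i) * v i` with coefficient vector `p`. -/
def lin (e : R →+* E) (v : Fin n → E) (p : Fin n → R) : E := ∑ i, e (p i) * v i

theorem lin_zero (e : R →+* E) (v : Fin n → E) : lin e v 0 = 0 := by
  simp [lin]

theorem lin_add (e : R →+* E) (v : Fin n → E) (p q : Fin n → R) :
    lin e v (p + q) = lin e v p + lin e v q := by
  simp [lin, add_mul, Finset.sum_add_distrib]

theorem lin_neg (e : R →+* E) (v : Fin n → E) (p : Fin n → R) :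
    lin e v (-p) = -lin e v p := by
  simp [lin]

theorem lin_sub (e : R →+* E) (v : Fin n → E) (p q : Fin n → R) :
    lin e v (p - q) = lin e v p - lin e v q := by
  simp [lin, sub_mul, Finset.sum_sub_distrib]

theorem lin_smul (e : R →+* E) (v : Fin n → E) (s : R) (p : Fin n → R) :
    lin e v (s • p) = e s * lin e v p := by
  simp [lin, Finset.mul_sum, mul_assoc]

/-- The matrix of multiplication by the lattice element with coefficient vector `p`, for the
structure constants `γ`. -/
def mulMat (γ : Fin n → Fin n → Fin n → R) (p : Fin n → R) : Matrix (Fin n) (Fin n) R :=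
  Matrix.of fun l j => ∑ i, p i * γ i j l

theorem lin_mulVec (e : R →+* E) (v : Fin n → E) (γ : Fin n → Fin n → Fin n → R)
    (hγ : ∀ i j, v i * v j = ∑ l, e (γ i j l) * v l) (p q : Fin n → R) :
    lin e v ((mulMat γ p).mulVec q) = lin e v p * lin e v q := by
  have h1 : lin e v p * lin e v q
      = ∑ i, ∑ j, ∑ l, e (p i) * e (γ i j l) * e (q j) * v l := by
    unfold lin
    rw [Finset.sum_mul_sum]
    refine Finset.sum_congr rfl fun i _ => Finset.sum_congr rfl fun j _ => ?_
    have : e (p i) * v i * (e (q j) * v j) = e (p i) * e (q j) * (v i * v j) := by ring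
    rw [this, hγ, Finset.mul_sum]
    refine Finset.sum_congr rfl fun l _ => ?_
    ring
  have h2 : lin e v ((mulMat γ p).mulVec q)
      = ∑ l, ∑ j, ∑ i, e (p i) * e (γ i j l) * e (q j) * v l := by
    unfold lin
    refine Finset.sum_congr rfl fun l _ => ?_
    simp only [Matrix.mulVec, dotProduct, mulMat, Matrix.of_apply, map_sum, map_mul,
      Finset.sum_mul]
  rw [h1, h2, Finset.sum_comm]
  refine (Finset.sum_congr rfl fun j _ => Finset.sum_comm).trans ?_
  rw [Finset.sum_comm]

end Lin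

/-! ### Division by a coefficient of largest valuation -/

section Scale

variable {K' k : Type*} [Field K'] [Field k]

/-- A nonzero finite family of polynomials over a valued field is a nonzero constant times a
family of polynomials over the valuation ring, one of which has nonzero reduction. -/
theorem exists_scale (A : ValuationSubring K') (π : A →+* k) {ι : Type*} [Fintype ι]
    (p : ι → K'[X]) (hp : p ≠ 0) :
    ∃ (a : K') (p₀ : ι → A[X]), a ≠ 0 ∧ (∀ i, p i = C a * (p₀ i).map A.subtype) ∧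
      ∃ i, (p₀ i).map π ≠ 0 := by
  classical
  set T : Finset K' := Finset.univ.biUnion fun i => (p i).coeffs with hT
  have hTne : T.Nonempty := by
    obtain ⟨i, hi⟩ : ∃ i, p i ≠ 0 := by
      by_contra h
      exact hp (funext fun i => by_contra fun hi => h ⟨i, hi⟩)
    have h1 : (p i).coeff (p i).natDegree ∈ (p i).coeffs :=
      coeff_mem_coeffs (leadingCoeff_ne_zero.2 hi)
    exact ⟨_, Finset.mem_biUnion.2 ⟨i, Finset.mem_univ _, h1⟩⟩
  obtain ⟨a, haT, hmax⟩ := Finset.exists_max_image T (fun t => A.valuation t) hTne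
  obtain ⟨i₀, -, hai₀⟩ := Finset.mem_biUnion.1 haT
  obtain ⟨m₀, hm₀, ham₀⟩ := mem_coeffs_iff.1 hai₀
  have ha0 : a ≠ 0 := by
    rw [ham₀]
    exact mem_support_iff.1 hm₀
  have hmem : ∀ i m, a⁻¹ * (p i).coeff m ∈ A := by
    intro i m
    by_cases h0 : (p i).coeff m = 0
    · rw [h0, mul_zero]
      exact A.zero_mem
    · have h1 : (p i).coeff m ∈ T :=
        Finset.mem_biUnion.2 ⟨i, Finset.mem_univ _, coeff_mem_coeffs h0⟩
      have h2 := hmax _ h1
      rw [← A.valuation_le_one_iff, map_mul, map_inv₀, inv_mul_eq_div]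
      exact div_le_one_of_le₀ h2 zero_le
  have hrange : ∀ i, C a⁻¹ * p i ∈ (mapRingHom A.subtype).range := by
    intro i
    rw [mem_map_range]
    intro m
    rw [coeff_C_mul]
    exact ⟨⟨_, hmem i m⟩, rfl⟩
  choose p₀ hp₀ using hrange
  have hp₀' : ∀ i, (p₀ i).map A.subtype = C a⁻¹ * p i := fun i => hp₀ i
  refine ⟨a, p₀, ha0, fun i => ?_, i₀, ?_⟩
  · rw [hp₀' i, ← mul_assoc, ← C_mul, mul_inv_cancel₀ ha0, C_1, one_mul]
  · intro h0
    have h1 : (((p₀ i₀).coeff m₀ : A) : K') = 1 := by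
      have h2 := congrArg (fun q => q.coeff m₀) (hp₀' i₀)
      simp only [coeff_map, coeff_C_mul] at h2
      rw [← ham₀, inv_mul_cancel₀ ha0] at h2
      exact h2
    have h2 : (p₀ i₀).coeff m₀ = 1 := Subtype.ext h1
    have h3 := congrArg (fun q => q.coeff m₀) h0
    simp only [coeff_map, coeff_zero, h2, map_one] at h3
    exact one_ne_zero h3

end Scale

/-! ### The two lattices -/

section Main

variable {K' F' k Ft : Type*} [Field K'] [Field F'] [Algebra K' F'] [Field k] [Field Ft]
  [Algebra k Ft]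

/-- `s ↦ s(x)` on `A[X]`. -/
def ev₁ (A : ValuationSubring K') (x : F') : A[X] →+* F' :=
  (aeval x : K'[X] →ₐ[K'] F').toRingHom.comp (mapRingHom A.subtype)

/-- `s ↦ s̄(xt)` on `A[X]`. -/
def ev₂ {A : ValuationSubring K'} (π : A →+* k) (xt : Ft) : A[X] →+* Ft :=
  (aeval xt : k[X] →ₐ[k] Ft).toRingHom.comp (mapRingHom π)

theorem ev₁_apply (A : ValuationSubring K') (x : F') (s : A[X]) :
    ev₁ A x s = aeval x (s.map A.subtype) := rfl

theorem ev₂_apply {A : ValuationSubring K'} (π : A →+* k) (xt : Ft) (s : A[X]) :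
    ev₂ π xt s = aeval xt (s.map π) := rfl

theorem ev₁_C (A : ValuationSubring K') (x : F') (a : A) :
    ev₁ A x (C a) = algebraMap K' F' (a : K') := by
  rw [ev₁_apply, map_C, aeval_C]
  rfl

theorem ev₂_C {A : ValuationSubring K'} (π : A →+* k) (xt : Ft) (a : A) :
    ev₂ π xt (C a) = algebraMap k Ft (π a) := by
  rw [ev₂_apply, map_C, aeval_C]

theorem ev₁_eq_zero (A : ValuationSubring K') {x : F'} (hx : Transcendental K' x) {s : A[X]}
    (h : ev₁ A x s = 0) : s = 0 := by
  rw [ev₁_apply] at h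
  have h1 : s.map A.subtype = 0 := (transcendental_iff.1 hx) _ h
  exact Polynomial.map_injective A.subtype Subtype.val_injective (by rw [h1, Polynomial.map_zero])

theorem ev₂_ne_zero {A : ValuationSubring K'} (π : A →+* k) {xt : Ft} (hxt : Transcendental k xt)
    {s : A[X]} (h : s.map π ≠ 0) : ev₂ π xt s ≠ 0 := by
  rw [ev₂_apply]
  exact fun h0 => h ((transcendental_iff.1 hxt) _ h0)

variable {n : ℕ}

theorem lin₁_eq_zero (A : ValuationSubring K') {x : F'} {b : Fin n → F'}
    (hb : ∀ p : Fin n → K'[X], ∑ i, aeval x (p i) * b i = 0 → p = 0) {p : Fin n → A[X]}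
    (h : lin (ev₁ A x) b p = 0) : p = 0 := by
  have h1 := hb (fun i => (p i).map A.subtype) h
  funext i
  have h2 : (p i).map A.subtype = 0 := congrFun h1 i
  exact Polynomial.map_injective A.subtype Subtype.val_injective
    (h2.trans (Polynomial.map_zero _).symm)

theorem lin₁_injective (A : ValuationSubring K') {x : F'} {b : Fin n → F'}
    (hb : ∀ p : Fin n → K'[X], ∑ i, aeval x (p i) * b i = 0 → p = 0) {p q : Fin n → A[X]}
    (h : lin (ev₁ A x) b p = lin (ev₁ A x) b q) : p = q := by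
  have h1 : lin (ev₁ A x) b (p - q) = 0 := by rw [lin_sub, h, sub_self]
  exact sub_eq_zero.1 (lin₁_eq_zero A hb h1)

theorem lin₂_eq_zero {A : ValuationSubring K'} (π : A →+* k) {xt : Ft} {c : Fin n → Ft}
    (hc : ∀ p : Fin n → k[X], ∑ i, aeval xt (p i) * c i = 0 → p = 0) {p : Fin n → A[X]}
    (h : lin (ev₂ π xt) c p = 0) (i : Fin n) : (p i).map π = 0 :=
  congrFun (hc (fun i => (p i).map π) h) i

/-- Scaling a coefficient vector by a constant of `K'`. -/
theorem lin₁_scale (A : ValuationSubring K') (x : F') (b : Fin n → F') {a : K'}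
    {p : Fin n → K'[X]} {p₀ : Fin n → A[X]} (h : ∀ i, p i = C a * (p₀ i).map A.subtype) :
    ∑ i, aeval x (p i) * b i = algebraMap K' F' a * lin (ev₁ A x) b p₀ := by
  unfold lin
  rw [Finset.mul_sum]
  refine Finset.sum_congr rfl fun i _ => ?_
  rw [h i, map_mul, aeval_C, ev₁_apply, mul_assoc]

/-- **The lattice ring and its reduction.** -/
theorem exists_lattice_ring (A : ValuationSubring K') (π : A →+* k) (x : F') (xt : Ft)
    (b : Fin n → F') (c : Fin n → Ft)
    (hb : ∀ p : Fin n → K'[X], ∑ i, aeval x (p i) * b i = 0 → p = 0)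
    (γ : Fin n → Fin n → Fin n → A[X])
    (hγb : ∀ i j, b i * b j = ∑ l, ev₁ A x (γ i j l) * b l)
    (hγc : ∀ i j, c i * c j = ∑ l, ev₂ π xt (γ i j l) * c l)
    (υ : Fin n → A[X]) (hυb : (1 : F') = lin (ev₁ A x) b υ)
    (hυc : (1 : Ft) = lin (ev₂ π xt) c υ) :
    ∃ (B : Subring F') (ρ : B →+* Ft),
      (∀ y : F', y ∈ B ↔ ∃ p : Fin n → A[X], lin (ev₁ A x) b p = y) ∧
      ∀ (p : Fin n → A[X]) (h : lin (ev₁ A x) b p ∈ B),
        ρ ⟨lin (ev₁ A x) b p, h⟩ = lin (ev₂ π xt) c p := by
  classical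
  let B : Subring F' :=
    { carrier := Set.range (lin (ev₁ A x) b)
      mul_mem' := by
        rintro _ _ ⟨p, rfl⟩ ⟨q, rfl⟩
        exact ⟨_, lin_mulVec _ _ γ hγb p q⟩
      one_mem' := ⟨υ, hυb.symm⟩
      add_mem' := by
        rintro _ _ ⟨p, rfl⟩ ⟨q, rfl⟩
        exact ⟨p + q, lin_add _ _ p q⟩
      zero_mem' := ⟨0, lin_zero _ _⟩
      neg_mem' := by
        rintro _ ⟨p, rfl⟩
        exact ⟨-p, lin_neg _ _ p⟩ }
  have hch : ∀ y : B, ∃ p : Fin n → A[X], lin (ev₁ A x) b p = (y : F') := fun y => y.2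
  choose rep hrep using hch
  have hρ : ∀ (y : B) (p : Fin n → A[X]), lin (ev₁ A x) b p = (y : F') →
      lin (ev₂ π xt) c (rep y) = lin (ev₂ π xt) c p := by
    intro y p hp
    have h1 : rep y = p := lin₁_injective A hb ((hrep y).trans hp.symm)
    rw [h1]
  refine ⟨B, { toFun := fun y => lin (ev₂ π xt) c (rep y)
               map_one' := ?_, map_mul' := ?_, map_zero' := ?_, map_add' := ?_ },
    fun y => Iff.rfl, ?_⟩
  · exact (hρ 1 υ hυb.symm).trans hυc.symm
  · intro y z
    show lin (ev₂ π xt) c (rep (y * z)) = lin (ev₂ π xt) c (rep y) * lin (ev₂ π xt) c (rep z)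
    rw [hρ (y * z) ((mulMat γ (rep y)).mulVec (rep z))
      (by rw [lin_mulVec _ _ γ hγb, hrep, hrep]; rfl), lin_mulVec _ _ γ hγc]
  · exact (hρ 0 0 (lin_zero _ _)).trans (lin_zero _ _)
  · intro y z
    show lin (ev₂ π xt) c (rep (y + z)) = lin (ev₂ π xt) c (rep y) + lin (ev₂ π xt) c (rep z)
    rw [hρ (y + z) (rep y + rep z) (by rw [lin_add, hrep, hrep]; rfl), lin_add]
  · intro p h
    exact hρ ⟨_, h⟩ p rfl

/-- **Inverting a lattice element with nonzero reduction**: up to a polynomial `D(x)` with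
`D̄ ≠ 0`, the inverse lies in the lattice (adjugate of the multiplication matrix). -/
theorem exists_inverse (A : ValuationSubring K') (π : A →+* k) (hπ : Function.Surjective π)
    (x : F') (xt : Ft) (b : Fin n → F') (c : Fin n → Ft)
    (hc : ∀ p : Fin n → k[X], ∑ i, aeval xt (p i) * c i = 0 → p = 0)
    (γ : Fin n → Fin n → Fin n → A[X])
    (hγb : ∀ i j, b i * b j = ∑ l, ev₁ A x (γ i j l) * b l)
    (hγc : ∀ i j, c i * c j = ∑ l, ev₂ π xt (γ i j l) * c l)
    (υ : Fin n → A[X]) (hυb : (1 : F') = lin (ev₁ A x) b υ)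
    (q : Fin n → A[X]) (hq : lin (ev₂ π xt) c q ≠ 0) :
    ∃ (q' : Fin n → A[X]) (D : A[X]), D.map π ≠ 0 ∧
      lin (ev₁ A x) b q * lin (ev₁ A x) b q' = ev₁ A x D := by
  classical
  refine ⟨(mulMat γ q).adjugate.mulVec υ, (mulMat γ q).det, ?_, ?_⟩
  · intro hdet
    have h1 : ((mulMat γ q).map (mapRingHom π)).det = 0 := by
      have h2 := RingHom.map_det (mapRingHom π) (mulMat γ q)
      rw [RingHom.mapMatrix_apply] at h2
      rw [← h2]
      exact hdet
    obtain ⟨v, hv0, hv⟩ := Matrix.exists_mulVec_eq_zero_iff.2 h1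
    have hsurj := Polynomial.map_surjective π hπ
    choose w hw using fun j => hsurj (v j)
    have h2 : lin (ev₂ π xt) c ((mulMat γ q).mulVec w) = 0 := by
      unfold lin
      refine Finset.sum_eq_zero fun l _ => ?_
      have h3 : ((mulMat γ q).mulVec w l).map π = 0 := by
        have h4 : ((mulMat γ q).map (mapRingHom π)).mulVec v l = 0 := by
          rw [hv]
          rfl
        rw [← h4]
        simp only [Matrix.mulVec, dotProduct, Matrix.map_apply, coe_mapRingHom,
          Polynomial.map_sum, Polynomial.map_mul, hw]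
      rw [ev₂_apply, h3, map_zero, zero_mul]
    rw [lin_mulVec _ _ γ hγc] at h2
    have h3 : lin (ev₂ π xt) c w = 0 := (mul_eq_zero.1 h2).resolve_left hq
    have h4 := lin₂_eq_zero π hc h3
    exact hv0 (funext fun j => by rw [← hw j]; exact h4 j)
  · rw [← lin_mulVec _ _ γ hγb, Matrix.mulVec_mulVec, Matrix.mul_adjugate, Matrix.smul_mulVec,
      Matrix.one_mulVec, lin_smul, ← hυb, mul_one]

end Main

end Fermat.Agent.S27P.GR.Gauss

namespace Fermat.Agent.S27P.GR

open Polynomial Fermat.Agent.S27P.GR.Gauss Fermat.Agent.S27P.GR.GaussModel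

/-- **(GR-G) The Gauss valuation ring from two compatible lattices.** -/
theorem exists_gauss {K' F' k Ft : Type*} [Field K'] [Field F'] [Algebra K' F'] [Field k]
    [Field Ft] [Algebra k Ft] (A : ValuationSubring K') (π : A →+* k)
    (hπ : Function.Surjective π) (hπ0 : ∀ a : A, ¬ IsUnit a → π a = 0) {n : ℕ} (x : F')
    (xt : Ft) (hx : Transcendental K' x) (hxt : Transcendental k xt) (b : Fin n → F')
    (c : Fin n → Ft)
    (hb : ∀ p : Fin n → K'[X], ∑ i, aeval x (p i) * b i = 0 → p = 0)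
    (hbs : ∀ y : F', ∃ (p : Fin n → K'[X]) (s : K'[X]), s ≠ 0 ∧
      aeval x s * y = ∑ i, aeval x (p i) * b i)
    (hc : ∀ p : Fin n → k[X], ∑ i, aeval xt (p i) * c i = 0 → p = 0)
    (hcs : ∀ y : Ft, ∃ (p : Fin n → k[X]) (s : k[X]), s ≠ 0 ∧
      aeval xt s * y = ∑ i, aeval xt (p i) * c i)
    (γ : Fin n → Fin n → Fin n → A[X])
    (hγb : ∀ i j, b i * b j = ∑ l, aeval x ((γ i j l).map A.subtype) * b l)
    (hγc : ∀ i j, c i * c j = ∑ l, aeval xt ((γ i j l).map π) * c l)
    (υ : Fin n → A[X])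
    (hυb : (1 : F') = ∑ l, aeval x ((υ l).map A.subtype) * b l)
    (hυc : (1 : Ft) = ∑ l, aeval xt ((υ l).map π) * c l) :
    ∃ (O : ValuationSubring F') (red : O →+* Ft),
      Function.Surjective red ∧
      (∀ y : O, red y = 0 ↔ ¬ IsUnit y) ∧
      (∀ a : K', algebraMap K' F' a ∈ O ↔ a ∈ A) ∧
      (∀ a : A, ∃ h : algebraMap K' F' (a : K') ∈ O, red ⟨_, h⟩ = algebraMap k Ft (π a)) ∧
      (∀ f : O, red f = 0 → ∃ (a : A) (g : O), π a = 0 ∧
        (f : F') = algebraMap K' F' (a : K') * (g : F')) ∧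
      (∀ y : F', y ≠ 0 → ∃ (a : K') (u : Oˣ), y = algebraMap K' F' a * ((u : O) : F')) ∧
      (∀ y : F', y ∈ O ↔ ∃ (p : Fin n → A[X]) (s : A[X]), s.map π ≠ 0 ∧
        aeval x (s.map A.subtype) * y = ∑ i, aeval x ((p i).map A.subtype) * b i) ∧
      (∀ (y : O) (p : Fin n → A[X]) (s : A[X]), s.map π ≠ 0 →
        aeval x (s.map A.subtype) * (y : F') = ∑ i, aeval x ((p i).map A.subtype) * b i →
        aeval xt (s.map π) * red y = ∑ i, aeval xt ((p i).map π) * c i) := by
  classical
  obtain ⟨B, ρ, hB, hρ⟩ := exists_lattice_ring A π x xt b c hb γ hγb hγc υ hυb hυc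
  have hlinB : ∀ p : Fin n → A[X], lin (ev₁ A x) b p ∈ B := fun p => (hB _).2 ⟨p, rfl⟩
  have hev : ∀ s : A[X], ev₁ A x s = lin (ev₁ A x) b (s • υ) := by
    intro s
    rw [lin_smul]
    exact (mul_one _).symm.trans (congrArg (fun t => ev₁ A x s * t) hυb)
  have hevB : ∀ s : A[X], ev₁ A x s ∈ B := fun s => by
    rw [hev s]
    exact hlinB _
  have hρev : ∀ (s : A[X]) (h : ev₁ A x s ∈ B), ρ ⟨ev₁ A x s, h⟩ = ev₂ π xt s := by
    intro s h
    have h1 : (⟨ev₁ A x s, h⟩ : B) = ⟨lin (ev₁ A x) b (s • υ), hlinB _⟩ := Subtype.ext (hev s)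
    rw [h1, hρ, lin_smul]
    exact (congrArg (fun t => ev₂ π xt s * t) hυc).symm.trans (mul_one _)
  have hconstB : ∀ a : A, algebraMap K' F' (a : K') ∈ B := fun a => by
    rw [← ev₁_C A x a]
    exact hevB _
  have hρconst : ∀ a : A, ρ ⟨algebraMap K' F' (a : K'), hconstB a⟩ = algebraMap k Ft (π a) := by
    intro a
    have h1 : (⟨algebraMap K' F' (a : K'), hconstB a⟩ : B) = ⟨ev₁ A x (C a), hevB _⟩ :=
      Subtype.ext (ev₁_C A x a).symm
    rw [h1, hρev, ev₂_C]
  -- clearing denominators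
  have hden : ∀ y : F', ∃ (p : Fin n → A[X]) (s : A[X]), s ≠ 0 ∧
      ev₁ A x s * y = lin (ev₁ A x) b p := by
    intro y
    obtain ⟨p', s', hs', hy⟩ := hbs y
    have hne : (fun o : Option (Fin n) => o.elim s' p') ≠ 0 := fun h0 => hs' (congrFun h0 none)
    obtain ⟨a, q₀, ha0, hq₀, -⟩ := exists_scale A π _ hne
    have h1 : ∀ i, p' i = C a * (q₀ (some i)).map A.subtype := fun i => hq₀ (some i)
    have h2 : s' = C a * (q₀ none).map A.subtype := hq₀ none
    refine ⟨fun i => q₀ (some i), q₀ none, ?_, ?_⟩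
    · intro h0
      rw [h0, Polynomial.map_zero, mul_zero] at h2
      exact hs' h2
    · have h3 := lin₁_scale A x b h1
      rw [← hy, h2, map_mul, aeval_C, mul_assoc] at h3
      exact mul_left_cancel₀ ((map_ne_zero (algebraMap K' F')).2 ha0) h3
  have hmodel : IsModel A π B ρ := by
    refine ⟨hπ0, hconstB, hρconst, ?_, ?_⟩
    · intro y
      obtain ⟨p, s, hs, hy⟩ := hden y
      have hs0 : ev₁ A x s ≠ 0 := fun h0 => hs (ev₁_eq_zero A hx h0)
      refine ⟨⟨_, hlinB p⟩, ⟨_, hevB s⟩, hs0, ?_⟩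
      show y = lin (ev₁ A x) b p / ev₁ A x s
      rw [← hy, mul_div_cancel_left₀ _ hs0]
    · intro β hβ
      obtain ⟨p, hp⟩ := (hB _).1 β.2
      have hp0 : (fun i => (p i).map A.subtype) ≠ 0 := by
        intro h0
        apply hβ
        rw [← hp]
        have h1 : p = 0 := by
          funext i
          exact Polynomial.map_injective A.subtype Subtype.val_injective
            ((congrFun h0 i).trans (Polynomial.map_zero _).symm)
        rw [h1, lin_zero]
      obtain ⟨a, p₀, -, hp₀, i, hi⟩ := exists_scale A π _ hp0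
      refine ⟨a, ⟨_, hlinB p₀⟩, ?_, ?_⟩
      · rw [← hp]
        exact lin₁_scale A x b hp₀
      · rw [hρ]
        exact fun h0 => hi (lin₂_eq_zero π hc h0 i)
  -- fractions with polynomial denominators
  have hfracmem : ∀ (p : Fin n → A[X]) (s : A[X]), s.map π ≠ 0 → ∀ y : F',
      ev₁ A x s * y = lin (ev₁ A x) b p →
      ∃ hy : y ∈ gaussRing hmodel,
        ev₂ π xt s * gaussRed hmodel ⟨y, hy⟩ = lin (ev₂ π xt) c p := by
    intro p s hs y hy
    have hs1 : s ≠ 0 := fun h0 => hs (by rw [h0, Polynomial.map_zero])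
    have hs0 : ev₁ A x s ≠ 0 := fun h0 => hs1 (ev₁_eq_zero A hx h0)
    have hs2 : ev₂ π xt s ≠ 0 := ev₂_ne_zero π hxt hs
    have hyeq : y = ((⟨_, hlinB p⟩ : B) : F') / ((⟨_, hevB s⟩ : B) : F') := by
      show y = lin (ev₁ A x) b p / ev₁ A x s
      rw [← hy, mul_div_cancel_left₀ _ hs0]
    have hρs : ρ ⟨_, hevB s⟩ ≠ 0 := by
      rw [hρev]
      exact hs2
    have hmem : y ∈ gaussRing hmodel := ⟨_, _, hρs, hyeq⟩
    refine ⟨hmem, ?_⟩
    rw [gaussRed_div hmodel ⟨y, hmem⟩ hρs hyeq, hρev, hρ]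
    field_simp
  refine ⟨gaussRing hmodel, gaussRed hmodel, ?_, ?_, ?_, ?_, ?_, ?_, ?_, ?_⟩
  · -- surjectivity
    intro yt
    obtain ⟨pt, st, hst, hyt⟩ := hcs yt
    have hsurj := Polynomial.map_surjective π hπ
    choose p hp using fun i => hsurj (pt i)
    obtain ⟨s, hs⟩ := hsurj st
    have hs' : s.map π ≠ 0 := by
      rw [hs]
      exact hst
    have hs1 : s ≠ 0 := fun h0 => hs' (by rw [h0, Polynomial.map_zero])
    have hs0 : ev₁ A x s ≠ 0 := fun h0 => hs1 (ev₁_eq_zero A hx h0)
    have hs2 : ev₂ π xt s ≠ 0 := ev₂_ne_zero π hxt hs'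
    obtain ⟨hmem, hred⟩ := hfracmem p s hs' (lin (ev₁ A x) b p / ev₁ A x s)
      (by field_simp)
    refine ⟨⟨_, hmem⟩, ?_⟩
    apply mul_left_cancel₀ hs2
    rw [hred]
    show ∑ i, aeval xt ((p i).map π) * c i = aeval xt (s.map π) * yt
    rw [hs, hyt]
    exact Finset.sum_congr rfl fun i _ => by rw [hp i]
  · -- kernel = non-units
    intro y
    exact ⟨fun h hu => (isUnit_iff hmodel y).1 hu h,
      fun h => by_contra fun hne => h ((isUnit_iff hmodel y).2 hne)⟩
  · exact algebraMap_mem_gaussRing_iff hmodel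
  · exact fun a => ⟨coe_mem hmodel ⟨_, hmodel.const_mem a⟩, gaussRed_algebraMap hmodel a⟩
  · -- the kernel is generated by the constants of the kernel
    intro f hf
    by_cases hf0 : (f : F') = 0
    · exact ⟨0, 0, map_zero π, by rw [hf0]; simp⟩
    · obtain ⟨a, u, hau⟩ := scale hmodel (f : F') hf0
      have hamem : algebraMap K' F' a ∈ gaussRing hmodel := by
        have h1 : algebraMap K' F' a
            = ((f * ((u⁻¹ : (gaussRing hmodel)ˣ) : gaussRing hmodel) : gaussRing hmodel) : F') := by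
          have h2 : (((u : gaussRing hmodel) * ((u⁻¹ : (gaussRing hmodel)ˣ) : gaussRing hmodel)
              : gaussRing hmodel) : F') = 1 := by
            rw [← Units.val_mul, mul_inv_cancel]
            rfl
          rw [MulMemClass.coe_mul] at h2 ⊢
          rw [hau, mul_assoc, h2, mul_one]
        rw [h1]
        exact SetLike.coe_mem _
      have haA : a ∈ A := (algebraMap_mem_gaussRing_iff hmodel a).1 hamem
      refine ⟨⟨a, haA⟩, (u : gaussRing hmodel), ?_, hau⟩
      have h2 : f = ⟨algebraMap K' F' a, hamem⟩ * (u : gaussRing hmodel) := Subtype.ext hau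
      rw [h2, map_mul] at hf
      have h3 : gaussRed hmodel ⟨algebraMap K' F' a, hamem⟩ = algebraMap k Ft (π ⟨a, haA⟩) :=
        gaussRed_algebraMap hmodel ⟨a, haA⟩
      rw [h3] at hf
      have h4 : gaussRed hmodel (u : gaussRing hmodel) ≠ 0 := (isUnit_iff hmodel _).1 u.isUnit
      exact (map_eq_zero (algebraMap k Ft)).1 ((mul_eq_zero.1 hf).resolve_right h4)
  · exact scale hmodel
  · -- the membership criterion
    intro y
    constructor
    · rintro ⟨α, β, hβ, hy⟩
      obtain ⟨p, hp⟩ := (hB _).1 α.2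
      obtain ⟨q, hq⟩ := (hB _).1 β.2
      have hq2 : lin (ev₂ π xt) c q ≠ 0 := by
        have h1 : β = ⟨lin (ev₁ A x) b q, hlinB q⟩ := Subtype.ext hq.symm
        rw [h1, hρ] at hβ
        exact hβ
      obtain ⟨q', D, hD, hqq'⟩ := exists_inverse A π hπ x xt b c hc γ hγb hγc υ hυb q hq2
      have hD0 : ev₁ A x D ≠ 0 := fun h0 =>
        hD (by rw [ev₁_eq_zero A hx h0, Polynomial.map_zero])
      have hq0 : lin (ev₁ A x) b q ≠ 0 := fun h0 => hD0 (by rw [← hqq', h0, zero_mul])
      refine ⟨(mulMat γ p).mulVec q', D, hD, ?_⟩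
      show ev₁ A x D * y = lin (ev₁ A x) b ((mulMat γ p).mulVec q')
      rw [lin_mulVec _ _ γ hγb, hy, ← hp, ← hq, ← hqq']
      field_simp
    · rintro ⟨p, s, hs, hy⟩
      exact (hfracmem p s hs y hy).1
  · -- the reduction of a fraction
    intro y p s hs hy
    obtain ⟨hmem, hred⟩ := hfracmem p s hs (y : F') hy
    exact hred

end Fermat.Agent.S27P.GR
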