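/-
S27 / (GR), row GR-GB (helper87): the good basis of the Gauss valuation ring.

From the OUTPUT clauses of `exists_gauss` (row GR-G), taken as hypotheses on `(O, red)`:
`O₀ := O ∩ K'(x)`, `red₀ := red` restricted (its values lie in `k(xt)`), and the lattice basis
`b i ∈ O` with `red (b i) = c i` form a `Lib.Red.Ortho.GoodBasis O red O₀ red₀ (Fin n)`.
-/
import Mathlib
import Fermat.Agent.Lib.Red.Ortho

set_option autoImplicit false

noncomputable section

namespace Fermat.Agent.S27P.GR.GoodBasis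

open Polynomial IntermediateField

variable {K' F' k Ft : Type*} [Field K'] [Field F'] [Algebra K' F'] [Field k] [Field Ft]
  [Algebra k Ft]

/-- A rational function of a transcendental element with a nonzero denominator. -/
theorem exists_frac {x : F'} (f : ↥(K'⟮x⟯)) :
    ∃ r t : K'[X], t ≠ 0 ∧ (f : F') * aeval x t = aeval x r := by
  obtain ⟨r, t, hrt⟩ := (mem_adjoin_simple_iff K' (f : F')).1 f.2
  by_cases ht : aeval x t = 0
  · refine ⟨0, 1, one_ne_zero, ?_⟩
    rw [hrt, ht, div_zero, zero_mul, map_zero]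
  · refine ⟨r, t, ?_, ?_⟩
    · rintro rfl
      exact ht (map_zero _)
    · rw [hrt, div_mul_cancel₀ _ ht]

/-- Linear independence over `k[X]` (through `aeval xt`) upgrades to linear independence over
the field `k(xt)`. -/
theorem linearIndependent_adjoin {n : ℕ} {xt : Ft} (hxt : Transcendental k xt) (c : Fin n → Ft)
    (hc : ∀ p : Fin n → k[X], ∑ i, aeval xt (p i) * c i = 0 → p = 0) :
    LinearIndependent ↥(k⟮xt⟯) c := by
  classical
  rw [Fintype.linearIndependent_iff]
  intro g hg i
  choose r t ht hrt using fun j => exists_frac (g j)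
  have hne : ∀ j, aeval xt (t j) ≠ 0 := fun j h =>
    ht j ((transcendental_iff.1 hxt) _ h)
  -- clear denominators
  set q : Fin n → k[X] := fun j => r j * ∏ l ∈ Finset.univ.erase j, t l with hq
  have hprod : ∀ j, t j * ∏ l ∈ Finset.univ.erase j, t l = ∏ l, t l := fun j =>
    Finset.mul_prod_erase Finset.univ t (Finset.mem_univ j)
  have hsum : ∑ j, aeval xt (q j) * c j = 0 := by
    have h1 : ∀ j, aeval xt (q j) * c j = aeval xt (∏ l, t l) * ((g j : Ft) * c j) := by
      intro j
      rw [hq]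
      simp only [map_mul]
      rw [← hprod j, map_mul, ← hrt j]
      ring
    rw [Finset.sum_congr rfl fun j _ => h1 j, ← Finset.mul_sum]
    have h2 : ∑ j, (g j : Ft) * c j = 0 := by
      have := hg
      simpa [Algebra.smul_def, IntermediateField.algebraMap_apply] using this
    rw [h2, mul_zero]
  have hq0 := congrFun (hc q hsum) i
  have hri : r i = 0 := by
    rw [hq] at hq0
    have hpne : ∏ l ∈ Finset.univ.erase i, t l ≠ 0 :=
      Finset.prod_ne_zero_iff.2 fun l _ => ht l
    exact (mul_eq_zero.1 hq0).resolve_right hpne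
  have h3 := hrt i
  rw [hri, map_zero] at h3
  have h4 : (g i : Ft) = 0 := (mul_eq_zero.1 h3).resolve_right (hne i)
  exact Subtype.ext h4

variable (A : ValuationSubring K') (π : A →+* k) {n : ℕ} (x : F') (xt : Ft)
  (b : Fin n → F') (c : Fin n → Ft)

/-- The coefficient vector of `b i` in the lattice basis. -/
def unitVec (i : Fin n) : Fin n → A[X] := fun j => if j = i then 1 else 0

theorem sum_unitVec_b (i : Fin n) :
    ∑ j, aeval x ((unitVec A i j).map A.subtype) * b j = b i := by
  classical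
  rw [Finset.sum_eq_single i]
  · simp [unitVec]
  · intro j _ hj
    simp [unitVec, hj]
  · intro h
    exact absurd (Finset.mem_univ i) h

theorem sum_unitVec_c (i : Fin n) :
    ∑ j, aeval xt ((unitVec A i j).map π) * c j = c i := by
  classical
  rw [Finset.sum_eq_single i]
  · simp [unitVec]
  · intro j _ hj
    simp [unitVec, hj]
  · intro h
    exact absurd (Finset.mem_univ i) h

variable {A π x xt b c}

section Main

variable (hx : Transcendental K' x) (hxt : Transcendental k xt)
  (hb : ∀ p : Fin n → K'[X], ∑ i, aeval x (p i) * b i = 0 → p = 0)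
  (hbs : ∀ y : F', ∃ (p : Fin n → K'[X]) (s : K'[X]), s ≠ 0 ∧
    aeval x s * y = ∑ i, aeval x (p i) * b i)
  (hc : ∀ p : Fin n → k[X], ∑ i, aeval xt (p i) * c i = 0 → p = 0)
  (υ : Fin n → A[X])
  (hυb : (1 : F') = ∑ l, aeval x ((υ l).map A.subtype) * b l)
  (hυc : (1 : Ft) = ∑ l, aeval xt ((υ l).map π) * c l)
  (O : ValuationSubring F') (red : O →+* Ft)
  (hmem : ∀ y : F', y ∈ O ↔ ∃ (p : Fin n → A[X]) (s : A[X]), s.map π ≠ 0 ∧
    aeval x (s.map A.subtype) * y = ∑ i, aeval x ((p i).map A.subtype) * b i)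
  (hred : ∀ (y : O) (p : Fin n → A[X]) (s : A[X]), s.map π ≠ 0 →
    aeval x (s.map A.subtype) * (y : F') = ∑ i, aeval x ((p i).map A.subtype) * b i →
    aeval xt (s.map π) * red y = ∑ i, aeval xt ((p i).map π) * c i)

include hmem in
/-- The lattice basis lies in `O`. -/
theorem b_mem (i : Fin n) : b i ∈ O := by
  rw [hmem]
  refine ⟨unitVec A i, 1, ?_, ?_⟩
  · rw [Polynomial.map_one]
    exact one_ne_zero
  · rw [sum_unitVec_b, Polynomial.map_one, map_one, one_mul]

include hmem hred in
/-- The lattice basis reduces to the lattice basis of the special fibre. -/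
theorem red_b (i : Fin n) : red ⟨b i, b_mem O hmem i⟩ = c i := by
  have h := hred ⟨b i, b_mem O hmem i⟩ (unitVec A i) 1
    (by rw [Polynomial.map_one]; exact one_ne_zero)
    (by rw [sum_unitVec_b, Polynomial.map_one, map_one, one_mul])
  rw [sum_unitVec_c, Polynomial.map_one, map_one, one_mul] at h
  exact h

include hx hbs in
/-- The lattice basis spans `F'` over `K'(x)`. -/
theorem span_b (y : F') :
    ∃ d : Fin n → ↥(K'⟮x⟯), y = ∑ i, algebraMap ↥(K'⟮x⟯) F' (d i) * b i := by
  obtain ⟨p, s, hs, hps⟩ := hbs y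
  have hs0 : aeval x s ≠ 0 := fun h => hs ((transcendental_iff.1 hx) _ h)
  refine ⟨fun i => ⟨aeval x (p i) / aeval x s,
    (mem_adjoin_simple_iff K' _).2 ⟨p i, s, rfl⟩⟩, ?_⟩
  have h1 : ∀ i, algebraMap ↥(K'⟮x⟯) F' ⟨aeval x (p i) / aeval x s,
      (mem_adjoin_simple_iff K' _).2 ⟨p i, s, rfl⟩⟩ * b i =
      (aeval x s)⁻¹ * (aeval x (p i) * b i) := by
    intro i
    rw [IntermediateField.algebraMap_apply]
    show aeval x (p i) / aeval x s * b i = _
    rw [div_eq_mul_inv]
    ring
  rw [Finset.sum_congr rfl fun i _ => h1 i, ← Finset.mul_sum, ← hps, ← mul_assoc,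
    inv_mul_cancel₀ hs0, one_mul]

include hxt hb hυb hυc hmem hred in
/-- **The reduction of a rational function of `x` lying in `O` is a rational function of
`xt`.** -/
theorem red_mem_adjoin (f : ↥(K'⟮x⟯)) (hf : (f : F') ∈ O) :
    red ⟨(f : F'), hf⟩ ∈ k⟮xt⟯ := by
  classical
  obtain ⟨r, t, ht, hrt⟩ := exists_frac f
  obtain ⟨p, s, hs, hps⟩ := (hmem (f : F')).1 hf
  -- comparison of coefficients in the basis `b`
  have hcoef : ∀ l, t * (p l).map A.subtype = s.map A.subtype * r * (υ l).map A.subtype := by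
    have hsum : ∑ l, aeval x (t * (p l).map A.subtype -
        s.map A.subtype * r * (υ l).map A.subtype) * b l = 0 := by
      have h1 : ∀ l, aeval x (t * (p l).map A.subtype -
          s.map A.subtype * r * (υ l).map A.subtype) * b l =
          aeval x t * (aeval x ((p l).map A.subtype) * b l) -
          aeval x (s.map A.subtype) * aeval x r * (aeval x ((υ l).map A.subtype) * b l) := by
        intro l
        simp only [map_sub, map_mul]
        ring
      rw [Finset.sum_congr rfl fun l _ => h1 l, Finset.sum_sub_distrib, ← Finset.mul_sum,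
        ← Finset.mul_sum, ← hps, ← hυb, mul_one, ← hrt]
      ring
    intro l
    have := congrFun (hb _ hsum) l
    exact sub_eq_zero.1 this
  -- proportionality over `A[X]`
  have hinj : Function.Injective (Polynomial.map A.subtype) :=
    Polynomial.map_injective _ A.subtype_injective
  have hprop : ∀ l m, p l * υ m = p m * υ l := by
    intro l m
    apply hinj
    have h1 : t * ((p l).map A.subtype * (υ m).map A.subtype) =
        t * ((p m).map A.subtype * (υ l).map A.subtype) := by
      rw [← mul_assoc, hcoef l, ← mul_assoc, hcoef m]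
      ring
    rw [Polynomial.map_mul, Polynomial.map_mul]
    exact mul_left_cancel₀ ht h1
  have hpropk : ∀ l m, (p l).map π * (υ m).map π = (p m).map π * (υ l).map π := by
    intro l m
    rw [← Polynomial.map_mul, ← Polynomial.map_mul, hprop l m]
  -- a nonzero coordinate of `1`
  obtain ⟨m₀, hm₀⟩ : ∃ m, (υ m).map π ≠ 0 := by
    by_contra hall
    push Not at hall
    have : (1 : Ft) = 0 := by
      rw [hυc]
      refine Finset.sum_eq_zero fun l _ => ?_
      rw [hall l, map_zero, zero_mul]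
    exact one_ne_zero this
  have hden : aeval xt ((υ m₀).map π * s.map π) ≠ 0 := fun h =>
    (mul_ne_zero hm₀ hs) ((transcendental_iff.1 hxt) _ h)
  have hval := hred ⟨(f : F'), hf⟩ p s hs hps
  have hkey : aeval xt ((υ m₀).map π * s.map π) * red ⟨(f : F'), hf⟩ =
      aeval xt ((p m₀).map π) := by
    rw [map_mul, mul_assoc, hval, Finset.mul_sum]
    have h1 : ∀ i, aeval xt ((υ m₀).map π) * (aeval xt ((p i).map π) * c i) =
        aeval xt ((p m₀).map π) * (aeval xt ((υ i).map π) * c i) := by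
      intro i
      rw [← mul_assoc, ← map_mul, mul_comm ((υ m₀).map π), hpropk i m₀, map_mul, mul_assoc]
    rw [Finset.sum_congr rfl fun i _ => h1 i, ← Finset.mul_sum, ← hυc, mul_one]
  rw [mem_adjoin_simple_iff]
  refine ⟨(p m₀).map π, (υ m₀).map π * s.map π, ?_⟩
  rw [eq_div_iff hden, mul_comm]
  exact hkey

/-- The trace of `O` on `K'(x)`. -/
def O₀ (K' : Type*) {F' : Type*} [Field K'] [Field F'] [Algebra K' F'] (x : F')
    (O : ValuationSubring F') : ValuationSubring ↥(K'⟮x⟯) :=
  O.comap (algebraMap ↥(K'⟮x⟯) F')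

/-- The inclusion of the trace into `O`. -/
def incl (K' : Type*) {F' : Type*} [Field K'] [Field F'] [Algebra K' F'] (x : F')
    (O : ValuationSubring F') : ↥(O₀ K' x O) →+* ↥O :=
  RingHom.codRestrict ((algebraMap ↥(K'⟮x⟯) F').comp (O₀ K' x O).subtype) O
    (fun d => (ValuationSubring.mem_comap).1 d.2)

include hxt hb hυb hυc hmem hred in
/-- The restriction of `red` to the trace, with values in `k(xt)`. -/
def red₀ : ↥(O₀ K' x O) →+* ↥(k⟮xt⟯) :=
  RingHom.codRestrict (red.comp (incl K' x O)) (k⟮xt⟯)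
    (fun d => red_mem_adjoin hxt hb υ hυb hυc O red hmem hred (d : ↥(K'⟮x⟯))
      ((ValuationSubring.mem_comap).1 d.2))

end Main

/-- **GR-GB.** The good basis of the Gauss valuation ring `O` over its trace on `K'(x)`, from
the output clauses of `exists_gauss`. -/
theorem exists_goodBasis (hx : Transcendental K' x) (hxt : Transcendental k xt)
    (hb : ∀ p : Fin n → K'[X], ∑ i, aeval x (p i) * b i = 0 → p = 0)
    (hbs : ∀ y : F', ∃ (p : Fin n → K'[X]) (s : K'[X]), s ≠ 0 ∧
      aeval x s * y = ∑ i, aeval x (p i) * b i)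
    (hc : ∀ p : Fin n → k[X], ∑ i, aeval xt (p i) * c i = 0 → p = 0)
    (υ : Fin n → A[X])
    (hυb : (1 : F') = ∑ l, aeval x ((υ l).map A.subtype) * b l)
    (hυc : (1 : Ft) = ∑ l, aeval xt ((υ l).map π) * c l)
    (O : ValuationSubring F') (red : O →+* Ft)
    (hsurj : Function.Surjective red)
    (hker : ∀ y : O, red y = 0 ↔ ¬ IsUnit y)
    (hmem : ∀ y : F', y ∈ O ↔ ∃ (p : Fin n → A[X]) (s : A[X]), s.map π ≠ 0 ∧
      aeval x (s.map A.subtype) * y = ∑ i, aeval x ((p i).map A.subtype) * b i)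
    (hred : ∀ (y : O) (p : Fin n → A[X]) (s : A[X]), s.map π ≠ 0 →
      aeval x (s.map A.subtype) * (y : F') = ∑ i, aeval x ((p i).map A.subtype) * b i →
      aeval xt (s.map π) * red y = ∑ i, aeval xt ((p i).map π) * c i) :
    ∃ (O₀ : ValuationSubring ↥(K'⟮x⟯)) (red₀ : O₀ →+* ↥(k⟮xt⟯)),
      (∀ d : ↥(K'⟮x⟯), d ∈ O₀ ↔ (d : F') ∈ O) ∧
      (∀ (d : O₀) (h : ((d : ↥(K'⟮x⟯)) : F') ∈ O), ((red₀ d : ↥(k⟮xt⟯)) : Ft) = red ⟨_, h⟩) ∧
      ∃ G : Fermat.Agent.Lib.Red.Ortho.GoodBasis O red O₀ red₀ (Fin n),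
        (∀ i, ((G.b i : O) : F') = b i) ∧ ∀ i, red (G.b i) = c i := by
  refine ⟨O₀ K' x O, red₀ hxt hb υ hυb hυc O red hmem hred, fun d => Iff.rfl,
    fun d h => rfl, ?_⟩
  refine ⟨{ compat := ⟨hker, fun d => Iff.rfl, fun d h => rfl⟩
            surj := hsurj
            b := fun i => ⟨b i, b_mem O hmem i⟩
            ind := ?_
            span := span_b hx hbs }, fun i => rfl, fun i => red_b O red hmem hred i⟩
  have h : (fun i => red ⟨b i, b_mem O hmem i⟩) = c := funext fun i => red_b O red hmem hred i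
  rw [h]
  exact linearIndependent_adjoin hxt c hc

/-- **GR-GB, engine form.** The same with `x`, `xt` given as `(xO : F')`, `red xO` for an
element `xO : O` (the shape of `K₀`, `E₀` in `Lib.Red.PlaceRedMain.exists_reduction_of_gauss`). -/
theorem exists_goodBasis' (hx : Transcendental K' x) (hxt : Transcendental k xt)
    (hb : ∀ p : Fin n → K'[X], ∑ i, aeval x (p i) * b i = 0 → p = 0)
    (hbs : ∀ y : F', ∃ (p : Fin n → K'[X]) (s : K'[X]), s ≠ 0 ∧
      aeval x s * y = ∑ i, aeval x (p i) * b i)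
    (hc : ∀ p : Fin n → k[X], ∑ i, aeval xt (p i) * c i = 0 → p = 0)
    (υ : Fin n → A[X])
    (hυb : (1 : F') = ∑ l, aeval x ((υ l).map A.subtype) * b l)
    (hυc : (1 : Ft) = ∑ l, aeval xt ((υ l).map π) * c l)
    (O : ValuationSubring F') (red : O →+* Ft)
    (hsurj : Function.Surjective red)
    (hker : ∀ y : O, red y = 0 ↔ ¬ IsUnit y)
    (hmem : ∀ y : F', y ∈ O ↔ ∃ (p : Fin n → A[X]) (s : A[X]), s.map π ≠ 0 ∧
      aeval x (s.map A.subtype) * y = ∑ i, aeval x ((p i).map A.subtype) * b i)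
    (hred : ∀ (y : O) (p : Fin n → A[X]) (s : A[X]), s.map π ≠ 0 →
      aeval x (s.map A.subtype) * (y : F') = ∑ i, aeval x ((p i).map A.subtype) * b i →
      aeval xt (s.map π) * red y = ∑ i, aeval xt ((p i).map π) * c i)
    (xO : O) (hxO : (xO : F') = x) (hredx : red xO = xt) :
    ∃ (O₀ : ValuationSubring ↥(K'⟮(xO : F')⟯)) (red₀ : O₀ →+* ↥(k⟮red xO⟯)),
      ∃ G : Fermat.Agent.Lib.Red.Ortho.GoodBasis O red O₀ red₀ (Fin n),
        (∀ i, ((G.b i : O) : F') = b i) ∧ ∀ i, red (G.b i) = c i := by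
  subst hxO hredx
  obtain ⟨O₀, red₀, -, -, G, hG⟩ :=
    exists_goodBasis hx hxt hb hbs hc υ hυb hυc O red hsurj hker hmem hred
  exact ⟨O₀, red₀, G, hG⟩

end Fermat.Agent.S27P.GR.GoodBasis
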