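import Mathlib

/-!
# S27 / (GR): locally principal regular maximal ideals + connectedness ⟹ Dedekind domain

Pure commutative algebra (Mathlib only, universe-polymorphic).  This is the abstract core of
"the special fibre `B_k` of the model is a Dedekind domain":

* `exists_eq_pow_mul_unit`, `isDomain_of_maximalIdeal_eq_span` (L1): a Noetherian local ring whose
  maximal ideal is generated by one non-zero-divisor is a domain (every nonzero element is a unit
  times a power of the generator);
* `isDomain_of_isDomain_localization` (L2): a Noetherian ring which is a domain locally at every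
  maximal ideal and has only the trivial idempotents is a domain;
* `isDedekindDomain_of_locally_principal` (L3): the criterion in the shape a certificate proves
  chart by chart — at every maximal ideal `m` there is `t ∈ m`, locally regular, which generates
  `m` up to multipliers outside `m`.

No localisation appears in the hypotheses of (L3).
-/

set_option autoImplicit false
set_option linter.style.haveILetI false
set_option linter.unusedSectionVars false

namespace Fermat.Agent.S27P.GR.LocDed

open IsLocalRing

/-! ### (L1) one regular generator of the maximal ideal -/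

section Local

variable {R : Type*} [CommRing R] [IsNoetherianRing R] [IsLocalRing R]

/-- In a Noetherian local ring with maximal ideal `(t)`, every nonzero element is `t ^ n` times a
unit. -/
theorem exists_eq_pow_mul_unit {t : R} (ht : maximalIdeal R = Ideal.span {t}) {a : R}
    (ha : a ≠ 0) : ∃ (n : ℕ) (u : Rˣ), a = t ^ n * u := by
  classical
  have hbot : ⨅ i : ℕ, maximalIdeal R ^ i = ⊥ :=
    Ideal.iInf_pow_eq_bot_of_isLocalRing _ (maximalIdeal.isMaximal R).ne_top
  have hex : ∃ n : ℕ, a ∉ maximalIdeal R ^ n := by
    by_contra hcon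
    push Not at hcon
    apply ha
    have hmem : a ∈ ⨅ i : ℕ, maximalIdeal R ^ i := by
      rw [Ideal.mem_iInf]
      exact hcon
    rw [hbot] at hmem
    exact hmem
  have hn : a ∉ maximalIdeal R ^ Nat.find hex := Nat.find_spec hex
  have hn0 : Nat.find hex ≠ 0 := by
    intro h0
    rw [h0, pow_zero, Ideal.one_eq_top] at hn
    exact hn trivial
  obtain ⟨k, hk⟩ := Nat.exists_eq_succ_of_ne_zero hn0
  have hmem : a ∈ maximalIdeal R ^ k := by
    by_contra h
    exact Nat.find_min hex (by omega) h
  rw [ht, Ideal.span_singleton_pow, Ideal.mem_span_singleton] at hmem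
  obtain ⟨u, hu⟩ := hmem
  have hunit : IsUnit u := by
    by_contra hnu
    have hum : u ∈ maximalIdeal R := (mem_maximalIdeal u).2 hnu
    rw [ht, Ideal.mem_span_singleton] at hum
    obtain ⟨w, hw⟩ := hum
    apply hn
    rw [hk, ht, Ideal.span_singleton_pow, Ideal.mem_span_singleton]
    exact ⟨w, by rw [hu, hw, pow_succ, mul_assoc]⟩
  exact ⟨k, hunit.unit, by rw [hu, IsUnit.unit_spec]⟩

/-- **(L1)** A Noetherian local ring whose maximal ideal is generated by one non-zero-divisor is
a domain. -/
theorem isDomain_of_maximalIdeal_eq_span {t : R} (ht : maximalIdeal R = Ideal.span {t})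
    (hreg : ∀ y : R, t * y = 0 → y = 0) : IsDomain R := by
  have hpow : ∀ k : ℕ, t ^ k ≠ 0 := by
    intro k
    induction k with
    | zero =>
      rw [pow_zero]
      exact one_ne_zero
    | succ k ih =>
      intro h
      rw [pow_succ'] at h
      exact ih (hreg _ h)
  haveI : NoZeroDivisors R := by
    refine ⟨fun {a b} hab => ?_⟩
    by_contra hcon
    push Not at hcon
    obtain ⟨n, u, hu⟩ := exists_eq_pow_mul_unit ht hcon.1
    obtain ⟨m, v, hv⟩ := exists_eq_pow_mul_unit ht hcon.2
    apply hpow (n + m)
    have h1 : t ^ (n + m) * ((u * v : Rˣ) : R) = 0 := by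
      rw [← hab, hu, hv, pow_add, Units.val_mul]
      ring
    exact (Units.mul_left_eq_zero (u * v)).1 h1
  exact NoZeroDivisors.to_isDomain R

/-- In the situation of (L1) the ring is not a field. -/
theorem not_isField_of_maximalIdeal_eq_span {t : R} (ht : maximalIdeal R = Ideal.span {t})
    (hreg : ∀ y : R, t * y = 0 → y = 0) : ¬ IsField R := by
  intro hf
  have hbot : maximalIdeal R = ⊥ := isField_iff_maximalIdeal_eq.1 hf
  have ht0 : t = 0 := by
    have hmem : t ∈ maximalIdeal R := by
      rw [ht]
      exact Ideal.mem_span_singleton_self t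
    rw [hbot] at hmem
    exact hmem
  exact one_ne_zero (hreg 1 (by rw [ht0, zero_mul]))

/-- In the situation of (L1) the ring is a discrete valuation ring. -/
theorem isDiscreteValuationRing_of_maximalIdeal_eq_span {t : R}
    (ht : maximalIdeal R = Ideal.span {t}) (hreg : ∀ y : R, t * y = 0 → y = 0) :
    haveI := isDomain_of_maximalIdeal_eq_span ht hreg
    IsDiscreteValuationRing R := by
  haveI := isDomain_of_maximalIdeal_eq_span ht hreg
  have hnf := not_isField_of_maximalIdeal_eq_span ht hreg
  refine ((IsDiscreteValuationRing.TFAE R hnf).out 0 4).2 ?_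
  exact ⟨⟨t, ht⟩⟩

end Local

/-! ### (L2) locally a domain + connected ⟹ domain -/

section Global

variable {R : Type*} [CommRing R]

/-- **(L2)** A Noetherian ring which is a domain locally at every maximal ideal and has only the
trivial idempotents is a domain. -/
theorem isDomain_of_isDomain_localization [IsNoetherianRing R] [Nontrivial R]
    (hloc : ∀ m : Ideal R, ∀ _ : m.IsMaximal, IsDomain (Localization.AtPrime m))
    (hidem : ∀ e : R, e * e = e → e = 0 ∨ e = 1) : IsDomain R := by
  classical
  -- every element is zero or regular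
  have key : ∀ a : R, a = 0 ∨ ∀ y : R, y * a = 0 → y = 0 := by
    intro a
    -- `I = Ann(a)`, `J = Ann(I)`
    let I : Ideal R := Ideal.span {a} |>.annihilator
    let J : Ideal R := I.annihilator
    have hI : ∀ y : R, y ∈ I ↔ y * a = 0 := by
      intro y
      show y ∈ (Ideal.span {a}).annihilator ↔ _
      rw [Submodule.mem_annihilator_span_singleton]
      rfl
    have hJ : ∀ y : R, y ∈ J ↔ ∀ i ∈ I, y * i = 0 := by
      intro y
      show y ∈ I.annihilator ↔ _
      rw [Submodule.mem_annihilator]
      rfl
    have htop : I ⊔ J = ⊤ := by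
      by_contra hne
      obtain ⟨m, hm, hle⟩ := Ideal.exists_le_maximal _ hne
      haveI := hm
      haveI := hloc m hm
      have hIm : I ≤ m := le_sup_left.trans hle
      have hJm : J ≤ m := le_sup_right.trans hle
      by_cases ha0 : algebraMap R (Localization.AtPrime m) a = 0
      · -- then some `s ∉ m` kills `a`
        obtain ⟨s, hs⟩ := (IsLocalization.map_eq_zero_iff m.primeCompl _ a).1 ha0
        exact s.2 (hIm ((hI _).2 hs))
      · -- then `I` is locally zero: some `s ∉ m` kills `I`
        have hkill : ∀ i ∈ I, ∃ s : R, s ∉ m ∧ s * i = 0 := by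
          intro i hi
          have h0 : algebraMap R (Localization.AtPrime m) i *
              algebraMap R (Localization.AtPrime m) a = 0 := by
            rw [← map_mul, (hI i).1 hi, map_zero]
          have hi0 : algebraMap R (Localization.AtPrime m) i = 0 :=
            (mul_eq_zero.1 h0).resolve_right ha0
          obtain ⟨s, hs⟩ := (IsLocalization.map_eq_zero_iff m.primeCompl _ i).1 hi0
          exact ⟨s, s.2, hs⟩
        obtain ⟨S, hS⟩ := (isNoetherianRing_iff_ideal_fg R).1 inferInstance I
        have hex : ∃ s : R, s ∉ m ∧ ∀ i ∈ S, s * i = 0 := by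
          have hSI : ∀ i ∈ S, i ∈ I := fun i hi => hS ▸ Ideal.subset_span hi
          clear hS
          induction S using Finset.induction_on with
          | empty => exact ⟨1, (Ideal.ne_top_iff_one m).1 hm.ne_top, by simp⟩
          | insert b S _ ih =>
            obtain ⟨s, hs, hsS⟩ := ih fun i hi => hSI i (Finset.mem_insert_of_mem hi)
            obtain ⟨s', hs', hs'b⟩ := hkill b (hSI b (Finset.mem_insert_self b S))
            refine ⟨s * s', fun hmem => ?_, fun i hi => ?_⟩
            · rcases hm.isPrime.mem_or_mem hmem with h | h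
              · exact hs h
              · exact hs' h
            · rcases Finset.mem_insert.1 hi with rfl | hi
              · rw [mul_assoc, hs'b, mul_zero]
              · rw [mul_comm s s', mul_assoc, hsS i hi, mul_zero]
        obtain ⟨s, hs, hsS⟩ := hex
        apply hs
        apply hJm
        rw [hJ]
        intro i hi
        rw [← hS] at hi
        refine Submodule.span_induction (p := fun i _ => s * i = 0) ?_ ?_ ?_ ?_ hi
        · intro x hx
          exact hsS x hx
        · exact mul_zero s
        · intro x y _ _ hx hy
          rw [mul_add, hx, hy, add_zero]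
        · intro c x _ hx
          rw [smul_eq_mul, mul_left_comm, hx, mul_zero]
    -- an idempotent
    have h1 : (1 : R) ∈ I ⊔ J := by
      rw [htop]
      exact Submodule.mem_top
    obtain ⟨e, he, f, hf, hef⟩ := Submodule.mem_sup.1 h1
    have hfe : f * e = 0 := (hJ f).1 hf e he
    have hee : e * e = e := by
      have : e * e = e * (e + f) - f * e := by ring
      rw [this, hef, hfe, mul_one, sub_zero]
    rcases hidem e hee with h0 | h1'
    · -- `f = 1`, so `Ann(a) = 0`
      right
      have hf1 : f = 1 := by rw [← hef, h0, zero_add]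
      intro y hy
      have := (hJ f).1 hf y ((hI y).2 hy)
      rwa [hf1, one_mul] at this
    · -- `1 ∈ Ann(a)`
      left
      have := (hI e).1 he
      rwa [h1', one_mul] at this
  haveI : NoZeroDivisors R := by
    refine ⟨fun {a b} hab => ?_⟩
    rcases key b with hb | hb
    · exact Or.inr hb
    · exact Or.inl (hb a hab)
  exact NoZeroDivisors.to_isDomain R

/-! ### (L3) the criterion -/

/-- The local hypothesis of (L3) at one maximal ideal: a locally regular element `t ∈ m` which
generates `m` up to multipliers outside `m`. -/
def LocGen (m : Ideal R) (t : R) : Prop :=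
  t ∈ m ∧ (∀ y : R, t * y = 0 → ∃ s, s ∉ m ∧ s * y = 0) ∧
    ∀ y ∈ m, ∃ s, s ∉ m ∧ ∃ z, s * y = t * z

/-- Under `LocGen m t` the maximal ideal of the localisation at `m` is generated by the image of
`t`. -/
theorem maximalIdeal_eq_span_of_locGen {m : Ideal R} [m.IsMaximal] {t : R} (h : LocGen m t) :
    maximalIdeal (Localization.AtPrime m) =
      Ideal.span {algebraMap R (Localization.AtPrime m) t} := by
  apply le_antisymm
  · rw [← Localization.AtPrime.map_eq_maximalIdeal, Ideal.map_le_iff_le_comap]
    intro y hy
    obtain ⟨s, hs, z, hz⟩ := h.2.2 y hy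
    rw [Ideal.mem_comap, Ideal.mem_span_singleton]
    have hsu : IsUnit (algebraMap R (Localization.AtPrime m) s) :=
      IsLocalization.map_units (Localization.AtPrime m) (⟨s, hs⟩ : m.primeCompl)
    obtain ⟨u, hu⟩ := hsu
    refine ⟨algebraMap R (Localization.AtPrime m) z * (u⁻¹ : (Localization.AtPrime m)ˣ), ?_⟩
    have h1 : algebraMap R (Localization.AtPrime m) s * algebraMap R (Localization.AtPrime m) y =
        algebraMap R (Localization.AtPrime m) t * algebraMap R (Localization.AtPrime m) z := by
      rw [← map_mul, ← map_mul, hz]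
    rw [← hu] at h1
    calc algebraMap R (Localization.AtPrime m) y
        = (u⁻¹ : (Localization.AtPrime m)ˣ) * ((u : Localization.AtPrime m) *
            algebraMap R (Localization.AtPrime m) y) := by
          rw [← mul_assoc, Units.inv_mul, one_mul]
      _ = algebraMap R (Localization.AtPrime m) t *
          (algebraMap R (Localization.AtPrime m) z * (u⁻¹ : (Localization.AtPrime m)ˣ)) := by
          rw [h1]
          ring
  · rw [Ideal.span_singleton_le_iff_mem, ← Localization.AtPrime.map_eq_maximalIdeal]
    exact Ideal.mem_map_of_mem _ h.1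

/-- Under `LocGen m t` the image of `t` in the localisation at `m` is a non-zero-divisor. -/
theorem regular_of_locGen {m : Ideal R} [m.IsMaximal] {t : R} (h : LocGen m t)
    (Y : Localization.AtPrime m) (hY : algebraMap R (Localization.AtPrime m) t * Y = 0) :
    Y = 0 := by
  obtain ⟨y, s, rfl⟩ := IsLocalization.exists_mk'_eq m.primeCompl Y
  have h1 : algebraMap R (Localization.AtPrime m) (t * y) = 0 := by
    have h2 : algebraMap R (Localization.AtPrime m) t *
        IsLocalization.mk' (Localization.AtPrime m) y s *
        algebraMap R (Localization.AtPrime m) (s : R) = 0 := by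
      rw [hY, zero_mul]
    rwa [mul_assoc, IsLocalization.mk'_spec, ← map_mul] at h2
  obtain ⟨s', hs'⟩ := (IsLocalization.map_eq_zero_iff m.primeCompl _ (t * y)).1 h1
  have h3 : t * ((s' : R) * y) = 0 := by
    rw [mul_left_comm]
    exact hs'
  obtain ⟨s'', hs'', h4⟩ := h.2.1 _ h3
  have h5 : algebraMap R (Localization.AtPrime m) y = 0 := by
    rw [IsLocalization.map_eq_zero_iff m.primeCompl]
    refine ⟨⟨s'' * s', fun hmem => ?_⟩, ?_⟩
    · rcases (Ideal.IsMaximal.isPrime ‹_›).mem_or_mem hmem with hh | hh
      · exact hs'' hh
      · exact s'.2 hh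
    · show s'' * (s' : R) * y = 0
      rw [mul_assoc]
      exact h4
  rw [IsLocalization.mk'_eq_zero_iff]
  obtain ⟨c, hc⟩ := (IsLocalization.map_eq_zero_iff m.primeCompl _ y).1 h5
  exact ⟨c, hc⟩

variable [IsNoetherianRing R]

/-- Under `LocGen m t` the localisation at `m` is a domain. -/
theorem isDomain_localization_of_locGen {m : Ideal R} [m.IsMaximal] {t : R} (h : LocGen m t) :
    IsDomain (Localization.AtPrime m) :=
  isDomain_of_maximalIdeal_eq_span (maximalIdeal_eq_span_of_locGen h) (regular_of_locGen h)

/-- Under `LocGen m t` the localisation at `m` is a discrete valuation ring. -/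
theorem isDiscreteValuationRing_localization_of_locGen {m : Ideal R} [m.IsMaximal] {t : R}
    (h : LocGen m t) :
    haveI := isDomain_localization_of_locGen h
    IsDiscreteValuationRing (Localization.AtPrime m) :=
  isDiscreteValuationRing_of_maximalIdeal_eq_span (maximalIdeal_eq_span_of_locGen h)
    (regular_of_locGen h)

/-- The domain half of (L3). -/
theorem isDomain_of_locally_principal [Nontrivial R]
    (hidem : ∀ e : R, e * e = e → e = 0 ∨ e = 1)
    (hloc : ∀ m : Ideal R, m.IsMaximal → ∃ t, LocGen m t) : IsDomain R := by
  refine isDomain_of_isDomain_localization (fun m hm => ?_) hidem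
  haveI := hm
  obtain ⟨t, ht⟩ := hloc m hm
  exact isDomain_localization_of_locGen ht

/-- Under the hypotheses of (L3) every nonzero prime ideal is maximal. -/
theorem isMaximal_of_locally_principal [IsDomain R]
    (hloc : ∀ m : Ideal R, m.IsMaximal → ∃ t, LocGen m t) {P : Ideal R} [hP : P.IsPrime]
    (hP0 : P ≠ ⊥) : P.IsMaximal := by
  obtain ⟨m, hm, hPm⟩ := Ideal.exists_le_maximal P hP.ne_top
  haveI := hm
  obtain ⟨t, ht⟩ := hloc m hm
  haveI := isDomain_localization_of_locGen ht
  have hspan := maximalIdeal_eq_span_of_locGen ht
  -- a nonzero element of `P`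
  obtain ⟨p, hpP, hp0⟩ : ∃ p ∈ P, p ≠ 0 := by
    by_contra hcon
    push Not at hcon
    exact hP0 ((Submodule.eq_bot_iff P).2 hcon)
  have hinj : Function.Injective (algebraMap R (Localization.AtPrime m)) :=
    IsLocalization.injective _ m.primeCompl_le_nonZeroDivisors
  have hp0' : algebraMap R (Localization.AtPrime m) p ≠ 0 := by
    intro h0
    exact hp0 (hinj (by rw [h0, map_zero]))
  obtain ⟨n, u, hu⟩ := exists_eq_pow_mul_unit hspan hp0'
  -- `t ∈ P`
  have htP : t ∈ P := by
    -- `t ^ n * (unit) = p / 1`, clear denominators
    obtain ⟨w, s, hw⟩ := IsLocalization.exists_mk'_eq m.primeCompl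
      ((u⁻¹ : (Localization.AtPrime m)ˣ) : Localization.AtPrime m)
    have h1 : algebraMap R (Localization.AtPrime m) (t ^ n * (s : R)) =
        algebraMap R (Localization.AtPrime m) (p * w) := by
      have h2 : algebraMap R (Localization.AtPrime m) p *
          ((u⁻¹ : (Localization.AtPrime m)ˣ) : Localization.AtPrime m) =
          algebraMap R (Localization.AtPrime m) t ^ n := by
        rw [hu, mul_assoc, Units.mul_inv, mul_one]
      rw [map_mul, map_mul, map_pow, ← h2, ← hw, mul_assoc, IsLocalization.mk'_spec]
    have h3 : t ^ n * (s : R) = p * w := hinj h1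
    have h4 : t ^ n * (s : R) ∈ P := by
      rw [h3]
      exact P.mul_mem_right _ hpP
    rcases hP.mem_or_mem h4 with h5 | h5
    · exact hP.mem_of_pow_mem n h5
    · exact absurd (hPm h5) s.2
  -- hence `m ≤ P`
  have hmP : m ≤ P := by
    intro y hy
    obtain ⟨s, hs, z, hz⟩ := ht.2.2 y hy
    have h6 : s * y ∈ P := by
      rw [hz]
      exact P.mul_mem_right _ htP
    rcases hP.mem_or_mem h6 with h7 | h7
    · exact absurd (hPm h7) hs
    · exact h7
  have hPm' : P = m := le_antisymm hPm hmP
  rw [hPm']
  exact hm

/-- **(L3)** A Noetherian ring with only the trivial idempotents in which every maximal ideal `m`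
contains a locally regular element generating `m` up to multipliers outside `m` is a Dedekind
domain. -/
theorem isDedekindDomain_of_locally_principal [Nontrivial R]
    (hidem : ∀ e : R, e * e = e → e = 0 ∨ e = 1)
    (hloc : ∀ m : Ideal R, m.IsMaximal → ∃ t ∈ m,
      (∀ y : R, t * y = 0 → ∃ s, s ∉ m ∧ s * y = 0) ∧
      ∀ y ∈ m, ∃ s, s ∉ m ∧ ∃ z, s * y = t * z) : IsDedekindDomain R := by
  have hloc' : ∀ m : Ideal R, m.IsMaximal → ∃ t, LocGen m t := by
    intro m hm
    obtain ⟨t, ht, h1, h2⟩ := hloc m hm
    exact ⟨t, ht, h1, h2⟩
  haveI : IsDomain R := isDomain_of_locally_principal hidem hloc'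
  haveI : IsDedekindDomainDvr R :=
    { is_dvr_at_nonzero_prime := by
        intro P hP0 hP
        haveI := hP
        haveI hPmax : P.IsMaximal := isMaximal_of_locally_principal hloc' hP0
        obtain ⟨t, ht⟩ := hloc' P hPmax
        exact isDiscreteValuationRing_localization_of_locGen ht }
  exact IsDedekindDomainDvr.isDedekindDomain R

end Global

end Fermat.Agent.S27P.GR.LocDed
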