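import Mathlib
import Fermat.Agent.S27P.GR.Defs
import Fermat.Agent.S27P.GR.LocDed
import Fermat.Agent.S27P.GR.GaussModel
import Fermat.Agent.S27P.BC.Defs
import Fermat.Agent.S27P.Inj.Centre
import Fermat.Agent.S27P.Inj.RedPic
import Fermat.Agent.Lib.Red.OneStepGlue
import Fermat.Agent.Lib.Red.PlaceRedMain
import Fermat.Agent.Lib.FF.CechGenus

/-!
# S27 / (GR): the LITERALS of the rows (statements only, as `def … : Prop`)

Each `X_stmt` is the exact statement of the theorem `X` of the (GR) cut (reports #4155 and v1.1):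
same binders, the conclusion as the body.  Row owners prove `theorem X <binders> : <body>` in
their own file; consumers may take `X_stmt …` as a hypothesis until the row lands.
This file contains no proofs.
-/

set_option autoImplicit false
set_option linter.unusedVariables false

noncomputable section

namespace Fermat.Agent.S27P.GR.Literals

open Polynomial AlgebraicCurve IntermediateField
open Fermat.Agent.Lib.FF Fermat.Agent.Lib.Red Fermat.Agent.Lib.Red.PlaceRed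
open Fermat.Agent.S27P.GR Fermat.Agent.S27P

/-- LITERAL of `isIntegrallyClosed_of_chartCert` (statement only; the theorem lives in its row file). -/
def isIntegrallyClosed_of_chartCert_stmt {k R : Type*} [Field k] [CommRing R] [IsDomain R] [Algebra k R] {n : ℕ} (z : R) (β : Fin n → R) (h : ChartCert k R z β) : Prop :=
  IsIntegrallyClosed R

/-- LITERAL of `isDomain_of_localCert` (statement only; the theorem lives in its row file). -/
def isDomain_of_localCert_stmt {k R : Type*} [Field k] [CommRing R] [Algebra k R] {n : ℕ} (hn : 0 < n) (t : R) (β : Fin n → R) (hfree : ∀ f : R, ∃! p : Fin n → k[X], f = ∑ i, aeval t (p i) * β i) (h : LocalCertN k R t 0 1) : Prop :=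
  IsDomain R

/-- LITERAL of `LocalCertN.map` (statement only; the theorem lives in its row file). -/
def LocalCertN_map_stmt {Λ B k R : Type*} [CommRing Λ] [CommRing B] [Algebra Λ B] [CommRing k] [CommRing R] [Algebra k R] (φ : Λ →+* k) (ψ : B →+* R) (hψ : ∀ a, ψ (algebraMap Λ B a) = algebraMap k R (φ a)) (hspan : ∀ f : R, f ∈ Submodule.span k (Set.range ψ)) {z : B} {a : Λ} {m : ℕ} (h : LocalCertN Λ B z a m) : Prop :=
  LocalCertN k R (ψ z) (φ a) m

/-- LITERAL of `ChartCert.map` (statement only; the theorem lives in its row file). -/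
def ChartCert_map_stmt {Λ B k R : Type*} [CommRing Λ] [CommRing B] [Algebra Λ B] [CommRing k] [CommRing R] [Algebra k R] (φ : Λ →+* k) (ψ : B →+* R) (hψ : ∀ a, ψ (algebraMap Λ B a) = algebraMap k R (φ a)) {n : ℕ} {z : B} {β : Fin n → B} (h : ChartCert Λ B z β) (hfree : ∀ f : R, ∃! p : Fin n → k[X], f = ∑ i, aeval (ψ z) (p i) * ψ (β i)) : Prop :=
  ChartCert k R (ψ z) (fun i => ψ (β i))

/-- LITERAL of `exists_gauss` (statement only; the theorem lives in its row file). -/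
def exists_gauss_stmt {K' F' k Ft : Type*} [Field K'] [Field F'] [Algebra K' F'] [Field k] [Field Ft] [Algebra k Ft] (A : ValuationSubring K') (π : A →+* k) (hπ : Function.Surjective π) (hπ0 : ∀ a : A, ¬ IsUnit a → π a = 0) {n : ℕ} (x : F') (xt : Ft) (hx : Transcendental K' x) (hxt : Transcendental k xt) (b : Fin n → F') (c : Fin n → Ft) (hb : ∀ p : Fin n → K'[X], ∑ i, aeval x (p i) * b i = 0 → p = 0) (hbs : ∀ y : F', ∃ (p : Fin n → K'[X]) (s : K'[X]), s ≠ 0 ∧ aeval x s * y = ∑ i, aeval x (p i) * b i) (hc : ∀ p : Fin n → k[X], ∑ i, aeval xt (p i) * c i = 0 → p = 0) (hcs : ∀ y : Ft, ∃ (p : Fin n → k[X]) (s : k[X]), s ≠ 0 ∧ aeval xt s * y = ∑ i, aeval xt (p i) * c i) (γ : Fin n → Fin n → Fin n → A[X]) (hγb : ∀ i j, b i * b j = ∑ l, aeval x ((γ i j l).map A.subtype) * b l) (hγc : ∀ i j, c i * c j = ∑ l, aeval xt ((γ i j l).map π) * c l) (υ : Fin n → A[X]) (hυb : (1 : F') = ∑ l, aeval x ((υ l).map A.subtype)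 * b l) (hυc : (1 : Ft) = ∑ l, aeval xt ((υ l).map π) * c l) : Prop :=
  ∃ (O : ValuationSubring F') (red : O →+* Ft), Function.Surjective red ∧ (∀ y : O, red y = 0 ↔ ¬ IsUnit y) ∧ (∀ a : K', algebraMap K' F' a ∈ O ↔ a ∈ A) ∧ (∀ a : A, ∃ h : algebraMap K' F' (a : K') ∈ O, red ⟨_, h⟩ = algebraMap k Ft (π a)) ∧ (∀ f : O, red f = 0 → ∃ (a : A) (g : O), π a = 0 ∧ (f : F') = algebraMap K' F' (a : K') * (g : F')) ∧ (∀ y : F', y ≠ 0 → ∃ (a : K') (u : Oˣ), y = algebraMap K' F' a * ((u : O) : F')) ∧ (∀ y : F', y ∈ O ↔ ∃ (p : Fin n → A[X]) (s : A[X]), s.map π ≠ 0 ∧ aeval x (s.map A.subtype) * y = ∑ i, aeval x ((p i).map A.subtype) * b i) ∧ (∀ (y : O) (p : Fin n → A[X]) (s : A[X]), s.map π ≠ 0 → aeval x (s.map A.subtype) * (y : F') = ∑ i, aeval x ((p i).map A.subtype) * b i → aeval xt (s.map π) * red y = ∑ i, aeval xt ((p i).map π) * c i)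

section RL
variable {Λ U : Type*} [CommRing Λ] [CommRing U] [Algebra Λ U] {n : ℕ} {M : Model Λ U n}
  {κ E : Type*} [Field κ] [Field E] [Algebra κ E] {φ : Λ →+* κ} {ψ : U →+* E}

/-- LITERAL of `Real.finiteDimensional` (statement only; the theorem lives in its row file). -/
def Real_finiteDimensional_stmt (h : Real M κ E φ ψ) : Prop :=
  FiniteDimensional κ⟮ψ M.x⟯ E
/-- LITERAL of `Real.isFF1` (statement only; the theorem lives in its row file). -/
def Real_isFF1_stmt [IsAlgClosed κ] (h : Real M κ E φ ψ) : Prop :=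
  IsFF1 κ E (ψ M.x)
/-- LITERAL of `Real.isSeparable` (statement only; the theorem lives in its row file). -/
def Real_isSeparable_stmt (h : Real M κ E φ ψ) : Prop :=
  Algebra.IsSeparable κ⟮ψ M.x⟯ E
/-- LITERAL of `Real.chart` (statement only; the theorem lives in its row file). -/
def Real_chart_stmt (h : Real M κ E φ ψ) : Prop :=
  ∀ f : E, (∀ v : Place κ E, 0 ≤ v.ord (ψ M.x) → 0 ≤ v.ord f) ↔ ∃ p : Fin n → κ[X], f = ∑ j, aeval (ψ M.x) (p j) * ψ (M.b j : U)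
/-- LITERAL of `Real.chart'` (statement only; the theorem lives in its row file). -/
def Real_chart'_stmt (h : Real M κ E φ ψ) : Prop :=
  ∀ f : E, (∀ v : Place κ E, v.ord (ψ M.x) ≤ 0 → 0 ≤ v.ord f) ↔ ∃ p : Fin n → κ[X], f = ∑ j, aeval (ψ M.x)⁻¹ (p j) * ψ (M.b' j : U)
/-- LITERAL of `Real.exists_bad_set` (statement only; the theorem lives in its row file). -/
def Real_exists_bad_set_stmt [IsAlgClosed κ] (h : Real M κ E φ ψ) : Prop :=
  ∃ S₀ : Finset (Place κ E), ∀ Q ∉ S₀, 0 ≤ Q.ord (ψ M.x) ∧ ∀ γ : κ, 0 < Q.ord (ψ M.x - algebraMap κ E γ) → Q.ord (ψ M.x - algebraMap κ E γ) = 1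
end RL

/-- LITERAL of `Model.exists_real` (statement only; the theorem lives in its row file). -/
def Model_exists_real_stmt.{u,v,w} {Λ : Type u} {U : Type v} [CommRing Λ] [CommRing U] [Algebra Λ U] {n : ℕ} (M : Model Λ U n) {k : Type w} [Field k] (φ : Λ →+* k) : Prop :=
  ∃ (Ft : Type (max v w)) (_ : Field Ft) (_ : Algebra k Ft) (ψ : U →+* Ft), Real M k Ft φ ψ ∧ (∀ σ : k ≃+* k, (∀ a : Λ, σ (φ a) = φ a) → ∃ Φ : Ft ≃+* Ft, (∀ c : k, Φ (algebraMap k Ft c) = algebraMap k Ft (σ c)) ∧ ∀ u : U, Φ (ψ u) = ψ u) ∧ (∀ f : Ft, ∃ (m : ℕ) (c d : Fin m → k) (u w : Fin m → U), (∑ i, algebraMap k Ft (d i) * ψ (w i)) ≠ 0 ∧ f * (∑ i, algebraMap k Ft (d i) * ψ (w i)) = ∑ i, algebraMap k Ft (c i) * ψ (u i))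

/-- LITERAL of `exists_isRed` (statement only; the theorem lives in its row file). -/
def exists_isRed_stmt {Λ U : Type*} [CommRing Λ] [CommRing U] [Algebra Λ U] {n : ℕ} (M : Model Λ U n) {K' F' k Ft : Type*} [Field K'] [Field F'] [Algebra K' F'] [Field k] [Field Ft] [Algebra k Ft] [IsAlgClosed K'] [IsAlgClosed k] {φ₁ : Λ →+* K'} {ψ₁ : U →+* F'} (h₁ : Real M K' F' φ₁ ψ₁) {φ₂ : Λ →+* k} {ψ₂ : U →+* Ft} (h₂ : Real M k Ft φ₂ ψ₂) (hφ₁ : Function.Injective φ₁) (A : ValuationSubring K') (π : A →+* k) (hπ : Function.Surjective π) (hπ0 : ∀ a : A, ¬ IsUnit a → π a = 0) (hφ : ∀ a : Λ, ∃ h : φ₁ a ∈ A, π ⟨φ₁ a, h⟩ = φ₂ a) : Prop :=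
  ∃ (O : ValuationSubring F') (red : O →+* Ft) (r : Place K' F' → Place k Ft) (xO : Oˣ), ((xO : O) : F') = ψ₁ M.x ∧ red (xO : O) = ψ₂ M.x ∧ OneStep.IsRed O red r ∧ Function.Surjective r ∧ IsFF1 K' F' (ψ₁ M.x) ∧ IsFF1 k Ft (ψ₂ M.x) ∧ genusFF K' F' = genusFF k Ft ∧ Module.finrank K'⟮ψ₁ M.x⟯ F' = Module.finrank k⟮ψ₂ M.x⟯ Ft ∧ (∀ γ : k, ∃ c : O, OneStep.IsConst K' c ∧ red c = algebraMap k Ft γ) ∧ (∀ u : U, ∃ h : ψ₁ u ∈ O, red ⟨ψ₁ u, h⟩ = ψ₂ u) ∧ (∀ (P : Place K' F') (γ₀ : k), EvK A π P (ψ₁ M.x) γ₀ → ∀ u : M.B, ∃ γ : k, EvK A π P (ψ₁ (u : U)) γ ∧ (r P).adicValuation (ψ₂ (u : U) - algebraMap k Ft γ) < 1) ∧ (∀ (P : Place K' F') (γ₀ : k), EvK A π P (ψ₁ M.x') γ₀ → ∀ u : M.B', ∃ γ : k, EvK A π P (ψ₁ (u : U)) γ ∧ (r P).adicValuation (ψ₂ (u : U) - algebraMap k Ft γ) < 1)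

/-- LITERAL of `exists_single_pole` (statement only; the theorem lives in its row file). -/
def exists_single_pole_stmt {K F : Type*} [Field K] [Field F] [Algebra K F] [IsAlgClosed K] {x₀ : F} (h₀ : IsFF1 K F x₀) : Prop :=
  ∃ (x : F) (P₀ : Place K F), Transcendental K x ∧ P₀.ord x < 0 ∧ ∀ P : Place K F, P ≠ P₀ → 0 ≤ P.ord x

/-- LITERAL of `exists_model` (statement only; the theorem lives in its row file). -/
def exists_model_stmt.{u,v} {K : Type u} {F : Type v} [Field K] [Field F] [Algebra K F] [IsAlgClosed K] [CharZero K] {x₀ : F} (h₀ : IsFF1 K F x₀) : Prop :=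
  ∃ (n : ℕ) (Λ : Type u) (_ : CommRing Λ) (U : Type v) (_ : CommRing U) (_ : Algebra Λ U) (M : Model Λ U n) (φ : Λ →+* K) (ψ : U →+* F), Real M K F φ ψ ∧ Function.Injective φ ∧ Function.Injective ψ ∧ ∃ s : Finset Λ, Subring.closure (s : Set Λ) = ⊤


section T
variable {Λ U : Type*} [CommRing Λ] [CommRing U] [Algebra Λ U] {n : ℕ}

/-- LITERAL of `Model.exists_struct` (statement only; the theorem lives in its row file). -/
def Model_exists_struct_stmt (M : Model Λ U n) : Prop :=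
  ∃ (γ : Fin n → Fin n → Fin n → Λ[X]) (υ : Fin n → Λ[X]), (∀ i j, (M.b i : U) * (M.b j : U) = ∑ l, aeval M.x (γ i j l) * (M.b l : U)) ∧ (1 : U) = ∑ l, aeval M.x (υ l) * (M.b l : U)

/-- LITERAL of `Model.exists_transition` (statement only; the theorem lives in its row file). -/
def Model_exists_transition_stmt (M : Model Λ U n) : Prop :=
  ∃ (e : ℕ) (T T' : Matrix (Fin n) (Fin n) Λ[X]), (∀ i, M.x' ^ e * (M.b' i : U) = ∑ j, aeval M.x' (T i j) * (M.b j : U)) ∧ (∀ j, M.x' ^ e * (M.b j : U) = ∑ i, aeval M.x' (T' j i) * (M.b' i : U))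

variable {M : Model Λ U n} {κ E : Type*} [Field κ] [Field E] [Algebra κ E] {φ : Λ →+* κ} {ψ : U →+* E}

/-- LITERAL of `Real.indep'` (statement only; the theorem lives in its row file). -/
def Real_indep'_stmt (h : Real M κ E φ ψ) : Prop :=
  ∀ p : Fin n → κ[X], ∑ i, aeval (ψ M.x') (p i) * ψ (M.b' i : U) = 0 → p = 0

/-- LITERAL of `Real.sep` (statement only; the theorem lives in its row file). -/
def Real_sep_stmt [IsAlgClosed κ] (h : Real M κ E φ ψ) (Q Q' : Place κ E) (hQ : 0 ≤ Q.ord (ψ M.x)) (hQ' : 0 ≤ Q'.ord (ψ M.x)) (hv : ∀ u : M.B, ∀ γ : κ, Q.adicValuation (ψ (u : U) - algebraMap κ E γ) < 1 → Q'.adicValuation (ψ (u : U) - algebraMap κ E γ) < 1) : Prop :=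
  Q = Q'

/-- LITERAL of `Real.sep'` (statement only; the theorem lives in its row file). -/
def Real_sep'_stmt [IsAlgClosed κ] (h : Real M κ E φ ψ) (Q Q' : Place κ E) (hQ : Q.ord (ψ M.x) ≤ 0) (hQ' : Q'.ord (ψ M.x) ≤ 0) (hv : ∀ u : M.B', ∀ γ : κ, Q.adicValuation (ψ (u : U) - algebraMap κ E γ) < 1 → Q'.adicValuation (ψ (u : U) - algebraMap κ E γ) < 1) : Prop :=
  Q = Q'
end T

/-- LITERAL of `exists_isModel` (statement only; the theorem lives in its row file). -/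
def exists_isModel_stmt {K' F' k Ft : Type*} [Field K'] [Field F'] [Algebra K' F'] [Field k] [Field Ft] [Algebra k Ft] (A : ValuationSubring K') (π : A →+* k) (hπ : Function.Surjective π) (hπ0 : ∀ a : A, ¬ IsUnit a → π a = 0) {n : ℕ} (x : F') (xt : Ft) (hx : Transcendental K' x) (hxt : Transcendental k xt) (b : Fin n → F') (c : Fin n → Ft) (hb : ∀ p : Fin n → K'[X], ∑ i, aeval x (p i) * b i = 0 → p = 0) (hbs : ∀ y : F', ∃ (p : Fin n → K'[X]) (s : K'[X]), s ≠ 0 ∧ aeval x s * y = ∑ i, aeval x (p i) * b i) (hc : ∀ p : Fin n → k[X], ∑ i, aeval xt (p i) * c i = 0 → p = 0) (γ : Fin n → Fin n → Fin n → A[X]) (hγb : ∀ i j, b i * b j = ∑ l, aeval x ((γ i j l).map A.subtype) * b l) (hγc : ∀ i j, c i * c j = ∑ l, aeval xt ((γ i j l).map π) * c l) (υ : Fin n → A[X]) (hυb : (1 : F') = ∑ l, aeval x ((υ l).map A.subtype) * b l) (hυc : (1 : Ft) = ∑ l, aeval xt ((υ l).map π) * c l) : Prop :=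
  ∃ (B : Subring F') (ρ : B →+* Ft), GaussModel.IsModel A π B ρ ∧ (∀ y : F', y ∈ B ↔ ∃ p : Fin n → A[X], y = ∑ i, aeval x ((p i).map A.subtype) * b i) ∧ (∀ (y : B) (p : Fin n → A[X]), (y : F') = ∑ i, aeval x ((p i).map A.subtype) * b i → ρ y = ∑ i, aeval xt ((p i).map π) * c i)

/-- LITERAL of `LocalCertN.of_prod` (statement only; the theorem lives in its row file). -/
def LocalCertN_of_prod_stmt {k R : Type*} [Field k] [CommRing R] [Algebra k R] (z : R) (a : k) {m : ℕ} (τ : Fin m → R) (e : Fin m → ℕ) (he : ∀ j, 0 < e j) (u v u' v' w₁ w₂ : R) (huv : v * (z - algebraMap k R a) = u * ∏ j, τ j ^ e j) (hu : u * u' = 1 + (z - algebraMap k R a) * w₁) (hv : v * v' = 1 + (z - algebraMap k R a) * w₂) (hres : ∀ (j : Fin m) (y : R), ∃ (c : k) (y₁ y₂ : R), y = algebraMap k R c + τ j * y₁ + (z - algebraMap k R a) * y₂) : Prop :=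
  LocalCertN k R z a m

/-- LITERAL of `LocalCertN.locGen` (statement only; the theorem lives in its row file). -/
def LocalCertN_locGen_stmt {k R : Type*} [Field k] [CommRing R] [Algebra k R] {z : R} {a : k} {m : ℕ} (h : LocalCertN k R z a m) (hreg : ∀ y : R, (z - algebraMap k R a) * y = 0 → y = 0) (𝔫 : Ideal R) (h𝔫 : 𝔫.IsMaximal) (hz : z - algebraMap k R a ∈ 𝔫) : Prop :=
  ∃ t ∈ 𝔫, LocDed.LocGen 𝔫 t

/-- LITERAL of `Real.constExt` (statement only; the theorem lives in its row file). -/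
def Real_constExt_stmt {Λ U : Type*} [CommRing Λ] [CommRing U] [Algebra Λ U] {n : ℕ} {M : Model Λ U n} {K F Ω FΩ : Type*} [Field K] [Field F] [Field Ω] [Field FΩ] [Algebra K F] [Algebra K Ω] [Algebra F FΩ] [Algebra Ω FΩ] (hce : BC.IsConstExt K F Ω FΩ) {φ : Λ →+* K} {ψ : U →+* F} (h : Real M K F φ ψ) : Prop :=
  Real M Ω FΩ ((algebraMap K Ω).comp φ) ((algebraMap F FΩ).comp ψ)

/-- LITERAL of `exists_goodRed` (statement only; the theorem lives in its row file). -/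
def exists_goodRed_stmt {Λ U : Type*} [CommRing Λ] [CommRing U] [Algebra Λ U] {n : ℕ} (M : Model Λ U n) {K' F' k Ft : Type*} [Field K'] [Field F'] [Algebra K' F'] [Field k] [Field Ft] [Algebra k Ft] [IsAlgClosed K'] [IsAlgClosed k] {φ₁ : Λ →+* K'} {ψ₁ : U →+* F'} (h₁ : Real M K' F' φ₁ ψ₁) {φ₂ : Λ →+* k} {ψ₂ : U →+* Ft} (h₂ : Real M k Ft φ₂ ψ₂) (hφ₁ : Function.Injective φ₁) (A : ValuationSubring K') (π : A →+* k) (hπ : Function.Surjective π) (hπ0 : ∀ a : A, ¬ IsUnit a → π a = 0) (hφ : ∀ a : Λ, ∃ h : φ₁ a ∈ A, π ⟨φ₁ a, h⟩ = φ₂ a) : Prop :=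
  ∃ (O : ValuationSubring F') (red : O →+* Ft) (r : Place K' F' → Place k Ft) (xO : Oˣ), ((xO : O) : F') = ψ₁ M.x ∧ red (xO : O) = ψ₂ M.x ∧ Inj.RedPic.GoodRed O red r xO ∧ genusFF K' F' = genusFF k Ft ∧ (∀ u : U, ∃ h : ψ₁ u ∈ O, red ⟨ψ₁ u, h⟩ = ψ₂ u) ∧ Inj.Centre.IsChart A π O red r {f : O | ∃ u : M.B, (f : F') = ψ₁ (u : U)} {P | ∃ γ₀ : k, EvK A π P (ψ₁ M.x) γ₀} {Q | 0 ≤ Q.ord (ψ₂ M.x)} ∧ Inj.Centre.IsChart A π O red r {f : O | ∃ u : M.B', (f : F') = ψ₁ (u : U)} {P | ∃ γ₀ : k, EvK A π P (ψ₁ M.x') γ₀} {Q | Q.ord (ψ₂ M.x) ≤ 0} ∧ (∀ P : Place K' F', (∃ γ₀ : k, EvK A π P (ψ₁ M.x) γ₀) ∨ EvK A π P (ψ₁ M.x') 0)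

end Fermat.Agent.S27P.GR.Literals
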