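/-
S27 / (GR), row GR-M, part A (helper42): the reduction theorem in "core" form.

`exists_isRed_core` takes, for two realisations `h₁ : Real M K' F' φ₁ ψ₁`, `h₂ : Real M k Ft φ₂ ψ₂`
of one model and a valuation ring `A` of `K'` with residue map `π` compatible with `φ₁`, `φ₂`:
* the Gauss valuation ring `O`, `red` with the output clauses of GR-G (`exists_gauss`),
* a good basis (GR-GB),
* the function-field facts of the two realisations (GR-RL),
and produces the place reduction `r` with all the properties (INJ)/(GEN) consume.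
-/
import Mathlib
import Fermat.Agent.S27P.GR.Defs
import Fermat.Agent.Lib.Red.PlaceRedMain
import Fermat.Agent.Lib.Red.TorsionOneStep
import Fermat.Agent.Lib.FF.CechGenus

set_option autoImplicit false

noncomputable section

namespace Fermat.Agent.S27P.GR.MainCore

open Polynomial AlgebraicCurve IntermediateField
open Fermat.Agent.Lib.FF Fermat.Agent.Lib.Red Fermat.Agent.Lib.Red.PlaceRed

/-! ### Polynomial bookkeeping -/

section Poly

variable {Λ U κ E : Type*} [CommRing Λ] [CommRing U] [Algebra Λ U] [Field κ] [Field E] [Algebra κ E]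

/-- A ring hom compatible with the structure maps commutes with polynomial evaluation. -/
theorem map_aeval (φ : Λ →+* κ) (ψ : U →+* E)
    (hc : ∀ a : Λ, ψ (algebraMap Λ U a) = algebraMap κ E (φ a)) (u : U) (p : Λ[X]) :
    ψ (aeval u p) = aeval (ψ u) (p.map φ) := by
  have h2 : ψ.comp (algebraMap Λ U) = (algebraMap κ E).comp φ := RingHom.ext hc
  rw [aeval_def, aeval_def, eval₂_map, hom_eval₂, h2]

/-- The reversed polynomial `∑ a_k X^(D-k)`. -/
def rev (D : ℕ) (p : Λ[X]) : Λ[X] := ∑ k ∈ Finset.range (D + 1), monomial (D - k) (p.coeff k)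

theorem pow_mul_aeval_eq_rev {x x' : U} (hxx' : x * x' = 1) {D : ℕ} {p : Λ[X]}
    (hp : p.natDegree ≤ D) : x' ^ D * aeval x p = aeval x' (rev D p) := by
  rw [aeval_eq_sum_range' (Nat.lt_succ_of_le hp) x, rev, map_sum, Finset.mul_sum]
  refine Finset.sum_congr rfl fun k hk => ?_
  have hk' : k ≤ D := Nat.lt_succ_iff.mp (Finset.mem_range.mp hk)
  rw [aeval_monomial, Algebra.smul_def]
  have h1 : x' ^ D * x ^ k = x' ^ (D - k) := by
    have h2 : x' ^ D = x' ^ (D - k) * x' ^ k := by rw [← pow_add, Nat.sub_add_cancel hk']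
    rw [h2, mul_assoc, ← mul_pow, mul_comm x' x, hxx', one_pow, mul_one]
  calc x' ^ D * (algebraMap Λ U (p.coeff k) * x ^ k)
      = algebraMap Λ U (p.coeff k) * (x' ^ D * x ^ k) := by ring
    _ = algebraMap Λ U (p.coeff k) * x' ^ (D - k) := by rw [h1]

end Poly

/-! ### Elements of `κ(X)` and bases of a realisation -/

section Frac

variable {κ E : Type*} [Field κ] [Field E] [Algebra κ E]

theorem aeval_ne_zero_of_transcendental {X : E} (hX : Transcendental κ X) {s : κ[X]}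
    (hs : s ≠ 0) : aeval X s ≠ 0 := fun h0 => hs ((transcendental_iff.mp hX) s h0)

theorem exists_frac {X : E} (hX : Transcendental κ X) (g : ↥(κ⟮X⟯)) :
    ∃ r s : κ[X], s ≠ 0 ∧ (g : E) * aeval X s = aeval X r := by
  obtain ⟨r, s, hrs⟩ := (mem_adjoin_simple_iff κ (g : E)).1 g.2
  by_cases hs : s = 0
  · refine ⟨0, 1, one_ne_zero, ?_⟩
    rw [hrs, hs]
    simp
  · exact ⟨r, s, hs, by rw [hrs, div_mul_cancel₀ _ (aeval_ne_zero_of_transcendental hX hs)]⟩

end Frac

section RealLemmas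

variable {Λ U : Type*} [CommRing Λ] [CommRing U] [Algebra Λ U] {n : ℕ} {M : Model Λ U n}
  {κ E : Type*} [Field κ] [Field E] [Algebra κ E] {φ : Λ →+* κ} {ψ : U →+* E}

theorem map_x_mul_x' (_h : Real M κ E φ ψ) : ψ M.x * ψ M.x' = 1 := by
  rw [← map_mul, M.hxx', map_one]

theorem map_x' (h : Real M κ E φ ψ) : ψ M.x' = (ψ M.x)⁻¹ :=
  eq_inv_of_mul_eq_one_right (map_x_mul_x' h)

theorem map_x_ne_zero (h : Real M κ E φ ψ) : ψ M.x ≠ 0 := by
  intro h0
  have := map_x_mul_x' h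
  rw [h0, zero_mul] at this
  exact zero_ne_one this

/-- Expansion of an element of the chart ring `B` in the basis `b`. -/
theorem exists_repr (M : Model Λ U n) (f : M.B) :
    ∃ p : Fin n → Λ[X], (f : U) = ∑ i, aeval M.x (p i) * (M.b i : U) := by
  obtain ⟨p, hp, -⟩ := M.cert.free f
  refine ⟨p, ?_⟩
  have h1 := congrArg (M.B.val) hp
  rw [map_sum] at h1
  rw [show (f : U) = M.B.val f from rfl, h1]
  refine Finset.sum_congr rfl fun i _ => ?_
  rw [map_mul, ← aeval_algHom_apply]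
  rfl

/-- Expansion of an element of the chart ring `B'` in the basis `b'`. -/
theorem exists_repr' (M : Model Λ U n) (f : M.B') :
    ∃ p : Fin n → Λ[X], (f : U) = ∑ i, aeval M.x' (p i) * (M.b' i : U) := by
  obtain ⟨p, hp, -⟩ := M.cert'.free f
  refine ⟨p, ?_⟩
  have h1 := congrArg (M.B'.val) hp
  rw [map_sum] at h1
  rw [show (f : U) = M.B'.val f from rfl, h1]
  refine Finset.sum_congr rfl fun i _ => ?_
  rw [map_mul, ← aeval_algHom_apply]
  rfl

theorem map_repr (h : Real M κ E φ ψ) (u : U) (c : Fin n → U) (p : Fin n → Λ[X]) :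
    ψ (∑ i, aeval u (p i) * c i) = ∑ i, aeval (ψ u) ((p i).map φ) * ψ (c i) := by
  rw [map_sum]
  refine Finset.sum_congr rfl fun i _ => ?_
  rw [map_mul, map_aeval φ ψ h.compat]

/-- The images of the `b i` are linearly independent over `κ(x)`. -/
theorem linearIndependent_of_real (h : Real M κ E φ ψ) :
    LinearIndependent ↥(κ⟮ψ M.x⟯) (fun i => ψ (M.b i : U)) := by
  classical
  rw [Fintype.linearIndependent_iff]
  intro g hg i
  choose r s hs hrs using fun j => exists_frac h.trans (g j)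
  have hS : ∀ j, aeval (ψ M.x) (s j) ≠ 0 := fun j => aeval_ne_zero_of_transcendental h.trans (hs j)
  have h2 : ∑ j, (g j : E) * ψ (M.b j : U) = 0 := by
    rw [← hg]
    refine Finset.sum_congr rfl fun j _ => ?_
    rw [Algebra.smul_def]
    rfl
  have key : ∑ j, aeval (ψ M.x) (r j * ∏ l ∈ Finset.univ.erase j, s l) * ψ (M.b j : U) = 0 := by
    have h1 : ∀ j, aeval (ψ M.x) (r j * ∏ l ∈ Finset.univ.erase j, s l) * ψ (M.b j : U)
        = aeval (ψ M.x) (∏ l ∈ Finset.univ.erase j, s l) * aeval (ψ M.x) (s j)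
          * ((g j : E) * ψ (M.b j : U)) := by
      intro j
      rw [map_mul, ← hrs j]
      ring
    have h1' : ∀ j, aeval (ψ M.x) (∏ l ∈ Finset.univ.erase j, s l) * aeval (ψ M.x) (s j)
        = aeval (ψ M.x) (∏ l, s l) := by
      intro j
      rw [← map_mul, mul_comm, Finset.mul_prod_erase Finset.univ s (Finset.mem_univ j)]
    simp_rw [h1, h1']
    rw [← Finset.mul_sum, h2, mul_zero]
  have h3 := h.indep _ key
  have h4 : r i * ∏ l ∈ Finset.univ.erase i, s l = 0 := congrFun h3 i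
  have h5 : r i = 0 := by
    rcases mul_eq_zero.mp h4 with h | h
    · exact h
    · exact absurd h (Finset.prod_ne_zero_iff.mpr fun l _ => hs l)
  have h6 : (g i : E) * aeval (ψ M.x) (s i) = 0 := by rw [hrs i, h5, map_zero]
  have h7 : (g i : E) = 0 := (mul_eq_zero.mp h6).resolve_right (hS i)
  exact Subtype.ext h7

/-- `[E : κ(x)] = n`. -/
theorem finrank_of_real (h : Real M κ E φ ψ) : Module.finrank ↥(κ⟮ψ M.x⟯) E = n := by
  have hsp : ⊤ ≤ Submodule.span ↥(κ⟮ψ M.x⟯) (Set.range fun i => ψ (M.b i : U)) := by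
    rintro y -
    obtain ⟨p, s, hs, hy⟩ := h.span y
    have hs' : aeval (ψ M.x) s ≠ 0 := aeval_ne_zero_of_transcendental h.trans hs
    have hmem : ∀ i, aeval (ψ M.x) (p i) / aeval (ψ M.x) s ∈ κ⟮ψ M.x⟯ := fun i =>
      (mem_adjoin_simple_iff κ _).2 ⟨p i, s, rfl⟩
    have hy' : y = ∑ i, (⟨_, hmem i⟩ : ↥(κ⟮ψ M.x⟯)) • ψ (M.b i : U) := by
      have h1 : ∀ i, (⟨_, hmem i⟩ : ↥(κ⟮ψ M.x⟯)) • ψ (M.b i : U)
          = (aeval (ψ M.x) s)⁻¹ * (aeval (ψ M.x) (p i) * ψ (M.b i : U)) := by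
        intro i
        rw [Algebra.smul_def]
        show aeval (ψ M.x) (p i) / aeval (ψ M.x) s * ψ (M.b i : U) = _
        rw [div_eq_mul_inv]
        ring
      simp_rw [h1]
      rw [← Finset.mul_sum, ← hy, ← mul_assoc, inv_mul_cancel₀ hs', one_mul]
    rw [hy']
    exact Submodule.sum_mem _ fun i _ =>
      Submodule.smul_mem _ _ (Submodule.subset_span ⟨i, rfl⟩)
  have hB := Module.finrank_eq_card_basis (Module.Basis.mk (linearIndependent_of_real h) hsp)
  rw [hB, Fintype.card_fin]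

/-- The transition matrices between the two charts, over `Λ[x']`. -/
theorem exists_transition (M : Model Λ U n) :
    ∃ (e : ℕ) (T T' : Matrix (Fin n) (Fin n) Λ[X]),
      (∀ i, M.x' ^ e * (M.b' i : U) = ∑ j, aeval M.x' (T i j) * (M.b j : U)) ∧
      (∀ j, M.x' ^ e * (M.b j : U) = ∑ i, aeval M.x' (T' j i) * (M.b' i : U)) := by
  classical
  -- `b j` in the chart at infinity
  choose m' hm' using fun j => M.hB' (M.b j : U)
  choose q hq using fun j => exists_repr' M ⟨_, hm' j⟩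
  -- `b' i` in the finite chart
  choose m hm using fun i => M.hB (M.b' i : U)
  choose p hp using fun i => exists_repr M ⟨_, hm i⟩
  have hq' : ∀ j, M.x' ^ m' j * (M.b j : U) = ∑ i, aeval M.x' (q j i) * (M.b' i : U) :=
    fun j => hq j
  have hp' : ∀ i, M.x ^ m i * (M.b' i : U) = ∑ j, aeval M.x (p i j) * (M.b j : U) :=
    fun i => hp i
  have hx'x : M.x' * M.x = 1 := by rw [mul_comm]; exact M.hxx'
  let d : Fin n → ℕ := fun i => ∑ j, (p i j).natDegree
  have hd : ∀ i j, (p i j).natDegree ≤ d i := fun i j =>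
    Finset.single_le_sum (f := fun j => (p i j).natDegree) (fun _ _ => Nat.zero_le _)
      (Finset.mem_univ j)
  have hb' : ∀ i, M.x' ^ d i * (M.b' i : U)
      = ∑ j, aeval M.x' (X ^ m i * rev (d i) (p i j)) * (M.b j : U) := by
    intro i
    have h1 : M.x' ^ d i * (M.b' i : U) = M.x' ^ (m i + d i) * (M.x ^ m i * (M.b' i : U)) := by
      have h2 : M.x' ^ (m i + d i) * M.x ^ m i = M.x' ^ d i := by
        rw [pow_add, mul_comm (M.x' ^ m i), mul_assoc, ← mul_pow, hx'x, one_pow, mul_one]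
      rw [← mul_assoc, h2]
    rw [h1, hp' i, Finset.mul_sum]
    refine Finset.sum_congr rfl fun j _ => ?_
    rw [map_mul, map_pow, aeval_X, ← pow_mul_aeval_eq_rev M.hxx' (hd i j), pow_add]
    ring
  let e : ℕ := ∑ i, d i + ∑ j, m' j
  have hde : ∀ i, d i ≤ e := fun i =>
    (Finset.single_le_sum (f := d) (fun _ _ => Nat.zero_le _) (Finset.mem_univ i)).trans
      (Nat.le_add_right _ _)
  have hme : ∀ j, m' j ≤ e := fun j =>
    (Finset.single_le_sum (f := m') (fun _ _ => Nat.zero_le _) (Finset.mem_univ j)).trans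
      (Nat.le_add_left _ _)
  refine ⟨e, fun i j => X ^ (e - d i) * (X ^ m i * rev (d i) (p i j)),
    fun j i => X ^ (e - m' j) * q j i, ?_, ?_⟩
  · intro i
    have h1 : M.x' ^ e = M.x' ^ (e - d i) * M.x' ^ d i := by
      rw [← pow_add, Nat.sub_add_cancel (hde i)]
    rw [h1, mul_assoc, hb' i, Finset.mul_sum]
    refine Finset.sum_congr rfl fun j _ => ?_
    rw [map_mul (aeval M.x') (X ^ (e - d i)), map_pow, aeval_X]
    ring
  · intro j
    have h1 : M.x' ^ e = M.x' ^ (e - m' j) * M.x' ^ m' j := by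
      rw [← pow_add, Nat.sub_add_cancel (hme j)]
    rw [h1, mul_assoc, hq' j, Finset.mul_sum]
    refine Finset.sum_congr rfl fun i _ => ?_
    rw [map_mul, map_pow, aeval_X]
    ring

end RealLemmas

/-! ### Values at a place and their reductions -/

section Values

variable {K' F' k Ft : Type*} [Field K'] [Field F'] [Algebra K' F'] [Field k] [Field Ft]
  [Algebra k Ft]
variable {A : ValuationSubring K'} {π : A →+* k} {O : ValuationSubring F'} {red : O →+* Ft}
  {r : Place K' F' → Place k Ft}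

/-- If `g` takes a nonzero value at `P` then `f = 1 / g` takes the inverse value. -/
theorem evK_inv (hπ0 : ∀ a : A, ¬ IsUnit a → π a = 0) {P : Place K' F'} {f g : F'}
    (hfg : f * g = 1) {c : k} (hc : c ≠ 0) (h : EvK A π P g c) : EvK A π P f c⁻¹ := by
  obtain ⟨a₀, rfl, hlt⟩ := h
  have hu : IsUnit a₀ := by
    by_contra hnu
    exact hc (hπ0 a₀ hnu)
  obtain ⟨b₀, hb₀⟩ := hu.exists_right_inv
  have hb₀' : (a₀ : K') * (b₀ : K') = 1 := congrArg Subtype.val hb₀
  have ha0 : (a₀ : K') ≠ 0 := left_ne_zero_of_mul_eq_one hb₀'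
  refine ⟨b₀, ?_, ?_⟩
  · have h1 : π a₀ * π b₀ = 1 := by rw [← map_mul, hb₀, map_one]
    exact eq_inv_of_mul_eq_one_right h1
  · have hg1 : P.adicValuation g = 1 := by
      have h2 := Valuation.map_add_eq_of_lt_right P.adicValuation
        (x := g - algebraMap K' F' (a₀ : K')) (y := algebraMap K' F' (a₀ : K'))
        (by rw [adicValuation_algebraMap_eq_one P ha0]; exact hlt)
      rw [sub_add_cancel, adicValuation_algebraMap_eq_one P ha0] at h2
      exact h2
    have hf1 : P.adicValuation f = 1 := by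
      have h3 : P.adicValuation f * P.adicValuation g = 1 := by rw [← map_mul, hfg, map_one]
      rwa [hg1, mul_one] at h3
    have h4 : f - algebraMap K' F' (b₀ : K')
        = -(f * algebraMap K' F' (b₀ : K') * (g - algebraMap K' F' (a₀ : K'))) := by
      have h5 : algebraMap K' F' (a₀ : K') * algebraMap K' F' (b₀ : K') = 1 := by
        rw [← map_mul, hb₀', map_one]
      linear_combination (algebraMap K' F' (b₀ : K')) * hfg - f * h5
    rw [h4, Valuation.map_neg, map_mul, map_mul, hf1, one_mul]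
    exact Right.mul_lt_one_of_le_of_lt (P.adicValuation_algebraMap_le_one _) hlt

/-- **Values commute with reduction.**  A function of `O`, regular on the whole fibre of `r`
through `P`, takes at `P` a value in `A`, and its reduction takes the reduced value at `r P`. -/
theorem exists_evK_of_regular [HasPrincipalDivisors K' F']
    (hπ0 : ∀ a : A, ¬ IsUnit a → π a = 0)
    (hres : ∀ P : Place K' F', Fermat.Agent.Lib.FF.RR.ResK P)
    (hR : Chart.RedData A π O red) (hA : ∀ c : K', algebraMap K' F' c ∈ O ↔ c ∈ A)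
    (hIs : OneStep.IsRed O red r) (P : Place K' F') (y : O)
    (htube : ∀ P' : Place K' F', r P' = r P → 0 ≤ P'.ord (y : F')) :
    ∃ γ : k, EvK A π P (y : F') γ ∧ (r P).adicValuation (red y - algebraMap k Ft γ) < 1 := by
  classical
  have hyP : 0 ≤ P.ord (y : F') := htube P rfl
  -- a unit of `O` regular on the fibre cannot vanish at `P` more than its reduction at `r P`
  have key : ∀ h : O, red h ≠ 0 → (∀ P' : Place K' F', r P' = r P → 0 ≤ P'.ord (h : F')) →
      P.ord (h : F') ≤ (r P).ord (red h) := by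
    intro h hh0 hreg
    obtain ⟨u, hu⟩ := hIs.isUnit_of_red_ne_zero hh0
    have h1 := OneStep.le_mapDomain_of r (OneStep.pdiv K' ((u : O) : F')) (r P)
      (fun P' hP' => by rw [OneStep.pdiv_apply, hu]; exact hreg P' hP') (P₀ := P) rfl
    rw [OneStep.pdiv_apply, hIs.spec' u (r P), hu] at h1
    exact h1
  obtain ⟨c₀, hc₀⟩ := OneStep.exists_const_sub_pos P (hres P) hyP
  rcases hc₀ with hconst | hpos
  · -- `y` is a constant
    have hcA : c₀ ∈ A := (hA c₀).1 (hconst ▸ y.2)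
    refine ⟨π ⟨c₀, hcA⟩, ⟨⟨c₀, hcA⟩, rfl, ?_⟩, ?_⟩
    · rw [hconst, sub_self, map_zero]
      exact zero_lt_one
    · have hy : y = hR.const ⟨c₀, hcA⟩ := Subtype.ext hconst
      rw [hy, hR.red_const, sub_self, map_zero]
      exact zero_lt_one
  · have hne : (y : F') - algebraMap K' F' c₀ ≠ 0 := by
      intro h0
      rw [h0, Place.ord_zero] at hpos
      exact lt_irrefl _ hpos
    -- the value lies in `A`
    have hcA : c₀ ∈ A := by
      by_contra hnA
      have hc0 : c₀ ≠ 0 := by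
        rintro rfl
        exact hnA A.zero_mem
      have hinv : c₀⁻¹ ∈ A := (A.mem_or_inv_mem c₀).resolve_left hnA
      have hnu : ¬ IsUnit (⟨c₀⁻¹, hinv⟩ : A) := by
        intro hu
        obtain ⟨w, hw⟩ := hu.exists_right_inv
        have hw' : c₀⁻¹ * (w : K') = 1 := congrArg Subtype.val hw
        have : (w : K') = c₀ := by
          field_simp at hw'
          exact hw'
        exact hnA (this ▸ w.2)
      have hπa : π ⟨c₀⁻¹, hinv⟩ = 0 := hπ0 _ hnu
      -- `h' = 1 - c₀⁻¹ y`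
      let h' : O := 1 - hR.const ⟨c₀⁻¹, hinv⟩ * y
      have hh'F : (h' : F') = -(algebraMap K' F' c₀⁻¹ * ((y : F') - algebraMap K' F' c₀)) := by
        show (1 : F') - algebraMap K' F' c₀⁻¹ * (y : F') = _
        have h5 : algebraMap K' F' c₀⁻¹ * algebraMap K' F' c₀ = 1 := by
          rw [← map_mul, inv_mul_cancel₀ hc0, map_one]
        linear_combination -h5
      have hred' : red h' = 1 := by
        show red (1 - hR.const ⟨c₀⁻¹, hinv⟩ * y) = 1
        rw [map_sub, map_one, map_mul, hR.red_const, hπa, map_zero, zero_mul, sub_zero]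
      have hreg : ∀ P' : Place K' F', r P' = r P → 0 ≤ P'.ord (h' : F') := by
        intro P' hP'
        apply Fermat.Agent.S24.ord_nonneg_of_mem
        show (1 : F') - algebraMap K' F' c₀⁻¹ * (y : F') ∈ P'.toValuationSubring
        refine sub_mem (one_mem _) (mul_mem ?_ ?_)
        · exact Fermat.Agent.S24.mem_of_ord_nonneg P' (by rw [Fermat.Agent.S24.ord_algebraMap])
        · exact Fermat.Agent.S24.mem_of_ord_nonneg P' (htube P' hP')
      have h6 := key h' (by rw [hred']; exact one_ne_zero) hreg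
      rw [hred', Place.ord_one, hh'F] at h6
      have hcne : algebraMap K' F' c₀⁻¹ ≠ 0 := by
        simpa using hc0
      have h7 : P.ord (-(algebraMap K' F' c₀⁻¹ * ((y : F') - algebraMap K' F' c₀)))
          = P.ord ((y : F') - algebraMap K' F' c₀) := by
        rw [← neg_mul, Place.ord_mul P (neg_ne_zero.mpr hcne) hne, ← map_neg,
          Fermat.Agent.S24.ord_algebraMap, zero_add]
      rw [h7] at h6
      omega
    refine ⟨π ⟨c₀, hcA⟩, ⟨⟨c₀, hcA⟩, rfl, (adicValuation_lt_one_iff P hne).2 hpos⟩, ?_⟩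
    let h : O := y - hR.const ⟨c₀, hcA⟩
    have hred : red h = red y - algebraMap k Ft (π ⟨c₀, hcA⟩) := by
      show red (y - hR.const ⟨c₀, hcA⟩) = _
      rw [map_sub, hR.red_const]
    rw [← hred]
    by_cases hh0 : red h = 0
    · rw [hh0, map_zero]
      exact zero_lt_one
    · have hreg : ∀ P' : Place K' F', r P' = r P → 0 ≤ P'.ord (h : F') := by
        intro P' hP'
        apply Fermat.Agent.S24.ord_nonneg_of_mem
        show (y : F') - algebraMap K' F' c₀ ∈ P'.toValuationSubring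
        refine sub_mem ?_ ?_
        · exact Fermat.Agent.S24.mem_of_ord_nonneg P' (htube P' hP')
        · exact Fermat.Agent.S24.mem_of_ord_nonneg P' (by rw [Fermat.Agent.S24.ord_algebraMap])
      have h6 := key h hh0 hreg
      have h8 : P.ord (h : F') = P.ord ((y : F') - algebraMap K' F' c₀) := rfl
      rw [h8] at h6
      exact (adicValuation_lt_one_iff (r P) hh0).2 (lt_of_lt_of_le hpos h6)

end Values

/-! ### The reduction theorem, core form -/

section Core

variable {Λ U : Type*} [CommRing Λ] [CommRing U] [Algebra Λ U] {n : ℕ}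

/-- **The reduction theorem (GR-M), core form**: the Gauss ring `(O, red)` (output clauses of
`exists_gauss`), a good basis and the function-field facts of the two realisations are
hypotheses. -/
theorem exists_isRed_core (M : Model Λ U n)
    {K' F' k Ft : Type*} [Field K'] [Field F'] [Algebra K' F'] [Field k] [Field Ft] [Algebra k Ft]
    [IsAlgClosed K'] [IsAlgClosed k]
    {φ₁ : Λ →+* K'} {ψ₁ : U →+* F'} (h₁ : Real M K' F' φ₁ ψ₁)
    {φ₂ : Λ →+* k} {ψ₂ : U →+* Ft} (h₂ : Real M k Ft φ₂ ψ₂)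
    (hφ₁ : Function.Injective φ₁) (A : ValuationSubring K') (π : A →+* k)
    (hπ : Function.Surjective π) (hπ0 : ∀ a : A, ¬ IsUnit a → π a = 0)
    (hφ : ∀ a : Λ, ∃ h : φ₁ a ∈ A, π ⟨φ₁ a, h⟩ = φ₂ a)
    -- the function-field facts of the two realisations (GR-RL)
    (hF : IsFF1 K' F' (ψ₁ M.x)) (hFt : IsFF1 k Ft (ψ₂ M.x))
    [Algebra.IsSeparable ↥(K'⟮ψ₁ M.x⟯) F'] [Algebra.IsSeparable ↥(k⟮ψ₂ M.x⟯) Ft]
    (hch₁ : ∀ f : F', (∀ v : Place K' F', 0 ≤ v.ord (ψ₁ M.x) → 0 ≤ v.ord f) ↔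
      ∃ p : Fin n → K'[X], f = ∑ j, aeval (ψ₁ M.x) (p j) * ψ₁ (M.b j : U))
    (hch₁' : ∀ f : F', (∀ v : Place K' F', v.ord (ψ₁ M.x) ≤ 0 → 0 ≤ v.ord f) ↔
      ∃ p : Fin n → K'[X], f = ∑ j, aeval (ψ₁ M.x)⁻¹ (p j) * ψ₁ (M.b' j : U))
    (hch₂ : ∀ f : Ft, (∀ v : Place k Ft, 0 ≤ v.ord (ψ₂ M.x) → 0 ≤ v.ord f) ↔
      ∃ p : Fin n → k[X], f = ∑ j, aeval (ψ₂ M.x) (p j) * ψ₂ (M.b j : U))
    (hch₂' : ∀ f : Ft, (∀ v : Place k Ft, v.ord (ψ₂ M.x) ≤ 0 → 0 ≤ v.ord f) ↔
      ∃ p : Fin n → k[X], f = ∑ j, aeval (ψ₂ M.x)⁻¹ (p j) * ψ₂ (M.b' j : U))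
    -- the Gauss ring (GR-G)
    (O : ValuationSubring F') (red : O →+* Ft)
    (g1 : Function.Surjective red) (g2 : ∀ y : O, red y = 0 ↔ ¬ IsUnit y)
    (g3 : ∀ a : K', algebraMap K' F' a ∈ O ↔ a ∈ A)
    (g4 : ∀ a : A, ∃ h : algebraMap K' F' (a : K') ∈ O, red ⟨_, h⟩ = algebraMap k Ft (π a))
    (g5 : ∀ f : O, red f = 0 →
      ∃ (a : A) (g : O), π a = 0 ∧ (f : F') = algebraMap K' F' (a : K') * (g : F'))
    (g6 : ∀ y : F', y ≠ 0 → ∃ (a : K') (u : Oˣ), y = algebraMap K' F' a * ((u : O) : F'))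
    (g7 : ∀ y : F', y ∈ O ↔ ∃ (p : Fin n → A[X]) (s : A[X]), s.map π ≠ 0 ∧
      aeval (ψ₁ M.x) (s.map A.subtype) * y
        = ∑ i, aeval (ψ₁ M.x) ((p i).map A.subtype) * ψ₁ (M.b i : U))
    (g8 : ∀ (y : O) (p : Fin n → A[X]) (s : A[X]), s.map π ≠ 0 →
      aeval (ψ₁ M.x) (s.map A.subtype) * (y : F')
        = ∑ i, aeval (ψ₁ M.x) ((p i).map A.subtype) * ψ₁ (M.b i : U) →
      aeval (ψ₂ M.x) (s.map π) * red y = ∑ i, aeval (ψ₂ M.x) ((p i).map π) * ψ₂ (M.b i : U))
    -- the good basis (GR-GB)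
    {O₀ : ValuationSubring ↥(K'⟮ψ₁ M.x⟯)} {red₀ : O₀ →+* ↥(k⟮ψ₂ M.x⟯)}
    (G : Ortho.GoodBasis O red O₀ red₀ (Fin n)) :
    ∃ (r : Place K' F' → Place k Ft) (xO : Oˣ),
      ((xO : O) : F') = ψ₁ M.x ∧ red (xO : O) = ψ₂ M.x ∧ OneStep.IsRed O red r ∧
      Function.Surjective r ∧ IsFF1 K' F' (ψ₁ M.x) ∧ IsFF1 k Ft (ψ₂ M.x) ∧
      genusFF K' F' = genusFF k Ft ∧
      Module.finrank ↥(K'⟮ψ₁ M.x⟯) F' = Module.finrank ↥(k⟮ψ₂ M.x⟯) Ft ∧
      (∀ γ : k, ∃ c : O, OneStep.IsConst K' c ∧ red c = algebraMap k Ft γ) ∧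
      (∀ u : U, ∃ h : ψ₁ u ∈ O, red ⟨ψ₁ u, h⟩ = ψ₂ u) ∧
      (∀ (P : Place K' F') (γ₀ : k), EvK A π P (ψ₁ M.x) γ₀ → ∀ u : M.B, ∃ γ : k,
        EvK A π P (ψ₁ (u : U)) γ ∧ (r P).adicValuation (ψ₂ (u : U) - algebraMap k Ft γ) < 1) ∧
      (∀ (P : Place K' F') (γ₀ : k), EvK A π P (ψ₁ M.x') γ₀ → ∀ u : M.B', ∃ γ : k,
        EvK A π P (ψ₁ (u : U)) γ ∧ (r P).adicValuation (ψ₂ (u : U) - algebraMap k Ft γ) < 1) := by
  classical
  have : HasPrincipalDivisors K' F' := hF.hasPrincipalDivisors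
  -- the coefficient map `Λ → A`
  let φA : Λ →+* A := φ₁.codRestrict A (fun a => (hφ a).1)
  have hφA₁ : ∀ p : Λ[X], (p.map φA).map A.subtype = p.map φ₁ := by
    intro p
    rw [Polynomial.map_map]
    rfl
  have hφA₂ : ∀ p : Λ[X], (p.map φA).map π = p.map φ₂ := by
    intro p
    rw [Polynomial.map_map]
    congr 1
    ext a
    exact (hφ a).2
  have hxt0 : ψ₂ M.x ≠ 0 := map_x_ne_zero h₂
  -- (a) the image of `U` lies in `O` and reduces to `ψ₂`
  have hU : ∀ u : U, ∃ h : ψ₁ u ∈ O, red ⟨ψ₁ u, h⟩ = ψ₂ u := by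
    intro u
    obtain ⟨m, hm⟩ := M.hB u
    obtain ⟨p, hp⟩ := exists_repr M ⟨_, hm⟩
    have hp' : M.x ^ m * u = ∑ i, aeval M.x (p i) * (M.b i : U) := hp
    have e1 : aeval (ψ₁ M.x) ((X ^ m : A[X]).map A.subtype) * ψ₁ u
        = ∑ i, aeval (ψ₁ M.x) (((p i).map φA).map A.subtype) * ψ₁ (M.b i : U) := by
      rw [Polynomial.map_pow, Polynomial.map_X, map_pow, aeval_X, ← map_pow, ← map_mul, hp',
        map_repr h₁]
      simp_rw [hφA₁]
    have hs : (X ^ m : A[X]).map π ≠ 0 := by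
      rw [Polynomial.map_pow, Polynomial.map_X]
      exact pow_ne_zero _ X_ne_zero
    have hmem : ψ₁ u ∈ O := (g7 (ψ₁ u)).2 ⟨fun i => (p i).map φA, X ^ m, hs, e1⟩
    refine ⟨hmem, ?_⟩
    have e2 := g8 ⟨ψ₁ u, hmem⟩ (fun i => (p i).map φA) (X ^ m) hs e1
    simp_rw [hφA₂] at e2
    rw [← map_repr h₂, ← hp', Polynomial.map_pow, Polynomial.map_X, map_pow, aeval_X, map_mul,
      map_pow] at e2
    exact mul_left_cancel₀ (pow_ne_zero m hxt0) e2
  -- (b) constants
  have hR : Chart.RedData A π O red := ⟨fun a => (g4 a).1, fun a => (g4 a).2⟩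
  -- (c) the base function
  let xo : O := ⟨ψ₁ M.x, (hU M.x).1⟩
  let xo' : O := ⟨ψ₁ M.x', (hU M.x').1⟩
  have hxx' : xo * xo' = 1 := Subtype.ext (map_x_mul_x' h₁)
  have hredx : red xo = ψ₂ M.x := (hU M.x).2
  have hredx' : red xo' = ψ₂ M.x' := (hU M.x').2
  let xO : Oˣ := ⟨xo, xo', hxx', by rw [mul_comm]; exact hxx'⟩
  -- images of the chart bases in `O`
  let bO : Fin n → O := fun j => ⟨ψ₁ (M.b j : U), (hU _).1⟩
  let bO' : Fin n → O := fun j => ⟨ψ₁ (M.b' j : U), (hU _).1⟩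
  have hbO : ∀ j, red (bO j) = ψ₂ (M.b j : U) := fun j => (hU _).2
  have hbO' : ∀ j, red (bO' j) = ψ₂ (M.b' j : U) := fun j => (hU _).2
  -- (d) T3 for the chart `x`
  have hT3 : ∀ s : Ft, (∀ Q : Place k Ft, 0 ≤ Q.ord (red xo) → 0 ≤ Q.ord s) →
      ∃ y : O, red y = s ∧ ∀ P : Place K' F', 0 ≤ P.ord (xo : F') → 0 ≤ P.ord (y : F') := by
    intro s hs
    rw [hredx] at hs
    obtain ⟨p, hp⟩ := (hch₂ s).1 hs
    choose PA hPA using fun j => Polynomial.map_surjective π hπ (p j)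
    refine ⟨∑ j, hR.evalO xo.2 (PA j) * bO j, ?_, ?_⟩
    · rw [map_sum, hp]
      refine Finset.sum_congr rfl fun j _ => ?_
      rw [map_mul, hR.red_evalO, hbO, hPA]
      exact congrArg (fun z => aeval z (p j) * ψ₂ (M.b j : U)) hredx
    · have hy : ((∑ j, hR.evalO xo.2 (PA j) * bO j : O) : F')
          = ∑ j, aeval (ψ₁ M.x) ((PA j).map A.subtype) * ψ₁ (M.b j : U) := by
        rw [show ((∑ j, hR.evalO xo.2 (PA j) * bO j : O) : F')
          = O.subtype (∑ j, hR.evalO xo.2 (PA j) * bO j) from rfl, map_sum]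
        refine Finset.sum_congr rfl fun j _ => ?_
        rw [map_mul]
        show ((hR.evalO xo.2 (PA j) : O) : F') * ψ₁ (M.b j : U) = _
        rw [hR.coe_evalO]
      rw [hy]
      exact (hch₁ _).2 ⟨fun j => (PA j).map A.subtype, rfl⟩
  -- (e) T3 for the chart `x⁻¹`
  have hT3' : ∀ s : Ft, (∀ Q : Place k Ft, Q.ord (red xo) ≤ 0 → 0 ≤ Q.ord s) →
      ∃ y : O, red y = s ∧ ∀ P : Place K' F', P.ord (xo : F') ≤ 0 → 0 ≤ P.ord (y : F') := by
    intro s hs
    rw [hredx] at hs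
    obtain ⟨p, hp⟩ := (hch₂' s).1 hs
    choose PA hPA using fun j => Polynomial.map_surjective π hπ (p j)
    refine ⟨∑ j, hR.evalO xo'.2 (PA j) * bO' j, ?_, ?_⟩
    · rw [map_sum, hp]
      refine Finset.sum_congr rfl fun j _ => ?_
      rw [map_mul, hR.red_evalO, hbO', hPA]
      have h3 : red ⟨ψ₁ M.x', xo'.2⟩ = (ψ₂ M.x)⁻¹ := by
        rw [← map_x' h₂]
        exact hredx'
      exact congrArg (fun z => aeval z (p j) * ψ₂ (M.b' j : U)) h3
    · have hy : ((∑ j, hR.evalO xo'.2 (PA j) * bO' j : O) : F')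
          = ∑ j, aeval (ψ₁ M.x)⁻¹ ((PA j).map A.subtype) * ψ₁ (M.b' j : U) := by
        rw [show ((∑ j, hR.evalO xo'.2 (PA j) * bO' j : O) : F')
          = O.subtype (∑ j, hR.evalO xo'.2 (PA j) * bO' j) from rfl, map_sum]
        refine Finset.sum_congr rfl fun j _ => ?_
        rw [map_mul]
        show ((hR.evalO xo'.2 (PA j) : O) : F') * ψ₁ (M.b' j : U) = _
        rw [hR.coe_evalO, show ((xo' : O) : F') = (ψ₁ M.x)⁻¹ from map_x' h₁]
      rw [hy]
      exact (hch₁' _).2 ⟨fun j => (PA j).map A.subtype, rfl⟩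
  -- (f) the engine
  have hFt' : IsFF1 k Ft (red xo) := by rw [hredx]; exact hFt
  have hE₀ : k⟮red xo⟯ = k⟮ψ₂ M.x⟯ := by rw [hredx]
  obtain ⟨r, hr1, hr2, hr3⟩ := PlaceRedMain.exists_reduction_of_gauss hπ0 hπ hR g3 g2 g5
    xo xo' hxx' hF hFt' (K'⟮ψ₁ M.x⟯) rfl (k⟮ψ₂ M.x⟯) hE₀ G hT3 hT3'
  -- (g) `IsRed`
  have hIs : OneStep.IsRed O red r := by
    refine ⟨g6, fun y hy => (g2 y).2 hy, ?_, ?_⟩
    · rintro y ⟨c, hc⟩
      have hcA : c ∈ A := (g3 c).1 (hc ▸ y.2)
      refine ⟨π ⟨c, hcA⟩, ?_⟩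
      have hy : y = hR.const ⟨c, hcA⟩ := Subtype.ext hc.symm
      rw [hy, hR.red_const]
    · intro u D hD Q
      exact hr3 (u : O) (OneStep.IsRed.red_unit_ne_zero u) D hD Q
  have hsurj : Function.Surjective r := hIs.surjective_of_red_surjective g1
  -- (h) genus
  obtain ⟨e, T, T', hT, hT'⟩ := exists_transition M
  have hgenus : genusFF K' F' = genusFF k Ft := by
    refine Cech.genusFF_eq_of_good_reduction φ₁ φ₂ hφ₁ hF hFt
      (fun i => ψ₁ (M.b i : U)) (fun i => ψ₁ (M.b' i : U))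
      (fun i => ψ₂ (M.b i : U)) (fun i => ψ₂ (M.b' i : U))
      (linearIndependent_of_real h₁) (linearIndependent_of_real h₂)
      hch₁ hch₁' hch₂ hch₂' e T T' ?_ ?_ ?_ ?_
    · intro i
      have h3 := congrArg ψ₁ (hT i)
      rw [map_mul, map_pow, map_repr h₁, map_x' h₁] at h3
      exact h3
    · intro j
      have h3 := congrArg ψ₁ (hT' j)
      rw [map_mul, map_pow, map_repr h₁, map_x' h₁] at h3
      exact h3
    · intro i
      have h3 := congrArg ψ₂ (hT i)
      rw [map_mul, map_pow, map_repr h₂, map_x' h₂] at h3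
      exact h3
    · intro j
      have h3 := congrArg ψ₂ (hT' j)
      rw [map_mul, map_pow, map_repr h₂, map_x' h₂] at h3
      exact h3
  -- (i) regularity of the chart functions
  have hregB : ∀ (u : M.B) (v : Place K' F'), 0 ≤ v.ord (ψ₁ M.x) → 0 ≤ v.ord (ψ₁ (u : U)) := by
    intro u
    obtain ⟨p, hp⟩ := exists_repr M u
    refine (hch₁ _).2 ⟨fun j => (p j).map φ₁, ?_⟩
    rw [hp, map_repr h₁]
  have hregB' : ∀ (u : M.B') (v : Place K' F'), v.ord (ψ₁ M.x) ≤ 0 →
      0 ≤ v.ord (ψ₁ (u : U)) := by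
    intro u
    obtain ⟨p, hp⟩ := exists_repr' M u
    refine (hch₁' _).2 ⟨fun j => (p j).map φ₁, ?_⟩
    rw [hp, map_repr h₁, map_x' h₁]
  have hredxinv : red xo' = (red xo)⁻¹ := by
    have h3 : red xo * red xo' = 1 := by rw [← map_mul, hxx', map_one]
    exact eq_inv_of_mul_eq_one_right h3
  have hredx0 : red xo ≠ 0 := by rw [hredx]; exact hxt0
  refine ⟨r, xO, rfl, hredx, hIs, hsurj, hF, hFt, hgenus, ?_, ?_, hU, ?_, ?_⟩
  · rw [finrank_of_real h₁, finrank_of_real h₂]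
  · intro γ
    obtain ⟨a, ha⟩ := hπ γ
    exact ⟨hR.const a, ⟨(a : K'), rfl⟩, by rw [hR.red_const, ha]⟩
  · -- values on the finite chart
    intro P γ₀ hEv u
    have hfib : ∀ P' : Place K' F', r P' = r P → 0 ≤ P'.ord (ψ₁ M.x) := by
      intro P' hP'
      by_contra hneg
      have hneg' : P'.ord (ψ₁ M.x) < 0 := not_le.mp hneg
      have h1 : 0 < P'.ord ((xo' : O) : F') := by
        show 0 < P'.ord (ψ₁ M.x')
        rw [map_x' h₁, Place.ord_inv]
        omega
      have hne : ((xo' : O) : F') ≠ 0 := by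
        intro h0
        rw [h0, Place.ord_zero] at h1
        exact lt_irrefl _ h1
      have h2 := hr2 P' (EvK.of_lt_one ((adicValuation_lt_one_iff P' hne).2 h1))
      have h3 := hr1 P γ₀ hEv
      have h4 : 0 ≤ (r P).ord (red xo) := by
        apply Fermat.Agent.S24.ord_nonneg_of_mem
        have h5 : red xo = (red xo - algebraMap k Ft γ₀) + algebraMap k Ft γ₀ := by ring
        rw [h5]
        exact add_mem (Fermat.Agent.S24.mem_of_ord_nonneg _ h3.le)
          (Fermat.Agent.S24.mem_of_ord_nonneg _ (by rw [Fermat.Agent.S24.ord_algebraMap]))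
      rw [hP', hredxinv, Place.ord_inv] at h2
      omega
    obtain ⟨γ, hγ1, hγ2⟩ := exists_evK_of_regular hπ0 hF.resK hR g3 hIs P
      ⟨ψ₁ (u : U), (hU _).1⟩ (fun P' hP' => hregB u P' (hfib P' hP'))
    refine ⟨γ, hγ1, ?_⟩
    rw [← (hU (u : U)).2]
    exact hγ2
  · -- values on the chart at infinity
    intro P γ₀ hEv u
    have hfib : ∀ P' : Place K' F', r P' = r P → P'.ord (ψ₁ M.x) ≤ 0 := by
      intro P' hP'
      by_contra hpos
      have hpos' : 0 < P'.ord (ψ₁ M.x) := not_le.mp hpos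
      have hne : ψ₁ M.x ≠ 0 := map_x_ne_zero h₁
      have h2 := hr1 P' 0 (EvK.of_lt_one ((adicValuation_lt_one_iff P' hne).2 hpos'))
      rw [map_zero, sub_zero, hP'] at h2
      by_cases hγ : γ₀ = 0
      · subst hγ
        have h3 := hr2 P hEv
        rw [hredxinv, Place.ord_inv] at h3
        omega
      · have hEv' : EvK A π P (ψ₁ M.x) γ₀⁻¹ := evK_inv hπ0 (map_x_mul_x' h₁) hγ hEv
        have h3 := hr1 P γ₀⁻¹ hEv'
        have hne3 : red xo - algebraMap k Ft γ₀⁻¹ ≠ 0 := by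
          intro h0
          rw [h0, Place.ord_zero] at h3
          exact lt_irrefl _ h3
        have hc : algebraMap k Ft γ₀⁻¹ = red xo - (red xo - algebraMap k Ft γ₀⁻¹) := by ring
        have h6 : (r P).adicValuation (algebraMap k Ft γ₀⁻¹) < 1 := by
          rw [hc]
          exact Valuation.map_sub_lt _ ((adicValuation_lt_one_iff _ hredx0).2 h2)
            ((adicValuation_lt_one_iff _ hne3).2 h3)
        rw [adicValuation_algebraMap_eq_one _ (inv_ne_zero hγ)] at h6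
        exact lt_irrefl _ h6
    obtain ⟨γ, hγ1, hγ2⟩ := exists_evK_of_regular hπ0 hF.resK hR g3 hIs P
      ⟨ψ₁ (u : U), (hU _).1⟩ (fun P' hP' => hregB' u P' (hfib P' hP'))
    refine ⟨γ, hγ1, ?_⟩
    rw [← (hU (u : U)).2]
    exact hγ2

end Core

end Fermat.Agent.S27P.GR.MainCore
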