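/-
S27 / (GR), row GR-N (helper14): normality of a chart ring from its certificate.

`isIntegrallyClosed_of_chartCert`: a domain `R` over a field `k` with a `ChartCert k R z β`
(free over `k[z]` on `β`, a trace-dual identity `tr(β_i βd_j) = d δ_ij` with `d = l ∏ (X - a_q)`
split, and a `LocalCertN` at every root `a_q`) is integrally closed.

Route (helper56, cut v1):
(a) `f ∈ Frac R` integral ⟹ `d(z) f ∈ R` (integrality of traces over the integrally closed
    `k[X]`, in the basis `β`);
(b) for a root `a`: `g` integral with `(z - a) g ∈ R` ⟹ `g ∈ R` (conductor; at a maximal ideal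
    `𝔫 ∋ z - a` the certificate makes `R_𝔫` a discrete valuation ring);
(c) peel the linear factors of `d`.
-/
import Mathlib
import Fermat.Agent.S27P.GR.Defs

set_option autoImplicit false

noncomputable section

namespace Fermat.Agent.S27P.GR

open Polynomial

namespace Normal

open scoped nonZeroDivisors

/-! ### (a) the trace-dual step, abstract form -/

section TraceDual

variable {P R : Type*} [CommRing P] [IsDomain P] [IsIntegrallyClosed P] [CommRing R] [IsDomain R]
  [Algebra P R]

attribute [local instance] FractionRing.liftAlgebra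

/-- **(a)** Let `R` be a domain, free over the integrally closed domain `P` on the basis `b`, and
`βd j` elements with `tr(b i * βd j) = d δ_ij` (trace of the multiplication matrix on `b`).  Then
`d f ∈ R` for every `f ∈ Frac R` integral over `R`. -/
theorem exists_eq_mul_of_isIntegral {n : ℕ} (b : Module.Basis (Fin n) P R) (βd : Fin n → R)
    (d : P) (htr : ∀ i j, ∑ s, b.repr (b i * βd j * b s) s = if i = j then d else 0)
    (f : FractionRing R) (hf : IsIntegral R f) :
    ∃ r : R, algebraMap R (FractionRing R) r =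
      algebraMap R (FractionRing R) (algebraMap P R d) * f := by
  classical
  have hfin : Module.Finite P R := Module.Finite.of_basis b
  have hfree : Module.Free P R := Module.Free.of_basis b
  have hinj : Function.Injective (algebraMap P R) := by
    rw [injective_iff_map_eq_zero]
    intro p hp
    have h1 : p • (1 : R) = 0 := by rw [Algebra.smul_def, mul_one, hp]
    rcases smul_eq_zero.mp h1 with h | h
    · exact h
    · exact absurd h one_ne_zero
  have hfaith : FaithfulSMul P R := (faithfulSMul_iff_algebraMap_injective P R).mpr hinj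
  have hinjL : Function.Injective (algebraMap P (FractionRing R)) := by
    rw [IsScalarTower.algebraMap_eq P R (FractionRing R)]
    exact (IsFractionRing.injective R (FractionRing R)).comp hinj
  have hfaithL : FaithfulSMul P (FractionRing R) :=
    (faithfulSMul_iff_algebraMap_injective P (FractionRing R)).mpr hinjL
  have hint : Algebra.IsIntegral P R := Algebra.IsIntegral.of_finite P R
  -- the basis of `Frac R` over `Frac P`
  let bL : Module.Basis (Fin n) (FractionRing P) (FractionRing R) :=
    b.localizationLocalization (FractionRing P) P⁰ (FractionRing R)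
  have hbL : ∀ i, bL i = algebraMap R (FractionRing R) (b i) := fun i =>
    b.localizationLocalization_apply (FractionRing P) P⁰ (FractionRing R) i
  have hfd : FiniteDimensional (FractionRing P) (FractionRing R) := Module.Finite.of_basis bL
  -- traces of the `b i * βd j`
  have htrace : ∀ i j, Algebra.trace (FractionRing P) (FractionRing R)
      (algebraMap R (FractionRing R) (b i * βd j)) =
      algebraMap P (FractionRing P) (if i = j then d else 0) := by
    intro i j
    rw [Algebra.trace_localization P P⁰, Algebra.trace_eq_matrix_trace b, Matrix.trace, ← htr i j]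
    congr 1
    refine Finset.sum_congr rfl fun s _ => ?_
    rw [Matrix.diag_apply, Algebra.leftMulMatrix_eq_repr_mul]
  -- the trace of `f * βd j` lies in `P`
  have hq : ∀ j, ∃ q : P, algebraMap P (FractionRing P) q =
      Algebra.trace (FractionRing P) (FractionRing R) (f * algebraMap R (FractionRing R) (βd j)) := by
    intro j
    have h1 : IsIntegral R (f * algebraMap R (FractionRing R) (βd j)) :=
      hf.mul isIntegral_algebraMap
    have h2 : IsIntegral P (f * algebraMap R (FractionRing R) (βd j)) := isIntegral_trans _ h1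
    have h3 : IsIntegral P (Algebra.trace (FractionRing P) (FractionRing R)
        (f * algebraMap R (FractionRing R) (βd j))) := Algebra.isIntegral_trace h2
    exact IsIntegrallyClosed.isIntegral_iff.mp h3
  choose q hq using hq
  -- coordinates of `f`
  have hfexp : f = ∑ i, bL.repr f i • bL i := (bL.sum_repr f).symm
  have hcoord : ∀ j, bL.repr f j * algebraMap P (FractionRing P) d =
      algebraMap P (FractionRing P) (q j) := by
    intro j
    rw [hq j]
    conv_rhs => rw [hfexp, Finset.sum_mul, map_sum]
    have h4 : ∀ i, Algebra.trace (FractionRing P) (FractionRing R)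
        (bL.repr f i • bL i * algebraMap R (FractionRing R) (βd j)) =
        bL.repr f i * algebraMap P (FractionRing P) (if i = j then d else 0) := by
      intro i
      rw [smul_mul_assoc, map_smul, smul_eq_mul, hbL, ← map_mul, htrace]
    rw [Finset.sum_congr rfl fun i _ => h4 i, Finset.sum_eq_single j]
    · rw [if_pos rfl]
    · intro i _ hij
      rw [if_neg hij, map_zero, mul_zero]
    · intro hj
      exact absurd (Finset.mem_univ j) hj
  refine ⟨∑ j, q j • b j, ?_⟩
  have h5 : algebraMap R (FractionRing R) (algebraMap P R d) * f =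
      algebraMap P (FractionRing P) d • f := by
    rw [Algebra.smul_def, ← IsScalarTower.algebraMap_apply, ← IsScalarTower.algebraMap_apply]
  rw [h5]
  conv_rhs => rw [hfexp, Finset.smul_sum]
  rw [map_sum]
  refine Finset.sum_congr rfl fun j _ => ?_
  rw [smul_smul, mul_comm, hcoord j, hbL, Algebra.smul_def, map_mul, Algebra.smul_def,
    ← IsScalarTower.algebraMap_apply, ← IsScalarTower.algebraMap_apply]

end TraceDual

/-! ### (b) the conductor step -/

section Conductor

variable {R : Type*} [CommRing R] [IsDomain R] [IsNoetherianRing R]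

/-- **(b)** Let `R` be a noetherian domain and `t ≠ 0` such that every maximal ideal `𝔫 ∋ t` is
"generated up to a unit at `𝔫`" by one element `τ` (`v t = u τ` with `v ∉ 𝔫`, `𝔫 = (τ, t)`).  Then
an integral `g ∈ Frac R` with `t g ∈ R` lies in `R`. -/
theorem exists_eq_of_mul_eq {t : R} (ht : t ≠ 0)
    (hloc : ∀ 𝔫 : Ideal R, 𝔫.IsMaximal → t ∈ 𝔫 →
      ∃ τ ∈ 𝔫, ∃ v, v ∉ 𝔫 ∧ ∃ u : R, v * t = u * τ ∧ ∀ y ∈ 𝔫, ∃ r s : R, y = τ * r + t * s)
    (g : FractionRing R) (hg : IsIntegral R g) (h' : R)
    (hgt : algebraMap R (FractionRing R) t * g = algebraMap R (FractionRing R) h') :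
    ∃ r : R, algebraMap R (FractionRing R) r = g := by
  classical
  -- the conductor of `g`
  let I : Ideal R :=
    { carrier := {r | ∃ r' : R, algebraMap R (FractionRing R) r' =
        algebraMap R (FractionRing R) r * g}
      add_mem' := by
        rintro x y ⟨x', hx⟩ ⟨y', hy⟩
        exact ⟨x' + y', by rw [map_add, map_add, add_mul, hx, hy]⟩
      zero_mem' := ⟨0, by rw [map_zero, zero_mul]⟩
      smul_mem' := by
        rintro c x ⟨x', hx⟩
        exact ⟨c * x', by rw [smul_eq_mul, map_mul, map_mul, mul_assoc, hx]⟩ }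
  by_contra hcon
  have hI : I ≠ ⊤ := by
    intro h
    have h1 : (1 : R) ∈ I := by rw [h]; exact Submodule.mem_top
    obtain ⟨r', hr'⟩ := h1
    exact hcon ⟨r', by rw [hr', map_one, one_mul]⟩
  obtain ⟨𝔫, hmax, hle⟩ := Ideal.exists_le_maximal I hI
  have htn : t ∈ 𝔫 := hle ⟨h', hgt.symm⟩
  obtain ⟨τ, hτ, v, hv, u, hvt, hgen⟩ := hloc 𝔫 hmax htn
  have hprime : 𝔫.IsPrime := hmax.isPrime
  have hτ0 : τ ≠ 0 := by
    rintro rfl
    rw [mul_zero] at hvt
    rcases mul_eq_zero.mp hvt with h | h
    · exact hv (h ▸ 𝔫.zero_mem)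
    · exact ht h
  -- the localisation at `𝔫`
  have hinjS : Function.Injective (algebraMap R (Localization.AtPrime 𝔫)) :=
    IsLocalization.injective _ 𝔫.primeCompl_le_nonZeroDivisors
  have hvu : IsUnit (algebraMap R (Localization.AtPrime 𝔫) v) :=
    IsLocalization.map_units (Localization.AtPrime 𝔫) (⟨v, hv⟩ : 𝔫.primeCompl)
  have hmaxS : IsLocalRing.maximalIdeal (Localization.AtPrime 𝔫) =
      Ideal.span {algebraMap R (Localization.AtPrime 𝔫) τ} := by
    rw [← Localization.AtPrime.map_eq_maximalIdeal]
    apply le_antisymm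
    · rw [Ideal.map_le_iff_le_comap]
      intro y hy
      obtain ⟨r, s, rfl⟩ := hgen y hy
      rw [Ideal.mem_comap, Ideal.mem_span_singleton']
      obtain ⟨v', hv'⟩ := hvu.exists_left_inv
      have h1 : algebraMap R (Localization.AtPrime 𝔫) t =
          v' * algebraMap R (Localization.AtPrime 𝔫) u *
            algebraMap R (Localization.AtPrime 𝔫) τ := by
        calc algebraMap R (Localization.AtPrime 𝔫) t
            = v' * algebraMap R (Localization.AtPrime 𝔫) v *
                algebraMap R (Localization.AtPrime 𝔫) t := by rw [hv', one_mul]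
          _ = v' * algebraMap R (Localization.AtPrime 𝔫) (v * t) := by rw [map_mul, mul_assoc]
          _ = _ := by rw [hvt, map_mul, mul_assoc]
      refine ⟨algebraMap R (Localization.AtPrime 𝔫) r +
        v' * algebraMap R (Localization.AtPrime 𝔫) u * algebraMap R (Localization.AtPrime 𝔫) s, ?_⟩
      rw [map_add, map_mul, map_mul, h1]
      ring
    · rw [Ideal.span_singleton_le_iff_mem]
      exact Ideal.mem_map_of_mem _ hτ
  have hnf : ¬ IsField (Localization.AtPrime 𝔫) := by
    rw [IsLocalRing.isField_iff_maximalIdeal_eq, hmaxS, Ideal.span_singleton_eq_bot]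
    exact fun h => hτ0 (hinjS (h.trans (map_zero _).symm))
  have hprinc : (IsLocalRing.maximalIdeal (Localization.AtPrime 𝔫)).IsPrincipal :=
    ⟨⟨_, hmaxS⟩⟩
  have hdvr : IsDiscreteValuationRing (Localization.AtPrime 𝔫) :=
    ((IsDiscreteValuationRing.TFAE (Localization.AtPrime 𝔫) hnf).out 4 0).mp hprinc
  have hic : IsIntegrallyClosed (Localization.AtPrime 𝔫) := inferInstance
  have hgS : IsIntegral (Localization.AtPrime 𝔫) g := hg.tower_top
  obtain ⟨σ, hσ⟩ := IsIntegrallyClosed.isIntegral_iff.mp hgS
  obtain ⟨⟨x1, x2⟩, hx⟩ := IsLocalization.surj 𝔫.primeCompl σ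
  have hx2 : (x2 : R) ∈ I := by
    refine ⟨x1, ?_⟩
    have h2 := congrArg (algebraMap (Localization.AtPrime 𝔫) (FractionRing R)) hx
    rw [map_mul, hσ, ← IsScalarTower.algebraMap_apply, ← IsScalarTower.algebraMap_apply] at h2
    rw [← h2, mul_comm]
  exact x2.2 (hle hx2)

end Conductor

/-! ### the local hypothesis of (b) from a `LocalCertN` -/

/-- At a maximal ideal `𝔫 ∋ z - a`, a `LocalCertN` provides one uniformiser `τ j ∈ 𝔫` with
`v j ∉ 𝔫`, `v j (z - a) = u j τ j` and `𝔫 = (τ j, z - a)`. -/
theorem exists_local_of_localCertN {k R : Type*} [Field k] [CommRing R] [Algebra k R]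
    {z : R} {a : k} {m : ℕ} (h : LocalCertN k R z a m) (𝔫 : Ideal R) (hmax : 𝔫.IsMaximal)
    (ht : z - algebraMap k R a ∈ 𝔫) :
    ∃ τ ∈ 𝔫, ∃ v, v ∉ 𝔫 ∧ ∃ u : R, v * (z - algebraMap k R a) = u * τ ∧
      ∀ y ∈ 𝔫, ∃ r s : R, y = τ * r + (z - algebraMap k R a) * s := by
  classical
  obtain ⟨τ, v, u, c, N, w, h1, h2, h3, h4⟩ := h
  have hprime : 𝔫.IsPrime := hmax.isPrime
  have hunit : ∀ κ : k, κ ≠ 0 → algebraMap k R κ ∉ 𝔫 := by
    intro κ hκ hmem
    apply hprime.ne_top
    rw [Ideal.eq_top_iff_one]
    have h5 : algebraMap k R κ⁻¹ * algebraMap k R κ = 1 := by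
      rw [← map_mul, inv_mul_cancel₀ hκ, map_one]
    rw [← h5]
    exact 𝔫.mul_mem_left _ hmem
  have hprod : (∏ j, τ j) ∈ 𝔫 := by
    apply hprime.mem_of_pow_mem N
    rw [h4]
    exact 𝔫.mul_mem_right _ ht
  obtain ⟨j, -, hj⟩ := (Ideal.IsPrime.prod_mem_iff (p := 𝔫)).mp hprod
  refine ⟨τ j, hj, v j, ?_, u j, h1 j, ?_⟩
  · intro hv
    obtain ⟨r, s, hrs⟩ := h2 j
    apply hunit (c j : k) (c j).ne_zero
    have h5 : algebraMap k R (c j : k) = v j - (τ j * r + (z - algebraMap k R a) * s) := by
      rw [← hrs]; ring
    rw [h5]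
    exact 𝔫.sub_mem hv (𝔫.add_mem (𝔫.mul_mem_right _ hj) (𝔫.mul_mem_right _ ht))
  · intro y hy
    obtain ⟨κ, r, s, hrs⟩ := h3 j y
    have hκ : κ = 0 := by
      by_contra hκ
      apply hunit κ hκ
      have h5 : algebraMap k R κ = y - (τ j * r + (z - algebraMap k R a) * s) := by
        rw [← hrs]; ring
      rw [h5]
      exact 𝔫.sub_mem hy (𝔫.add_mem (𝔫.mul_mem_right _ hj) (𝔫.mul_mem_right _ ht))
    refine ⟨r, s, ?_⟩
    rw [← hrs, hκ, map_zero, sub_zero]

end Normal

/-- **[GR-N]** A domain `R` over a field `k` with a chart certificate is integrally closed. -/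
theorem isIntegrallyClosed_of_chartCert {k R : Type*} [Field k] [CommRing R] [IsDomain R]
    [Algebra k R] {n : ℕ} (z : R) (β : Fin n → R) (h : ChartCert k R z β) :
    IsIntegrallyClosed R := by
  classical
  let alg : Algebra k[X] R := (aeval z).toRingHom.toAlgebra
  have halg : ∀ p : k[X], algebraMap k[X] R p = aeval z p := fun p => rfl
  have hsmul : ∀ (p : k[X]) (r : R), p • r = aeval z p * r := fun p r => by
    rw [Algebra.smul_def, halg]
  -- the basis
  have hli : LinearIndependent k[X] β := by
    rw [Fintype.linearIndependent_iff]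
    intro g hg i
    obtain ⟨p, -, hp⟩ := h.free 0
    have h1 : g = p := by
      apply hp g
      rw [← hg]
      exact Finset.sum_congr rfl fun i _ => hsmul _ _
    have h2 : (0 : Fin n → k[X]) = p := by
      apply hp 0
      simp
    rw [h1, ← h2]
    rfl
  have hsp : ⊤ ≤ Submodule.span k[X] (Set.range β) := by
    intro f _
    obtain ⟨p, hp, -⟩ := h.free f
    rw [hp]
    refine Submodule.sum_mem _ fun i _ => ?_
    rw [← hsmul]
    exact Submodule.smul_mem _ _ (Submodule.subset_span ⟨i, rfl⟩)
  let b : Module.Basis (Fin n) k[X] R := Module.Basis.mk hli hsp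
  have hb : ∀ i, b i = β i := fun i => Module.Basis.mk_apply hli hsp i
  have hfin : Module.Finite k[X] R := Module.Finite.of_basis b
  have hnoeth : IsNoetherianRing R := IsNoetherianRing.of_finite k[X] R
  have hfree : Module.Free k[X] R := Module.Free.of_basis b
  have hinj : Function.Injective (aeval z : k[X] → R) := by
    rw [injective_iff_map_eq_zero]
    intro p hp
    have h1 : p • (1 : R) = 0 := by rw [hsmul, mul_one, hp]
    rcases smul_eq_zero.mp h1 with h | h
    · exact h
    · exact absurd h one_ne_zero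
  obtain ⟨βd, T, m, a, l, hT, htr, hloc⟩ := h.disc
  have htr' : ∀ i j, ∑ s, b.repr (b i * βd j * b s) s =
      if i = j then C (l : k) * ∏ q, (X - C (a q)) else 0 := by
    intro i j
    rw [← htr i j]
    refine Finset.sum_congr rfl fun s _ => ?_
    have h1 : b i * βd j * b s = ∑ t, T i j s t • b t := by
      rw [hb, hb, hT]
      exact Finset.sum_congr rfl fun t _ => by rw [hsmul, hb]
    rw [h1, Module.Basis.repr_sum_self]
  rw [isIntegrallyClosed_iff (FractionRing R)]
  intro f hf
  obtain ⟨r0, hr0⟩ := Normal.exists_eq_mul_of_isIntegral b βd _ htr' f hf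
  have hd : algebraMap k[X] R (C (l : k) * ∏ q, (X - C (a q))) =
      algebraMap k R (l : k) * ∏ q, (z - algebraMap k R (a q)) := by
    rw [halg, map_mul, aeval_C, map_prod]
    congr 1
    refine Finset.prod_congr rfl fun q _ => ?_
    rw [map_sub, aeval_X, aeval_C]
  rw [hd] at hr0
  -- (c) peel the linear factors
  have hpeel : ∀ S : Finset (Fin m), ∀ g : FractionRing R, IsIntegral R g →
      (∃ r : R, algebraMap R (FractionRing R) r =
        algebraMap R (FractionRing R) (∏ q ∈ S, (z - algebraMap k R (a q))) * g) →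
      ∃ r : R, algebraMap R (FractionRing R) r = g := by
    intro S
    induction S using Finset.induction_on with
    | empty =>
      rintro g _ ⟨r, hr⟩
      exact ⟨r, by rw [hr, Finset.prod_empty, map_one, one_mul]⟩
    | insert q S hq ih =>
      rintro g hg ⟨r, hr⟩
      rw [Finset.prod_insert hq, map_mul, mul_assoc] at hr
      apply ih g hg
      have ht0 : z - algebraMap k R (a q) ≠ 0 := by
        intro h0
        have h6 : aeval z (X - C (a q)) = aeval z (0 : k[X]) := by
          rw [map_sub, aeval_X, aeval_C, h0, map_zero]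
        exact X_sub_C_ne_zero (a q) (hinj h6)
      obtain ⟨m', hm'⟩ := hloc q
      exact Normal.exists_eq_of_mul_eq ht0
        (fun 𝔫 hmax ht => Normal.exists_local_of_localCertN hm' 𝔫 hmax ht)
        _ (isIntegral_algebraMap.mul hg) r hr.symm
  have hg : IsIntegral R (algebraMap R (FractionRing R) (algebraMap k R (l : k)) * f) :=
    isIntegral_algebraMap.mul hf
  obtain ⟨r1, hr1⟩ := hpeel Finset.univ _ hg ⟨r0, by rw [hr0, map_mul]; ring⟩
  refine ⟨algebraMap k R ((l⁻¹ : kˣ) : k) * r1, ?_⟩
  rw [map_mul, hr1, ← mul_assoc, ← map_mul, ← map_mul, Units.inv_mul, map_one, map_one, one_mul]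

end Fermat.Agent.S27P.GR
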