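import Mathlib
import Fermat.Agent.S27P.GR.Defs
import Fermat.Agent.S27P.GR.Normal
import Fermat.Agent.S27P.GR.Transport
import Fermat.Agent.Lib.FF.Holo
import Fermat.Agent.Lib.FF.CharP.Principal
import Fermat.Agent.Lib.Red.InstGenusGA

/-!
# S27 / (GR), row GR-RL (twin): every realisation is a good two-chart function field

For `h : Real M κ E φ ψ` and `X := ψ M.x`: `finiteDimensional`, `finrank_eq`, `isFF1`,
`isSeparable`, `chart`, `chart'`, `exists_bad_set`, and the basis statements for both charts.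
-/

set_option autoImplicit false
set_option linter.style.haveILetI false

noncomputable section

namespace Fermat.Agent.S27P.GR.RealC

open Polynomial AlgebraicCurve IntermediateField

/-! ### The chart ring spanned by a multiplicatively closed family -/

section ChartRing

variable (κ : Type*) {E : Type*} [Field κ] [Field E] [Algebra κ E] {n : ℕ}

/-- The `κ[z]`-span of the family `β`, as a set. -/
def chartSet (z : E) (β : Fin n → E) : Set E :=
  {f | ∃ p : Fin n → κ[X], f = ∑ i, aeval z (p i) * β i}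

variable {κ} {z : E} {β : Fin n → E}

theorem chartSet_zero : (0 : E) ∈ chartSet κ z β := ⟨0, by simp⟩

theorem chartSet_add {f g : E} (hf : f ∈ chartSet κ z β) (hg : g ∈ chartSet κ z β) :
    f + g ∈ chartSet κ z β := by
  obtain ⟨p, rfl⟩ := hf
  obtain ⟨q, rfl⟩ := hg
  refine ⟨p + q, ?_⟩
  rw [← Finset.sum_add_distrib]
  refine Finset.sum_congr rfl fun i _ => ?_
  rw [Pi.add_apply, map_add, add_mul]

theorem chartSet_sum {ι : Type*} (s : Finset ι) (f : ι → E)
    (h : ∀ i ∈ s, f i ∈ chartSet κ z β) : ∑ i ∈ s, f i ∈ chartSet κ z β := by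
  classical
  induction s using Finset.induction_on with
  | empty => rw [Finset.sum_empty]; exact chartSet_zero
  | insert a s ha ih =>
    rw [Finset.sum_insert ha]
    exact chartSet_add (h a (Finset.mem_insert_self a s))
      (ih fun i hi => h i (Finset.mem_insert_of_mem hi))

theorem chartSet_aeval_mul (q : κ[X]) {f : E} (hf : f ∈ chartSet κ z β) :
    aeval z q * f ∈ chartSet κ z β := by
  obtain ⟨p, rfl⟩ := hf
  refine ⟨fun i => q * p i, ?_⟩
  rw [Finset.mul_sum]
  refine Finset.sum_congr rfl fun i _ => ?_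
  rw [map_mul, mul_assoc]

theorem chartSet_basis (i : Fin n) : β i ∈ chartSet κ z β := by
  classical
  refine ⟨fun j => if j = i then 1 else 0, ?_⟩
  rw [Finset.sum_eq_single i]
  · simp
  · intro j _ hj
    simp [hj]
  · intro h
    exact absurd (Finset.mem_univ i) h

theorem chartSet_mul (hmul : ∀ i j, β i * β j ∈ chartSet κ z β) {f g : E}
    (hf : f ∈ chartSet κ z β) (hg : g ∈ chartSet κ z β) : f * g ∈ chartSet κ z β := by
  obtain ⟨p, rfl⟩ := hf
  obtain ⟨q, rfl⟩ := hg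
  rw [Finset.sum_mul_sum]
  refine chartSet_sum _ _ fun i _ => chartSet_sum _ _ fun j _ => ?_
  have h1 : aeval z (p i) * β i * (aeval z (q j) * β j) = aeval z (p i * q j) * (β i * β j) := by
    rw [map_mul]; ring
  rw [h1]
  exact chartSet_aeval_mul _ (hmul i j)

theorem chartSet_algebraMap (hone : (1 : E) ∈ chartSet κ z β) (c : κ) :
    algebraMap κ E c ∈ chartSet κ z β := by
  have := chartSet_aeval_mul (C c) hone
  rwa [aeval_C, mul_one] at this

/-- The chart ring as a subalgebra. -/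
def chartAlg (z : E) (β : Fin n → E) (hone : (1 : E) ∈ chartSet κ z β)
    (hmul : ∀ i j, β i * β j ∈ chartSet κ z β) : Subalgebra κ E where
  carrier := chartSet κ z β
  mul_mem' := chartSet_mul hmul
  one_mem' := hone
  add_mem' := chartSet_add
  zero_mem' := chartSet_zero
  algebraMap_mem' := chartSet_algebraMap hone

theorem mem_chartAlg {hone : (1 : E) ∈ chartSet κ z β}
    {hmul : ∀ i j, β i * β j ∈ chartSet κ z β} {f : E} :
    f ∈ chartAlg z β hone hmul ↔ f ∈ chartSet κ z β := Iff.rfl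

theorem chartSet_self (hone : (1 : E) ∈ chartSet κ z β) : z ∈ chartSet κ z β := by
  have := chartSet_aeval_mul (X : κ[X]) hone
  rwa [aeval_X, mul_one] at this

theorem chartSet_aeval (hone : (1 : E) ∈ chartSet κ z β) (q : κ[X]) :
    aeval z q ∈ chartSet κ z β := by
  have := chartSet_aeval_mul q hone
  rwa [mul_one] at this

/-- Elements of the chart ring are integral over `κ[z]`. -/
theorem isIntegral_of_mem_chartSet (hone : (1 : E) ∈ chartSet κ z β)
    (hmul : ∀ i j, β i * β j ∈ chartSet κ z β) {f : E} (hf : f ∈ chartSet κ z β) :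
    IsIntegral (Algebra.adjoin κ ({z} : Set E)) f := by
  have hsub : ∀ g : E, g ∈ chartSet κ z β →
      g ∈ Submodule.span (Algebra.adjoin κ ({z} : Set E)) (Set.range β) := by
    rintro g ⟨p, rfl⟩
    refine Submodule.sum_mem _ fun i _ => ?_
    have h1 : aeval z (p i) * β i =
        (⟨aeval z (p i), aeval_mem_adjoin_singleton κ z⟩ : Algebra.adjoin κ ({z} : Set E)) • β i :=
      rfl
    rw [h1]
    exact Submodule.smul_mem _ _ (Submodule.subset_span ⟨i, rfl⟩)
  refine isIntegral_of_smul_mem_submodule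
    (Submodule.span (Algebra.adjoin κ ({z} : Set E)) (Set.range β)) ?_
    (Submodule.fg_span (Set.finite_range β)) f ?_
  · intro h0
    have h1 := hsub 1 hone
    rw [h0, Submodule.mem_bot] at h1
    exact one_ne_zero h1
  · intro g hg
    induction hg using Submodule.span_induction with
    | mem g hg =>
      obtain ⟨j, rfl⟩ := hg
      exact hsub _ (chartSet_mul hmul hf (chartSet_basis j))
    | zero => rw [smul_zero]; exact zero_mem _
    | add a b _ _ ha hb => rw [smul_add]; exact add_mem ha hb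
    | smul r a _ ha =>
      rw [smul_comm]
      exact Submodule.smul_mem _ _ ha

/-- If the chart ring is integrally closed with fraction field `E`, it contains every element
integral over `κ[z]`. -/
theorem mem_chartSet_of_isIntegral (hone : (1 : E) ∈ chartSet κ z β)
    (hmul : ∀ i j, β i * β j ∈ chartSet κ z β)
    (hic : IsIntegrallyClosed ↥(chartAlg z β hone hmul))
    (hfrac : ∀ y : E, ∃ a s : E, a ∈ chartSet κ z β ∧ s ∈ chartSet κ z β ∧ s ≠ 0 ∧ s * y = a)
    {f : E} (hf : IsIntegral (Algebra.adjoin κ ({z} : Set E)) f) : f ∈ chartSet κ z β := by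
  haveI : IsFractionRing ↥(chartAlg z β hone hmul) E := by
    refine IsFractionRing.of_field _ _ fun y => ?_
    obtain ⟨a, s, ha, hs, hs0, hsy⟩ := hfrac y
    refine ⟨⟨a, ha⟩, ⟨s, hs⟩, ?_⟩
    show y = a / s
    rw [← hsy, mul_div_cancel_left₀ _ hs0]
  have hle : Algebra.adjoin κ ({z} : Set E) ≤ chartAlg z β hone hmul :=
    Algebra.adjoin_le (by
      rintro _ rfl
      exact chartSet_self hone)
  have hint : IsIntegral ↥(chartAlg z β hone hmul) f := by
    obtain ⟨p, hp, hpf⟩ := hf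
    refine ⟨p.map (Subalgebra.inclusion hle).toRingHom, hp.map _, ?_⟩
    rw [Polynomial.eval₂_map]
    exact hpf
  obtain ⟨y, hy⟩ := IsIntegrallyClosed.algebraMap_eq_of_integral hint
  rw [← hy]
  exact y.2

end ChartRing

/-! ### The chart ring of a base-changed certificate -/

section Core

variable {Λ C κ E : Type*} [CommRing Λ] [CommRing C] [Algebra Λ C] [Field κ] [Field E]
  [Algebra κ E] (φ : Λ →+* κ) (ψ : C →+* E)

theorem psi_aeval (hψ : ∀ a, ψ (algebraMap Λ C a) = algebraMap κ E (φ a)) (u : C) (p : Λ[X]) :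
    ψ (aeval u p) = aeval (ψ u) (p.map φ) := by
  rw [aeval_def, aeval_def, Polynomial.hom_eval₂, Polynomial.eval₂_map]
  congr 1
  exact RingHom.ext hψ

variable {n : ℕ} {z : C} {β : Fin n → C}

theorem psi_mem (hψ : ∀ a, ψ (algebraMap Λ C a) = algebraMap κ E (φ a))
    (hcert : ChartCert Λ C z β) (u : C) : ψ u ∈ chartSet κ (ψ z) (fun i => ψ (β i)) := by
  obtain ⟨p, hp, -⟩ := hcert.free u
  refine ⟨fun i => (p i).map φ, ?_⟩
  rw [hp, map_sum]
  refine Finset.sum_congr rfl fun i _ => ?_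
  rw [map_mul, psi_aeval φ ψ hψ]

theorem psi_one_mem (hψ : ∀ a, ψ (algebraMap Λ C a) = algebraMap κ E (φ a))
    (hcert : ChartCert Λ C z β) : (1 : E) ∈ chartSet κ (ψ z) (fun i => ψ (β i)) := by
  have := psi_mem φ ψ hψ hcert 1
  rwa [map_one] at this

theorem psi_mul_mem (hψ : ∀ a, ψ (algebraMap Λ C a) = algebraMap κ E (φ a))
    (hcert : ChartCert Λ C z β) (i j : Fin n) :
    ψ (β i) * ψ (β j) ∈ chartSet κ (ψ z) (fun i => ψ (β i)) := by
  have := psi_mem φ ψ hψ hcert (β i * β j)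
  rwa [map_mul] at this

/-- The chart ring of the realisation. -/
def coreAlg (hψ : ∀ a, ψ (algebraMap Λ C a) = algebraMap κ E (φ a))
    (hcert : ChartCert Λ C z β) : Subalgebra κ E :=
  chartAlg (ψ z) (fun i => ψ (β i)) (psi_one_mem φ ψ hψ hcert) (psi_mul_mem φ ψ hψ hcert)

/-- `ψ` with codomain the chart ring. -/
def corePsi (hψ : ∀ a, ψ (algebraMap Λ C a) = algebraMap κ E (φ a))
    (hcert : ChartCert Λ C z β) : C →+* ↥(coreAlg φ ψ hψ hcert) :=
  ψ.codRestrict (coreAlg φ ψ hψ hcert) (psi_mem φ ψ hψ hcert)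

theorem coe_corePsi (hψ : ∀ a, ψ (algebraMap Λ C a) = algebraMap κ E (φ a))
    (hcert : ChartCert Λ C z β) (u : C) : ((corePsi φ ψ hψ hcert u : ↥(coreAlg φ ψ hψ hcert)) : E)
      = ψ u := rfl

theorem core_coe_sum (hψ : ∀ a, ψ (algebraMap Λ C a) = algebraMap κ E (φ a))
    (hcert : ChartCert Λ C z β) (p : Fin n → κ[X]) :
    ((∑ i, aeval (corePsi φ ψ hψ hcert z) (p i) * corePsi φ ψ hψ hcert (β i) :
      ↥(coreAlg φ ψ hψ hcert)) : E) = ∑ i, aeval (ψ z) (p i) * ψ (β i) := by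
  rw [← Subalgebra.coe_val, map_sum]
  refine Finset.sum_congr rfl fun i _ => ?_
  rw [Subalgebra.coe_val, Subalgebra.coe_mul, ← Subalgebra.aeval_coe]
  rfl

/-- The base-changed certificate on the chart ring. -/
theorem core_chartCert (hψ : ∀ a, ψ (algebraMap Λ C a) = algebraMap κ E (φ a))
    (hcert : ChartCert Λ C z β)
    (hindep : ∀ p : Fin n → κ[X], ∑ i, aeval (ψ z) (p i) * ψ (β i) = 0 → p = 0) :
    ChartCert κ ↥(coreAlg φ ψ hψ hcert) (corePsi φ ψ hψ hcert z)
      (fun i => corePsi φ ψ hψ hcert (β i)) := by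
  have hex : ∀ f : ↥(coreAlg φ ψ hψ hcert), ∃ p : Fin n → κ[X],
      f = ∑ i, aeval (corePsi φ ψ hψ hcert z) (p i) * corePsi φ ψ hψ hcert (β i) := by
    intro f
    obtain ⟨p, hp⟩ := f.2
    refine ⟨p, Subtype.ext ?_⟩
    rw [core_coe_sum]
    exact hp
  refine ChartCert.map φ (corePsi φ ψ hψ hcert) (fun a => Subtype.ext (hψ a)) hcert ?_
  intro f
  obtain ⟨p, hp⟩ := hex f
  refine ⟨p, hp, fun q hq => ?_⟩
  have h1 : ∑ i, aeval (ψ z) (q i - p i) * ψ (β i) = 0 := by
    have h2 := congrArg (Subtype.val) (hq.symm.trans hp)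
    rw [core_coe_sum, core_coe_sum] at h2
    rw [← sub_eq_zero.mpr h2, ← Finset.sum_sub_distrib]
    refine Finset.sum_congr rfl fun i _ => ?_
    rw [map_sub, sub_mul]
  have h3 := hindep (fun i => q i - p i) h1
  funext i
  have h4 := congrFun h3 i
  exact sub_eq_zero.mp h4

/-- **Chart core**: for a base-changed certificate whose chart ring has fraction field `E`,
"integral over `κ[z]`" is "in the `κ[z]`-span of the basis". -/
theorem isIntegral_iff_mem_chartSet (hψ : ∀ a, ψ (algebraMap Λ C a) = algebraMap κ E (φ a))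
    (hcert : ChartCert Λ C z β)
    (hindep : ∀ p : Fin n → κ[X], ∑ i, aeval (ψ z) (p i) * ψ (β i) = 0 → p = 0)
    (hfrac : ∀ y : E, ∃ a s : E, a ∈ chartSet κ (ψ z) (fun i => ψ (β i)) ∧
      s ∈ chartSet κ (ψ z) (fun i => ψ (β i)) ∧ s ≠ 0 ∧ s * y = a) (f : E) :
    IsIntegral (Algebra.adjoin κ ({ψ z} : Set E)) f ↔
      ∃ p : Fin n → κ[X], f = ∑ i, aeval (ψ z) (p i) * ψ (β i) := by
  constructor
  · intro hf
    have hic : IsIntegrallyClosed ↥(coreAlg φ ψ hψ hcert) :=
      isIntegrallyClosed_of_chartCert _ _ (core_chartCert φ ψ hψ hcert hindep)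
    exact mem_chartSet_of_isIntegral (psi_one_mem φ ψ hψ hcert) (psi_mul_mem φ ψ hψ hcert) hic
      hfrac hf
  · intro hf
    exact isIntegral_of_mem_chartSet (psi_one_mem φ ψ hψ hcert) (psi_mul_mem φ ψ hψ hcert) hf

end Core

/-! ### Realisations -/

section Realisation

variable {Λ U : Type*} [CommRing Λ] [CommRing U] [Algebra Λ U] {n : ℕ} {M : Model Λ U n}
  {κ E : Type*} [Field κ] [Field E] [Algebra κ E] {φ : Λ →+* κ} {ψ : U →+* E}

theorem aeval_mem_of_mem (L : IntermediateField κ E) {x : E} (hx : x ∈ L) (q : κ[X]) :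
    aeval x q ∈ L := by
  have h2 : aeval x q = ((aeval (⟨x, hx⟩ : L.toSubalgebra) q : L.toSubalgebra) : E) :=
    Subalgebra.aeval_coe L.toSubalgebra ⟨x, hx⟩ q
  rw [h2]
  exact (aeval (⟨x, hx⟩ : L.toSubalgebra) q).2

theorem chartSet_subset_span (L : IntermediateField κ E) {z : E} (hz : z ∈ L) {β : Fin n → E}
    {f : E} (hf : f ∈ chartSet κ z β) : f ∈ Submodule.span L (Set.range β) := by
  obtain ⟨p, rfl⟩ := hf
  refine Submodule.sum_mem _ fun i _ => ?_
  have h1 : aeval z (p i) * β i = (⟨aeval z (p i), aeval_mem_of_mem L hz (p i)⟩ : L) • β i := rfl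
  rw [h1]
  exact Submodule.smul_mem _ _ (Submodule.subset_span ⟨i, rfl⟩)

theorem x_ne_zero (h : Real M κ E φ ψ) : ψ M.x ≠ 0 := by
  intro h0
  exact h.trans (h0 ▸ isAlgebraic_zero)

theorem psi_x' (M : Model Λ U n) (ψ : U →+* E) : ψ M.x' = (ψ M.x)⁻¹ := by
  have h1 := congrArg ψ M.hxx'
  rw [map_mul, map_one] at h1
  exact eq_inv_of_mul_eq_one_right h1

theorem x'_ne_zero (h : Real M κ E φ ψ) : ψ M.x' ≠ 0 := by
  rw [psi_x' M ψ]
  exact inv_ne_zero (x_ne_zero h)

theorem trans' (h : Real M κ E φ ψ) : Transcendental κ (ψ M.x') := by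
  rw [psi_x' M ψ]
  intro halg
  exact h.trans (IsAlgebraic.inv_iff.mp halg)

theorem aeval_ne_zero (h : Real M κ E φ ψ) {s : κ[X]} (hs : s ≠ 0) : aeval (ψ M.x) s ≠ 0 :=
  fun h0 => hs ((transcendental_iff.mp h.trans) s h0)

theorem x'_mem (M : Model Λ U n) (ψ : U →+* E) : ψ M.x' ∈ κ⟮ψ M.x⟯ := by
  rw [psi_x' M ψ]
  exact inv_mem (mem_adjoin_simple_self κ (ψ M.x))

/-- The images of the chart basis span `E` over `κ(x)`. -/
theorem span_top (h : Real M κ E φ ψ) :
    ⊤ ≤ Submodule.span κ⟮ψ M.x⟯ (Set.range fun i => ψ (M.b i : U)) := by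
  rintro y -
  obtain ⟨p, s, hs, hy⟩ := h.span y
  have hs0 := aeval_ne_zero h hs
  have hX := mem_adjoin_simple_self κ (ψ M.x)
  have h1 : y = ∑ i, (⟨aeval (ψ M.x) (p i) / aeval (ψ M.x) s,
      div_mem (aeval_mem_of_mem _ hX (p i)) (aeval_mem_of_mem _ hX s)⟩ : κ⟮ψ M.x⟯) •
        ψ (M.b i : U) := by
    have h2 : ∀ i, (⟨aeval (ψ M.x) (p i) / aeval (ψ M.x) s,
      div_mem (aeval_mem_of_mem _ hX (p i)) (aeval_mem_of_mem _ hX s)⟩ : κ⟮ψ M.x⟯) •
        ψ (M.b i : U) = (aeval (ψ M.x) s)⁻¹ * (aeval (ψ M.x) (p i) * ψ (M.b i : U)) := by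
      intro i
      show aeval (ψ M.x) (p i) / aeval (ψ M.x) s * ψ (M.b i : U) = _
      ring
    simp_rw [h2]
    rw [← Finset.mul_sum, ← hy, ← mul_assoc, inv_mul_cancel₀ hs0, one_mul]
  rw [h1]
  exact Submodule.sum_mem _ fun i _ =>
    Submodule.smul_mem _ _ (Submodule.subset_span ⟨i, rfl⟩)

open scoped IntermediateField.algebraAdjoinAdjoin in
/-- The images of the chart basis are linearly independent over `κ(x)`. -/
theorem linearIndependent (h : Real M κ E φ ψ) :
    LinearIndependent κ⟮ψ M.x⟯ (fun i => ψ (M.b i : U)) := by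
  rw [← LinearIndependent.iff_fractionRing (Algebra.adjoin κ ({ψ M.x} : Set E)) κ⟮ψ M.x⟯,
    Fintype.linearIndependent_iff]
  intro g hg i
  have hp : ∀ i, ∃ p : κ[X], aeval (ψ M.x) p = (g i : E) := fun i => by
    have h1 : (g i : E) ∈ (aeval (ψ M.x) : κ[X] →ₐ[κ] E).range := by
      rw [← Algebra.adjoin_singleton_eq_range_aeval]
      exact (g i).2
    exact h1
  choose p hp using hp
  have h0 := h.indep p (by
    rw [← hg]
    refine Finset.sum_congr rfl fun i _ => ?_
    rw [hp]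
    rfl)
  apply Subtype.ext
  rw [← hp i, h0]
  simp

/-- The chart basis as a basis of `E` over `κ(x)`. -/
def basis (h : Real M κ E φ ψ) : Module.Basis (Fin n) κ⟮ψ M.x⟯ E :=
  Module.Basis.mk (linearIndependent h) (span_top h)

theorem basis_apply (h : Real M κ E φ ψ) (i : Fin n) : basis h i = ψ (M.b i : U) := by
  rw [basis, Module.Basis.mk_apply]

theorem finiteDimensional (h : Real M κ E φ ψ) : FiniteDimensional κ⟮ψ M.x⟯ E :=
  Module.Finite.of_basis (basis h)

theorem finrank_eq (h : Real M κ E φ ψ) : Module.finrank κ⟮ψ M.x⟯ E = n := by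
  rw [Module.finrank_eq_card_basis (basis h), Fintype.card_fin]

theorem isFF1 [IsAlgClosed κ] (h : Real M κ E φ ψ) : Fermat.Agent.Lib.FF.IsFF1 κ E (ψ M.x) := by
  haveI := finiteDimensional h
  exact Fermat.Agent.Lib.FF.CharP.isFF1 (ψ M.x) h.trans

/-! ### The two charts of a realisation -/

/-- `ψ` on the chart ring `B`. -/
def psiB (M : Model Λ U n) (ψ : U →+* E) : ↥M.B →+* E := ψ.comp M.B.val.toRingHom

/-- `ψ` on the chart ring `B'`. -/
def psiB' (M : Model Λ U n) (ψ : U →+* E) : ↥M.B' →+* E := ψ.comp M.B'.val.toRingHom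

theorem psiB_apply (u : ↥M.B) : psiB M ψ u = ψ (u : U) := rfl

theorem psiB'_apply (u : ↥M.B') : psiB' M ψ u = ψ (u : U) := rfl

theorem psiB_compat (h : Real M κ E φ ψ) (a : Λ) :
    psiB M ψ (algebraMap Λ ↥M.B a) = algebraMap κ E (φ a) := h.compat a

theorem psiB'_compat (h : Real M κ E φ ψ) (a : Λ) :
    psiB' M ψ (algebraMap Λ ↥M.B' a) = algebraMap κ E (φ a) := h.compat a

/-- Images of elements of `B` lie in the chart ring. -/
theorem mem_chart (h : Real M κ E φ ψ) {u : U} (hu : u ∈ M.B) :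
    ψ u ∈ chartSet κ (ψ M.x) (fun i => ψ (M.b i : U)) := by
  have h1 := psi_mem φ (psiB M ψ) (psiB_compat h) M.cert ⟨u, hu⟩
  exact h1

/-- Images of elements of `B'` lie in the chart ring at infinity. -/
theorem mem_chart' (h : Real M κ E φ ψ) {u : U} (hu : u ∈ M.B') :
    ψ u ∈ chartSet κ (ψ M.x') (fun i => ψ (M.b' i : U)) := by
  have h1 := psi_mem φ (psiB' M ψ) (psiB'_compat h) M.cert' ⟨u, hu⟩
  exact h1

theorem one_mem_chart (h : Real M κ E φ ψ) :
    (1 : E) ∈ chartSet κ (ψ M.x) (fun i => ψ (M.b i : U)) := by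
  have h1 := psi_one_mem φ (psiB M ψ) (psiB_compat h) M.cert
  exact h1

theorem one_mem_chart' (h : Real M κ E φ ψ) :
    (1 : E) ∈ chartSet κ (ψ M.x') (fun i => ψ (M.b' i : U)) := by
  have h1 := psi_one_mem φ (psiB' M ψ) (psiB'_compat h) M.cert'
  exact h1

theorem mul_mem_chart' (h : Real M κ E φ ψ) {f g : E}
    (hf : f ∈ chartSet κ (ψ M.x') (fun i => ψ (M.b' i : U)))
    (hg : g ∈ chartSet κ (ψ M.x') (fun i => ψ (M.b' i : U))) :
    f * g ∈ chartSet κ (ψ M.x') (fun i => ψ (M.b' i : U)) := by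
  have h1 := psi_mul_mem φ (psiB' M ψ) (psiB'_compat h) M.cert'
  exact chartSet_mul h1 hf hg

/-- High powers of `x'` move the chart basis of `B` into `B'`. -/
theorem exists_pow_mul_mem (M : Model Λ U n) (u : U) :
    ∃ m : ℕ, ∀ m' : ℕ, m ≤ m' → M.x' ^ m' * u ∈ M.B' := by
  obtain ⟨m, hm⟩ := M.hB' u
  refine ⟨m, fun m' hm' => ?_⟩
  obtain ⟨d, rfl⟩ := Nat.exists_eq_add_of_le hm'
  rw [pow_add, mul_comm (M.x' ^ m), mul_assoc]
  exact M.B'.mul_mem (M.B'.pow_mem M.hx' d) hm

/-- A uniform exponent moving the whole chart basis of `B` into `B'`. -/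
theorem exists_pow_mul_basis_mem (M : Model Λ U n) :
    ∃ m : ℕ, ∀ i, M.x' ^ m * (M.b i : U) ∈ M.B' := by
  choose m hm using fun i => exists_pow_mul_mem M (M.b i : U)
  exact ⟨∑ i, m i, fun i => hm i _ (Finset.single_le_sum (fun _ _ => Nat.zero_le _)
    (Finset.mem_univ i))⟩

/-- The images of the chart basis at infinity span `E` over `κ(x)`. -/
theorem span_top' (h : Real M κ E φ ψ) :
    ⊤ ≤ Submodule.span κ⟮ψ M.x⟯ (Set.range fun i => ψ (M.b' i : U)) := by
  refine (span_top h).trans (Submodule.span_le.mpr ?_)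
  rintro _ ⟨i, rfl⟩
  obtain ⟨m, hm⟩ := exists_pow_mul_basis_mem M
  have h1 := chartSet_subset_span κ⟮ψ M.x⟯ (x'_mem M ψ) (mem_chart' h (hm i))
  have hX := mem_adjoin_simple_self κ (ψ M.x)
  have h2 : ψ (M.b i : U) = (⟨ψ M.x ^ m, pow_mem hX m⟩ : κ⟮ψ M.x⟯) •
      ψ (M.x' ^ m * (M.b i : U)) := by
    show _ = ψ M.x ^ m * ψ (M.x' ^ m * (M.b i : U))
    rw [map_mul, map_pow, ← mul_assoc, ← mul_pow, ← map_mul, M.hxx', map_one, one_pow, one_mul]
  show ψ (M.b i : U) ∈ _
  rw [h2]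
  exact Submodule.smul_mem _ _ h1

/-- The images of the chart basis at infinity are linearly independent over `κ(x)`. -/
theorem linearIndependent' (h : Real M κ E φ ψ) :
    LinearIndependent κ⟮ψ M.x⟯ (fun i => ψ (M.b' i : U)) := by
  haveI := finiteDimensional h
  exact linearIndependent_of_top_le_span_of_card_eq_finrank (span_top' h)
    (by rw [Fintype.card_fin, finrank_eq h])

/-- The chart basis at infinity is free over `κ[x⁻¹]`. -/
theorem indep' (h : Real M κ E φ ψ) (p : Fin n → κ[X])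
    (hp : ∑ i, aeval (ψ M.x') (p i) * ψ (M.b' i : U) = 0) : p = 0 := by
  have hli := linearIndependent' h
  rw [Fintype.linearIndependent_iff] at hli
  set c : Fin n → κ⟮ψ M.x⟯ :=
    fun i => ⟨aeval (ψ M.x') (p i), aeval_mem_of_mem _ (x'_mem M ψ) (p i)⟩ with hc
  have hp' : ∑ i, c i • ψ (M.b' i : U) = 0 := by
    rw [← hp]
    exact Finset.sum_congr rfl fun i _ => rfl
  have h1 := hli c hp'
  funext i
  have h2 : aeval (ψ M.x') (p i) = 0 := congrArg Subtype.val (h1 i)
  exact (transcendental_iff.mp (trans' h)) (p i) h2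

/-- `E` is the fraction field of the chart ring. -/
theorem frac (h : Real M κ E φ ψ) (y : E) :
    ∃ a s : E, a ∈ chartSet κ (ψ M.x) (fun i => ψ (M.b i : U)) ∧
      s ∈ chartSet κ (ψ M.x) (fun i => ψ (M.b i : U)) ∧ s ≠ 0 ∧ s * y = a := by
  obtain ⟨p, s, hs, hy⟩ := h.span y
  refine ⟨_, aeval (ψ M.x) s, ⟨p, rfl⟩, ?_, aeval_ne_zero h hs, hy⟩
  exact chartSet_aeval (one_mem_chart h) s

/-- `x'^N · q(x)` is a polynomial in `x'` for `N ≥ deg q`. -/
theorem pow_mul_aeval_mem (h : Real M κ E φ ψ) (q : κ[X]) {N : ℕ} (hN : q.natDegree ≤ N) :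
    ψ M.x' ^ N * aeval (ψ M.x) q ∈ chartSet κ (ψ M.x') (fun i => ψ (M.b' i : U)) := by
  have hx0 := x_ne_zero h
  letI : Invertible (ψ M.x) := invertibleOfNonzero hx0
  have h1 := eval₂_reflect_mul_pow (algebraMap κ E) (ψ M.x) N q hN
  rw [invOf_eq_inv, ← psi_x' M ψ] at h1
  have h2 : ψ M.x' ^ N * aeval (ψ M.x) q = aeval (ψ M.x') (reflect N q) := by
    rw [aeval_def, aeval_def, ← h1, mul_comm, mul_assoc, ← mul_pow, ← map_mul, M.hxx', map_one,
      one_pow, mul_one]
  rw [h2]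
  exact chartSet_aeval (one_mem_chart' h) _

/-- `E` is the fraction field of the chart ring at infinity. -/
theorem frac' (h : Real M κ E φ ψ) (y : E) :
    ∃ a s : E, a ∈ chartSet κ (ψ M.x') (fun i => ψ (M.b' i : U)) ∧
      s ∈ chartSet κ (ψ M.x') (fun i => ψ (M.b' i : U)) ∧ s ≠ 0 ∧ s * y = a := by
  obtain ⟨p, s, hs, hy⟩ := h.span y
  obtain ⟨m, hm⟩ := exists_pow_mul_basis_mem M
  set N : ℕ := s.natDegree + ∑ i, (p i).natDegree with hN
  have hsN : s.natDegree ≤ N := Nat.le_add_right _ _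
  have hpN : ∀ i, (p i).natDegree ≤ N := fun i =>
    (Finset.single_le_sum (f := fun i => (p i).natDegree) (fun _ _ => Nat.zero_le _)
      (Finset.mem_univ i)).trans (Nat.le_add_left _ _)
  have hxm : ψ M.x' ^ m ∈ chartSet κ (ψ M.x') (fun i => ψ (M.b' i : U)) := by
    have := chartSet_aeval (one_mem_chart' h) ((X : κ[X]) ^ m)
    rwa [map_pow, aeval_X] at this
  refine ⟨∑ i, (ψ M.x' ^ N * aeval (ψ M.x) (p i)) * ψ (M.x' ^ m * (M.b i : U)),
    (ψ M.x' ^ N * aeval (ψ M.x) s) * ψ M.x' ^ m, ?_, ?_, ?_, ?_⟩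
  · exact chartSet_sum _ _ fun i _ =>
      mul_mem_chart' h (pow_mul_aeval_mem h (p i) (hpN i)) (mem_chart' h (hm i))
  · exact mul_mem_chart' h (pow_mul_aeval_mem h s hsN) hxm
  · exact mul_ne_zero (mul_ne_zero (pow_ne_zero _ (x'_ne_zero h)) (aeval_ne_zero h hs))
      (pow_ne_zero _ (x'_ne_zero h))
  · have h1 : ψ M.x' ^ N * aeval (ψ M.x) s * ψ M.x' ^ m * y =
        ψ M.x' ^ N * ψ M.x' ^ m * (aeval (ψ M.x) s * y) := by ring
    rw [h1, hy, Finset.mul_sum]
    refine Finset.sum_congr rfl fun i _ => ?_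
    rw [map_mul, map_pow]
    ring

/-- **Chart**: a function is regular wherever `x` is regular iff it is a `κ[x]`-combination of
the chart basis. -/
theorem chart (h : Real M κ E φ ψ) (f : E) :
    (∀ v : Place κ E, 0 ≤ v.ord (ψ M.x) → 0 ≤ v.ord f) ↔
      ∃ p : Fin n → κ[X], f = ∑ j, aeval (ψ M.x) (p j) * ψ (M.b j : U) := by
  haveI := finiteDimensional h
  rw [← Fermat.Agent.Lib.FF.Holo.isIntegral_adjoin_iff (ψ M.x) f]
  have h1 := isIntegral_iff_mem_chartSet φ (psiB M ψ) (psiB_compat h) M.cert h.indep (frac h) f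
  exact h1

/-- **Chart at infinity**: a function is regular wherever `x` is nonzero iff it is a
`κ[x⁻¹]`-combination of the chart basis at infinity. -/
theorem chart' (h : Real M κ E φ ψ) (f : E) :
    (∀ v : Place κ E, v.ord (ψ M.x) ≤ 0 → 0 ≤ v.ord f) ↔
      ∃ p : Fin n → κ[X], f = ∑ j, aeval (ψ M.x)⁻¹ (p j) * ψ (M.b' j : U) := by
  haveI := finiteDimensional h
  rw [← Fermat.Agent.Lib.FF.Holo.isIntegral_adjoin_inv_iff (ψ M.x) f, ← psi_x' M ψ]
  have h1 := isIntegral_iff_mem_chartSet φ (psiB' M ψ) (psiB'_compat h) M.cert' (indep' h)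
    (frac' h) f
  exact h1

/-! ### Separability -/

/-- `E/κ(x)` is separable (the trace-dual certificate gives an element of nonzero trace). -/
theorem isSeparable (h : Real M κ E φ ψ) : Algebra.IsSeparable κ⟮ψ M.x⟯ E := by
  classical
  by_contra hns
  have htr := Algebra.trace_eq_zero_of_not_isSeparable hns
  obtain ⟨βd, T, m, a, l, hT, hdiag, -⟩ := M.cert.disc
  have hX := mem_adjoin_simple_self κ (ψ M.x)
  set i₀ : Fin n := ⟨0, M.pos⟩ with hi₀
  set y : E := ψ ((M.b i₀ : U) * (βd i₀ : U)) with hy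
  set c : Fin n → Fin n → κ⟮ψ M.x⟯ :=
    fun s t => ⟨aeval (ψ M.x) ((T i₀ i₀ s t).map φ), aeval_mem_of_mem _ hX _⟩ with hc
  have hmul : ∀ s, y * basis h s = ∑ t, c s t • basis h t := by
    intro s
    have h1 := congrArg (psiB M ψ) (hT i₀ i₀ s)
    rw [map_sum] at h1
    have h2 : psiB M ψ (M.b i₀ * βd i₀ * M.b s) = y * basis h s := by
      rw [basis_apply, hy, ← map_mul]
      rfl
    rw [← h2, h1]
    refine Finset.sum_congr rfl fun t _ => ?_
    rw [map_mul, psi_aeval φ (psiB M ψ) (psiB_compat h), basis_apply]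
    rfl
  have h3 : Algebra.trace κ⟮ψ M.x⟯ E y = ∑ s, c s s := by
    rw [Algebra.trace_eq_matrix_trace (basis h), Matrix.trace]
    refine Finset.sum_congr rfl fun s _ => ?_
    rw [Matrix.diag_apply, Algebra.leftMulMatrix_eq_repr_mul, hmul s, Module.Basis.repr_sum_self]
  have h4 : ((∑ s, c s s : κ⟮ψ M.x⟯) : E) =
      aeval (ψ M.x) ((C (l : Λ) * ∏ q, (X - C (a q))).map φ) := by
    have h5 := hdiag i₀ i₀
    rw [if_pos rfl] at h5
    rw [← h5, Polynomial.map_sum, map_sum, ← IntermediateField.coe_val, map_sum]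
    rfl
  have h6 : (C (l : Λ) * ∏ q, (X - C (a q))).map φ ≠ 0 := by
    rw [Polynomial.map_mul, Polynomial.map_C, Polynomial.map_prod]
    refine mul_ne_zero (C_ne_zero.mpr ?_) (Finset.prod_ne_zero_iff.mpr fun q _ => ?_)
    · exact ((l.isUnit).map φ).ne_zero
    · rw [Polynomial.map_sub, Polynomial.map_X, Polynomial.map_C]
      exact X_sub_C_ne_zero _
  apply aeval_ne_zero h h6
  rw [← h4, ← h3, htr]
  rfl

/-- `x` is regular and unramified outside a finite set of places. -/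
theorem exists_bad_set [IsAlgClosed κ] (h : Real M κ E φ ψ) :
    ∃ S₀ : Finset (Place κ E), ∀ Q ∉ S₀, 0 ≤ Q.ord (ψ M.x) ∧
      ∀ γ : κ, 0 < Q.ord (ψ M.x - algebraMap κ E γ) →
        Q.ord (ψ M.x - algebraMap κ E γ) = 1 := by
  haveI := isSeparable h
  have hff := isFF1 h
  obtain ⟨hfin, -⟩ := hff.poles_le
  exact Fermat.Agent.Lib.Red.GenusGA.exists_bad_set_of_span hff (ψ M.x)
    (Fermat.Agent.Lib.FF.Res.span_D_eq_top_of_isSeparable (ψ M.x)) hfin

end Realisation

end Fermat.Agent.S27P.GR.RealC
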