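/-
S27 / (GR), row GR-M (helper42): THE REDUCTION THEOREM `exists_isRed`.

Two realisations `h₁ : Real M K' F' φ₁ ψ₁`, `h₂ : Real M k Ft φ₂ ψ₂` of one model and a valuation
ring `A` of `K'` with residue map `π` compatible with `φ₁`, `φ₂` give the Gauss valuation ring
`O` of `F'`, its reduction `red : O → Ft` and a surjective map of places `r` with
`OneStep.IsRed O red r`, equal genera and degrees, and values of chart functions commuting
with `r`.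

Assembly of: `exists_gauss` (GR-G), `GoodBasis.exists_goodBasis` (GR-GB), `RealC` (GR-RL),
`Model.exists_struct` (GR-T) and `MainCore.exists_isRed_core` (the frozen engine
`Lib.Red.PlaceRedMain.exists_reduction_of_gauss` + `Lib.FF.Cech.genusFF_eq_of_good_reduction`).
-/
import Mathlib
import Fermat.Agent.S27P.GR.MainCore
import Fermat.Agent.S27P.GR.Gauss
import Fermat.Agent.S27P.GR.GoodBasis
import Fermat.Agent.S27P.GR.RealC
import Fermat.Agent.S27P.GR.Transition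
import Fermat.Agent.S27P.GR.Literals

set_option autoImplicit false

noncomputable section

namespace Fermat.Agent.S27P.GR

open Polynomial AlgebraicCurve IntermediateField
open Fermat.Agent.Lib.FF Fermat.Agent.Lib.Red Fermat.Agent.Lib.Red.PlaceRed

/-- **GR-M: the reduction theorem.** -/
theorem exists_isRed {Λ U : Type*} [CommRing Λ] [CommRing U] [Algebra Λ U] {n : ℕ} (M : Model Λ U n) {K' F' k Ft : Type*} [Field K'] [Field F'] [Algebra K' F'] [Field k] [Field Ft] [Algebra k Ft] [IsAlgClosed K'] [IsAlgClosed k] {φ₁ : Λ →+* K'} {ψ₁ : U →+* F'} (h₁ : Real M K' F' φ₁ ψ₁) {φ₂ : Λ →+* k} {ψ₂ : U →+* Ft} (h₂ : Real M k Ft φ₂ ψ₂) (hφ₁ : Function.Injective φ₁) (A : ValuationSubring K') (π : A →+* k) (hπ : Function.Surjective π) (hπ0 : ∀ a : A, ¬ IsUnit a → π a = 0) (hφ : ∀ a : Λ, ∃ h : φ₁ a ∈ A, π ⟨φ₁ a, h⟩ = φ₂ a) : ∃ (O : ValuationSubring F') (red : O →+* Ft) (r : Place K' F'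 → Place k Ft) (xO : Oˣ), ((xO : O) : F') = ψ₁ M.x ∧ red (xO : O) = ψ₂ M.x ∧ OneStep.IsRed O red r ∧ Function.Surjective r ∧ IsFF1 K' F' (ψ₁ M.x) ∧ IsFF1 k Ft (ψ₂ M.x) ∧ genusFF K' F' = genusFF k Ft ∧ Module.finrank K'⟮ψ₁ M.x⟯ F' = Module.finrank k⟮ψ₂ M.x⟯ Ft ∧ (∀ γ : k, ∃ c : O, OneStep.IsConst K' c ∧ red c = algebraMap k Ft γ) ∧ (∀ u : U, ∃ h : ψ₁ u ∈ O, red ⟨ψ₁ u, h⟩ = ψ₂ u) ∧ (∀ (P : Place K' F') (γ₀ : k), EvK A π P (ψ₁ M.x) γ₀ → ∀ u : M.B, ∃ γ : k, EvK A π P (ψ₁ (u : U)) γ ∧ (r P).adicValuation (ψ₂ (u : U) - algebraMap k Ft γ) < 1) ∧ (∀ (P : Place K' F') (γ₀ : k), EvK A π P (ψ₁ M.x') γ₀ → ∀ u : M.B', ∃ γ : k, EvK A π P (ψ₁ (u : U)) γ ∧ (r P).adicValuation (ψ₂ (u : U) - algebraMap k Ft γ) < 1) := by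
  classical
  -- structure constants over `Λ[X]`, pushed to `A[X]`
  obtain ⟨γ, υ, hγ, hυ⟩ := M.exists_struct
  let φA : Λ →+* A := φ₁.codRestrict A (fun a => (hφ a).1)
  have hφA₁ : ∀ p : Λ[X], (p.map φA).map A.subtype = p.map φ₁ := by
    intro p
    rw [Polynomial.map_map]
    rfl
  have hφA₂ : ∀ p : Λ[X], (p.map φA).map π = p.map φ₂ := by
    intro p
    rw [Polynomial.map_map]
    congr 1
    ext a
    exact (hφ a).2
  have hγb : ∀ i j, ψ₁ (M.b i : U) * ψ₁ (M.b j : U)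
      = ∑ l, aeval (ψ₁ M.x) (((γ i j l).map φA).map A.subtype) * ψ₁ (M.b l : U) := by
    intro i j
    rw [← map_mul, hγ i j, MainCore.map_repr h₁]
    simp_rw [hφA₁]
  have hγc : ∀ i j, ψ₂ (M.b i : U) * ψ₂ (M.b j : U)
      = ∑ l, aeval (ψ₂ M.x) (((γ i j l).map φA).map π) * ψ₂ (M.b l : U) := by
    intro i j
    rw [← map_mul, hγ i j, MainCore.map_repr h₂]
    simp_rw [hφA₂]
  have hυb : (1 : F') = ∑ l, aeval (ψ₁ M.x) (((υ l).map φA).map A.subtype) * ψ₁ (M.b l : U) := by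
    rw [← map_one ψ₁, hυ, MainCore.map_repr h₁]
    simp_rw [hφA₁]
  have hυc : (1 : Ft) = ∑ l, aeval (ψ₂ M.x) (((υ l).map φA).map π) * ψ₂ (M.b l : U) := by
    rw [← map_one ψ₂, hυ, MainCore.map_repr h₂]
    simp_rw [hφA₂]
  -- GR-G: the Gauss ring
  obtain ⟨O, red, g1, g2, g3, g4, g5, g6, g7, g8⟩ := exists_gauss A π hπ hπ0 (ψ₁ M.x) (ψ₂ M.x)
    h₁.trans h₂.trans (fun i => ψ₁ (M.b i : U)) (fun i => ψ₂ (M.b i : U)) h₁.indep h₁.span
    h₂.indep h₂.span (fun i j l => (γ i j l).map φA) hγb hγc (fun l => (υ l).map φA) hυb hυc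
  -- GR-GB: the good basis
  obtain ⟨O₀, red₀, -, -, G, -⟩ := GoodBasis.exists_goodBasis h₁.trans h₂.trans h₁.indep h₁.span
    h₂.indep (fun l => (υ l).map φA) hυb hυc O red g1 g2 g7 g8
  -- GR-RL: the two function fields
  have := RealC.isSeparable h₁
  have := RealC.isSeparable h₂
  obtain ⟨r, xO, h⟩ := MainCore.exists_isRed_core M h₁ h₂ hφ₁ A π hπ hπ0 hφ
    (RealC.isFF1 h₁) (RealC.isFF1 h₂) (RealC.chart h₁) (RealC.chart' h₁) (RealC.chart h₂)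
    (RealC.chart' h₂) O red g1 g2 g3 g4 g5 g6 g7 g8 G
  exact ⟨O, red, r, xO, h⟩

/-- `exists_isRed` is the literal `Literals.exists_isRed_stmt` of the (GR) cut. -/
theorem exists_isRed_stmt {Λ U : Type*} [CommRing Λ] [CommRing U] [Algebra Λ U] {n : ℕ} (M : Model Λ U n) {K' F' k Ft : Type*} [Field K'] [Field F'] [Algebra K' F'] [Field k] [Field Ft] [Algebra k Ft] [IsAlgClosed K'] [IsAlgClosed k] {φ₁ : Λ →+* K'} {ψ₁ : U →+* F'} (h₁ : Real M K' F' φ₁ ψ₁) {φ₂ : Λ →+* k} {ψ₂ : U →+* Ft} (h₂ : Real M k Ft φ₂ ψ₂) (hφ₁ : Function.Injective φ₁) (A : ValuationSubring K') (π : A →+* k) (hπ : Function.Surjective π) (hπ0 : ∀ a : A, ¬ IsUnit a → π a = 0) (hφ : ∀ a : Λ, ∃ h : φ₁ a ∈ A, π ⟨φ₁ a, h⟩ = φ₂ a) :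
    Literals.exists_isRed_stmt M h₁ h₂ hφ₁ A π hπ hπ0 hφ :=
  exists_isRed M h₁ h₂ hφ₁ A π hπ hπ0 hφ

end Fermat.Agent.S27P.GR
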