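import Mathlib
import Fermat.Agent.S27P.GR.Defs
import Fermat.Agent.S27P.GR.Transport
import Fermat.Agent.Lib.FF.CharP.Principal
import Fermat.Agent.Lib.Red.InstGenusGA

/-!
# S27 / (GR), row GR-RL (twin, basis half): a realisation is a separable function field

For a realisation `h : Real M κ E φ ψ` of a two-chart model, with `X := ψ M.x`:

* `RealB.basis h` : the images `ψ (M.b i)` form a `κ(X)`-basis of `E`;
* `RealB.finiteDimensional`, `RealB.finrank_eq` : `[E : κ(X)] = n`;
* `RealB.isFF1` : the characteristic-free function field setting (`κ` algebraically closed);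
* `RealB.isSeparable` : `E/κ(X)` is separable (the trace form is nonzero, by the trace-dual
  identity of the chart certificate);
* `RealB.exists_bad_set` : `X` is regular and unramified outside a finite set of places.

Universe polymorphic, characteristic-free.
-/

set_option autoImplicit false

noncomputable section

namespace Fermat.Agent.S27P.GR.RealB

open Polynomial IntermediateField AlgebraicCurve
open Fermat.Agent.Lib.FF

/-! ### Linear algebra over `κ(Y)` from linear algebra over `κ[Y]` -/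

section General

variable {κ E : Type*} [Field κ] [Field E] [Algebra κ E]

/-- A polynomial value lies in the simple extension. -/
theorem aeval_mem (Y : E) (p : κ[X]) : aeval Y p ∈ κ⟮Y⟯ :=
  (mem_adjoin_simple_iff κ _).mpr ⟨p, 1, by simp⟩

/-- An element of `κ(Y)` is a quotient of two polynomial values, with nonzero denominator. -/
theorem exists_frac {Y : E} (g : κ⟮Y⟯) :
    ∃ r s : κ[X], s ≠ 0 ∧ (g : E) = aeval Y r / aeval Y s := by
  obtain ⟨r, s, h⟩ := (mem_adjoin_simple_iff κ (g : E)).mp g.2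
  by_cases hs : s = 0
  · refine ⟨0, 1, one_ne_zero, ?_⟩
    rw [h, hs]
    simp
  · exact ⟨r, s, hs, h⟩

variable {n : ℕ} {Y : E} {c : Fin n → E}

/-- Independence over `κ[Y]` gives independence over `κ(Y)`. -/
theorem linearIndependent_of_indep (hY : Transcendental κ Y)
    (hind : ∀ p : Fin n → κ[X], ∑ i, aeval Y (p i) * c i = 0 → p = 0) :
    LinearIndependent κ⟮Y⟯ c := by
  classical
  have hinj : Function.Injective (aeval (R := κ) Y) := transcendental_iff_injective.mp hY
  rw [Fintype.linearIndependent_iff]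
  intro g hg i
  choose r s hs hrs using fun j => exists_frac (g j)
  have hs' : ∀ j, aeval Y (s j) ≠ 0 := fun j h0 => hs j (hinj (by rw [h0, map_zero]))
  set p : Fin n → κ[X] := fun j => r j * ∏ l ∈ Finset.univ.erase j, s l with hp
  have hpj : ∀ j, aeval Y (p j) = (g j : E) * aeval Y (∏ l, s l) := by
    intro j
    rw [hp, ← Finset.mul_prod_erase Finset.univ s (Finset.mem_univ j), map_mul, map_mul, hrs j]
    field_simp [hs' j]
  have hsum : ∑ j, aeval Y (p j) * c j = 0 := by
    have h1 : ∑ j, aeval Y (p j) * c j = aeval Y (∏ l, s l) * ∑ j, g j • c j := by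
      rw [Finset.mul_sum]
      refine Finset.sum_congr rfl fun j _ => ?_
      rw [hpj j, Algebra.smul_def]
      show _ = _ * ((g j : E) * _)
      ring
    rw [h1, hg, mul_zero]
  have hpi : p i = 0 := congrFun (hind p hsum) i
  have h2 := hpj i
  rw [hpi, map_zero] at h2
  have hprod : aeval Y (∏ l, s l) ≠ 0 := by
    rw [map_prod]
    exact Finset.prod_ne_zero_iff.mpr fun l _ => hs' l
  have h3 : (g i : E) = 0 := by
    rcases mul_eq_zero.mp h2.symm with h | h
    · exact h
    · exact absurd h hprod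
  exact Subtype.ext h3

/-- Spanning with polynomial denominators gives spanning over `κ(Y)`. -/
theorem span_of_span (hY : Transcendental κ Y)
    (hspan : ∀ y : E, ∃ (p : Fin n → κ[X]) (s : κ[X]), s ≠ 0 ∧
      aeval Y s * y = ∑ i, aeval Y (p i) * c i) :
    ⊤ ≤ Submodule.span κ⟮Y⟯ (Set.range c) := by
  intro f _
  have hinj : Function.Injective (aeval (R := κ) Y) := transcendental_iff_injective.mp hY
  obtain ⟨p, s, hs, h⟩ := hspan f
  have hs' : aeval Y s ≠ 0 := fun h0 => hs (hinj (by rw [h0, map_zero]))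
  have hf : f = ∑ i, (⟨aeval Y (p i) / aeval Y s, div_mem (aeval_mem _ _) (aeval_mem _ _)⟩ : κ⟮Y⟯)
      • c i := by
    have h1 : f = (aeval Y s)⁻¹ * ∑ i, aeval Y (p i) * c i := by
      rw [← h]
      field_simp
    rw [h1, Finset.mul_sum]
    refine Finset.sum_congr rfl fun i _ => ?_
    rw [Algebra.smul_def]
    show _ = (aeval Y (p i) / aeval Y s) * _
    ring
  rw [hf]
  exact Submodule.sum_mem _ fun i _ =>
    Submodule.smul_mem _ _ (Submodule.subset_span ⟨i, rfl⟩)

end General

/-! ### A realisation -/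

section RealSec

variable {Λ U : Type*} [CommRing Λ] [CommRing U] [Algebra Λ U] {n : ℕ} {M : Model Λ U n}
  {κ E : Type*} [Field κ] [Field E] [Algebra κ E] {φ : Λ →+* κ} {ψ : U →+* E}

/-- The `κ(X)`-basis `ψ ∘ M.b` of a realisation. -/
def basis (h : Real M κ E φ ψ) : Module.Basis (Fin n) κ⟮ψ M.x⟯ E :=
  Module.Basis.mk (linearIndependent_of_indep h.trans h.indep) (span_of_span h.trans h.span)

theorem basis_apply (h : Real M κ E φ ψ) (i : Fin n) : basis h i = ψ (M.b i : U) :=
  Module.Basis.mk_apply _ _ i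

/-- **GR-RL**: `E` is finite over `κ(X)`. -/
theorem finiteDimensional (h : Real M κ E φ ψ) : FiniteDimensional κ⟮ψ M.x⟯ E :=
  Module.Finite.of_basis (basis h)

theorem finrank_eq (h : Real M κ E φ ψ) : Module.finrank κ⟮ψ M.x⟯ E = n := by
  rw [Module.finrank_eq_card_basis (basis h), Fintype.card_fin]

/-- **GR-RL**: a realisation over an algebraically closed field is a function field of one
variable in the sense of `IsFF1`. -/
theorem isFF1 [IsAlgClosed κ] (h : Real M κ E φ ψ) : IsFF1 κ E (ψ M.x) := by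
  have hfd := finiteDimensional h
  exact Fermat.Agent.Lib.FF.CharP.isFF1 _ h.trans

/-- The restriction of `ψ` to the chart ring `M.B`. -/
def psiB (M : Model Λ U n) (ψ : U →+* E) : M.B →+* E := ψ.comp M.B.val.toRingHom

theorem psiB_apply (y : M.B) : psiB M ψ y = ψ (y : U) := rfl

theorem psiB_aeval (h : Real M κ E φ ψ) (P : Λ[X]) :
    psiB M ψ (aeval (⟨M.x, M.hx⟩ : M.B) P) = aeval (ψ M.x) (P.map φ) :=
  map_aeval_eq φ (psiB M ψ) (fun a => h.compat a) ⟨M.x, M.hx⟩ P

/-- The trace form of `E/κ(X)` is nonzero: the trace of `ψ (b i * βd i)` is the value of the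
(nonzero) discriminant polynomial. -/
theorem exists_trace_ne_zero (h : Real M κ E φ ψ) :
    ∃ w : E, Algebra.trace κ⟮ψ M.x⟯ E w ≠ 0 := by
  classical
  obtain ⟨βd, T, m, a, l, hT, htr, -⟩ := M.cert.disc
  have hinj : Function.Injective (aeval (R := κ) (ψ M.x)) :=
    transcendental_iff_injective.mp h.trans
  let i₀ : Fin n := ⟨0, M.pos⟩
  refine ⟨psiB M ψ (M.b i₀) * psiB M ψ (βd i₀), ?_⟩
  have hmul : ∀ s, psiB M ψ (M.b i₀) * psiB M ψ (βd i₀) * basis h s
      = ∑ t, (⟨aeval (ψ M.x) ((T i₀ i₀ s t).map φ), aeval_mem _ _⟩ : κ⟮ψ M.x⟯) • basis h t := by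
    intro s
    have e1 := congrArg (psiB M ψ) (hT i₀ i₀ s)
    rw [map_mul, map_mul, map_sum] at e1
    rw [basis_apply, ← psiB_apply, e1]
    refine Finset.sum_congr rfl fun t _ => ?_
    rw [map_mul, psiB_aeval h, basis_apply, Algebra.smul_def]
    rfl
  have hrep : ∀ s, (basis h).repr (psiB M ψ (M.b i₀) * psiB M ψ (βd i₀) * basis h s) s
      = (⟨aeval (ψ M.x) ((T i₀ i₀ s s).map φ), aeval_mem _ _⟩ : κ⟮ψ M.x⟯) := by
    intro s
    rw [hmul s, Module.Basis.repr_sum_self]
  rw [Algebra.trace_eq_matrix_trace (basis h), Matrix.trace]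
  simp only [Matrix.diag_apply, Algebra.leftMulMatrix_eq_repr_mul, hrep]
  have hsum : (∑ s, (⟨aeval (ψ M.x) ((T i₀ i₀ s s).map φ), aeval_mem _ _⟩ : κ⟮ψ M.x⟯))
      = ⟨aeval (ψ M.x) ((∑ s, T i₀ i₀ s s).map φ), aeval_mem _ _⟩ := by
    apply Subtype.ext
    rw [IntermediateField.coe_sum]
    show ∑ s, aeval (ψ M.x) ((T i₀ i₀ s s).map φ) = aeval (ψ M.x) ((∑ s, T i₀ i₀ s s).map φ)
    rw [Polynomial.map_sum, map_sum]
  rw [hsum, htr i₀ i₀, if_pos rfl]
  intro h0
  have h1 : aeval (ψ M.x) ((C (l : Λ) * ∏ q, (X - C (a q))).map φ) = 0 :=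
    congrArg Subtype.val h0
  have h2 : (C (l : Λ) * ∏ q, (X - C (a q))).map φ = 0 := hinj (by rw [h1, map_zero])
  rw [Polynomial.map_mul, Polynomial.map_prod, Polynomial.map_C] at h2
  have hl : φ (l : Λ) ≠ 0 := (l.isUnit.map φ).ne_zero
  rcases mul_eq_zero.mp h2 with h3 | h3
  · exact hl (C_eq_zero.mp h3)
  · rw [Finset.prod_eq_zero_iff] at h3
    obtain ⟨q, -, hq⟩ := h3
    rw [Polynomial.map_sub, Polynomial.map_X, Polynomial.map_C] at hq
    exact X_sub_C_ne_zero _ hq

/-- **GR-RL**: `E` is separable over `κ(X)`. -/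
theorem isSeparable (h : Real M κ E φ ψ) : Algebra.IsSeparable κ⟮ψ M.x⟯ E := by
  by_contra H
  obtain ⟨w, hw⟩ := exists_trace_ne_zero h
  exact hw (by rw [Algebra.trace_eq_zero_of_not_isSeparable H]; rfl)

/-- **GR-RL**: `X` is regular and unramified outside a finite set of places. -/
theorem exists_bad_set [IsAlgClosed κ] (h : Real M κ E φ ψ) :
    ∃ S₀ : Finset (Place κ E), ∀ Q ∉ S₀, 0 ≤ Q.ord (ψ M.x) ∧
      ∀ γ : κ, 0 < Q.ord (ψ M.x - algebraMap κ E γ) →
        Q.ord (ψ M.x - algebraMap κ E γ) = 1 := by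
  have hsep := isSeparable h
  have hff := isFF1 h
  exact Fermat.Agent.Lib.Red.GenusGA.exists_bad_set_of_span hff (ψ M.x)
    (Fermat.Agent.Lib.Red.GenusGA.span_D_eq_top_of_isSeparable (K := κ) (ψ M.x))
    hff.poles_le.choose

end RealSec

end Fermat.Agent.S27P.GR.RealB
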