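import Mathlib
import Fermat.Agent.S27P.GR.Defs

/-!
# S27 / (GR): structure constants and transition matrices of a model (row GR-T)

For a two-chart model `M : Model Λ U n`:

* `Model.exists_struct` : the chart basis `b` has structure constants `γ i j l` and unit
  coordinates `υ l` in `Λ[X]` (evaluated at `x`).
* `Model.exists_transition` : there are `e` and matrices `T`, `T'` over `Λ[X]` (evaluated at
  `x' = 1/x`) with `x' ^ e * b' i = ∑ j, T i j (x') * b j` and
  `x' ^ e * b j = ∑ i, T' j i (x') * b' i`.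

Both are the literals `Model_exists_struct_stmt` / `Model_exists_transition_stmt` of
`GR/Literals.lean`.
-/

set_option autoImplicit false

noncomputable section

namespace Fermat.Agent.S27P.GR

open Polynomial

section T
variable {Λ U : Type*} [CommRing Λ] [CommRing U] [Algebra Λ U] {n : ℕ}

/-- If `x * x' = 1` and `deg P ≤ e`, then `x' ^ e * P(x)` is a polynomial in `x'`. -/
theorem exists_aeval_inv_eq {x x' : U} (h : x * x' = 1) (P : Λ[X]) (e : ℕ)
    (he : P.natDegree ≤ e) : ∃ Q : Λ[X], x' ^ e * aeval x P = aeval x' Q := by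
  refine ⟨∑ i ∈ Finset.range (P.natDegree + 1), C (P.coeff i) * X ^ (e - i), ?_⟩
  rw [aeval_eq_sum_range, Finset.mul_sum, map_sum]
  refine Finset.sum_congr rfl fun i hi => ?_
  have hi' : i ≤ e := by have := Finset.mem_range.mp hi; omega
  have h1 : x' ^ e = x' ^ (e - i) * x' ^ i := by rw [← pow_add]; congr 1; omega
  have h2 : x' ^ i * x ^ i = 1 := by rw [← mul_pow, mul_comm, h, one_pow]
  rw [map_mul, map_pow, aeval_C, aeval_X, Algebra.smul_def, h1]
  calc x' ^ (e - i) * x' ^ i * (algebraMap Λ U (P.coeff i) * x ^ i)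
      = algebraMap Λ U (P.coeff i) * x' ^ (e - i) * (x' ^ i * x ^ i) := by ring
    _ = algebraMap Λ U (P.coeff i) * x' ^ (e - i) := by rw [h2, mul_one]

/-- Every element of the chart ring `B` is a `Λ[x]`-combination of the `b l` (read in `U`). -/
theorem Model.coe_eq_sum (M : Model Λ U n) (f : M.B) :
    ∃ p : Fin n → Λ[X], (f : U) = ∑ l, aeval M.x (p l) * (M.b l : U) := by
  obtain ⟨p, hp, -⟩ := M.cert.free f
  refine ⟨p, ?_⟩
  have h := congrArg (fun y : M.B => (y : U)) hp
  simpa [aeval_subalgebra_coe] using h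

/-- Every element of the chart ring `B'` is a `Λ[x']`-combination of the `b' l` (read in `U`). -/
theorem Model.coe_eq_sum' (M : Model Λ U n) (f : M.B') :
    ∃ p : Fin n → Λ[X], (f : U) = ∑ l, aeval M.x' (p l) * (M.b' l : U) := by
  obtain ⟨p, hp, -⟩ := M.cert'.free f
  refine ⟨p, ?_⟩
  have h := congrArg (fun y : M.B' => (y : U)) hp
  simpa [aeval_subalgebra_coe] using h

/-- Structure constants and unit coordinates of the chart basis `b`, over `Λ[X]`. -/
theorem Model.exists_struct (M : Model Λ U n) :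
    ∃ (γ : Fin n → Fin n → Fin n → Λ[X]) (υ : Fin n → Λ[X]),
      (∀ i j, (M.b i : U) * (M.b j : U) = ∑ l, aeval M.x (γ i j l) * (M.b l : U)) ∧
      (1 : U) = ∑ l, aeval M.x (υ l) * (M.b l : U) := by
  choose γ hγ using fun i j => M.coe_eq_sum (M.b i * M.b j)
  obtain ⟨υ, hυ⟩ := M.coe_eq_sum 1
  exact ⟨γ, υ, fun i j => by simpa using hγ i j, by simpa using hυ⟩

/-- Transition matrices between the two chart bases, over `Λ[X]` evaluated at `x'`. -/
theorem Model.exists_transition (M : Model Λ U n) :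
    ∃ (e : ℕ) (T T' : Matrix (Fin n) (Fin n) Λ[X]),
      (∀ i, M.x' ^ e * (M.b' i : U) = ∑ j, aeval M.x' (T i j) * (M.b j : U)) ∧
      (∀ j, M.x' ^ e * (M.b j : U) = ∑ i, aeval M.x' (T' j i) * (M.b' i : U)) := by
  have hx'x : M.x' * M.x = 1 := by rw [mul_comm]; exact M.hxx'
  have key : ∀ i, ∃ (m : ℕ) (p : Fin n → Λ[X]),
      M.x ^ m * (M.b' i : U) = ∑ j, aeval M.x (p j) * (M.b j : U) := by
    intro i
    obtain ⟨m, hm⟩ := M.hB (M.b' i : U)
    obtain ⟨p, hp⟩ := M.coe_eq_sum ⟨_, hm⟩
    exact ⟨m, p, hp⟩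
  have key' : ∀ j, ∃ (m : ℕ) (q : Fin n → Λ[X]),
      M.x' ^ m * (M.b j : U) = ∑ i, aeval M.x' (q i) * (M.b' i : U) := by
    intro j
    obtain ⟨m, hm⟩ := M.hB' (M.b j : U)
    obtain ⟨q, hq⟩ := M.coe_eq_sum' ⟨_, hm⟩
    exact ⟨m, q, hq⟩
  choose m p hp using key
  choose m' q hq using key'
  obtain ⟨e, he, he'⟩ : ∃ e : ℕ, (∀ i j, (p i j).natDegree ≤ e) ∧ ∀ j, m' j ≤ e := by
    refine ⟨(Finset.univ.sup fun i => Finset.univ.sup fun j => (p i j).natDegree) +
      Finset.univ.sup m', fun i j => ?_, fun j => ?_⟩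
    · have h1 : (p i j).natDegree ≤ Finset.univ.sup fun j => (p i j).natDegree :=
        Finset.le_sup (f := fun j => (p i j).natDegree) (Finset.mem_univ j)
      have h2 : (Finset.univ.sup fun j => (p i j).natDegree) ≤
          Finset.univ.sup fun i => Finset.univ.sup fun j => (p i j).natDegree :=
        Finset.le_sup (f := fun i => Finset.univ.sup fun j => (p i j).natDegree)
          (Finset.mem_univ i)
      omega
    · have h1 : m' j ≤ Finset.univ.sup m' := Finset.le_sup (Finset.mem_univ j)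
      omega
  choose Q hQ using fun i j =>
    exists_aeval_inv_eq M.hxx' (p i j) (e + m i) (le_trans (he i j) (Nat.le_add_right _ _))
  refine ⟨e, Matrix.of Q, Matrix.of fun j i => X ^ (e - m' j) * q j i, fun i => ?_, fun j => ?_⟩
  · have h1 : M.x' ^ m i * M.x ^ m i = 1 := by rw [← mul_pow, hx'x, one_pow]
    have h2 : M.x' ^ (e + m i) * (M.x ^ m i * (M.b' i : U)) = M.x' ^ e * (M.b' i : U) := by
      rw [pow_add]
      calc M.x' ^ e * M.x' ^ m i * (M.x ^ m i * (M.b' i : U))
          = M.x' ^ e * (M.x' ^ m i * M.x ^ m i) * (M.b' i : U) := by ring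
        _ = M.x' ^ e * (M.b' i : U) := by rw [h1, mul_one]
    rw [← h2, hp i, Finset.mul_sum]
    refine Finset.sum_congr rfl fun j _ => ?_
    rw [← mul_assoc, hQ i j, Matrix.of_apply]
  · have h1 : M.x' ^ e = M.x' ^ (e - m' j) * M.x' ^ m' j := by
      rw [← pow_add]; congr 1; have := he' j; omega
    rw [h1, mul_assoc, hq j, Finset.mul_sum]
    refine Finset.sum_congr rfl fun i _ => ?_
    rw [Matrix.of_apply, map_mul, map_pow, aeval_X, mul_assoc]

end T

end Fermat.Agent.S27P.GR
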