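/-
S27 / (GR), row GR-RL (helper17): every realisation of a model is a good two-chart function field.

For `h : Real M κ E φ ψ` and `X := ψ M.x`:

* `Real.finiteDimensional` : `E` is finite over `κ(X)`;
* `Real.isSeparable`       : and separable (trace-dual certificate);
* `Real.isFF1`             : `IsFF1 κ E X` (`κ` algebraically closed);
* `Real.chart`, `Real.chart'` : the functions regular on the chart `X ≠ ∞` (resp. `X ≠ 0`) are
  exactly the `κ[X]`-combinations of the `ψ (b j)` (resp. the `κ[X⁻¹]`-combinations of the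
  `ψ (b' j)`) — normality of the two chart rings, from the certificate;
* `Real.exists_bad_set`    : `X` is regular and unramified outside a finite set of places.
-/
import Mathlib
import Fermat.Agent.S27P.GR.Defs
import Fermat.Agent.S27P.GR.Transport
import Fermat.Agent.S27P.GR.Transition
import Fermat.Agent.S27P.GR.Normal
import Fermat.Agent.S27P.GR.RealB
import Fermat.Agent.Lib.FF.Holo
import Fermat.Agent.Lib.FF.CharP.Principal
import Fermat.Agent.Lib.Red.GenusGASep
import Fermat.Agent.Lib.Red.InstGenusGA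

set_option autoImplicit false
set_option linter.style.haveILetI false
set_option linter.unusedSectionVars false
set_option linter.unusedVariables false

noncomputable section

namespace Fermat.Agent.S27P.GR

open Polynomial AlgebraicCurve IntermediateField

namespace RealAux

/-! ### Polynomial forms versus linear algebra over `κ(Z)` -/

section Field

variable {κ E : Type*} [Field κ] [Field E] [Algebra κ E]

/-- `aeval Z p ∈ κ(Z)`. -/
theorem aeval_mem_adjoin (Z : E) (p : κ[X]) : aeval Z p ∈ κ⟮Z⟯ :=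
  IntermediateField.algebra_adjoin_le_adjoin κ _ (Polynomial.aeval_mem_adjoin_singleton κ Z)

theorem smul_eq_coe_mul (L : IntermediateField κ E) (c : L) (y : E) : c • y = (c : E) * y := rfl

/-- A quotient representation with nonzero denominator of the elements of `κ(W)`. -/
theorem exists_quot (W : E) (c : κ⟮W⟯) :
    ∃ r t : κ[X], aeval W t ≠ 0 ∧ (c : E) = aeval W r / aeval W t := by
  obtain ⟨r, t, hrt⟩ := (IntermediateField.mem_adjoin_simple_iff κ (c : E)).1 c.2
  by_cases ht : aeval W t = 0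
  · exact ⟨0, 1, by simp, by rw [hrt, ht, div_zero]; simp⟩
  · exact ⟨r, t, ht, hrt⟩

/-- From a linear combination over a field `L` of quotients of polynomials in `W` to the
polynomial form. -/
theorem exists_poly_of_mem_span (L : IntermediateField κ E) (W : E)
    (hL : ∀ c : L, ∃ r t : κ[X], aeval W t ≠ 0 ∧ (c : E) = aeval W r / aeval W t) {n : ℕ}
    (β : Fin n → E) {y : E} (hy : y ∈ Submodule.span L (Set.range β)) :
    ∃ (p : Fin n → κ[X]) (s : κ[X]), aeval W s ≠ 0 ∧
      aeval W s * y = ∑ i, aeval W (p i) * β i := by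
  classical
  induction hy using Submodule.span_induction with
  | mem x hx =>
    obtain ⟨j, rfl⟩ := hx
    refine ⟨Pi.single j 1, 1, by simp, ?_⟩
    rw [map_one, one_mul, Finset.sum_eq_single j]
    · simp
    · intro i _ hij
      simp [Pi.single_eq_of_ne hij]
    · intro h
      exact absurd (Finset.mem_univ j) h
  | zero => exact ⟨0, 1, by simp, by simp⟩
  | add x y _ _ hx hy =>
    obtain ⟨p₁, s₁, hs₁, e₁⟩ := hx
    obtain ⟨p₂, s₂, hs₂, e₂⟩ := hy
    refine ⟨fun i => s₂ * p₁ i + s₁ * p₂ i, s₁ * s₂, by rw [map_mul]; exact mul_ne_zero hs₁ hs₂, ?_⟩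
    have h1 : ∑ i, aeval W s₂ * aeval W (p₁ i) * β i = aeval W s₂ * (aeval W s₁ * x) := by
      rw [e₁, Finset.mul_sum]
      exact Finset.sum_congr rfl fun i _ => by ring
    have h2 : ∑ i, aeval W s₁ * aeval W (p₂ i) * β i = aeval W s₁ * (aeval W s₂ * y) := by
      rw [e₂, Finset.mul_sum]
      exact Finset.sum_congr rfl fun i _ => by ring
    simp only [map_mul, map_add, add_mul, Finset.sum_add_distrib]
    rw [h1, h2]
    ring
  | smul c x _ hx =>
    obtain ⟨p, s, hs, e⟩ := hx
    obtain ⟨r, t, ht, hrt⟩ := hL c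
    refine ⟨fun i => r * p i, t * s, by rw [map_mul]; exact mul_ne_zero ht hs, ?_⟩
    have hc : aeval W t * (c : E) = aeval W r := by
      rw [hrt]
      field_simp
    calc aeval W (t * s) * (c • x) = (aeval W t * (c : E)) * (aeval W s * x) := by
          rw [map_mul, smul_eq_coe_mul]
          ring
      _ = aeval W r * ∑ i, aeval W (p i) * β i := by rw [hc, e]
      _ = ∑ i, aeval W (r * p i) * β i := by
          rw [Finset.mul_sum]
          exact Finset.sum_congr rfl fun i _ => by rw [map_mul]; ring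

/-- The polynomial spanning condition gives spanning over `κ(Z)`. -/
theorem top_le_span_of_poly {Z : E} {n : ℕ} (β : Fin n → E)
    (hspan : ∀ y : E, ∃ (p : Fin n → κ[X]) (s : κ[X]), aeval Z s ≠ 0 ∧
      aeval Z s * y = ∑ i, aeval Z (p i) * β i) :
    ⊤ ≤ Submodule.span κ⟮Z⟯ (Set.range β) := by
  rintro y -
  obtain ⟨p, s, hs, e⟩ := hspan y
  have hy : y = ∑ i, (⟨aeval Z (p i) / aeval Z s,
      div_mem (aeval_mem_adjoin Z (p i)) (aeval_mem_adjoin Z s)⟩ : κ⟮Z⟯) • β i := by
    simp only [smul_eq_coe_mul]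
    have : ∑ i, aeval Z (p i) / aeval Z s * β i = (aeval Z s)⁻¹ * ∑ i, aeval Z (p i) * β i := by
      rw [Finset.mul_sum]
      exact Finset.sum_congr rfl fun i _ => by ring
    rw [this, ← e, ← mul_assoc, inv_mul_cancel₀ hs, one_mul]
  rw [hy]
  exact Submodule.sum_mem _ fun i _ => Submodule.smul_mem _ _ (Submodule.subset_span ⟨i, rfl⟩)

/-- Polynomial independence gives linear independence over `κ(Z)`. -/
theorem linearIndependent_of_poly {Z : E} {n : ℕ} (β : Fin n → E)
    (hindep : ∀ p : Fin n → κ[X], ∑ i, aeval Z (p i) * β i = 0 → p = 0) :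
    LinearIndependent κ⟮Z⟯ β := by
  classical
  rw [Fintype.linearIndependent_iff]
  intro c hc i
  choose r t ht hrt using fun j => exists_quot Z (c j)
  have key : ∑ j, aeval Z (r j * ∏ l ∈ Finset.univ.erase j, t l) * β j = 0 := by
    have h1 : ∑ j, aeval Z (r j * ∏ l ∈ Finset.univ.erase j, t l) * β j =
        aeval Z (∏ l, t l) * ∑ j, c j • β j := by
      rw [Finset.mul_sum]
      refine Finset.sum_congr rfl fun j _ => ?_
      rw [smul_eq_coe_mul, hrt j, ← Finset.mul_prod_erase Finset.univ t (Finset.mem_univ j),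
        map_mul, map_mul]
      have htj := ht j
      field_simp
    rw [h1, hc, mul_zero]
  have h0 := congrFun (hindep _ key) i
  have hprod : (∏ l ∈ Finset.univ.erase i, t l) ≠ 0 :=
    Finset.prod_ne_zero_iff.2 fun l _ h => ht l (by rw [h, map_zero])
  have hr : r i = 0 := by
    rcases mul_eq_zero.1 h0 with h | h
    · exact h
    · exact absurd h hprod
  apply Subtype.ext
  rw [hrt i, hr, map_zero, zero_div]
  rfl

/-- Linear independence over a field containing the `aeval W p` gives polynomial independence,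
for `W` transcendental. -/
theorem poly_indep_of_linearIndependent (L : IntermediateField κ E) {W : E}
    (hW : Transcendental κ W) (hWL : ∀ p : κ[X], aeval W p ∈ L) {n : ℕ} (β : Fin n → E)
    (hli : LinearIndependent L β) (p : Fin n → κ[X]) (hp : ∑ i, aeval W (p i) * β i = 0) :
    p = 0 := by
  have h := Fintype.linearIndependent_iff.1 hli (fun i => ⟨aeval W (p i), hWL (p i)⟩)
    (by simpa only [smul_eq_coe_mul] using hp)
  funext i
  have h1 := congrArg Subtype.val (h i)
  exact transcendental_iff.1 hW _ h1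

theorem aeval_ne_zero {Z : E} (hZ : Transcendental κ Z) {s : κ[X]} (hs : s ≠ 0) :
    aeval Z s ≠ 0 := fun h => hs (transcendental_iff.1 hZ s h)

end Field


/-! ### The chart ring of a realised chart -/

section Chart

variable {Λ B : Type*} [CommRing Λ] [CommRing B] [Algebra Λ B] {κ E : Type*} [Field κ] [Field E]
  [Algebra κ E]

/-- The chart ring: the `κ`-subalgebra of `E` generated by the image of `χ`. -/
def chartRing (κ : Type*) {B E : Type*} [CommRing B] [Field κ] [Field E] [Algebra κ E]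
    (χ : B →+* E) : Subalgebra κ E :=
  Algebra.adjoin κ (Set.range χ)

theorem sum_rotate {M : Type*} [AddCommMonoid M] {n : ℕ} (F : Fin n → Fin n → Fin n → M) :
    ∑ i, ∑ j, ∑ l, F i j l = ∑ l, ∑ i, ∑ j, F i j l :=
  calc ∑ i, ∑ j, ∑ l, F i j l = ∑ i, ∑ l, ∑ j, F i j l :=
        Finset.sum_congr rfl fun i _ => Finset.sum_comm
    _ = ∑ l, ∑ i, ∑ j, F i j l := Finset.sum_comm

variable {φ : Λ →+* κ} {χ : B →+* E} {n : ℕ} {z : B} {b : Fin n → B}

theorem map_mem_chartRing (u : B) : χ u ∈ chartRing κ χ := Algebra.subset_adjoin ⟨u, rfl⟩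

theorem adjoin_le_chartRing (u : B) : Algebra.adjoin κ ({χ u} : Set E) ≤ chartRing κ χ :=
  Algebra.adjoin_mono (Set.singleton_subset_iff.2 ⟨u, rfl⟩)

theorem aeval_mem_chartRing (u : B) (p : κ[X]) : aeval (χ u) p ∈ chartRing κ χ :=
  adjoin_le_chartRing u (Polynomial.aeval_mem_adjoin_singleton κ (χ u))

theorem repr_mem_chartRing (z : B) (b : Fin n → B) (p : Fin n → κ[X]) :
    ∑ i, aeval (χ z) (p i) * χ (b i) ∈ chartRing κ χ :=
  Subalgebra.sum_mem _ fun i _ =>
    Subalgebra.mul_mem _ (aeval_mem_chartRing z (p i)) (map_mem_chartRing (b i))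

theorem exists_repr_map (hχ : ∀ a, χ (algebraMap Λ B a) = algebraMap κ E (φ a))
    (hc : ChartCert Λ B z b) (u : B) :
    ∃ p : Fin n → κ[X], χ u = ∑ i, aeval (χ z) (p i) * χ (b i) := by
  obtain ⟨p, hp, -⟩ := hc.free u
  refine ⟨fun i => (p i).map φ, ?_⟩
  conv_lhs => rw [hp]
  rw [map_sum]
  refine Finset.sum_congr rfl fun i _ => ?_
  rw [map_mul, map_aeval_eq φ χ hχ]

theorem exists_repr_of_mem (hχ : ∀ a, χ (algebraMap Λ B a) = algebraMap κ E (φ a))
    (hc : ChartCert Λ B z b) {f : E} (hf : f ∈ chartRing κ χ) :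
    ∃ p : Fin n → κ[X], f = ∑ i, aeval (χ z) (p i) * χ (b i) := by
  induction hf using Algebra.adjoin_induction with
  | mem x hx =>
    obtain ⟨u, rfl⟩ := hx
    exact exists_repr_map hχ hc u
  | algebraMap c =>
    obtain ⟨p, hp⟩ := exists_repr_map hχ hc (1 : B)
    rw [map_one] at hp
    refine ⟨fun i => C c * p i, ?_⟩
    calc algebraMap κ E c = algebraMap κ E c * 1 := (mul_one _).symm
      _ = algebraMap κ E c * ∑ i, aeval (χ z) (p i) * χ (b i) := by rw [← hp]
      _ = ∑ i, aeval (χ z) (C c * p i) * χ (b i) := by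
          rw [Finset.mul_sum]
          refine Finset.sum_congr rfl fun i _ => ?_
          rw [map_mul, aeval_C]
          ring
  | add x y _ _ hx hy =>
    obtain ⟨p, hp⟩ := hx
    obtain ⟨q, hq⟩ := hy
    refine ⟨fun i => p i + q i, ?_⟩
    rw [hp, hq, ← Finset.sum_add_distrib]
    exact Finset.sum_congr rfl fun i _ => by rw [map_add]; ring
  | mul x y _ _ hx hy =>
    obtain ⟨p, hp⟩ := hx
    obtain ⟨q, hq⟩ := hy
    choose γ hγ using fun i j => exists_repr_map hχ hc (b i * b j)
    refine ⟨fun l => ∑ i, ∑ j, p i * q j * γ i j l, ?_⟩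
    have hterm : ∀ i j, aeval (χ z) (p i) * χ (b i) * (aeval (χ z) (q j) * χ (b j)) =
        ∑ l, aeval (χ z) (p i * q j * γ i j l) * χ (b l) := by
      intro i j
      have h1 : χ (b i) * χ (b j) = ∑ l, aeval (χ z) (γ i j l) * χ (b l) := by
        rw [← map_mul]
        exact hγ i j
      calc aeval (χ z) (p i) * χ (b i) * (aeval (χ z) (q j) * χ (b j))
          = aeval (χ z) (p i) * aeval (χ z) (q j) * (χ (b i) * χ (b j)) := by ring
        _ = ∑ l, aeval (χ z) (p i * q j * γ i j l) * χ (b l) := by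
          rw [h1, Finset.mul_sum]
          exact Finset.sum_congr rfl fun l _ => by simp only [map_mul]; ring
    have hR : ∀ l, aeval (χ z) (∑ i, ∑ j, p i * q j * γ i j l) * χ (b l) =
        ∑ i, ∑ j, aeval (χ z) (p i * q j * γ i j l) * χ (b l) := by
      intro l
      rw [map_sum, Finset.sum_mul]
      exact Finset.sum_congr rfl fun i _ => by rw [map_sum, Finset.sum_mul]
    rw [hp, hq, Finset.sum_mul_sum]
    simp_rw [hterm, hR]
    exact sum_rotate _

theorem mem_chartRing_iff (hχ : ∀ a, χ (algebraMap Λ B a) = algebraMap κ E (φ a))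
    (hc : ChartCert Λ B z b) (f : E) :
    f ∈ chartRing κ χ ↔ ∃ p : Fin n → κ[X], f = ∑ i, aeval (χ z) (p i) * χ (b i) :=
  ⟨exists_repr_of_mem hχ hc, fun ⟨p, hp⟩ => hp ▸ repr_mem_chartRing z b p⟩

/-- `χ` with values in the chart ring. -/
def chiR (κ : Type*) {B E : Type*} [CommRing B] [Field κ] [Field E] [Algebra κ E]
    (χ : B →+* E) : B →+* chartRing κ χ :=
  χ.codRestrict (chartRing κ χ) fun u => map_mem_chartRing u

theorem coe_chiR (u : B) : ((chiR κ χ u : chartRing κ χ) : E) = χ u := rfl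

theorem coe_repr (z : B) (b : Fin n → B) (p : Fin n → κ[X]) :
    ((∑ i, aeval (chiR κ χ z) (p i) * chiR κ χ (b i) : chartRing κ χ) : E) =
      ∑ i, aeval (χ z) (p i) * χ (b i) := by
  rw [AddSubmonoidClass.coe_finsetSum]
  refine Finset.sum_congr rfl fun i _ => ?_
  rw [MulMemClass.coe_mul]
  congr 1
  exact (aeval_algHom_apply (chartRing κ χ).val (chiR κ χ z) (p i)).symm

theorem chiR_algebraMap (hχ : ∀ a, χ (algebraMap Λ B a) = algebraMap κ E (φ a)) (a : Λ) :
    chiR κ χ (algebraMap Λ B a) = algebraMap κ (chartRing κ χ) (φ a) :=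
  Subtype.ext (hχ a)

theorem free_chartRing (hχ : ∀ a, χ (algebraMap Λ B a) = algebraMap κ E (φ a))
    (hc : ChartCert Λ B z b)
    (hindep : ∀ p : Fin n → κ[X], ∑ i, aeval (χ z) (p i) * χ (b i) = 0 → p = 0)
    (f : chartRing κ χ) :
    ∃! p : Fin n → κ[X], f = ∑ i, aeval (chiR κ χ z) (p i) * chiR κ χ (b i) := by
  obtain ⟨p, hp⟩ := exists_repr_of_mem hχ hc f.2
  refine ⟨p, Subtype.ext (by rw [coe_repr]; exact hp), fun q hq => ?_⟩
  have hq' : (f : E) = ∑ i, aeval (χ z) (q i) * χ (b i) := by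
    rw [← coe_repr, ← hq]
  have hd : ∑ i, aeval (χ z) ((q - p) i) * χ (b i) = 0 := by
    simp only [Pi.sub_apply, map_sub, sub_mul, Finset.sum_sub_distrib]
    rw [← hq', ← hp, sub_self]
  exact sub_eq_zero.1 (hindep _ hd)

/-- The certificate of the chart ring. -/
theorem chartCert_chartRing (hχ : ∀ a, χ (algebraMap Λ B a) = algebraMap κ E (φ a))
    (hc : ChartCert Λ B z b)
    (hindep : ∀ p : Fin n → κ[X], ∑ i, aeval (χ z) (p i) * χ (b i) = 0 → p = 0) :
    ChartCert κ (chartRing κ χ) (chiR κ χ z) (fun i => chiR κ χ (b i)) :=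
  ChartCert.map φ (chiR κ χ) (chiR_algebraMap hχ) hc (free_chartRing hχ hc hindep)

/-- The chart ring has fraction field `E`. -/
theorem isFractionRing_chartRing (hZ : Transcendental κ (χ z))
    (hspan : ∀ y : E, ∃ (p : Fin n → κ[X]) (s : κ[X]), s ≠ 0 ∧
      aeval (χ z) s * y = ∑ i, aeval (χ z) (p i) * χ (b i)) :
    IsFractionRing (chartRing κ χ) E := by
  refine IsFractionRing.of_field (chartRing κ χ) E fun y => ?_
  obtain ⟨p, s, hs, e⟩ := hspan y
  refine ⟨⟨_, repr_mem_chartRing z b p⟩, ⟨_, aeval_mem_chartRing z s⟩, ?_⟩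
  show y = (∑ i, aeval (χ z) (p i) * χ (b i)) / aeval (χ z) s
  rw [← e, mul_div_cancel_left₀ _ (aeval_ne_zero hZ hs)]

/-- The elements of the chart ring are integral over `κ[Z]`. -/
theorem isIntegral_of_mem_chartRing (hχ : ∀ a, χ (algebraMap Λ B a) = algebraMap κ E (φ a))
    (hc : ChartCert Λ B z b) {f : E} (hf : f ∈ chartRing κ χ) :
    IsIntegral (Algebra.adjoin κ ({χ z} : Set E)) f := by
  let N : Submodule (Algebra.adjoin κ ({χ z} : Set E)) E :=
    Submodule.span (Algebra.adjoin κ ({χ z} : Set E)) (Set.range fun i => χ (b i))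
  have hN : ∀ y : E, y ∈ N ↔ y ∈ chartRing κ χ := by
    intro y
    constructor
    · intro hy
      induction hy using Submodule.span_induction with
      | mem x hx =>
        obtain ⟨i, rfl⟩ := hx
        exact map_mem_chartRing (b i)
      | zero => exact zero_mem _
      | add x y _ _ hx hy => exact add_mem hx hy
      | smul a x _ hx => exact mul_mem (adjoin_le_chartRing z a.2) hx
    · intro hy
      obtain ⟨p, rfl⟩ := exists_repr_of_mem hχ hc hy
      refine Submodule.sum_mem _ fun i _ => ?_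
      have h1 : aeval (χ z) (p i) * χ (b i) =
          (⟨aeval (χ z) (p i), Polynomial.aeval_mem_adjoin_singleton κ _⟩ :
            Algebra.adjoin κ ({χ z} : Set E)) • χ (b i) := rfl
      rw [h1]
      exact Submodule.smul_mem _ _ (Submodule.subset_span ⟨i, rfl⟩)
  refine isIntegral_of_smul_mem_submodule N ?_ (Submodule.fg_span (Set.finite_range _)) f ?_
  · intro h
    have h1 : (1 : E) ∈ N := (hN 1).2 (one_mem _)
    rw [h] at h1
    exact one_ne_zero ((Submodule.mem_bot _).1 h1)
  · intro y hy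
    exact (hN _).2 (mul_mem hf ((hN y).1 hy))

/-- The chart description: the functions regular wherever `Z` is regular are exactly the
`κ[Z]`-combinations of the `χ (b i)` (normality of the chart ring, from the certificate). -/
theorem chart_iff (hχ : ∀ a, χ (algebraMap Λ B a) = algebraMap κ E (φ a))
    (hc : ChartCert Λ B z b) (hZ : Transcendental κ (χ z))
    (hindep : ∀ p : Fin n → κ[X], ∑ i, aeval (χ z) (p i) * χ (b i) = 0 → p = 0)
    (hspan : ∀ y : E, ∃ (p : Fin n → κ[X]) (s : κ[X]), s ≠ 0 ∧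
      aeval (χ z) s * y = ∑ i, aeval (χ z) (p i) * χ (b i))
    [FiniteDimensional κ⟮χ z⟯ E] (f : E) :
    (∀ v : Place κ E, 0 ≤ v.ord (χ z) → 0 ≤ v.ord f) ↔
      ∃ p : Fin n → κ[X], f = ∑ i, aeval (χ z) (p i) * χ (b i) := by
  rw [← Fermat.Agent.Lib.FF.Holo.isIntegral_adjoin_iff (χ z) f, ← mem_chartRing_iff hχ hc f]
  constructor
  · intro hf
    haveI : IsIntegrallyClosed (chartRing κ χ) :=
      isIntegrallyClosed_of_chartCert _ _ (chartCert_chartRing hχ hc hindep)
    haveI : IsFractionRing (chartRing κ χ) E := isFractionRing_chartRing hZ hspan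
    have hf' : IsIntegral (chartRing κ χ) f := by
      obtain ⟨P, hPm, hP⟩ := hf
      refine ⟨P.map (Subalgebra.inclusion (adjoin_le_chartRing z)).toRingHom, hPm.map _, ?_⟩
      rw [Polynomial.eval₂_map]
      exact hP
    obtain ⟨y, hy⟩ := IsIntegrallyClosed.isIntegral_iff.1 hf'
    rw [← hy]
    exact y.2
  · exact isIntegral_of_mem_chartRing hχ hc

end Chart

/-! ### Change of chart `Z ↦ Z' = 1/Z` -/

section Inv

variable {κ E : Type*} [Field κ] [Field E] [Algebra κ E]

/-- The spanning condition passes to the chart at infinity along a transition matrix. -/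
theorem span_inv {Z Z' : E} (hZZ' : Z * Z' = 1) (hZ : Transcendental κ Z) {n : ℕ}
    (β β' : Fin n → E) (e : ℕ) (T' : Fin n → Fin n → κ[X])
    (hT' : ∀ j, Z' ^ e * β j = ∑ i, aeval Z' (T' j i) * β' i)
    (hspan : ∀ y : E, ∃ (p : Fin n → κ[X]) (s : κ[X]), s ≠ 0 ∧
      aeval Z s * y = ∑ i, aeval Z (p i) * β i) (y : E) :
    ∃ (p : Fin n → κ[X]) (s : κ[X]), s ≠ 0 ∧ aeval Z' s * y = ∑ i, aeval Z' (p i) * β' i := by
  obtain ⟨p, s, hs, e₁⟩ := hspan y
  have hdeg : ∀ j, (p j).natDegree ≤ s.natDegree + ∑ j, (p j).natDegree := fun j =>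
    le_trans (Finset.single_le_sum (f := fun j => (p j).natDegree) (fun _ _ => Nat.zero_le _)
      (Finset.mem_univ j)) (Nat.le_add_left _ _)
  obtain ⟨S, hS⟩ := exists_aeval_inv_eq hZZ' s (s.natDegree + ∑ j, (p j).natDegree)
    (Nat.le_add_right _ _)
  choose P hP using fun j =>
    exists_aeval_inv_eq hZZ' (p j) (s.natDegree + ∑ j, (p j).natDegree) (hdeg j)
  have hZ'0 : Z' ≠ 0 := right_ne_zero_of_mul_eq_one hZZ'
  refine ⟨fun i => ∑ j, P j * T' j i, X ^ e * S, ?_, ?_⟩
  · intro h0
    have h1 : aeval Z' (X ^ e * S) = 0 := by rw [h0, map_zero]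
    rw [map_mul, map_pow, aeval_X, ← hS] at h1
    exact mul_ne_zero (pow_ne_zero _ hZ'0)
      (mul_ne_zero (pow_ne_zero _ hZ'0) (aeval_ne_zero hZ hs)) h1
  · calc aeval Z' (X ^ e * S) * y
        = Z' ^ e * (Z' ^ (s.natDegree + ∑ j, (p j).natDegree) * (aeval Z s * y)) := by
          rw [map_mul, map_pow, aeval_X, ← hS]
          ring
      _ = Z' ^ e * (Z' ^ (s.natDegree + ∑ j, (p j).natDegree) * ∑ j, aeval Z (p j) * β j) := by
          rw [e₁]
      _ = ∑ j, aeval Z' (P j) * (Z' ^ e * β j) := by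
          rw [Finset.mul_sum, Finset.mul_sum]
          refine Finset.sum_congr rfl fun j _ => ?_
          rw [← hP j]
          ring
      _ = ∑ j, ∑ i, aeval Z' (P j * T' j i) * β' i := by
          refine Finset.sum_congr rfl fun j _ => ?_
          rw [hT' j, Finset.mul_sum]
          exact Finset.sum_congr rfl fun i _ => by rw [map_mul]; ring
      _ = ∑ i, aeval Z' (∑ j, P j * T' j i) * β' i := by
          rw [Finset.sum_comm]
          refine Finset.sum_congr rfl fun i _ => ?_
          rw [map_sum, Finset.sum_mul]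

/-- Independence of a spanning family of the right cardinality. -/
theorem indep_of_span {Z' : E} (hZ' : Transcendental κ Z') {n : ℕ} (β' : Fin n → E)
    (hfr : Module.finrank κ⟮Z'⟯ E = n)
    (hspan' : ∀ y : E, ∃ (p : Fin n → κ[X]) (s : κ[X]), s ≠ 0 ∧
      aeval Z' s * y = ∑ i, aeval Z' (p i) * β' i)
    (p : Fin n → κ[X]) (hp : ∑ i, aeval Z' (p i) * β' i = 0) : p = 0 := by
  have htop : ⊤ ≤ Submodule.span κ⟮Z'⟯ (Set.range β') := top_le_span_of_poly β' fun y => by
    obtain ⟨p, s, hs, e⟩ := hspan' y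
    exact ⟨p, s, aeval_ne_zero hZ' hs, e⟩
  have hli : LinearIndependent κ⟮Z'⟯ β' :=
    linearIndependent_of_top_le_span_of_card_eq_finrank htop (by rw [Fintype.card_fin, hfr])
  exact poly_indep_of_linearIndependent κ⟮Z'⟯ hZ' (aeval_mem_adjoin Z') β' hli p hp

end Inv

/-! ### The two charts of a realisation -/

section RealSec

variable {Λ U : Type*} [CommRing Λ] [CommRing U] [Algebra Λ U] {n : ℕ} {M : Model Λ U n}
  {κ E : Type*} [Field κ] [Field E] [Algebra κ E] {φ : Λ →+* κ} {ψ : U →+* E}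

/-- The restriction of `ψ` to the chart ring `M.B`. -/
def chi (M : Model Λ U n) (ψ : U →+* E) : M.B →+* E := ψ.comp M.B.val.toRingHom

/-- The restriction of `ψ` to the chart ring `M.B'`. -/
def chi' (M : Model Λ U n) (ψ : U →+* E) : M.B' →+* E := ψ.comp M.B'.val.toRingHom

theorem chi_algebraMap (h : Real M κ E φ ψ) (a : Λ) :
    chi M ψ (algebraMap Λ M.B a) = algebraMap κ E (φ a) := h.compat a

theorem chi'_algebraMap (h : Real M κ E φ ψ) (a : Λ) :
    chi' M ψ (algebraMap Λ M.B' a) = algebraMap κ E (φ a) := h.compat a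

theorem map_x_mul (M : Model Λ U n) (ψ : U →+* E) : ψ M.x * ψ M.x' = 1 := by
  rw [← map_mul, M.hxx', map_one]

theorem map_x' (M : Model Λ U n) (ψ : U →+* E) : ψ M.x' = (ψ M.x)⁻¹ :=
  eq_inv_of_mul_eq_one_right (map_x_mul M ψ)

/-- The coordinate at infinity is transcendental. -/
theorem trans' (h : Real M κ E φ ψ) : Transcendental κ (ψ M.x') := by
  rw [map_x' M ψ]
  intro halg
  exact h.trans (by simpa using halg.inv)

/-- The basis of the chart at infinity spans, in polynomial form. -/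
theorem span' (h : Real M κ E φ ψ) (y : E) :
    ∃ (p : Fin n → κ[X]) (s : κ[X]), s ≠ 0 ∧
      aeval (ψ M.x') s * y = ∑ i, aeval (ψ M.x') (p i) * ψ (M.b' i : U) := by
  obtain ⟨e, T, T', hT, hT'⟩ := M.exists_transition
  refine span_inv (map_x_mul M ψ) h.trans (fun j => ψ (M.b j : U)) (fun i => ψ (M.b' i : U)) e
    (fun j i => (T' j i).map φ) (fun j => ?_) h.span y
  have e1 := congrArg ψ (hT' j)
  rw [map_mul, map_pow, map_sum] at e1
  rw [e1]
  refine Finset.sum_congr rfl fun i _ => ?_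
  rw [map_mul, map_aeval_eq φ ψ h.compat]

/-- The basis of the chart at infinity is independent, in polynomial form. -/
theorem indep_inf (h : Real M κ E φ ψ) (p : Fin n → κ[X])
    (hp : ∑ i, aeval (ψ M.x') (p i) * ψ (M.b' i : U) = 0) : p = 0 := by
  refine indep_of_span (trans' h) (fun i => ψ (M.b' i : U)) ?_ (span' h) p hp
  rw [map_x' M ψ, Fermat.Agent.S24.Transfer.finrank_of_eq
    (Fermat.Agent.S24.Transfer.adjoin_inv (ψ M.x))]
  exact RealB.finrank_eq h

end RealSec

end RealAux

/-! ### The literals of row GR-RL -/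

section Literals

variable {Λ U : Type*} [CommRing Λ] [CommRing U] [Algebra Λ U] {n : ℕ} {M : Model Λ U n}
  {κ E : Type*} [Field κ] [Field E] [Algebra κ E] {φ : Λ →+* κ} {ψ : U →+* E}

/-- **GR-RL**: `E` is finite over `κ(X)`. -/
theorem Real.finiteDimensional (h : Real M κ E φ ψ) : FiniteDimensional κ⟮ψ M.x⟯ E :=
  RealB.finiteDimensional h

/-- **GR-RL**: a realisation over an algebraically closed field is a function field of one
variable. -/
theorem Real.isFF1 [IsAlgClosed κ] (h : Real M κ E φ ψ) :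
    Fermat.Agent.Lib.FF.IsFF1 κ E (ψ M.x) :=
  RealB.isFF1 h

/-- **GR-RL**: `E` is separable over `κ(X)`. -/
theorem Real.isSeparable (h : Real M κ E φ ψ) : Algebra.IsSeparable κ⟮ψ M.x⟯ E :=
  RealB.isSeparable h

/-- **GR-RL**: the functions regular on the chart `X ≠ ∞` are the `κ[X]`-combinations of the
`ψ (b j)`. -/
theorem Real.chart (h : Real M κ E φ ψ) :
    ∀ f : E, (∀ v : Place κ E, 0 ≤ v.ord (ψ M.x) → 0 ≤ v.ord f) ↔
      ∃ p : Fin n → κ[X], f = ∑ j, aeval (ψ M.x) (p j) * ψ (M.b j : U) := by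
  intro f
  haveI : FiniteDimensional κ⟮RealAux.chi M ψ ⟨M.x, M.hx⟩⟯ E := RealB.finiteDimensional h
  exact RealAux.chart_iff (χ := RealAux.chi M ψ) (z := ⟨M.x, M.hx⟩) (b := M.b)
    (RealAux.chi_algebraMap h) M.cert h.trans h.indep h.span f

/-- **GR-RL**: the functions regular on the chart `X ≠ 0` are the `κ[X⁻¹]`-combinations of the
`ψ (b' j)`. -/
theorem Real.chart' (h : Real M κ E φ ψ) :
    ∀ f : E, (∀ v : Place κ E, v.ord (ψ M.x) ≤ 0 → 0 ≤ v.ord f) ↔
      ∃ p : Fin n → κ[X], f = ∑ j, aeval (ψ M.x)⁻¹ (p j) * ψ (M.b' j : U) := by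
  intro f
  have hX' : ψ M.x' = (ψ M.x)⁻¹ := RealAux.map_x' M ψ
  haveI := RealB.finiteDimensional h
  haveI hfd : FiniteDimensional κ⟮(ψ M.x)⁻¹⟯ E :=
    Fermat.Agent.S24.Transfer.finiteDimensional_inv (ψ M.x)
  haveI : FiniteDimensional κ⟮RealAux.chi' M ψ ⟨M.x', M.hx'⟩⟯ E := by
    show FiniteDimensional κ⟮ψ M.x'⟯ E
    rw [hX']
    exact hfd
  have key : (∀ v : Place κ E, 0 ≤ v.ord (ψ M.x') → 0 ≤ v.ord f) ↔
      ∃ p : Fin n → κ[X], f = ∑ j, aeval (ψ M.x') (p j) * ψ (M.b' j : U) :=
    RealAux.chart_iff (χ := RealAux.chi' M ψ) (z := ⟨M.x', M.hx'⟩) (b := M.b')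
      (RealAux.chi'_algebraMap h) M.cert' (RealAux.trans' h) (RealAux.indep_inf h)
      (RealAux.span' h) f
  rw [hX'] at key
  rw [← key]
  refine forall_congr' fun v => ?_
  rw [v.ord_inv]
  constructor <;> intro hv hx <;> exact hv (by omega)

/-- **GR-RL**: `X` is regular and unramified outside a finite set of places. -/
theorem Real.exists_bad_set [IsAlgClosed κ] (h : Real M κ E φ ψ) :
    ∃ S₀ : Finset (Place κ E), ∀ Q ∉ S₀, 0 ≤ Q.ord (ψ M.x) ∧
      ∀ γ : κ, 0 < Q.ord (ψ M.x - algebraMap κ E γ) →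
        Q.ord (ψ M.x - algebraMap κ E γ) = 1 :=
  RealB.exists_bad_set h

end Literals

end Fermat.Agent.S27P.GR
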