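import Mathlib
import Fermat.Agent.S27P.GR.Defs
import Fermat.Agent.Lib.FF.IntP

/-!
# S27 / (GR-E2a): the local certificates exist over an algebraically closed field

`C := integralClosure K[z] F` (a Dedekind domain, `Lib/FF/IntP`), `z` transcendental, `F` finite
over `K(z)`, `K` algebraically closed (any characteristic).  At every `a : K` the chart ring `C`
carries a `LocalCertN K C z a m`, with `m` the number of zeros of `z - a`; `m = 1` for a single
zero, in particular at `z = 0` for `z = x⁻¹` when `x` has a single pole.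

* `ExistLocal.localCertN_of_dedekind` : the Dedekind-domain core (Mathlib + `GR/Defs` only);
* `exists_localCertN`, `localCertN_one_of_single_zero`, `localCertN_inv_of_single_pole`.
-/

set_option autoImplicit false

noncomputable section

namespace Fermat.Agent.S27P.GR

open IsDedekindDomain AlgebraicCurve IntermediateField

namespace ExistLocal

/-- The Dedekind-domain core: a local certificate at `z = a` from the finite set `S` of the primes
containing `z - a`, all with residue field `k`.  Uniformisers `τ P ∈ P \ P²`, congruent to `1`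
modulo the other primes of `S`; `(τ P) = P * Q` with `Q ⊄ P` gives the cofactor `v P ∈ Q \ P`. -/
theorem localCertN_of_dedekind {k R : Type*} [Field k] [CommRing R] [IsDedekindDomain R]
    [Algebra k R] (z : R) (a : k)
    (hres : ∀ (P : HeightOneSpectrum R) (s : R), ∃ c : k, s - algebraMap k R c ∈ P.asIdeal)
    (S : Finset (HeightOneSpectrum R))
    (hS : ∀ P : HeightOneSpectrum R, P ∈ S ↔ z - algebraMap k R a ∈ P.asIdeal)
    (hza : z - algebraMap k R a ≠ 0) :
    LocalCertN k R z a S.card := by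
  classical
  set d : R := z - algebraMap k R a with hd
  -- (1) elements of `P \ P²`
  have hπ : ∀ P : HeightOneSpectrum R, ∃ π : R, π ∈ P.asIdeal ∧ π ∉ P.asIdeal ^ 2 := by
    intro P
    obtain ⟨π, h1, h2⟩ := P.asIdeal.exists_mem_pow_notMem_pow_succ P.ne_bot P.isPrime.ne_top 1
    exact ⟨π, by simpa using h1, h2⟩
  choose π hπ1 hπ2 using hπ
  -- (2) CRT
  have hτ : ∀ P : HeightOneSpectrum R, ∃ τ : R, τ - π P ∈ P.asIdeal ^ 2 ∧
      ∀ Q ∈ S, Q ≠ P → τ - 1 ∈ Q.asIdeal := by
    intro P
    obtain ⟨y, hy⟩ := IsDedekindDomain.exists_forall_sub_mem_ideal (s := insert P S)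
      (fun Q : HeightOneSpectrum R => Q.asIdeal) (fun Q => if Q = P then 2 else 1)
      (fun Q _ => Q.prime) (fun Q _ Q' _ hne h => hne (HeightOneSpectrum.ext h))
      (fun Q => if (Q : HeightOneSpectrum R) = P then π P else 1)
    refine ⟨y, ?_, fun Q hQ hne => ?_⟩
    · have := hy P (Finset.mem_insert_self _ _)
      simpa using this
    · have := hy Q (Finset.mem_insert_of_mem hQ)
      simpa [hne] using this
  choose τ hτ1 hτ2 using hτ
  have hP2le : ∀ P : HeightOneSpectrum R, P.asIdeal ^ 2 ≤ P.asIdeal := fun P =>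
    Ideal.pow_le_self (by norm_num)
  have hτP : ∀ P : HeightOneSpectrum R, τ P ∈ P.asIdeal := by
    intro P
    have h := P.asIdeal.add_mem (hP2le P (hτ1 P)) (hπ1 P)
    simpa using h
  have hτP2 : ∀ P : HeightOneSpectrum R, τ P ∉ P.asIdeal ^ 2 := by
    intro P h
    apply hπ2 P
    have h' := (P.asIdeal ^ 2).sub_mem h (hτ1 P)
    simpa using h'
  -- (3) `(τ P, d) = P`
  have hspan : ∀ P ∈ S, Ideal.span {τ P, d} = P.asIdeal := by
    intro P hP
    have hdP : d ∈ P.asIdeal := (hS P).1 hP
    have hle : Ideal.span {τ P, d} ≤ P.asIdeal := by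
      rw [Ideal.span_le]
      intro x hx
      rcases hx with rfl | rfl
      exacts [hτP P, hdP]
    obtain ⟨Q, hQ⟩ := Ideal.dvd_iff_le.2 hle
    by_cases hQtop : Q = ⊤
    · rw [hQ, hQtop, Ideal.mul_top]
    · exfalso
      obtain ⟨M, hM, hQM⟩ := Ideal.exists_le_maximal Q hQtop
      have hIM : Ideal.span {τ P, d} ≤ M := by
        rw [hQ]
        exact Ideal.mul_le_right.trans hQM
      have hdM : d ∈ M := hIM (Ideal.subset_span (by simp))
      have hτM : τ P ∈ M := hIM (Ideal.subset_span (by simp))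
      have hMbot : M ≠ ⊥ := fun h => hza (by rw [h] at hdM; simpa using hdM)
      have hM'S : (⟨M, hM.isPrime, hMbot⟩ : HeightOneSpectrum R) ∈ S := (hS _).2 hdM
      by_cases hMP : (⟨M, hM.isPrime, hMbot⟩ : HeightOneSpectrum R) = P
      · have hMP' : M = P.asIdeal := congrArg HeightOneSpectrum.asIdeal hMP
        have h2 : Ideal.span {τ P, d} ≤ P.asIdeal ^ 2 := by
          rw [hQ, pow_two]
          exact Ideal.mul_mono_right (hMP' ▸ hQM)
        exact hτP2 P (h2 (Ideal.subset_span (by simp)))
      · have h1 : τ P - 1 ∈ M := hτ2 P _ hM'S hMP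
        have h3 : (1 : R) ∈ M := by
          have := M.sub_mem hτM h1
          simpa using this
        exact hM.ne_top ((Ideal.eq_top_iff_one _).2 h3)
  -- (4) the cofactor `v P ∉ P` with `v P * d ∈ (τ P)`
  have hv : ∀ P ∈ S, ∃ v u : R, v ∉ P.asIdeal ∧ v * d = u * τ P := by
    intro P hP
    have hdP : d ∈ P.asIdeal := (hS P).1 hP
    have hle : Ideal.span {τ P} ≤ P.asIdeal := by
      rw [Ideal.span_le]
      intro x hx
      rw [Set.mem_singleton_iff] at hx
      subst hx
      exact hτP P
    obtain ⟨Q, hQ⟩ := Ideal.dvd_iff_le.2 hle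
    have hQP : ¬ Q ≤ P.asIdeal := by
      intro h
      apply hτP2 P
      have h2 : Ideal.span {τ P} ≤ P.asIdeal ^ 2 := by
        rw [hQ, pow_two]
        exact Ideal.mul_mono_right h
      exact h2 (Ideal.subset_span rfl)
    obtain ⟨v, hvQ, hvP⟩ := SetLike.not_le_iff_exists.1 hQP
    have hmem : v * d ∈ Ideal.span {τ P} := by
      rw [hQ, mul_comm v d]
      exact Ideal.mul_mem_mul hdP hvQ
    obtain ⟨u, hu⟩ := Ideal.mem_span_singleton'.1 hmem
    exact ⟨v, u, hvP, hu.symm⟩
  -- (7) the product of the `τ P` lies in the radical of `(d)`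
  have hrad : ∏ P ∈ S, τ P ∈ (Ideal.span {d}).radical := by
    rw [Ideal.radical_eq_sInf, Ideal.mem_sInf]
    rintro J ⟨hJ, hJp⟩
    have hdJ : d ∈ J := hJ (Ideal.subset_span rfl)
    have hJbot : J ≠ ⊥ := fun h => hza (by rw [h] at hdJ; simpa using hdJ)
    have hJS : (⟨J, hJp, hJbot⟩ : HeightOneSpectrum R) ∈ S := (hS _).2 hdJ
    have hdvd : τ (⟨J, hJp, hJbot⟩ : HeightOneSpectrum R) ∣ ∏ P ∈ S, τ P :=
      Finset.dvd_prod_of_mem τ hJS
    exact Ideal.mem_of_dvd J hdvd (hτP ⟨J, hJp, hJbot⟩)
  obtain ⟨N, hN⟩ := hrad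
  obtain ⟨w, hw⟩ := Ideal.mem_span_singleton'.1 hN
  -- choices
  have hv' : ∀ P : S, ∃ v u : R, v ∉ P.1.asIdeal ∧ v * d = u * τ P.1 := fun P => hv P.1 P.2
  choose v u hvP hvu using hv'
  have hc : ∀ P : S, ∃ c : kˣ, v P - algebraMap k R (c : k) ∈ P.1.asIdeal := by
    intro P
    obtain ⟨c, hc⟩ := hres P.1 (v P)
    have hc0 : c ≠ 0 := by
      rintro rfl
      apply hvP P
      simpa using hc
    exact ⟨Units.mk0 c hc0, hc⟩
  choose c hc using hc
  let e : Fin S.card ≃ S := S.equivFin.symm
  refine ⟨fun j => τ (e j).1, fun j => v (e j), fun j => u (e j), fun j => c (e j), N, w,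
    fun j => hvu (e j), fun j => ?_, fun j f => ?_, ?_⟩
  · have h := hc (e j)
    rw [← hspan (e j).1 (e j).2, Ideal.mem_span_pair] at h
    obtain ⟨r, s, hrs⟩ := h
    exact ⟨r, s, by rw [← hrs]; ring⟩
  · obtain ⟨κ, hκ⟩ := hres (e j).1 f
    rw [← hspan (e j).1 (e j).2, Ideal.mem_span_pair] at hκ
    obtain ⟨r, s, hrs⟩ := hκ
    exact ⟨κ, r, s, by rw [← hrs]; ring⟩
  · have hprod : ∏ j, τ (e j).1 = ∏ P ∈ S, τ P := by
      rw [Equiv.prod_comp e (fun P : S => τ P.1)]
      exact Finset.prod_coe_sort S τ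
    rw [hprod, ← hw]
    ring

variable {K F : Type*} [Field K] [Field F] [Algebra K F]

open Fermat.Agent.Lib.FF.IntP in
/-- `z - a ≠ 0` in the integral closure of `K[z]`, for transcendental `z`. -/
theorem xInt_sub_ne_zero (z : F) (hz : Transcendental K z) (a : K) :
    xInt K z - algebraMap K (integralClosure (Algebra.adjoin K {z}) F) a ≠ 0 := by
  intro h
  have h' : z - algebraMap K F a = 0 :=
    congrArg (fun c : integralClosure (Algebra.adjoin K {z}) F => (c : F)) h
  rw [sub_eq_zero] at h'
  exact hz (h' ▸ isAlgebraic_algebraMap a)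

end ExistLocal

variable {K F : Type*} [Field K] [Field F] [Algebra K F]

open Fermat.Agent.Lib.FF.IntP in
/-- **(GR-E2a)** At every `a : K` the integral closure `C` of `K[z]` in `F` has a local
certificate (with as many uniformisers as `z - a` has zeros). -/
theorem exists_localCertN [IsAlgClosed K]
    (z : F) (hz : Transcendental K z) [FiniteDimensional K⟮z⟯ F] (a : K) :
    ∃ m : ℕ, LocalCertN K (integralClosure (Algebra.adjoin K {z}) F) (xInt K z) a m := by
  classical
  have := isDedekindDomain z hz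
  have hza := ExistLocal.xInt_sub_ne_zero z hz a
  have hI : Ideal.span {xInt K z - algebraMap K (integralClosure (Algebra.adjoin K {z}) F) a}
      ≠ 0 := by
    rw [Ne, Ideal.zero_eq_bot, Ideal.span_singleton_eq_bot]
    exact hza
  have hfin := Ideal.finite_factors hI
  refine ⟨hfin.toFinset.card, ExistLocal.localCertN_of_dedekind (xInt K z) a
    (fun P s => exists_sub_mem z hz P s) hfin.toFinset (fun P => ?_) hza⟩
  rw [Set.Finite.mem_toFinset]
  show P.asIdeal ∣ _ ↔ _
  rw [Ideal.dvd_iff_le, Ideal.span_singleton_le_iff_mem]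

open Fermat.Agent.Lib.FF.IntP Fermat.Agent.S24 in
/-- **(GR-E2a), single zero**: if `z - a` has exactly one zero `P₀`, one uniformiser suffices. -/
theorem localCertN_one_of_single_zero [IsAlgClosed K]
    (z : F) (hz : Transcendental K z) [FiniteDimensional K⟮z⟯ F] (a : K)
    (P₀ : Place K F) (h₀ : 0 < P₀.ord (z - algebraMap K F a))
    (huniq : ∀ P : Place K F, 0 < P.ord (z - algebraMap K F a) → P = P₀) :
    LocalCertN K (integralClosure (Algebra.adjoin K {z}) F) (xInt K z) a 1 := by
  classical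
  have := isDedekindDomain z hz
  have hza := ExistLocal.xInt_sub_ne_zero z hz a
  obtain ⟨Q₀, hQ₀mem, hQ₀⟩ := (bijOn_placeOf z hz a).surjOn (mem_placesOver.2 h₀)
  have hS : ∀ P : HeightOneSpectrum (integralClosure (Algebra.adjoin K {z}) F),
      P ∈ ({Q₀} : Finset _) ↔
        xInt K z - algebraMap K (integralClosure (Algebra.adjoin K {z}) F) a ∈ P.asIdeal := by
    intro P
    rw [Finset.mem_singleton]
    constructor
    · rintro rfl
      exact hQ₀mem
    · intro hP
      apply placeOf_injective z hz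
      rw [hQ₀]
      exact huniq _ (mem_placesOver.1 ((sub_mem_iff z hz P a).1 hP))
  have h := ExistLocal.localCertN_of_dedekind (xInt K z) a
    (fun P s => exists_sub_mem z hz P s) {Q₀} hS hza
  simpa using h

open Fermat.Agent.Lib.FF.IntP in
/-- **(GR-E2a), the chart at infinity**: if `x` has the single pole `P₀` (the output of
`exists_single_pole`), then `z := x⁻¹` has the single zero `P₀`, whence a local certificate with
ONE uniformiser at `z = 0` (the shape of `Model.cert_inf`). -/
theorem localCertN_inv_of_single_pole [IsAlgClosed K]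
    (x : F) (hx : Transcendental K x⁻¹) [FiniteDimensional K⟮x⁻¹⟯ F]
    (P₀ : Place K F) (h₀ : P₀.ord x < 0) (huniq : ∀ P : Place K F, P ≠ P₀ → 0 ≤ P.ord x) :
    LocalCertN K (integralClosure (Algebra.adjoin K {x⁻¹}) F) (xInt K x⁻¹) 0 1 := by
  refine localCertN_one_of_single_zero x⁻¹ hx 0 P₀ ?_ ?_
  · rw [map_zero, sub_zero, Place.ord_inv]
    omega
  · intro P hP
    rw [map_zero, sub_zero, Place.ord_inv] at hP
    by_contra hne
    have := huniq P hne
    omega

end Fermat.Agent.S27P.GR
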