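import Mathlib
import Fermat.Agent.Lib.FF.IntP
import Fermat.Agent.S27P.GR.Defs
import Fermat.Agent.S27P.GR.ExistLocal

/-!
# S27 / (GR-E2b), twin: the trace-dual chart certificate over the base field

* `chartCert_of_basis` : abstract core (Mathlib + `GR/Defs` only).  `R` free of finite rank over
  `A ≃ k[X]`, with a basis `b` whose trace matrix has nonzero determinant, `k` algebraically
  closed, and a local certificate at every point: then `ChartCert k R z b`.
* `chartCert_of_localCert`, `exists_chartCert` : the instance at the integral closure of `K[z]`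
  in a function field `F/K`.
-/

set_option autoImplicit false

noncomputable section

namespace Fermat.Agent.S27P.GR.ExistChartB

open Polynomial

section Core

variable {k : Type*} [Field k] {A R : Type*} [CommRing A] [CommRing R]
  [Algebra k A] [Algebra k R] [Algebra A R] [IsScalarTower k A R]

/-- `aeval z` factors through `e : k[X] ≃ A` when `z` is the image of `e X`. -/
theorem aeval_eq_algebraMap (e : k[X] ≃ₐ[k] A) (z : R) (hz : z = algebraMap A R (e X))
    (p : k[X]) : aeval z p = algebraMap A R (e p) := by
  have h : (aeval z : k[X] →ₐ[k] R) = (IsScalarTower.toAlgHom k A R).comp e.toAlgHom := by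
    apply Polynomial.algHom_ext
    simp [hz]
  rw [h]
  rfl

/-- Freeness in the `ChartCert` form from a basis over `A ≃ k[X]`. -/
theorem free_of_basis (e : k[X] ≃ₐ[k] A) {n : ℕ} (b : Module.Basis (Fin n) A R) (z : R)
    (hz : z = algebraMap A R (e X)) (f : R) :
    ∃! p : Fin n → k[X], f = ∑ i, aeval z (p i) * b i := by
  refine ⟨fun i => e.symm (b.repr f i), ?_, ?_⟩
  · simp only [aeval_eq_algebraMap e z hz, AlgEquiv.apply_symm_apply]
    conv_lhs => rw [← b.sum_repr f]
    simp [Algebra.smul_def]
  · intro q hq
    funext i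
    have h2 : f = ∑ j, e (q j) • b j := by
      rw [hq]
      simp [aeval_eq_algebraMap e z hz, Algebra.smul_def]
    have h3 : b.repr f i = e (q i) := by
      rw [h2]
      simp [Finsupp.single_apply]
    rw [h3, AlgEquiv.symm_apply_apply]

/-- A nonzero polynomial over an algebraically closed field is `C l * ∏ (X - C (a q))`. -/
theorem exists_split [IsAlgClosed k] (d : k[X]) (hd : d ≠ 0) :
    ∃ (m : ℕ) (a : Fin m → k) (l : kˣ), d = C (l : k) * ∏ q, (X - C (a q)) := by
  have hsplit := IsAlgClosed.splits d
  have h1 : d = C d.leadingCoeff * (d.roots.map (fun a => X - C a)).prod :=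
    (Polynomial.Splits.eq_prod_roots hsplit)
  refine ⟨d.roots.toList.length, fun q => d.roots.toList.get q,
    Units.mk0 d.leadingCoeff (leadingCoeff_ne_zero.2 hd), ?_⟩
  have h2 : (∏ q : Fin d.roots.toList.length, (X - C (d.roots.toList.get q)) : k[X]) =
      (d.roots.map (fun a => X - C a)).prod := by
    have h3 : (d.roots.map (fun a => X - C a)).prod =
        ((d.roots.toList.map (fun a => X - C a) : List k[X])).prod := by
      conv_lhs => rw [← Multiset.coe_toList d.roots]
      rw [Multiset.map_coe, Multiset.prod_coe]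
    rw [h3, ← List.prod_ofFn]
    congr 1
    apply List.ext_get
    · simp
    · intro i h1 h2
      simp
  rw [h2, Units.val_mk0]
  exact h1

/-- **Abstract core.**  A basis over `A ≃ k[X]` with nonzero trace discriminant is a chart
certificate, given local certificates at all points. -/
theorem chartCert_of_basis [IsAlgClosed k] (e : k[X] ≃ₐ[k] A) {n : ℕ}
    (b : Module.Basis (Fin n) A R) (hdet : (Algebra.traceMatrix A b).det ≠ 0)
    (z : R) (hz : z = algebraMap A R (e X))
    (hloc : ∀ a : k, ∃ m : ℕ, LocalCertN k R z a m) :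
    ChartCert k R z b := by
  classical
  refine ⟨free_of_basis e b z hz, ?_⟩
  set G := Algebra.traceMatrix A b with hG
  set βd : Fin n → R := fun j => ∑ l, (Matrix.adjugate G l j) • b l with hβd
  have hd0 : e.symm G.det ≠ 0 := by
    intro h
    apply hdet
    have := congrArg e h
    simpa using this
  obtain ⟨m, a, l, hsplit⟩ := exists_split (e.symm G.det) hd0
  refine ⟨βd, fun i j s t => e.symm (b.repr (b i * βd j * b s) t), m, a, l, ?_, ?_, ?_⟩
  · intro i j s
    simp only [aeval_eq_algebraMap e z hz, AlgEquiv.apply_symm_apply]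
    conv_lhs => rw [← b.sum_repr (b i * βd j * b s)]
    simp [Algebra.smul_def]
  · intro i j
    have htr : ∑ s, b.repr (b i * βd j * b s) s = Algebra.trace A R (b i * βd j) := by
      rw [Algebra.trace_eq_matrix_trace b, Matrix.trace]
      refine Finset.sum_congr rfl fun s _ => ?_
      rw [Matrix.diag_apply, Algebra.leftMulMatrix_eq_repr_mul]
    have htr2 : Algebra.trace A R (b i * βd j) = (G * Matrix.adjugate G) i j := by
      rw [hβd]
      simp only [Finset.mul_sum, mul_smul_comm, map_sum, map_smul, smul_eq_mul, Matrix.mul_apply]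
      refine Finset.sum_congr rfl fun l _ => ?_
      rw [hG, Algebra.traceMatrix_apply, Algebra.traceForm_apply, mul_comm]
    have h3 : (∑ s, e.symm (b.repr (b i * βd j * b s) s)) = e.symm ((G * Matrix.adjugate G) i j) := by
      rw [← map_sum, htr, htr2]
    rw [h3, Matrix.mul_adjugate, Matrix.smul_apply, Matrix.one_apply, smul_eq_mul]
    split_ifs with hij
    · rw [mul_one, hsplit]
    · rw [mul_zero, map_zero]
  · intro q
    exact hloc (a q)

end Core

section Inst

open IntermediateField Fermat.Agent.Lib.FF.IntP
open scoped IntermediateField.algebraAdjoinAdjoin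

variable {K F : Type*} [Field K] [Field F] [Algebra K F]

/-- The trace discriminant of a `K[z]`-basis of the integral closure of `K[z]` in `F` is nonzero
when `F/K(z)` is separable. -/
theorem det_traceMatrix_ne_zero (z : F) [FiniteDimensional K⟮z⟯ F]
    [Algebra.IsSeparable K⟮z⟯ F] {n : ℕ}
    (b : Module.Basis (Fin n) (Algebra.adjoin K {z}) (integralClosure (Algebra.adjoin K {z}) F)) :
    (Algebra.traceMatrix (Algebra.adjoin K {z}) b).det ≠ 0 := by
  classical
  haveI : IsLocalization (Algebra.algebraMapSubmonoid
      (integralClosure (Algebra.adjoin K {z}) F) (nonZeroDivisors (Algebra.adjoin K {z}))) F :=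
    IsIntegralClosure.isLocalization (Algebra.adjoin K {z}) K⟮z⟯ F _
  have h := Algebra.discr_localizationLocalization (Rₘ := K⟮z⟯) (Algebra.adjoin K {z})
    (nonZeroDivisors (Algebra.adjoin K {z})) F b
  have h2 := Algebra.discr_not_zero_of_basis K⟮z⟯
    (b.localizationLocalization K⟮z⟯ (nonZeroDivisors (Algebra.adjoin K {z})) F)
  rw [h] at h2
  intro h0
  apply h2
  rw [Algebra.discr_def, h0, map_zero]

/-- **(GR-E2b), separable form.**  The integral closure `C` of `K[z]` in `F` carries a chart
certificate on any `K[z]`-basis, given local certificates at all points. -/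
theorem chartCert_of_localCert [IsAlgClosed K] (z : F) (hz : Transcendental K z)
    [FiniteDimensional K⟮z⟯ F] [Algebra.IsSeparable K⟮z⟯ F]
    (hloc : ∀ a : K, ∃ m : ℕ,
      LocalCertN K (integralClosure (Algebra.adjoin K {z}) F) (xInt K z) a m) :
    ∃ (n : ℕ) (β : Fin n → integralClosure (Algebra.adjoin K {z}) F),
      n = Module.finrank K⟮z⟯ F ∧ 0 < n ∧
      ChartCert K (integralClosure (Algebra.adjoin K {z}) F) (xInt K z) β := by
  haveI := finite_integralClosure z hz
  haveI := free_integralClosure z hz
  let b := Module.finBasis (Algebra.adjoin K {z}) (integralClosure (Algebra.adjoin K {z}) F)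
  refine ⟨_, b, finrank_integralClosure z hz, ?_, ?_⟩
  · rw [finrank_integralClosure z hz]
    exact Module.finrank_pos
  · refine chartCert_of_basis (Polynomial.algEquivOfTranscendental K z hz) b
      (det_traceMatrix_ne_zero z b) (xInt K z) ?_ hloc
    rw [Polynomial.algEquivOfTranscendental_apply_X]
    rfl

/-- **(GR-E2b), separable form, unconditional** (local certificates from `exists_localCertN`),
with the rank `n = [F : K(z)]` exposed. -/
theorem exists_chartCert_of_isSeparable [IsAlgClosed K] (z : F) (hz : Transcendental K z)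
    [FiniteDimensional K⟮z⟯ F] [Algebra.IsSeparable K⟮z⟯ F] :
    ∃ (n : ℕ) (β : Fin n → integralClosure (Algebra.adjoin K {z}) F),
      n = Module.finrank K⟮z⟯ F ∧ 0 < n ∧
      ChartCert K (integralClosure (Algebra.adjoin K {z}) F) (xInt K z) β :=
  chartCert_of_localCert z hz (fun a => exists_localCertN z hz a)

/-- **(GR-E2b), characteristic zero, with the rank exposed.** -/
theorem exists_chartCert_finrank [IsAlgClosed K] [CharZero K] (z : F) (hz : Transcendental K z)
    [FiniteDimensional K⟮z⟯ F] :
    ∃ (n : ℕ) (β : Fin n → integralClosure (Algebra.adjoin K {z}) F),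
      n = Module.finrank K⟮z⟯ F ∧ 0 < n ∧
      ChartCert K (integralClosure (Algebra.adjoin K {z}) F) (xInt K z) β :=
  exists_chartCert_of_isSeparable z hz

/-- **(GR-E2b), the literal of the cut.** -/
theorem exists_chartCert [IsAlgClosed K] [CharZero K] (z : F) (hz : Transcendental K z)
    [FiniteDimensional K⟮z⟯ F] :
    ∃ (n : ℕ) (β : Fin n → integralClosure (Algebra.adjoin K {z}) F),
      ChartCert K (integralClosure (Algebra.adjoin K {z}) F) (xInt K z) β := by
  obtain ⟨n, β, -, -, h⟩ := exists_chartCert_finrank z hz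
  exact ⟨n, β, h⟩

/-- The two charts `z`, `z⁻¹` have the same rank. -/
theorem finrank_adjoin_inv (z : F) :
    Module.finrank K⟮z⁻¹⟯ F = Module.finrank K⟮z⟯ F := by
  have h : K⟮z⁻¹⟯ = K⟮z⟯ := by
    apply le_antisymm
    · rw [adjoin_simple_le_iff]
      exact inv_mem (mem_adjoin_simple_self K z)
    · rw [adjoin_simple_le_iff]
      have h := inv_mem (mem_adjoin_simple_self K z⁻¹)
      rwa [inv_inv] at h
  rw [h]

/-- **Both charts at once, with ONE rank `n`** (the shape `Model Λ U n` consumes). -/
theorem exists_chartCert_pair [IsAlgClosed K] [CharZero K] (z : F) (hz : Transcendental K z)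
    [FiniteDimensional K⟮z⟯ F] (hz' : Transcendental K z⁻¹) [FiniteDimensional K⟮z⁻¹⟯ F] :
    ∃ (n : ℕ) (β : Fin n → integralClosure (Algebra.adjoin K {z}) F)
      (β' : Fin n → integralClosure (Algebra.adjoin K {z⁻¹}) F),
      n = Module.finrank K⟮z⟯ F ∧ 0 < n ∧
      ChartCert K (integralClosure (Algebra.adjoin K {z}) F) (xInt K z) β ∧
      ChartCert K (integralClosure (Algebra.adjoin K {z⁻¹}) F) (xInt K z⁻¹) β' := by
  obtain ⟨n, β, hn, hpos, h⟩ := exists_chartCert_finrank z hz
  obtain ⟨n', β', hn', -, h'⟩ := exists_chartCert_finrank z⁻¹ hz'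
  have hnn : n' = n := by rw [hn', hn, finrank_adjoin_inv]
  subst hnn
  exact ⟨n', β, β', hn, hpos, h, h'⟩

end Inst

end Fermat.Agent.S27P.GR.ExistChartB
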