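import Mathlib
import Fermat.Agent.Lib.FF.RRFF1
import Fermat.Agent.Lib.FF.CharP.Principal
import Fermat.Agent.S24.Transfer

/-!
# S27 / (GR), row GR-E1: a function with a single pole

`F/K` a function field of one variable over an algebraically closed field `K` (setting
`Lib.FF.IsFF1 K F x₀`, any characteristic).

* `exists_single_pole` : there are a function `x`, transcendental over `K`, and a place `P₀` such
  that `P₀` is the only pole of `x` (Riemann's inequality for `(g + 1)·P₀ - P₁`);
* `ExistPole.finiteDimensional_of_transcendental` : `F` is finite over `K(x)` for every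
  transcendental `x`;
* `ExistPole.isFF1_of_transcendental` : hence `IsFF1 K F x` for every transcendental `x`;
* `exists_single_pole_isFF1` : the two combined — `x` with a single pole and `IsFF1 K F x`.
-/

set_option autoImplicit false
set_option linter.style.haveILetI false

namespace Fermat.Agent.S27P.GR

open AlgebraicCurve IntermediateField Fermat.Agent.Lib.FF

variable {K F : Type*} [Field K] [Field F] [Algebra K F]

namespace ExistPole

/-- `F` is finite over `K(x)` for every `x` transcendental over `K`. -/
theorem finiteDimensional_of_transcendental {x₀ : F} (h₀ : IsFF1 K F x₀) {x : F}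
    (hx : Transcendental K x) : FiniteDimensional K⟮x⟯ F := by
  haveI := h₀.finiteDimensional
  exact Fermat.Agent.S24.Transfer.finiteDimensional_adjoin_of_transcendental x₀ hx

/-- The setting `IsFF1` holds for every transcendental function. -/
theorem isFF1_of_transcendental [IsAlgClosed K] {x₀ : F} (h₀ : IsFF1 K F x₀) {x : F}
    (hx : Transcendental K x) : IsFF1 K F x := by
  haveI := finiteDimensional_of_transcendental h₀ hx
  exact Fermat.Agent.Lib.FF.CharP.isFF1 x hx

/-- The function `x₀` of the setting has a zero. -/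
theorem exists_zero [IsAlgClosed K] {x₀ : F} (h₀ : IsFF1 K F x₀) :
    ∃ v : Place K F, 0 < v.ord x₀ := by
  have h1 : IsFF1 K F x₀⁻¹ :=
    isFF1_of_transcendental h₀ (Fermat.Agent.S24.Transfer.transcendental_inv h₀.transcendental)
  obtain ⟨v, hv⟩ := h1.exists_pole
  refine ⟨v, ?_⟩
  rw [v.ord_inv] at hv
  omega

/-- A nonzero function with a zero is transcendental over the algebraically closed field `K`. -/
theorem transcendental_of_ord_pos [IsAlgClosed K] {f : F} {v : Place K F} (hv : 0 < v.ord f) :
    Transcendental K f := by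
  intro halg
  obtain ⟨c, rfl⟩ := exists_eq_algebraMap_of_isAlgebraic halg
  rw [Fermat.Agent.S24.ord_algebraMap] at hv
  exact lt_irrefl _ hv

end ExistPole

open ExistPole

/-- **A function with a single pole.** There are a transcendental function `x` and a place `P₀`
such that `P₀` is the only pole of `x`. -/
theorem exists_single_pole [IsAlgClosed K] {x₀ : F} (h₀ : IsFF1 K F x₀) :
    ∃ (x : F) (P₀ : Place K F), Transcendental K x ∧ P₀.ord x < 0 ∧
      ∀ P : Place K F, P ≠ P₀ → 0 ≤ P.ord x := by
  classical
  obtain ⟨P₀, hP₀⟩ := h₀.exists_pole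
  obtain ⟨P₁, hP₁⟩ := exists_zero h₀
  have hne : P₁ ≠ P₀ := by
    rintro rfl
    omega
  -- the divisor `(g + 1)·P₀ - P₁` of degree `g`
  set D : Divisor K F :=
    Finsupp.single P₀ ((genusFF K F : ℤ) + 1) - Finsupp.single P₁ 1 with hD
  have hdeg : Divisor.degree D = (genusFF K F : ℤ) := by
    rw [hD, map_sub, Divisor.degree_single, Divisor.degree_single, h₀.deg_eq_one, h₀.deg_eq_one]
    push_cast
    ring
  obtain ⟨f, hf0, hf⟩ := h₀.exists_ne_zero_of_degree_ge D hdeg.ge
  have hD0 : D P₀ = (genusFF K F : ℤ) + 1 := by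
    rw [hD, Finsupp.sub_apply, Finsupp.single_eq_same, Finsupp.single_eq_of_ne hne.symm, sub_zero]
  have hD1 : D P₁ = -1 := by
    rw [hD, Finsupp.sub_apply, Finsupp.single_eq_same, Finsupp.single_eq_of_ne hne, zero_sub]
  have hDP : ∀ P : Place K F, P ≠ P₀ → P ≠ P₁ → D P = 0 := by
    intro P h0 h1
    rw [hD, Finsupp.sub_apply, Finsupp.single_eq_of_ne h0, Finsupp.single_eq_of_ne h1, sub_zero]
  -- `f` vanishes at `P₁`, hence is transcendental
  have hf1 : 0 < P₁.ord f := by
    have := hf P₁
    rw [hD1] at this
    omega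
  have htr : Transcendental K f := transcendental_of_ord_pos hf1
  have hreg : ∀ P : Place K F, P ≠ P₀ → 0 ≤ P.ord f := by
    intro P hP
    by_cases hP1 : P = P₁
    · rw [hP1]
      exact hf1.le
    · have := hf P
      rw [hDP P hP hP1] at this
      omega
  refine ⟨f, P₀, htr, ?_, hreg⟩
  by_contra hnn
  push Not at hnn
  have hall : ∀ P : Place K F, 0 ≤ P.ord f := by
    intro P
    by_cases hP : P = P₀
    · rw [hP]
      exact hnn
    · exact hreg P hP
  obtain ⟨c, hc⟩ := h₀.const_of_ord_nonneg f hall
  exact htr (hc ▸ isAlgebraic_algebraMap c)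

/-- **A base function with a single pole**: `x` with a single pole `P₀` and `IsFF1 K F x`. -/
theorem exists_single_pole_isFF1 [IsAlgClosed K] {x₀ : F} (h₀ : IsFF1 K F x₀) :
    ∃ (x : F) (P₀ : Place K F), IsFF1 K F x ∧ P₀.ord x < 0 ∧
      ∀ P : Place K F, P ≠ P₀ → 0 ≤ P.ord x := by
  obtain ⟨x, P₀, hx, h1, h2⟩ := exists_single_pole h₀
  exact ⟨x, P₀, isFF1_of_transcendental h₀ hx, h1, h2⟩

end Fermat.Agent.S27P.GR
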