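/-
S27 / (GR), row GR-E3 (twin, helper83): spreading out.

From certificates over the field `K` (two charts `C ∋ z`, `C' ∋ z' = 1/z` of a function field `F/K`,
each with a `ChartCert`, and a `LocalCertN K C' z' 0 1`) we produce a finitely generated subring
`Λ ⊆ K`, the overlap ring `U ⊆ F` over `Λ`, a `Model Λ U n` and its tautological realisation.

Method: an "eventually" calculus on subrings of `K` — `Ev P` means that `P Λ` holds for every
subring `Λ` containing a suitable finite set.  Every witness of the certificates has finitely many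
coefficients, so it lies eventually in the `Λ`-lattice `latt x e Λ = ⊕ Λ[x] e_i`.
-/
import Mathlib
import Fermat.Agent.S27P.GR.Defs

set_option autoImplicit false

noncomputable section

namespace Fermat.Agent.S27P.GR.SpreadB

open Polynomial

universe u v w

section EvCalc

variable {K : Type u} [Field K]

/-- `P` holds for all subrings containing a suitable finite set. -/
def Ev (P : Subring K → Prop) : Prop :=
  ∃ S : Finset K, ∀ Λ : Subring K, (S : Set K) ⊆ Λ → P Λ

theorem Ev.mono {P Q : Subring K → Prop} (h : Ev P) (hPQ : ∀ Λ, P Λ → Q Λ) : Ev Q := by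
  obtain ⟨S, hS⟩ := h
  exact ⟨S, fun Λ hΛ => hPQ Λ (hS Λ hΛ)⟩

theorem Ev.and {P Q : Subring K → Prop} (hP : Ev P) (hQ : Ev Q) : Ev (fun Λ => P Λ ∧ Q Λ) := by
  classical
  obtain ⟨S, hS⟩ := hP
  obtain ⟨T, hT⟩ := hQ
  refine ⟨S ∪ T, fun Λ hΛ => ⟨hS Λ ?_, hT Λ ?_⟩⟩
  · exact fun a ha => hΛ (by rw [Finset.coe_union]; exact Or.inl ha)
  · exact fun a ha => hΛ (by rw [Finset.coe_union]; exact Or.inr ha)

theorem ev_mem (a : K) : Ev (fun Λ : Subring K => a ∈ Λ) :=
  ⟨{a}, fun Λ hΛ => hΛ (by simp)⟩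

theorem ev_all {ι : Type*} [Finite ι] {P : ι → Subring K → Prop} (h : ∀ i, Ev (P i)) :
    Ev (fun Λ => ∀ i, P i Λ) := by
  classical
  cases nonempty_fintype ι
  choose S hS using h
  refine ⟨Finset.univ.biUnion S, fun Λ hΛ i => hS i Λ ?_⟩
  intro a ha
  refine hΛ ?_
  rw [Finset.mem_coe, Finset.mem_biUnion]
  exact ⟨i, Finset.mem_univ i, ha⟩

theorem ev_lifts (P : K[X]) : Ev (fun Λ : Subring K => P ∈ Polynomial.lifts Λ.subtype) := by
  classical
  refine ⟨P.coeffs, fun Λ hΛ => ?_⟩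
  beta_reduce
  rw [Polynomial.lifts_iff_coeff_lifts]
  intro k
  by_cases hk : P.coeff k = 0
  · exact ⟨0, by simp [hk]⟩
  · exact ⟨⟨P.coeff k, hΛ (Polynomial.coeff_mem_coeffs hk)⟩, rfl⟩

/-- The generators of a subring closure generate it as a ring. -/
theorem closure_preimage_eq_top (S : Set K) :
    Subring.closure (((↑) : ↥(Subring.closure S) → K) ⁻¹' S) = ⊤ := by
  rw [eq_top_iff]
  rintro ⟨y, hy⟩ -
  induction hy using Subring.closure_induction with
  | mem x hx => exact Subring.subset_closure hx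
  | zero => exact Subring.zero_mem _
  | one => exact Subring.one_mem _
  | add x y hx hy ihx ihy => exact Subring.add_mem _ ihx ihy
  | neg x hx ih => exact Subring.neg_mem _ ih
  | mul x y hx hy ihx ihy => exact Subring.mul_mem _ ihx ihy

end EvCalc

section Lattice

variable {K : Type u} [Field K] {F : Type v} [CommRing F] [Algebra K F] {n : ℕ}

/-- The lattice `⊕ Λ[x] e_i` inside `F`. -/
def latt (x : F) (e : Fin n → F) (Λ : Subring K) : Set F :=
  {f | ∃ p : Fin n → (↥Λ)[X], f = ∑ i, aeval x ((p i).map Λ.subtype) * e i}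

variable {x : F} {e : Fin n → F} {Λ : Subring K}

theorem latt_zero : (0 : F) ∈ latt x e Λ := ⟨0, by simp⟩

theorem latt_add {f g : F} (hf : f ∈ latt x e Λ) (hg : g ∈ latt x e Λ) : f + g ∈ latt x e Λ := by
  obtain ⟨p, rfl⟩ := hf
  obtain ⟨q, rfl⟩ := hg
  exact ⟨p + q, by simp [Polynomial.map_add, add_mul, Finset.sum_add_distrib]⟩

theorem latt_neg {f : F} (hf : f ∈ latt x e Λ) : -f ∈ latt x e Λ := by
  obtain ⟨p, rfl⟩ := hf
  exact ⟨-p, by simp [Polynomial.map_neg]⟩

theorem latt_sum {ι : Type*} (s : Finset ι) (f : ι → F) (h : ∀ i ∈ s, f i ∈ latt x e Λ) :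
    ∑ i ∈ s, f i ∈ latt x e Λ := by
  classical
  induction s using Finset.induction_on with
  | empty => simpa using latt_zero
  | insert a s ha ih =>
    rw [Finset.sum_insert ha]
    exact latt_add (h a (Finset.mem_insert_self a s))
      (ih (fun i hi => h i (Finset.mem_insert_of_mem hi)))

theorem latt_poly_mul (q : (↥Λ)[X]) {f : F} (hf : f ∈ latt x e Λ) :
    aeval x (q.map Λ.subtype) * f ∈ latt x e Λ := by
  obtain ⟨p, rfl⟩ := hf
  exact ⟨fun i => q * p i, by simp [Polynomial.map_mul, Finset.mul_sum, mul_assoc]⟩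

theorem latt_basis (i : Fin n) : e i ∈ latt x e Λ := by
  classical
  refine ⟨fun j => if j = i then 1 else 0, ?_⟩
  rw [Finset.sum_eq_single i]
  · simp
  · intro j _ hj
    simp [hj]
  · intro h
    exact absurd (Finset.mem_univ i) h

theorem latt_const_mul (a : Λ) {f : F} (hf : f ∈ latt x e Λ) :
    algebraMap K F (a : K) * f ∈ latt x e Λ := by
  have h := latt_poly_mul (x := x) (e := e) (C a) hf
  simpa using h

theorem latt_x_mul {f : F} (hf : f ∈ latt x e Λ) : x * f ∈ latt x e Λ := by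
  have h := latt_poly_mul (x := x) (e := e) (X : (↥Λ)[X]) hf
  simpa using h

theorem latt_pow_mul (k : ℕ) {f : F} (hf : f ∈ latt x e Λ) : x ^ k * f ∈ latt x e Λ := by
  induction k with
  | zero => simpa using hf
  | succ k ih =>
    rw [pow_succ', mul_assoc]
    exact latt_x_mul ih

theorem latt_mul (hmul : ∀ i j, e i * e j ∈ latt x e Λ) {f g : F} (hf : f ∈ latt x e Λ)
    (hg : g ∈ latt x e Λ) : f * g ∈ latt x e Λ := by
  obtain ⟨p, rfl⟩ := hf
  obtain ⟨q, rfl⟩ := hg
  rw [Finset.sum_mul_sum]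
  refine latt_sum _ _ (fun i _ => latt_sum _ _ (fun j _ => ?_))
  have h1 : aeval x ((p i).map Λ.subtype) * e i * (aeval x ((q j).map Λ.subtype) * e j)
      = aeval x ((p i * q j).map Λ.subtype) * (e i * e j) := by
    rw [Polynomial.map_mul, map_mul]; ring
  rw [h1]
  exact latt_poly_mul _ (hmul i j)

/-- An element with a `K[x]`-representation lies eventually in the lattice. -/
theorem ev_latt_of_eq (x : F) (e : Fin n → F) (f : F) (P : Fin n → K[X])
    (hf : f = ∑ i, aeval x (P i) * e i) : Ev (fun Λ : Subring K => f ∈ latt x e Λ) := by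
  refine (ev_all (fun i => ev_lifts (P i))).mono (fun Λ h => ?_)
  choose p hp using fun i => (Polynomial.mem_lifts _).mp (h i)
  exact ⟨p, by rw [hf]; simp only [hp]⟩

end Lattice

section Form

variable {K : Type u} [Field K] {F : Type v} [CommRing F] [Algebra K F] {n : ℕ}

/-- `B` (a `Λ`-algebra embedded in `F` by `j`) realises the lattice `latt x e Λ`, with `z ↦ x` and
`b i ↦ e i`. -/
structure IsForm (Λ : Subring K) (x : F) (e : Fin n → F) (B : Type v) [CommRing B]
    [Algebra ↥Λ B] (j : B →+* F) (z : B) (b : Fin n → B) : Prop where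
  inj : Function.Injective j
  compat : ∀ a : Λ, j (algebraMap ↥Λ B a) = algebraMap K F (a : K)
  hz : j z = x
  hb : ∀ i, j (b i) = e i
  mem : ∀ f : B, j f ∈ latt x e Λ
  surj : ∀ g ∈ latt x e Λ, ∃ f : B, j f = g

theorem IsForm.j_aeval {Λ : Subring K} {x : F} {e : Fin n → F} {B : Type v} [CommRing B]
    [Algebra ↥Λ B] {j : B →+* F} {z : B} {b : Fin n → B} (h : IsForm Λ x e B j z b)
    (p : (↥Λ)[X]) (f : B) : j (aeval f p) = aeval (j f) (p.map Λ.subtype) := by
  rw [Polynomial.aeval_def, Polynomial.hom_eval₂, Polynomial.aeval_def, Polynomial.eval₂_map]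
  congr 1
  ext a
  exact h.compat a

theorem IsForm.j_rep {Λ : Subring K} {x : F} {e : Fin n → F} {B : Type v} [CommRing B]
    [Algebra ↥Λ B] {j : B →+* F} {z : B} {b : Fin n → B} (h : IsForm Λ x e B j z b)
    (p : Fin n → (↥Λ)[X]) :
    j (∑ i, aeval z (p i) * b i) = ∑ i, aeval x ((p i).map Λ.subtype) * e i := by
  rw [map_sum]
  refine Finset.sum_congr rfl (fun i _ => ?_)
  rw [map_mul, h.j_aeval, h.hz, h.hb]

/-- Every element of `B` is a `Λ[z]`-combination of the `b i`. -/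
theorem IsForm.exists_rep {Λ : Subring K} {x : F} {e : Fin n → F} {B : Type v} [CommRing B]
    [Algebra ↥Λ B] {j : B →+* F} {z : B} {b : Fin n → B} (h : IsForm Λ x e B j z b) (f : B) :
    ∃ p : Fin n → (↥Λ)[X], f = ∑ i, aeval z (p i) * b i := by
  obtain ⟨p, hp⟩ := h.mem f
  exact ⟨p, h.inj (by rw [hp, h.j_rep])⟩

end Form

section Transfer

variable {K : Type u} [Field K] {F : Type v} [CommRing F] [Algebra K F] {n : ℕ}
variable {C : Type w} [CommRing C] [Algebra K C] (ι : C →ₐ[K] F)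

/-- The image of a `K[z]`-combination. -/
theorem ι_rep (z : C) (β : Fin n → C) (P : Fin n → K[X]) :
    ι (∑ i, aeval z (P i) * β i) = ∑ i, aeval (ι z) (P i) * ι (β i) := by
  rw [map_sum]
  refine Finset.sum_congr rfl (fun i _ => ?_)
  rw [map_mul, Polynomial.aeval_algHom_apply]

/-- Every element of the chart ring lies eventually in the lattice. -/
theorem ev_mem_latt (z : C) (β : Fin n → C)
    (hfree : ∀ f : C, ∃! p : Fin n → K[X], f = ∑ i, aeval z (p i) * β i) (f : C) :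
    Ev (fun Λ : Subring K => ι f ∈ latt (ι z) (fun i => ι (β i)) Λ) := by
  obtain ⟨P, hP, -⟩ := hfree f
  refine ev_latt_of_eq (ι z) (fun i => ι (β i)) (ι f) P ?_
  conv_lhs => rw [hP]
  exact ι_rep ι z β P

/-- Transfer of a local certificate to all sufficiently large subrings. -/
theorem ev_localCert (z : C) (β : Fin n → C)
    (hfree : ∀ f : C, ∃! p : Fin n → K[X], f = ∑ i, aeval z (p i) * β i)
    {a : K} {m : ℕ} (h : LocalCertN K C z a m) :
    Ev (fun Λ : Subring K => ∀ (B : Type v) [CommRing B] [Algebra ↥Λ B] (j : B →+* F) (zB : B)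
      (b : Fin n → B), IsForm Λ (ι z) (fun i => ι (β i)) B j zB b →
      ∀ aΛ : Λ, (aΛ : K) = a → LocalCertN ↥Λ B zB aΛ m) := by
  obtain ⟨τ, v, u, c, N, w, h1, h2, h3, h4⟩ := h
  choose r2 s2 h2 using h2
  have h3' : ∀ (jj : Fin m) (i : Fin n), ∃ (κ : K) (r s : C),
      β i - algebraMap K C κ = τ jj * r + (z - algebraMap K C a) * s := fun jj i => h3 jj (β i)
  choose κ3 r3 s3 h3' using h3'
  have E := (ev_all fun jj => ev_mem_latt ι z β hfree (τ jj)).and <|
    (ev_all fun jj => ev_mem_latt ι z β hfree (v jj)).and <|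
    (ev_all fun jj => ev_mem_latt ι z β hfree (u jj)).and <|
    (ev_mem_latt ι z β hfree w).and <|
    (ev_all fun jj => (ev_mem ((c jj : Kˣ) : K)).and (ev_mem (((c jj)⁻¹ : Kˣ) : K))).and <|
    (ev_all fun jj => ev_mem_latt ι z β hfree (r2 jj)).and <|
    (ev_all fun jj => ev_mem_latt ι z β hfree (s2 jj)).and <|
    (ev_all fun jj => ev_all fun i => ev_mem (κ3 jj i)).and <|
    (ev_all fun jj => ev_all fun i => ev_mem_latt ι z β hfree (r3 jj i)).and
    (ev_all fun jj => ev_all fun i => ev_mem_latt ι z β hfree (s3 jj i))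
  refine E.mono (fun Λ hΛ B _ _ j zB b hform aΛ haΛ => ?_)
  obtain ⟨hτ, hv, hu, hw, hc, hr2, hs2, hκ3, hr3, hs3⟩ := hΛ
  choose τB hτB using fun jj => hform.surj _ (hτ jj)
  choose vB hvB using fun jj => hform.surj _ (hv jj)
  choose uB huB using fun jj => hform.surj _ (hu jj)
  obtain ⟨wB, hwB⟩ := hform.surj _ hw
  choose r2B hr2B using fun jj => hform.surj _ (hr2 jj)
  choose s2B hs2B using fun jj => hform.surj _ (hs2 jj)
  choose r3B hr3B using fun jj i => hform.surj _ (hr3 jj i)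
  choose s3B hs3B using fun jj i => hform.surj _ (hs3 jj i)
  -- the units `c jj` in `Λ`
  let cΛ : Fin m → (↥Λ)ˣ := fun jj =>
    ⟨⟨(c jj : K), (hc jj).1⟩, ⟨((c jj)⁻¹ : Kˣ), (hc jj).2⟩,
      Subtype.ext (by simp), Subtype.ext (by simp)⟩
  have hcΛ : ∀ jj, (((cΛ jj : (↥Λ)ˣ) : ↥Λ) : K) = (c jj : K) := fun jj => rfl
  have hja : j (algebraMap ↥Λ B aΛ) = algebraMap K F a := by rw [hform.compat, haΛ]
  have hιa : ∀ κ : K, ι (algebraMap K C κ) = algebraMap K F κ := fun κ => ι.commutes κ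
  refine ⟨τB, vB, uB, cΛ, N, wB, ?_, ?_, ?_, ?_⟩
  · intro jj
    apply hform.inj
    rw [map_mul, map_mul, map_sub, hform.hz, hja, hvB, huB, hτB]
    have := congrArg ι (h1 jj)
    rwa [map_mul, map_mul, map_sub, hιa] at this
  · intro jj
    refine ⟨r2B jj, s2B jj, hform.inj ?_⟩
    rw [map_sub, map_add, map_mul, map_mul, map_sub, hform.hz, hja, hform.compat, hcΛ, hvB, hτB,
      hr2B, hs2B]
    have := congrArg ι (h2 jj)
    rwa [map_sub, map_add, map_mul, map_mul, map_sub, hιa, hιa] at this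
  · intro jj
    -- the subalgebra `Λ + (τ, z - a) B`
    let I : Ideal B := Ideal.span {τB jj, zB - algebraMap ↥Λ B aΛ}
    let G : Subalgebra ↥Λ B :=
      { carrier := {f | ∃ κ : Λ, f - algebraMap ↥Λ B κ ∈ I}
        mul_mem' := by
          rintro f g ⟨κ, hκ⟩ ⟨κ', hκ'⟩
          refine ⟨κ * κ', ?_⟩
          have : f * g - algebraMap ↥Λ B (κ * κ')
              = (f - algebraMap ↥Λ B κ) * g + algebraMap ↥Λ B κ * (g - algebraMap ↥Λ B κ') := by
            rw [map_mul]; ring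
          rw [this]
          exact I.add_mem (I.mul_mem_right _ hκ) (I.mul_mem_left _ hκ')
        add_mem' := by
          rintro f g ⟨κ, hκ⟩ ⟨κ', hκ'⟩
          refine ⟨κ + κ', ?_⟩
          have : f + g - algebraMap ↥Λ B (κ + κ')
              = (f - algebraMap ↥Λ B κ) + (g - algebraMap ↥Λ B κ') := by
            rw [map_add]; ring
          rw [this]
          exact I.add_mem hκ hκ'
        algebraMap_mem' := fun κ => ⟨κ, by rw [sub_self]; exact I.zero_mem⟩ }
    have hzG : zB ∈ G := ⟨aΛ, Ideal.subset_span (by simp)⟩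
    have hbG : ∀ i, b i ∈ G := by
      intro i
      refine ⟨⟨κ3 jj i, hκ3 jj i⟩, Ideal.mem_span_pair.mpr ⟨r3B jj i, s3B jj i, hform.inj ?_⟩⟩
      rw [map_add, map_mul, map_mul, map_sub, map_sub, hform.hz, hja, hform.compat, hform.hb,
        hτB, hr3B, hs3B]
      have := congrArg ι (h3' jj i)
      rw [map_sub, map_add, map_mul, map_mul, map_sub, hιa, hιa] at this
      rw [this]; ring
    intro f
    obtain ⟨p, rfl⟩ := hform.exists_rep f
    have hfG : (∑ i, aeval zB (p i) * b i) ∈ G := by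
      refine Subalgebra.sum_mem _ (fun i _ => Subalgebra.mul_mem _ ?_ (hbG i))
      have h5 := Subalgebra.aeval_coe G (⟨zB, hzG⟩ : G) (p i)
      rw [show ((⟨zB, hzG⟩ : G) : B) = zB from rfl] at h5
      rw [h5]
      exact SetLike.coe_mem _
    obtain ⟨κ, hκ⟩ := hfG
    obtain ⟨r, s, hrs⟩ := Ideal.mem_span_pair.mp hκ
    exact ⟨κ, r, s, by rw [← hrs]; ring⟩
  · apply hform.inj
    rw [map_pow, map_prod, map_mul, map_sub, hform.hz, hja, hwB]
    have := congrArg ι h4
    rw [map_pow, map_prod, map_mul, map_sub, hιa] at this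
    rw [← this]
    congr 1
    exact Finset.prod_congr rfl (fun jj _ => hτB jj)

/-- `K[z]`-independence of the images of the basis, from `free` and injectivity. -/
theorem indep_of_free (hι : Function.Injective ι) (z : C) (β : Fin n → C)
    (hfree : ∀ f : C, ∃! p : Fin n → K[X], f = ∑ i, aeval z (p i) * β i)
    (P Q : Fin n → K[X])
    (h : ∑ i, aeval (ι z) (P i) * ι (β i) = ∑ i, aeval (ι z) (Q i) * ι (β i)) : P = Q := by
  rw [← ι_rep ι z β P, ← ι_rep ι z β Q] at h
  have h' := hι h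
  obtain ⟨R, -, hR⟩ := hfree (∑ i, aeval z (P i) * β i)
  rw [hR P rfl, hR Q h']

/-- Transfer of a chart certificate to all sufficiently large subrings. -/
theorem ev_chartCert (hι : Function.Injective ι) (z : C) (β : Fin n → C)
    (h : ChartCert K C z β) :
    Ev (fun Λ : Subring K => ∀ (B : Type v) [CommRing B] [Algebra ↥Λ B] (j : B →+* F) (zB : B)
      (b : Fin n → B), IsForm Λ (ι z) (fun i => ι (β i)) B j zB b → ChartCert ↥Λ B zB b) := by
  obtain ⟨βd, T, m, a, l, hT1, hT2, hloc⟩ := h.disc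
  choose m' hloc using hloc
  have E := (ev_all fun jj => ev_mem_latt ι z β h.free (βd jj)).and <|
    (ev_all fun i => ev_all fun jj => ev_all fun s => ev_all fun t =>
      ev_lifts (T i jj s t)).and <|
    (ev_all fun q => ev_mem (a q)).and <|
    ((ev_mem ((l : Kˣ) : K)).and (ev_mem ((l⁻¹ : Kˣ) : K))).and
    (ev_all fun q => ev_localCert (F := F) ι z β h.free (hloc q))
  refine E.mono (fun Λ hΛ B _ _ j zB b hform => ?_)
  obtain ⟨hβd, hT, ha, ⟨hl, hl'⟩, hloc'⟩ := hΛ
  have hιa : ∀ κ : K, ι (algebraMap K C κ) = algebraMap K F κ := fun κ => ι.commutes κ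
  refine ⟨?_, ?_⟩
  · intro f
    obtain ⟨p, hp⟩ := hform.exists_rep f
    refine ⟨p, hp, fun q hq => ?_⟩
    have h1 : ∑ i, aeval (ι z) ((q i).map Λ.subtype) * ι (β i)
        = ∑ i, aeval (ι z) ((p i).map Λ.subtype) * ι (β i) := by
      rw [← hform.j_rep q, ← hform.j_rep p, ← hq, ← hp]
    have h2 := indep_of_free ι hι z β h.free _ _ h1
    funext i
    exact Polynomial.map_injective Λ.subtype Subtype.val_injective (congrFun h2 i)
  · choose βdB hβdB using fun jj => hform.surj _ (hβd jj)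
    choose TΛ hTΛ using fun i jj s t => (Polynomial.mem_lifts _).mp (hT i jj s t)
    let lΛ : (↥Λ)ˣ := ⟨⟨(l : K), hl⟩, ⟨((l⁻¹ : Kˣ) : K), hl'⟩,
      Subtype.ext (by simp), Subtype.ext (by simp)⟩
    refine ⟨βdB, TΛ, m, fun q => ⟨a q, ha q⟩, lΛ, ?_, ?_, ?_⟩
    · intro i jj s
      apply hform.inj
      rw [map_mul, map_mul, hform.hb, hform.hb, hβdB, hform.j_rep]
      simp only [hTΛ]
      have := congrArg ι (hT1 i jj s)
      rwa [map_mul, map_mul, ι_rep] at this
    · intro i jj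
      apply Polynomial.map_injective Λ.subtype Subtype.val_injective
      rw [Polynomial.map_sum]
      simp only [hTΛ]
      show ∑ s, T i jj s s = _
      rw [hT2 i jj]
      split_ifs with hij
      · rw [Polynomial.map_mul, Polynomial.map_C, Polynomial.map_prod]
        congr 1
        refine Finset.prod_congr rfl (fun q _ => ?_)
        rw [Polynomial.map_sub, Polynomial.map_X, Polynomial.map_C]
        rfl
      · rw [Polynomial.map_zero]
    · intro q
      exact ⟨m' q, hloc' q B j zB b hform ⟨a q, ha q⟩ rfl⟩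

end Transfer

section Assembly

variable {K : Type u} [Field K] {F : Type v} [Field F] [Algebra K F] {n : ℕ}

/-- The overlap ring `L[1/x]` of a multiplicatively closed lattice `L = latt x e Λ`. -/
def overlap (x : F) (e : Fin n → F) (Λ : Subring K) (h1 : (1 : F) ∈ latt x e Λ)
    (hmul : ∀ i j, e i * e j ∈ latt x e Λ) : Subring F where
  carrier := {u | ∃ m : ℕ, x ^ m * u ∈ latt x e Λ}
  mul_mem' := by
    rintro u u' ⟨m, hm⟩ ⟨m', hm'⟩
    refine ⟨m + m', ?_⟩
    have h : x ^ (m + m') * (u * u') = (x ^ m * u) * (x ^ m' * u') := by rw [pow_add]; ring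
    rw [h]
    exact latt_mul hmul hm hm'
  one_mem' := ⟨0, by simpa using h1⟩
  add_mem' := by
    rintro u u' ⟨m, hm⟩ ⟨m', hm'⟩
    refine ⟨m + m', ?_⟩
    have h : x ^ (m + m') * (u + u') = x ^ m' * (x ^ m * u) + x ^ m * (x ^ m' * u') := by
      rw [pow_add]; ring
    rw [h]
    exact latt_add (latt_pow_mul m' hm) (latt_pow_mul m hm')
  zero_mem' := ⟨0, by simpa using latt_zero⟩
  neg_mem' := by
    rintro u ⟨m, hm⟩
    exact ⟨m, by rw [mul_neg]; exact latt_neg hm⟩

theorem mem_overlap {x : F} {e : Fin n → F} {Λ : Subring K} {h1 : (1 : F) ∈ latt x e Λ}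
    {hmul : ∀ i j, e i * e j ∈ latt x e Λ} {u : F} :
    u ∈ overlap x e Λ h1 hmul ↔ ∃ m : ℕ, x ^ m * u ∈ latt x e Λ := Iff.rfl

/-- The structure map `Λ → U`. -/
def overlapMap (x : F) (e : Fin n → F) (Λ : Subring K) (h1 : (1 : F) ∈ latt x e Λ)
    (hmul : ∀ i j, e i * e j ∈ latt x e Λ) : ↥Λ →+* ↥(overlap x e Λ h1 hmul) :=
  ((algebraMap K F).comp Λ.subtype).codRestrict (overlap x e Λ h1 hmul)
    (fun a => ⟨0, by simpa using latt_const_mul a h1⟩)

/-- The `Λ`-algebra structure of the overlap ring. -/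
@[reducible] def overlapAlgebra (x : F) (e : Fin n → F) (Λ : Subring K)
    (h1 : (1 : F) ∈ latt x e Λ) (hmul : ∀ i j, e i * e j ∈ latt x e Λ) :
    Algebra ↥Λ ↥(overlap x e Λ h1 hmul) :=
  (overlapMap x e Λ h1 hmul).toAlgebra

/-- A lattice inside a `Λ`-algebra `U ⊆ F`, as a subalgebra. -/
def chartSub {Λ : Subring K} {U : Type v} [CommRing U] [Algebra ↥Λ U] (ψ : U →+* F)
    (hψ : ∀ a : Λ, ψ (algebraMap ↥Λ U a) = algebraMap K F (a : K)) (y : F) (d : Fin n → F)
    (h1 : (1 : F) ∈ latt y d Λ) (hmul : ∀ i j, d i * d j ∈ latt y d Λ) : Subalgebra ↥Λ U where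
  carrier := {u | ψ u ∈ latt y d Λ}
  mul_mem' := fun {a b} ha hb => by
    show ψ (a * b) ∈ latt y d Λ
    rw [map_mul]
    exact latt_mul hmul ha hb
  add_mem' := fun {a b} ha hb => by
    show ψ (a + b) ∈ latt y d Λ
    rw [map_add]
    exact latt_add ha hb
  algebraMap_mem' := fun a => by
    show ψ (algebraMap ↥Λ U a) ∈ latt y d Λ
    rw [hψ]
    simpa using latt_const_mul a h1

theorem mem_chartSub {Λ : Subring K} {U : Type v} [CommRing U] [Algebra ↥Λ U] {ψ : U →+* F}
    {hψ : ∀ a : Λ, ψ (algebraMap ↥Λ U a) = algebraMap K F (a : K)} {y : F} {d : Fin n → F}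
    {h1 : (1 : F) ∈ latt y d Λ} {hmul : ∀ i j, d i * d j ∈ latt y d Λ} {u : U} :
    u ∈ chartSub ψ hψ y d h1 hmul ↔ ψ u ∈ latt y d Λ := Iff.rfl

theorem isForm_chartSub {Λ : Subring K} {U : Type v} [CommRing U] [Algebra ↥Λ U] (ψ : U →+* F)
    (hψinj : Function.Injective ψ)
    (hψ : ∀ a : Λ, ψ (algebraMap ↥Λ U a) = algebraMap K F (a : K)) (y : F) (d : Fin n → F)
    (h1 : (1 : F) ∈ latt y d Λ) (hmul : ∀ i j, d i * d j ∈ latt y d Λ)
    (hsub : ∀ g ∈ latt y d Λ, ∃ u : U, ψ u = g) (zU : U) (hz : ψ zU = y)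
    (hzmem : zU ∈ chartSub ψ hψ y d h1 hmul) (bU : Fin n → U) (hb : ∀ i, ψ (bU i) = d i)
    (hbmem : ∀ i, bU i ∈ chartSub ψ hψ y d h1 hmul) :
    IsForm Λ y d ↥(chartSub ψ hψ y d h1 hmul)
      (ψ.comp (chartSub ψ hψ y d h1 hmul).val.toRingHom) ⟨zU, hzmem⟩
      (fun i => ⟨bU i, hbmem i⟩) where
  inj := hψinj.comp Subtype.val_injective
  compat := fun a => hψ a
  hz := hz
  hb := hb
  mem := fun f => f.2
  surj := fun g hg => by
    obtain ⟨u, hu⟩ := hsub g hg
    exact ⟨⟨u, by rw [mem_chartSub, hu]; exact hg⟩, hu⟩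

theorem aeval_mem_subring (U : Subring F) (Λ : Subring K)
    (hΛU : ∀ a : Λ, algebraMap K F (a : K) ∈ U) {y : F} (hy : y ∈ U) (q : (↥Λ)[X]) :
    aeval y (q.map Λ.subtype) ∈ U := by
  rw [Polynomial.aeval_eq_sum_range]
  refine U.sum_mem (fun k _ => ?_)
  rw [Algebra.smul_def, Polynomial.coeff_map]
  exact U.mul_mem (hΛU _) (U.pow_mem hy k)

theorem rev_mul_mem {x x' : F} (hxx' : x * x' = 1) {e' : Fin n → F} {Λ : Subring K}
    (q : (↥Λ)[X]) {d : ℕ} (hd : q.natDegree ≤ d) {g : F} (hg : g ∈ latt x' e' Λ) :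
    x' ^ d * aeval x (q.map Λ.subtype) * g ∈ latt x' e' Λ := by
  rw [Polynomial.aeval_eq_sum_range, Finset.mul_sum, Finset.sum_mul]
  refine latt_sum _ _ (fun k hk => ?_)
  have hk' : k ≤ d := by
    have h1 := Finset.mem_range.mp hk
    have h2 : (q.map Λ.subtype).natDegree ≤ q.natDegree := Polynomial.natDegree_map_le
    omega
  have h3 : x' ^ d * x ^ k = x' ^ (d - k) := by
    have h5 : x' ^ d = x' ^ (d - k) * x' ^ k := by rw [← pow_add, Nat.sub_add_cancel hk']
    rw [h5, mul_assoc, ← mul_pow, mul_comm x' x, hxx', one_pow, mul_one]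
  rw [Polynomial.coeff_map, Algebra.smul_def]
  have h4 : x' ^ d * (algebraMap K F (Λ.subtype (q.coeff k)) * x ^ k) * g
      = algebraMap K F ((q.coeff k : Λ) : K) * (x' ^ (d - k) * g) := by
    rw [← h3]
    show x' ^ d * (algebraMap K F ((q.coeff k : Λ) : K) * x ^ k) * g = _
    ring
  rw [h4]
  exact latt_const_mul _ (latt_pow_mul _ hg)

/-- **Spreading out.**  From chart certificates over `K` to a model over a finitely generated
subring `Λ ⊆ K` with its tautological realisation in `F/K`. -/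
theorem exists_model_of_certs {C : Type w} {C' : Type w} [CommRing C] [Algebra K C]
    [CommRing C'] [Algebra K C'] (ι : C →ₐ[K] F) (ι' : C' →ₐ[K] F)
    (hι : Function.Injective ι) (hι' : Function.Injective ι') (hn : 0 < n)
    (z : C) (z' : C') (hzz' : ι z * ι' z' = 1) (β : Fin n → C) (β' : Fin n → C')
    (hc : ChartCert K C z β) (hc' : ChartCert K C' z' β') (hinf : LocalCertN K C' z' 0 1)
    (htrans : Transcendental K (ι z))
    (hspan : ∀ y : F, ∃ (p : Fin n → K[X]) (s : K[X]), s ≠ 0 ∧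
      aeval (ι z) s * y = ∑ i, aeval (ι z) (p i) * ι (β i))
    (h12 : ∀ f : C', ∃ (m : ℕ) (g : C), ι z ^ m * ι' f = ι g)
    (h21 : ∀ f : C, ∃ (m : ℕ) (g : C'), ι' z' ^ m * ι f = ι' g)
    (S₀ : Finset K) :
    ∃ (Λ : Type u) (_ : CommRing Λ) (U : Type v) (_ : CommRing U) (_ : Algebra Λ U)
      (M : Model Λ U n) (φ : Λ →+* K) (ψ : U →+* F),
      Real M K F φ ψ ∧ Function.Injective φ ∧ Function.Injective ψ ∧
      (∃ s : Finset Λ, Subring.closure (s : Set Λ) = ⊤) ∧
      ψ M.x = ι z ∧ ψ M.x' = ι' z' ∧ (∀ i, ψ (M.b i : U) = ι (β i)) ∧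
      (∀ i, ψ (M.b' i : U) = ι' (β' i)) ∧ (∀ a ∈ S₀, a ∈ Set.range φ) := by
  classical
  choose m12 g12 h12' using fun i => h12 (β' i)
  choose m21 g21 h21' using fun i => h21 (β i)
  -- the eventual conditions
  have one1 : Ev (fun Λ : Subring K => (1 : F) ∈ latt (ι z) (fun i => ι (β i)) Λ) :=
    (ev_mem_latt ι z β hc.free 1).mono (fun Λ h => by rwa [map_one] at h)
  have mul1 : Ev (fun Λ : Subring K => ∀ i j, ι (β i) * ι (β j) ∈ latt (ι z) (fun i => ι (β i)) Λ) :=
    ev_all fun i => ev_all fun j =>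
      (ev_mem_latt ι z β hc.free (β i * β j)).mono (fun Λ h => by rwa [map_mul] at h)
  have one2 : Ev (fun Λ : Subring K => (1 : F) ∈ latt (ι' z') (fun i => ι' (β' i)) Λ) :=
    (ev_mem_latt ι' z' β' hc'.free 1).mono (fun Λ h => by rwa [map_one] at h)
  have mul2 : Ev (fun Λ : Subring K =>
      ∀ i j, ι' (β' i) * ι' (β' j) ∈ latt (ι' z') (fun i => ι' (β' i)) Λ) :=
    ev_all fun i => ev_all fun j =>
      (ev_mem_latt ι' z' β' hc'.free (β' i * β' j)).mono (fun Λ h => by rwa [map_mul] at h)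
  have t12 : Ev (fun Λ : Subring K => ∀ i, ι (g12 i) ∈ latt (ι z) (fun i => ι (β i)) Λ) :=
    ev_all fun i => ev_mem_latt ι z β hc.free (g12 i)
  have t21 : Ev (fun Λ : Subring K => ∀ i, ι' (g21 i) ∈ latt (ι' z') (fun i => ι' (β' i)) Λ) :=
    ev_all fun i => ev_mem_latt ι' z' β' hc'.free (g21 i)
  have cert1 := ev_chartCert (F := F) ι hι z β hc
  have cert2 := ev_chartCert (F := F) ι' hι' z' β' hc'
  have certinf := ev_localCert (F := F) ι' z' β' hc'.free hinf
  have hS0 : Ev (fun Λ : Subring K => ∀ a ∈ S₀, a ∈ Λ) := ⟨S₀, fun Λ hΛ a ha => hΛ ha⟩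
  obtain ⟨S, hS⟩ := one1.and <| mul1.and <| one2.and <| mul2.and <| t12.and <| t21.and <|
    cert1.and <| cert2.and <| certinf.and hS0
  obtain ⟨h1, hmul, h1', hmul', ht12, ht21, hcert1, hcert2, hcertinf, hS0'⟩ :=
    hS (Subring.closure (S : Set K)) Subring.subset_closure
  -- abbreviations
  set Λ : Subring K := Subring.closure (S : Set K) with hΛdef
  set x : F := ι z with hx
  set x' : F := ι' z' with hx'
  set e : Fin n → F := fun i => ι (β i) with he
  set e' : Fin n → F := fun i => ι' (β' i) with he'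
  let U : Subring F := overlap x e Λ h1 hmul
  let algU : Algebra ↥Λ ↥U := overlapAlgebra x e Λ h1 hmul
  let ψ : ↥U →+* F := U.subtype
  have hψ : ∀ a : Λ, ψ (algebraMap ↥Λ ↥U a) = algebraMap K F (a : K) := fun a => rfl
  have hLU : ∀ g ∈ latt x e Λ, g ∈ U := fun g hg => ⟨0, by simpa using hg⟩
  have hxL : x ∈ latt x e Λ := by simpa using latt_x_mul h1
  have hxL' : x' ∈ latt x' e' Λ := by simpa using latt_x_mul h1'
  have hx'U : x' ∈ U := ⟨1, by rw [pow_one, hzz']; exact h1⟩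
  have he'U : ∀ i, e' i ∈ U := fun i => ⟨m12 i, by rw [h12' i]; exact ht12 i⟩
  have hΛU : ∀ a : Λ, algebraMap K F (a : K) ∈ U := fun a =>
    hLU _ (by simpa using latt_const_mul a h1)
  have hL'U : ∀ g ∈ latt x' e' Λ, g ∈ U := by
    rintro g ⟨p, rfl⟩
    exact U.sum_mem (fun i _ => U.mul_mem (aeval_mem_subring U Λ hΛU hx'U (p i)) (he'U i))
  let B : Subalgebra ↥Λ ↥U := chartSub ψ hψ x e h1 hmul
  let B' : Subalgebra ↥Λ ↥U := chartSub ψ hψ x' e' h1' hmul'
  let xU : ↥U := ⟨x, hLU x hxL⟩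
  let xU' : ↥U := ⟨x', hx'U⟩
  have hxB : xU ∈ B := hxL
  have hxB' : xU' ∈ B' := hxL'
  let bU : Fin n → ↥U := fun i => ⟨e i, hLU _ (latt_basis i)⟩
  let bU' : Fin n → ↥U := fun i => ⟨e' i, he'U i⟩
  have hbB : ∀ i, bU i ∈ B := fun i => (latt_basis i : e i ∈ latt x e Λ)
  have hbB' : ∀ i, bU' i ∈ B' := fun i => (latt_basis i : e' i ∈ latt x' e' Λ)
  have form1 := isForm_chartSub ψ Subtype.val_injective hψ x e h1 hmul
    (fun g hg => ⟨⟨g, hLU g hg⟩, rfl⟩) xU rfl hxB bU (fun i => rfl) hbB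
  have form2 := isForm_chartSub ψ Subtype.val_injective hψ x' e' h1' hmul'
    (fun g hg => ⟨⟨g, hL'U g hg⟩, rfl⟩) xU' rfl hxB' bU' (fun i => rfl) hbB'
  have hBm : ∀ u : ↥U, ∃ m : ℕ, xU ^ m * u ∈ B := by
    intro u
    obtain ⟨m, hm⟩ := u.2
    exact ⟨m, hm⟩
  have hBm' : ∀ u : ↥U, ∃ m : ℕ, xU' ^ m * u ∈ B' := by
    intro u
    obtain ⟨m, p, hp⟩ := u.2
    let D : ℕ := ∑ i, ((p i).natDegree + m21 i)
    have hD : ∀ i, (p i).natDegree + m21 i ≤ D :=
      fun i => Finset.single_le_sum (f := fun i => (p i).natDegree + m21 i)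
        (fun _ _ => Nat.zero_le _) (Finset.mem_univ i)
    refine ⟨D, ?_⟩
    show x' ^ D * (u : F) ∈ latt x' e' Λ
    have hx'x : x' * x = 1 := by rw [mul_comm]; exact hzz'
    have h5 : x' ^ D * (u : F) = x' ^ (D + m) * (x ^ m * (u : F)) := by
      rw [pow_add, mul_assoc, ← mul_assoc (x' ^ m), ← mul_pow, hx'x, one_pow, one_mul]
    rw [h5, hp, Finset.mul_sum]
    refine latt_sum _ _ (fun i _ => ?_)
    have h6 : x' ^ (D + m) * (aeval x ((p i).map Λ.subtype) * e i)
        = x' ^ (D + m - m21 i) * aeval x ((p i).map Λ.subtype) * (x' ^ m21 i * e i) := by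
      have h7 : x' ^ (D + m) = x' ^ (D + m - m21 i) * x' ^ m21 i := by
        rw [← pow_add, Nat.sub_add_cancel]
        have := hD i
        omega
      rw [h7]; ring
    rw [h6, h21' i]
    refine rev_mul_mem hzz' (p i) ?_ (ht21 i)
    have := hD i
    omega
  let M : Model ↥Λ ↥U n :=
    { x := xU
      x' := xU'
      B := B
      B' := B'
      b := fun i => ⟨bU i, hbB i⟩
      b' := fun i => ⟨bU' i, hbB' i⟩
      hxx' := Subtype.ext hzz'
      hx := hxB
      hx' := hxB'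
      cert := hcert1 ↥B _ _ _ form1
      cert' := hcert2 ↥B' _ _ _ form2
      cert_inf := hcertinf ↥B' _ _ _ form2 0 rfl
      hB := hBm
      hB' := hBm'
      pos := hn }
  refine ⟨↥Λ, inferInstance, ↥U, inferInstance, algU, M, Λ.subtype, ψ, ?_,
    Subtype.val_injective, Subtype.val_injective, ?_, rfl, rfl, fun i => rfl, fun i => rfl,
    fun a ha => ⟨⟨a, hS0' a ha⟩, rfl⟩⟩
  · exact
      { compat := fun a => rfl
        trans := htrans
        span := hspan
        indep := fun p hp => indep_of_free ι hι z β hc.free p 0 (hp.trans (by simp)) }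
  · refine ⟨(S.finite_toSet.preimage Subtype.val_injective.injOn).toFinset, ?_⟩
    rw [Set.Finite.coe_toFinset]
    exact closure_preimage_eq_top _

end Assembly

end Fermat.Agent.S27P.GR.SpreadB
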