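/-
S27 / (GR), row GR-E3 (twin, helper83): the closed top statement `exists_model`.

For a function field `F/K` (`IsFF1 K F x₀`, `K` algebraically closed of characteristic zero) there
are a finitely generated subring `Λ ⊆ K`, an overlap ring `U ⊆ F` and a two-chart model
`M : Model Λ U n` whose tautological realisation is `F/K`.

Assembly of: GR-E1 (`exists_single_pole_isFF1`, a base function with a single pole), GR-E2a
(`localCertN_inv_of_single_pole`), GR-E2b (`ExistChartB.exists_chartCert_pair`) and the spreading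
out core `SpreadB.exists_model_of_certs`.
-/
import Mathlib
import Fermat.Agent.S27P.GR.SpreadB
import Fermat.Agent.S27P.GR.ExistPole
import Fermat.Agent.S27P.GR.ExistLocal
import Fermat.Agent.S27P.GR.ExistChartB

set_option autoImplicit false

noncomputable section

namespace Fermat.Agent.S27P.GR.SpreadBTop

open Polynomial AlgebraicCurve IntermediateField Fermat.Agent.Lib.FF Fermat.Agent.Lib.FF.IntP
open scoped IntermediateField.algebraAdjoinAdjoin

universe u v

variable {K : Type u} {F : Type v} [Field K] [Field F] [Algebra K F]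

/-- If `f` is regular wherever `t⁻¹` is, then `t ^ m * f` is regular wherever `t` is, for a
suitable `m`. -/
theorem exists_pow_mul_ord_nonneg [HasPrincipalDivisors K F] (t : F) (ht : t ≠ 0) (f : F)
    (hf : ∀ v : Place K F, 0 ≤ v.ord t⁻¹ → 0 ≤ v.ord f) :
    ∃ m : ℕ, ∀ v : Place K F, 0 ≤ v.ord t → 0 ≤ v.ord (t ^ m * f) := by
  rcases eq_or_ne f 0 with rfl | hf0
  · exact ⟨0, fun v _ => by simp⟩
  obtain ⟨D, hD, -⟩ := HasPrincipalDivisors.exists_divisor (K := K) t ht
  refine ⟨∑ v ∈ D.support, (v.ord f).natAbs, fun v hv => ?_⟩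
  have hpow : v.ord (t ^ (∑ w ∈ D.support, (w.ord f).natAbs))
      = ((∑ w ∈ D.support, (w.ord f).natAbs : ℕ) : ℤ) * v.ord t := by
    rw [← zpow_natCast, v.ord_zpow]
  rw [v.ord_mul (pow_ne_zero _ ht) hf0, hpow]
  rcases hv.eq_or_lt with h0 | hpos
  · rw [← h0, mul_zero, zero_add]
    exact hf v (by rw [v.ord_inv, ← h0]; simp)
  · have hmem : v ∈ D.support := by
      rw [Finsupp.mem_support_iff, hD]
      omega
    have h1 : (v.ord f).natAbs ≤ ∑ w ∈ D.support, (w.ord f).natAbs :=
      Finset.single_le_sum (f := fun w : Place K F => (w.ord f).natAbs)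
        (fun _ _ => Nat.zero_le _) hmem
    have h1' : ((v.ord f).natAbs : ℤ) ≤ ((∑ w ∈ D.support, (w.ord f).natAbs : ℕ) : ℤ) := by
      exact_mod_cast h1
    have h2 : (1 : ℤ) ≤ v.ord t := hpos
    have h4 : -(v.ord f) ≤ ((v.ord f).natAbs : ℤ) := by omega
    have h5 : (0 : ℤ) ≤ ((∑ w ∈ D.support, (w.ord f).natAbs : ℕ) : ℤ) := Int.natCast_nonneg _
    nlinarith

/-- **GR-E3, top statement.**  Every function field over an algebraically closed field of
characteristic zero has a two-chart model over a finitely generated subring of the constants. -/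
theorem exists_model [IsAlgClosed K] [CharZero K] {x₀ : F} (h₀ : IsFF1 K F x₀) (S₀ : Finset K) :
    ∃ (n : ℕ) (Λ : Type u) (_ : CommRing Λ) (U : Type v) (_ : CommRing U) (_ : Algebra Λ U)
      (M : Model Λ U n) (φ : Λ →+* K) (ψ : U →+* F),
      Real M K F φ ψ ∧ Function.Injective φ ∧ Function.Injective ψ ∧
      (∃ s : Finset Λ, Subring.closure (s : Set Λ) = ⊤) ∧ IsFF1 K F (ψ M.x) ∧
      (∀ a ∈ S₀, a ∈ Set.range φ) := by
  obtain ⟨x, P₀, hx, hP₀, huniq⟩ := exists_single_pole_isFF1 h₀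
  have hxt : Transcendental K x := hx.transcendental
  have : FiniteDimensional K⟮x⟯ F := hx.finiteDimensional
  have hx0 : x ≠ 0 := by
    rintro rfl
    exact hxt isAlgebraic_zero
  have hxt' : Transcendental K x⁻¹ := fun h => hxt (by simpa using h.inv)
  have : FiniteDimensional K⟮x⁻¹⟯ F := ExistPole.finiteDimensional_of_transcendental h₀ hxt'
  have : HasPrincipalDivisors K F := hx.hasPrincipalDivisors
  obtain ⟨n, β, β', -, hn, hc, hc'⟩ := ExistChartB.exists_chartCert_pair x hxt hxt'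
  have hinf := localCertN_inv_of_single_pole x hxt' P₀ hP₀ huniq
  let ι : integralClosure (Algebra.adjoin K {x}) F →ₐ[K] F :=
    (integralClosure (Algebra.adjoin K {x}) F).val.restrictScalars K
  let ι' : integralClosure (Algebra.adjoin K {x⁻¹}) F →ₐ[K] F :=
    (integralClosure (Algebra.adjoin K {x⁻¹}) F).val.restrictScalars K
  have hιx : ι (xInt K x) = x := rfl
  have hιx' : ι' (xInt K x⁻¹) = x⁻¹ := rfl
  have hspan : ∀ y : F, ∃ (p : Fin n → K[X]) (s : K[X]), s ≠ 0 ∧
      aeval (ι (xInt K x)) s * y = ∑ i, aeval (ι (xInt K x)) (p i) * ι (β i) := by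
    have hloc : IsLocalization (Algebra.algebraMapSubmonoid
        (integralClosure (Algebra.adjoin K {x}) F) (nonZeroDivisors (Algebra.adjoin K {x}))) F :=
      IsIntegralClosure.isLocalization (Algebra.adjoin K {x}) K⟮x⟯ F _
    intro y
    obtain ⟨⟨c, s⟩, hcs⟩ := IsLocalization.surj (Algebra.algebraMapSubmonoid
        (integralClosure (Algebra.adjoin K {x}) F) (nonZeroDivisors (Algebra.adjoin K {x}))) y
    obtain ⟨r, hr, hrs⟩ := s.2
    obtain ⟨P, hP⟩ : ∃ P : K[X], aeval x P = (r : F) := by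
      have h1 : (r : F) ∈ (Polynomial.aeval x : K[X] →ₐ[K] F).range := by
        rw [← Algebra.adjoin_singleton_eq_range_aeval]
        exact r.2
      exact h1
    obtain ⟨p, hp, -⟩ := hc.free c
    refine ⟨p, P, ?_, ?_⟩
    · rintro rfl
      have hr0 : r = 0 := Subtype.ext (by rw [← hP]; simp)
      rw [hr0] at hr
      exact zero_notMem_nonZeroDivisors hr
    · have h2 : y * (r : F) = (c : F) := by
        have h3 : ((s : integralClosure (Algebra.adjoin K {x}) F) : F) = (r : F) := by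
          rw [← hrs]; rfl
        rw [← h3]
        exact hcs
      rw [hιx, hP, mul_comm, h2]
      have h4 := SpreadB.ι_rep ι (xInt K x) β p
      rw [← hp] at h4
      exact h4
  have h12 : ∀ f : integralClosure (Algebra.adjoin K {x⁻¹}) F, ∃ (m : ℕ)
      (g : integralClosure (Algebra.adjoin K {x}) F), ι (xInt K x) ^ m * ι' f = ι g := by
    intro f
    have hf : ∀ v : Place K F, 0 ≤ v.ord x⁻¹ → 0 ≤ v.ord (f : F) :=
      (mem_integralClosure_iff x⁻¹ hxt' (f : F)).mp f.2
    obtain ⟨m, hm⟩ := exists_pow_mul_ord_nonneg x hx0 (f : F) hf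
    exact ⟨m, ⟨x ^ m * f, (mem_integralClosure_iff x hxt _).mpr hm⟩, rfl⟩
  have h21 : ∀ f : integralClosure (Algebra.adjoin K {x}) F, ∃ (m : ℕ)
      (g : integralClosure (Algebra.adjoin K {x⁻¹}) F), ι' (xInt K x⁻¹) ^ m * ι f = ι' g := by
    intro f
    have hf : ∀ v : Place K F, 0 ≤ v.ord (x⁻¹)⁻¹ → 0 ≤ v.ord (f : F) := by
      rw [inv_inv]
      exact (mem_integralClosure_iff x hxt (f : F)).mp f.2
    obtain ⟨m, hm⟩ := exists_pow_mul_ord_nonneg x⁻¹ (inv_ne_zero hx0) (f : F) hf
    exact ⟨m, ⟨x⁻¹ ^ m * f, (mem_integralClosure_iff x⁻¹ hxt' _).mpr hm⟩, rfl⟩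
  obtain ⟨Λ, i1, U, i2, i3, M, φ, ψ, hreal, hφ, hψ, hfg, hMx, -, -, -, hS⟩ :=
    SpreadB.exists_model_of_certs ι ι' Subtype.val_injective Subtype.val_injective hn
      (xInt K x) (xInt K x⁻¹) (mul_inv_cancel₀ hx0) β β' hc hc' hinf hxt hspan h12 h21 S₀
  exact ⟨n, Λ, i1, U, i2, i3, M, φ, ψ, hreal, hφ, hψ, hfg, by rw [hMx]; exact hx, hS⟩

end Fermat.Agent.S27P.GR.SpreadBTop
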