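import Mathlib
import Fermat.Agent.S27P.GR.Defs
import Fermat.Agent.S27P.GR.LocDed

/-!
# S27 / (GR), row GR-BR: the bridge between the two shapes of the local certificate

* `LocalCertN.of_prod` : the "product shape" certificate (`v (z - a) = u ∏ τ j ^ e j` with `u`, `v`
  invertible modulo `z - a`, and residue field `k` at every `(τ j, z - a)`) implies `LocalCertN`;
* `LocalCertN.locGen` : under a `LocalCertN` at `z = a` with `z - a` regular, every maximal ideal
  `𝔫 ∋ z - a` contains some `τ j`, which is a local generator (`LocDed.LocGen 𝔫 (τ j)`).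

Literals: `GR/Literals.lean`, `LocalCertN_of_prod_stmt` and `LocalCertN_locGen_stmt`.
-/

set_option autoImplicit false

namespace Fermat.Agent.S27P.GR

/-- **(GR-BR, i)** The product-shape certificate implies `LocalCertN`:
`v_j := v`, `u_j := u τ_j ^ (e_j - 1) ∏_{i ≠ j} τ_i ^ e_i`, `c_j` the residue of `v` at `(τ_j, z - a)`
(`1` if that ideal is the unit ideal), and `∏ τ ^ e = (z - a) (u' v - w₁ ∏ τ ^ e)`. -/
theorem LocalCertN.of_prod {k R : Type*} [Field k] [CommRing R] [Algebra k R] (z : R) (a : k)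
    {m : ℕ} (τ : Fin m → R) (e : Fin m → ℕ) (he : ∀ j, 0 < e j) (u v u' v' w₁ w₂ : R)
    (huv : v * (z - algebraMap k R a) = u * ∏ j, τ j ^ e j)
    (hu : u * u' = 1 + (z - algebraMap k R a) * w₁)
    (hv : v * v' = 1 + (z - algebraMap k R a) * w₂)
    (hres : ∀ (j : Fin m) (y : R), ∃ (c : k) (y₁ y₂ : R),
      y = algebraMap k R c + τ j * y₁ + (z - algebraMap k R a) * y₂) :
    LocalCertN k R z a m := by
  classical
  set d : R := z - algebraMap k R a with hd
  -- (C2): the unit constants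
  have hc : ∀ j : Fin m, ∃ (c : kˣ) (r s : R), v - algebraMap k R (c : k) = τ j * r + d * s := by
    intro j
    obtain ⟨c, y₁, y₂, hy⟩ := hres j v
    by_cases hc0 : c = 0
    · -- then `(τ j, d)` is the unit ideal: `1 = τ j * (y₁ v') + d * (y₂ v' - w₂)`
      have h1 : (1 : R) = τ j * (y₁ * v') + d * (y₂ * v' - w₂) := by
        have hv0 : v = τ j * y₁ + d * y₂ := by
          rw [hy, hc0, map_zero, zero_add]
        linear_combination (-1 : R) * hv + v' * hv0
      refine ⟨1, (v - 1) * (y₁ * v'), (v - 1) * (y₂ * v' - w₂), ?_⟩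
      rw [Units.val_one, map_one]
      linear_combination (v - 1) * h1
    · exact ⟨Units.mk0 c hc0, y₁, y₂, by rw [Units.val_mk0]; linear_combination hy⟩
  choose c r s hcrs using hc
  -- (C3)
  have hres' : ∀ (j : Fin m) (f : R), ∃ (κ : k) (r s : R),
      f - algebraMap k R κ = τ j * r + d * s := by
    intro j f
    obtain ⟨κ, y₁, y₂, hy⟩ := hres j f
    exact ⟨κ, y₁, y₂, by linear_combination hy⟩
  -- (C4)
  have hprod : ∏ j, τ j ^ e j = d * (u' * v - w₁ * ∏ j, τ j ^ e j) := by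
    linear_combination (-(∏ j, τ j ^ e j)) * hu - u' * huv
  have hN : ∀ j : Fin m, e j ≤ ∑ i, e i :=
    fun j => Finset.single_le_sum (fun i _ => Nat.zero_le (e i)) (Finset.mem_univ j)
  have hpow : (∏ j, τ j) ^ (∑ i, e i) =
      (∏ j, τ j ^ e j) * ∏ j, τ j ^ ((∑ i, e i) - e j) := by
    rw [← Finset.prod_pow, ← Finset.prod_mul_distrib]
    refine Finset.prod_congr rfl fun j _ => ?_
    rw [← pow_add, Nat.add_sub_cancel' (hN j)]
  refine ⟨τ, fun _ => v, fun j => u * τ j ^ (e j - 1) * ∏ i ∈ Finset.univ.erase j, τ i ^ e i, c,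
    ∑ i, e i, (u' * v - w₁ * ∏ j, τ j ^ e j) * ∏ j, τ j ^ ((∑ i, e i) - e j),
    fun j => ?_, fun j => ⟨r j, s j, hcrs j⟩, hres', ?_⟩
  · -- (C1)
    have hsplit : ∏ i, τ i ^ e i = τ j ^ e j * ∏ i ∈ Finset.univ.erase j, τ i ^ e i :=
      (Finset.mul_prod_erase Finset.univ (fun i => τ i ^ e i) (Finset.mem_univ j)).symm
    have hej : τ j ^ e j = τ j ^ (e j - 1) * τ j := by
      rw [← pow_succ, Nat.sub_add_cancel (he j)]
    rw [huv, hsplit, hej]
    ring
  · rw [hpow]
    linear_combination (∏ j, τ j ^ ((∑ i, e i) - e j)) * hprod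

/-- **(GR-BR, ii)** Under a local certificate at `z = a` with `z - a` regular, every maximal ideal
`𝔫 ∋ z - a` contains one of the uniformisers `τ j`, and it is a local generator of `𝔫`
(multiplier `v j ∉ 𝔫`). -/
theorem LocalCertN.locGen {k R : Type*} [Field k] [CommRing R] [Algebra k R] {z : R} {a : k}
    {m : ℕ} (h : LocalCertN k R z a m)
    (hreg : ∀ y : R, (z - algebraMap k R a) * y = 0 → y = 0) (𝔫 : Ideal R) (h𝔫 : 𝔫.IsMaximal)
    (hz : z - algebraMap k R a ∈ 𝔫) : ∃ t ∈ 𝔫, LocDed.LocGen 𝔫 t := by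
  classical
  obtain ⟨τ, v, u, c, N, w, h1, h2, h3, h4⟩ := h
  set d : R := z - algebraMap k R a with hd
  have := h𝔫.isPrime
  -- a nonzero constant is not in `𝔫`
  have hconst : ∀ κ : k, algebraMap k R κ ∈ 𝔫 → κ = 0 := by
    intro κ hκ
    by_contra hne
    apply h𝔫.ne_top
    rw [Ideal.eq_top_iff_one]
    have : algebraMap k R κ⁻¹ * algebraMap k R κ = 1 := by
      rw [← map_mul, inv_mul_cancel₀ hne, map_one]
    rw [← this]
    exact 𝔫.mul_mem_left _ hκ
  -- some `τ j` lies in `𝔫`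
  have hprod : ∏ j, τ j ∈ 𝔫 := by
    have hmem : (∏ j, τ j) ^ N ∈ 𝔫 := by
      rw [h4]
      exact 𝔫.mul_mem_right _ hz
    exact h𝔫.isPrime.mem_of_pow_mem N hmem
  obtain ⟨j, -, hj⟩ := (Ideal.IsPrime.prod_mem_iff (hp := h𝔫.isPrime)).1 hprod
  -- the multiplier `v j` is not in `𝔫`
  have hvj : v j ∉ 𝔫 := by
    intro hv
    obtain ⟨r, s, hrs⟩ := h2 j
    have hmem : algebraMap k R (c j : k) ∈ 𝔫 := by
      have h5 : algebraMap k R (c j : k) = v j - (τ j * r + d * s) := by
        rw [← hrs]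
        ring
      rw [h5]
      exact 𝔫.sub_mem hv (𝔫.add_mem (𝔫.mul_mem_right _ hj) (𝔫.mul_mem_right _ hz))
    exact (c j).ne_zero (hconst _ hmem)
  refine ⟨τ j, hj, hj, fun y hy => ⟨v j, hvj, ?_⟩, fun y hy => ⟨v j, hvj, ?_⟩⟩
  · -- `τ j * y = 0 ⟹ v j * y = 0`
    apply hreg
    have h6 : d * (v j * y) = u j * (τ j * y) := by
      linear_combination y * h1 j
    rw [h6, hy, mul_zero]
  · -- `y ∈ 𝔫 ⟹ v j * y ∈ (τ j)`
    obtain ⟨κ, r, s, hrs⟩ := h3 j y
    have hκ : κ = 0 := by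
      apply hconst
      have h5 : algebraMap k R κ = y - (τ j * r + d * s) := by
        rw [← hrs]
        ring
      rw [h5]
      exact 𝔫.sub_mem hy (𝔫.add_mem (𝔫.mul_mem_right _ hj) (𝔫.mul_mem_right _ hz))
    rw [hκ, map_zero, sub_zero] at hrs
    exact ⟨v j * r + u j * s, by rw [hrs]; linear_combination s * h1 j⟩

end Fermat.Agent.S27P.GR
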