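import Mathlib

/-!
# (GR-CERTEX): existence of the local certificate in the generic fibre

`B` a Dedekind domain and `t ≠ 0` in `B`.  Let `P_1, …, P_s` be the maximal ideals above `t`
and `(t) = ∏ P_j ^ e_j`.  Then there are `τ_j ∈ B` and `v ∈ B` with

* `P_j = (τ_j, t)`,
* `v * t = ∏ τ_j ^ e_j`,
* `v` invertible modulo `t`.

For `B` finite and torsion-free over `K[X]`, `K` algebraically closed, and `t = X - a`, every
residue field `B ⧸ P_j` is `K`, which gives the tuple `(J, τ, e, u, v)` consumed on the special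
fibre (with `u = 1`).

Mathlib only; universe-polymorphic; characteristic-free.
-/

namespace Fermat.Agent.S27P.GR.CertEx

open Polynomial

/-- In a Dedekind domain, a uniformiser `τ ∈ P ∖ P ^ 2` has `τ ^ n ∉ P ^ (n + 1)`. -/
theorem pow_notMem_pow_succ {B : Type*} [CommRing B] [IsDedekindDomain B] {P : Ideal B}
    (hP : Prime P) {τ : B} (hτ : τ ∈ P) (hτ2 : τ ∉ P ^ 2) (n : ℕ) : τ ^ n ∉ P ^ (n + 1) := by
  intro h
  obtain ⟨J, hJ⟩ := Ideal.dvd_span_singleton.mpr hτ
  have hPJ : ¬ P ∣ J := by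
    rintro ⟨J', rfl⟩
    apply hτ2
    rw [← Ideal.dvd_span_singleton, hJ, ← mul_assoc, ← sq]
    exact dvd_mul_right _ _
  have h1 : P ^ (n + 1) ∣ Ideal.span {τ ^ n} := Ideal.dvd_span_singleton.mpr h
  rw [← Ideal.span_singleton_pow, hJ, mul_pow, pow_succ] at h1
  have h2 : P ∣ J ^ n := (mul_dvd_mul_iff_left (pow_ne_zero n hP.ne_zero)).mp h1
  exact hPJ (hP.dvd_of_dvd_pow h2)

/-- Finset-indexed form of `exists_uniformisers`. -/
theorem exists_uniformisers_finset {B : Type*} [CommRing B] [IsDedekindDomain B] (t : B)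
    (ht : t ≠ 0) :
    ∃ (S : Finset (Ideal B)) (τ : Ideal B → B) (e : Ideal B → ℕ) (v : B),
      (∀ P ∈ S, P.IsMaximal) ∧ (∀ P ∈ S, 0 < e P) ∧
      (∀ m : Ideal B, m.IsMaximal → t ∈ m → m ∈ S) ∧
      Ideal.span {t} = ∏ P ∈ S, P ^ e P ∧ (∀ P ∈ S, P = Ideal.span {τ P, t}) ∧
      v * t = ∏ P ∈ S, τ P ^ e P ∧ (∃ v' w : B, v * v' = 1 + t * w) := by
  classical
  set I : Ideal B := Ideal.span {t} with hIdef
  have hI : I ≠ ⊥ := by
    rw [hIdef, Ne, Ideal.span_singleton_eq_bot]; exact ht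
  set M := UniqueFactorizationMonoid.normalizedFactors I with hM
  set S : Finset (Ideal B) := M.toFinset with hS
  set e : Ideal B → ℕ := fun P => M.count P with he
  have hprod : I = ∏ P ∈ S, P ^ e P := by
    rw [← Finset.prod_multiset_count, hM, Ideal.prod_normalizedFactors_eq_self hI]
  have hmemS : ∀ P, P ∈ S ↔ P.IsPrime ∧ I ≤ P := by
    intro P
    rw [hS, Multiset.mem_toFinset, hM, Ideal.mem_normalizedFactors_iff hI]
  have htI : t ∈ I := Ideal.mem_span_singleton_self t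
  have hne : ∀ P ∈ S, P ≠ ⊥ := by
    intro P hP h0
    have := ((hmemS P).mp hP).2 htI
    rw [h0, Ideal.mem_bot] at this
    exact ht this
  have hmax : ∀ P ∈ S, P.IsMaximal := fun P hP =>
    ((hmemS P).mp hP).1.isMaximal (hne P hP)
  have hprime : ∀ P ∈ S, Prime P := fun P hP =>
    (Ideal.prime_iff_isPrime (hne P hP)).mpr ((hmemS P).mp hP).1
  have hepos : ∀ P ∈ S, 0 < e P := by
    intro P hP
    rw [he]
    exact Multiset.count_pos.mpr (Multiset.mem_toFinset.mp hP)
  have hmS : ∀ m : Ideal B, m.IsMaximal → t ∈ m → m ∈ S := by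
    intro m hm htm
    rw [hmemS]
    refine ⟨hm.isPrime, ?_⟩
    rw [hIdef, Ideal.span_le]
    simpa using htm
  -- choose uniformisers
  have hπ : ∀ P : Ideal B, ∃ x : B, P ∈ S → (x ∈ P ∧ x ∉ P ^ 2) := by
    intro P
    by_cases hP : P ∈ S
    · obtain ⟨x, hx, hx2⟩ :=
        Ideal.exists_mem_pow_notMem_pow_succ P (hne P hP) (hmax P hP).ne_top 1
      exact ⟨x, fun _ => ⟨by simpa using hx, by simpa using hx2⟩⟩
    · exact ⟨0, fun h => absurd h hP⟩
  choose π hπ using hπ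
  -- CRT
  have hτ : ∀ P₀ : Ideal B, ∃ y : B, P₀ ∈ S →
      (y ∈ P₀ ∧ y ∉ P₀ ^ 2 ∧ ∀ Q ∈ S, Q ≠ P₀ → y ∉ Q) := by
    intro P₀
    by_cases hP₀ : P₀ ∈ S
    · obtain ⟨y, hy⟩ := IsDedekindDomain.exists_forall_sub_mem_ideal (s := S)
        (fun Q : Ideal B => Q) (fun Q => if Q = P₀ then 2 else 1)
        (fun Q hQ => hprime Q hQ) (fun Q _ Q' _ h => h)
        (fun Q => if (Q : Ideal B) = P₀ then π P₀ else 1)
      refine ⟨y, fun _ => ?_⟩
      have h0 := hy P₀ hP₀
      simp only [if_true] at h0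
      have hπ0 := hπ P₀ hP₀
      refine ⟨?_, ?_, ?_⟩
      · have : y - π P₀ ∈ P₀ := Ideal.pow_le_self (by norm_num) h0
        have := P₀.add_mem this hπ0.1
        simpa using this
      · intro hy2
        apply hπ0.2
        have := (P₀ ^ 2).sub_mem hy2 h0
        simpa using this
      · intro Q hQ hQP hyQ
        have h1 := hy Q hQ
        simp only [if_neg hQP, pow_one] at h1
        have := Q.sub_mem hyQ h1
        have h1Q : (1 : B) ∈ Q := by simpa using this
        exact (hmax Q hQ).ne_top ((Ideal.eq_top_iff_one Q).mpr h1Q)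
    · exact ⟨0, fun h => absurd h hP₀⟩
  choose τ hτ using hτ
  -- the product
  have hT : (∏ P ∈ S, τ P ^ e P) ∈ I := by
    rw [hprod]
    exact Ideal.prod_mem_prod fun P hP => Ideal.pow_mem_pow (hτ P hP).1 _
  obtain ⟨v, hv⟩ := Ideal.mem_span_singleton'.mp hT
  -- `v` is in no `P ∈ S`
  have hvP : ∀ P₀ ∈ S, v ∉ P₀ := by
    intro P₀ hP₀ hvP₀
    have : P₀.IsPrime := (hmax P₀ hP₀).isPrime
    have hIle : I ≤ P₀ ^ e P₀ := by
      rw [hprod]
      exact Ideal.le_of_dvd (Finset.dvd_prod_of_mem (fun P => P ^ e P) hP₀)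
    have h1 : v * t ∈ P₀ ^ (e P₀ + 1) := by
      rw [pow_succ, mul_comm v t]
      exact Ideal.mul_mem_mul (hIle htI) hvP₀
    rw [hv, ← Finset.mul_prod_erase S _ hP₀, mul_comm] at h1
    rcases Ideal.IsPrime.mul_mem_pow P₀ h1 with h2 | h2
    · rw [Ideal.IsPrime.prod_mem_iff] at h2
      obtain ⟨Q, hQ, hQ2⟩ := h2
      have hQS : Q ∈ S := Finset.mem_of_mem_erase hQ
      have hQne : Q ≠ P₀ := Finset.ne_of_mem_erase hQ
      have h3 : τ Q ∈ P₀ := Ideal.IsPrime.mem_of_pow_mem inferInstance _ hQ2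
      exact (hτ Q hQS).2.2 P₀ hP₀ (Ne.symm hQne) h3
    · exact pow_notMem_pow_succ (hprime P₀ hP₀) (hτ P₀ hP₀).1 (hτ P₀ hP₀).2.1 _ h2
  refine ⟨S, τ, e, v, hmax, hepos, hmS, hprod, ?_, hv, ?_⟩
  · -- `P = (τ P, t)`
    intro P₀ hP₀
    have hle : Ideal.span {τ P₀, t} ≤ P₀ := by
      rw [Ideal.span_le]
      intro x hx
      rcases hx with rfl | rfl
      · exact (hτ P₀ hP₀).1
      · exact ((hmemS P₀).mp hP₀).2 htI
    obtain ⟨J', hJ'⟩ := Ideal.dvd_iff_le.mpr hle
    have hJtop : J' = ⊤ := by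
      by_contra hJne
      obtain ⟨m, hm, hJm⟩ := Ideal.exists_le_maximal J' hJne
      have hJle : Ideal.span {τ P₀, t} ≤ m := by
        rw [hJ']; exact Ideal.mul_le_right.trans hJm
      have htm : t ∈ m := hJle (Ideal.subset_span (by simp))
      have hτm : τ P₀ ∈ m := hJle (Ideal.subset_span (by simp))
      have hmS' : m ∈ S := hmS m hm htm
      have hmP : m = P₀ := by
        by_contra hne'
        exact (hτ P₀ hP₀).2.2 m hmS' hne' hτm
      rw [hmP] at hJm
      obtain ⟨J'', hJ''⟩ := Ideal.dvd_iff_le.mpr hJm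
      apply (hτ P₀ hP₀).2.1
      have : Ideal.span {τ P₀, t} ≤ P₀ ^ 2 := by
        rw [hJ', hJ'', ← mul_assoc, ← sq]
        exact Ideal.mul_le_left
      exact this (Ideal.subset_span (by simp))
    rw [hJ', hJtop, Ideal.mul_top]
  · -- `v` invertible modulo `t`
    have htop : Ideal.span {v, t} = ⊤ := by
      by_contra hne'
      obtain ⟨m, hm, hle⟩ := Ideal.exists_le_maximal _ hne'
      have htm : t ∈ m := hle (Ideal.subset_span (by simp))
      have hvm : v ∈ m := hle (Ideal.subset_span (by simp))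
      exact hvP m (hmS m hm htm) hvm
    have h1 : (1 : B) ∈ Ideal.span {v, t} := by rw [htop]; trivial
    obtain ⟨a, b, hab⟩ := Ideal.mem_span_pair.mp h1
    exact ⟨a, -b, by linear_combination hab⟩

/-- (C0) abstract core: any Dedekind domain, any `t ≠ 0`. -/
theorem exists_uniformisers {B : Type*} [CommRing B] [IsDedekindDomain B] (t : B) (ht : t ≠ 0) :
    ∃ (s : ℕ) (P : Fin s → Ideal B) (τ : Fin s → B) (e : Fin s → ℕ) (v : B),
      (∀ j, (P j).IsMaximal) ∧ Function.Injective P ∧ (∀ j, 0 < e j) ∧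
      (∀ m : Ideal B, m.IsMaximal → t ∈ m → ∃ j, m = P j) ∧
      Ideal.span {t} = ∏ j, P j ^ e j ∧ (∀ j, P j = Ideal.span {τ j, t}) ∧
      v * t = ∏ j, τ j ^ e j ∧ (∃ v' w : B, v * v' = 1 + t * w) := by
  classical
  obtain ⟨S, τ, e, v, hmax, hepos, hmS, hprod, hgen, hv, hinv⟩ := exists_uniformisers_finset t ht
  let φ : Fin S.card ≃ S := S.equivFin.symm
  refine ⟨S.card, fun j => (φ j : Ideal B), fun j => τ (φ j), fun j => e (φ j), v,
    fun j => hmax _ (φ j).2, ?_, fun j => hepos _ (φ j).2, ?_, ?_, fun j => hgen _ (φ j).2, ?_,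
    hinv⟩
  · exact Subtype.val_injective.comp φ.injective
  · intro m hm htm
    exact ⟨φ.symm ⟨m, hmS m hm htm⟩, by simp⟩
  · rw [hprod, ← Finset.prod_coe_sort S (fun P => P ^ e P)]
    exact (Equiv.prod_comp φ (fun P : S => (P : Ideal B) ^ e P)).symm
  · rw [hv, ← Finset.prod_coe_sort S (fun P => τ P ^ e P)]
    exact (Equiv.prod_comp φ (fun P : S => τ P ^ e P)).symm

/-- The residue field at a maximal ideal above `X - a` is `K`: every `y : B` is congruent to a
constant modulo `m`. -/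
theorem exists_const_sub_mem {K : Type*} [Field K] [IsAlgClosed K] {B : Type*} [CommRing B]
    [Algebra K[X] B] [Module.Finite K[X] B] (a : K) (m : Ideal B) (hm : m.IsMaximal)
    (hxm : algebraMap K[X] B (X - C a) ∈ m) (y : B) :
    ∃ c : K, y - algebraMap K[X] B (C c) ∈ m := by
  have : m.IsPrime := hm.isPrime
  let φ : K[X] →+* B ⧸ m := (Ideal.Quotient.mk m).comp (algebraMap K[X] B)
  let ψ : K →+* B ⧸ m := φ.comp C
  have hφ : ψ.comp (evalRingHom a) = φ := by
    apply Polynomial.ringHom_ext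
    · intro c
      simp [ψ]
    · have h0 : φ (X - C a) = 0 := by
        simp only [φ, RingHom.comp_apply]
        exact Ideal.Quotient.eq_zero_iff_mem.mpr hxm
      have h1 : φ X = φ (C a) := by
        rw [map_sub, sub_eq_zero] at h0; exact h0
      simp [ψ, h1]
  have hint : ψ.IsIntegral := by
    intro z
    obtain ⟨y, rfl⟩ := Ideal.Quotient.mk_surjective z
    obtain ⟨p, hp, hpy⟩ := Algebra.IsIntegral.isIntegral (R := K[X]) y
    refine ⟨p.map (evalRingHom a), hp.map _, ?_⟩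
    rw [Polynomial.eval₂_map, hφ]
    have := Polynomial.hom_eval₂ p (algebraMap K[X] B) (Ideal.Quotient.mk m) y
    rw [hpy, map_zero] at this
    exact this.symm
  obtain ⟨c, hc⟩ := (IsAlgClosed.ringHom_bijective_of_isIntegral ψ hint).2 (Ideal.Quotient.mk m y)
  refine ⟨c, ?_⟩
  rw [← Ideal.Quotient.eq_zero_iff_mem, map_sub, sub_eq_zero]
  exact hc.symm

/-- (C1) the local certificate at `x = a`, for `B` Dedekind, finite and torsion-free over `K[X]`,
`K` algebraically closed (with `u = 1`). -/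
theorem exists_cert {K : Type*} [Field K] [IsAlgClosed K] {B : Type*} [CommRing B]
    [IsDedekindDomain B] [Algebra K[X] B] [Module.Finite K[X] B]
    (hinj : Function.Injective (algebraMap K[X] B)) (a : K) :
    ∃ (J : Type) (_ : Fintype J) (τ : J → B) (e : J → ℕ) (u v : B), (∀ j, 0 < e j) ∧
      v * algebraMap K[X] B (X - C a) = u * ∏ j, τ j ^ e j ∧
      (∃ u' w : B, u * u' = 1 + algebraMap K[X] B (X - C a) * w) ∧
      (∃ v' w : B, v * v' = 1 + algebraMap K[X] B (X - C a) * w) ∧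
      ∀ (j : J) (y : B), ∃ (c : K) (y₁ y₂ : B),
        y = algebraMap K[X] B (C c) + τ j * y₁ + algebraMap K[X] B (X - C a) * y₂ := by
  have ht : algebraMap K[X] B (X - C a) ≠ 0 := by
    rw [Ne, map_eq_zero_iff _ hinj]
    exact X_sub_C_ne_zero a
  obtain ⟨s, P, τ, e, v, hmax, -, hepos, -, -, hgen, hv, hinv⟩ := exists_uniformisers _ ht
  refine ⟨Fin s, inferInstance, τ, e, 1, v, hepos, by rw [hv, one_mul], ⟨1, 0, by ring⟩, hinv, ?_⟩
  intro j y
  have htm : algebraMap K[X] B (X - C a) ∈ P j := by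
    rw [hgen j]; exact Ideal.subset_span (by simp)
  obtain ⟨c, hc⟩ := exists_const_sub_mem a (P j) (hmax j) htm y
  rw [hgen j] at hc
  obtain ⟨y₁, y₂, h12⟩ := Ideal.mem_span_pair.mp hc
  exact ⟨c, y₁, y₂, by linear_combination -h12⟩

end Fermat.Agent.S27P.GR.CertEx
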