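import Mathlib
import Fermat.Agent.S27P.GR.Defs
import Fermat.Agent.S27P.Inj.Centre
import Fermat.Agent.Lib.FF.RRApprox
import Fermat.Agent.Lib.FF.Holo
import Fermat.Agent.Lib.Red.PlaceRedLocal

/-!
# S27 / (GR-CHART): the two charts of a reduction are `Inj.Centre.IsChart`s

* `exists_valAt`   : at a place with residue field the constants, a regular function has a value;
* `exists_sep`     : two distinct places on the chart `0 ≤ ord X` are separated by a function
                     regular on the chart (strong approximation);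
* `sep_of_span`    : (SEP) for any set of chart functions spanning the chart ring;
* `sep_of_chartCert` : (SEP) for the image of a chart `B = ⊕ Λ[z] b_i` of a model whose image
                     spans the ring of functions regular on the chart;
* `isChart_of_chartCert` : the `IsChart` instance of one chart, from the value clause of the
                     reduction theorem (`EvK` form);
* `isChart_fin`, `isChart_inf` : the two charts of a `Model`;
* `cover`          : every place lies on the finite chart or on the chart at infinity.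
-/

set_option autoImplicit false
set_option linter.unusedSectionVars false
set_option linter.unusedVariables false

namespace Fermat.Agent.S27P.GR.ChartSep

open Polynomial AlgebraicCurve WithZero
open Fermat.Agent.Lib.FF Fermat.Agent.Lib.Red.PlaceRed Fermat.Agent.S27P.Inj.Centre
open Fermat.Agent.S27P.GR

/-! ### Function fields: values and separation -/

section FF

variable {κ E : Type*} [Field κ] [Field E] [Algebra κ E] {X : E}

/-- At a place whose residue field is the constant field, a regular function has a value. -/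
theorem exists_valAt {v : Place κ E} (hv : RR.ResK v) {f : E} (hf : v.adicValuation f ≤ 1) :
    ∃ c : κ, ValAt v f c := by
  obtain ⟨c, hc⟩ := RR.exists_const_sub v hv (n := 0) (t := 1) (f := f)
    (by rw [map_one, exp_zero]) (by rwa [exp_zero])
  refine ⟨c, ?_⟩
  unfold ValAt
  have e : f - algebraMap κ E c = f - c • (1 : E) := by rw [Algebra.smul_def, mul_one]
  rw [e]
  refine lt_of_le_of_lt hc ?_
  rw [← exp_zero, exp_lt_exp]
  norm_num

/-- The value of a function regular at `v` (in `ord` form). -/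
theorem exists_valAt_of_ord {v : Place κ E} (hv : RR.ResK v) {f : E} (hf : 0 ≤ v.ord f) :
    ∃ c : κ, ValAt v f c :=
  exists_valAt hv ((v.adicValuation_le_one_iff).2 (Or.inr hf))

/-- A function with a value at `v` is regular at `v`. -/
theorem ValAt.ord_nonneg {v : Place κ E} {f : E} {c : κ} (h : ValAt v f c) : 0 ≤ v.ord f := by
  rcases (v.adicValuation_le_one_iff).1 h.le_one with rfl | h0
  · rw [Place.ord_zero]
  · exact h0

/-- **Separation of two places of a chart** by a function regular on the chart. -/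
theorem exists_sep (h : IsFF1 κ E X) {Q Q' : Place κ E} (hne : Q ≠ Q') (hQ : 0 ≤ Q.ord X)
    (hQ' : 0 ≤ Q'.ord X) :
    ∃ f : E, (∀ v : Place κ E, 0 ≤ v.ord X → 0 ≤ v.ord f) ∧ 0 < Q.ord f ∧ Q'.ord f = 0 := by
  classical
  obtain ⟨P₀, hP₀⟩ := h.exists_pole
  have hP₀S : P₀ ∉ ({Q, Q'} : Finset (Place κ E)) := by
    intro hmem
    rw [Finset.mem_insert, Finset.mem_singleton] at hmem
    rcases hmem with rfl | rfl <;> omega
  obtain ⟨f, hf0, hfS, hfout⟩ :=
    h.exists_ord_eq {Q, Q'} P₀ hP₀S (fun v => if v = Q then 1 else 0)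
  refine ⟨f, fun v hv => ?_, ?_, ?_⟩
  · by_cases hvS : v ∈ ({Q, Q'} : Finset (Place κ E))
    · rw [hfS v hvS]
      split_ifs <;> norm_num
    · refine hfout v hvS ?_
      rintro rfl
      omega
  · rw [hfS Q (by simp), if_pos rfl]
    norm_num
  · rw [hfS Q' (by simp), if_neg (Ne.symm hne)]

/-- **(SEP), abstract form.**  If the `κ`-span of a set `S` of functions regular on the chart
`0 ≤ ord X` contains every function regular on the chart, then the places of the chart are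
separated by the values of the functions of `S`. -/
theorem sep_of_span (h : IsFF1 κ E X) (S : Set E)
    (hreg : ∀ s ∈ S, ∀ v : Place κ E, 0 ≤ v.ord X → 0 ≤ v.ord s)
    (hS : ∀ f : E, (∀ v : Place κ E, 0 ≤ v.ord X → 0 ≤ v.ord f) → f ∈ Submodule.span κ S)
    {Q Q' : Place κ E} (hQ : 0 ≤ Q.ord X) (hQ' : 0 ≤ Q'.ord X)
    (hv : ∀ s ∈ S, ∀ γ : κ, ValAt Q s γ → ValAt Q' s γ) : Q = Q' := by
  by_contra hne
  obtain ⟨f, hfreg, hfQ, hfQ'⟩ := exists_sep h hne hQ hQ'
  have key : ∀ g ∈ Submodule.span κ S, ∃ γ : κ, ValAt Q g γ ∧ ValAt Q' g γ := by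
    intro g hg
    induction hg using Submodule.span_induction with
    | mem s hs =>
      obtain ⟨γ, hγ⟩ := exists_valAt_of_ord (h.resK Q) (hreg s hs Q hQ)
      exact ⟨γ, hγ, hv s hs γ hγ⟩
    | zero =>
      refine ⟨0, ?_, ?_⟩
      · have := valAt_algebraMap Q (0 : κ)
        rwa [map_zero] at this
      · have := valAt_algebraMap Q' (0 : κ)
        rwa [map_zero] at this
    | add g₁ g₂ _ _ ih₁ ih₂ =>
      obtain ⟨γ₁, h1, h1'⟩ := ih₁
      obtain ⟨γ₂, h2, h2'⟩ := ih₂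
      exact ⟨γ₁ + γ₂, h1.add h2, h1'.add h2'⟩
    | smul c g _ ih =>
      obtain ⟨γ, h1, h1'⟩ := ih
      refine ⟨c * γ, ?_, ?_⟩
      · rw [Algebra.smul_def]
        exact (valAt_algebraMap Q c).mul h1
      · rw [Algebra.smul_def]
        exact (valAt_algebraMap Q' c).mul h1'
  obtain ⟨γ, hγ, hγ'⟩ := key f (hS f hfreg)
  have hf0 : f ≠ 0 := by
    rintro rfl
    rw [Place.ord_zero] at hfQ
    exact lt_irrefl _ hfQ
  have hf0' : f ≠ algebraMap κ E 0 := by rwa [map_zero]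
  have h0 : ValAt Q f 0 := (valAt_iff_ord Q hf0').2 (by rwa [map_zero, sub_zero])
  have hγ0 : γ = 0 := hγ.unique h0
  rw [hγ0] at hγ'
  have h1 := (valAt_iff_ord Q' hf0').1 hγ'
  rw [map_zero, sub_zero] at h1
  omega

end FF

/-! ### One chart of a model -/

section Chart

variable {Λ U : Type*} [CommRing Λ] [CommRing U] [Algebra Λ U]
variable {κ E : Type*} [Field κ] [Field E] [Algebra κ E]

/-- Evaluation of a polynomial of the chart ring, pushed to the function field. -/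
theorem psi_aeval (B : Subalgebra Λ U) (z : U) (hz : z ∈ B) {φ : Λ →+* κ} {ψ : U →+* E}
    (hcompat : ∀ a : Λ, ψ (algebraMap Λ U a) = algebraMap κ E (φ a)) (p : Λ[X]) :
    ψ ((aeval (⟨z, hz⟩ : B) p : B) : U) = aeval (ψ z) (p.map φ) := by
  induction p using Polynomial.induction_on' with
  | add p q hp hq =>
    rw [map_add, Subalgebra.coe_add, map_add, hp, hq, Polynomial.map_add, map_add]
  | monomial m a =>
    rw [aeval_monomial, Polynomial.map_monomial, aeval_monomial]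
    show ψ (algebraMap Λ U a * z ^ m) = _
    rw [map_mul, map_pow, hcompat]

/-- The image of a chart function is a polynomial combination of the images of the basis. -/
theorem exists_eq_sum_of_free (B : Subalgebra Λ U) (z : U) (hz : z ∈ B) {n : ℕ} (b : Fin n → B)
    (hfree : ∀ f : B, ∃! p : Fin n → Λ[X], f = ∑ i, aeval (⟨z, hz⟩ : B) (p i) * b i)
    {φ : Λ →+* κ} {ψ : U →+* E}
    (hcompat : ∀ a : Λ, ψ (algebraMap Λ U a) = algebraMap κ E (φ a)) (u : B) :
    ∃ p : Fin n → κ[X], ψ (u : U) = ∑ j, aeval (ψ z) (p j) * ψ (b j : U) := by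
  obtain ⟨p, hp, -⟩ := hfree u
  refine ⟨fun j => (p j).map φ, ?_⟩
  have h1 : (u : U) = ∑ i, ((aeval (⟨z, hz⟩ : B) (p i) : B) : U) * (b i : U) := by
    conv_lhs => rw [hp]
    rw [AddSubmonoidClass.coe_finsetSum]
    rfl
  rw [h1, map_sum]
  refine Finset.sum_congr rfl fun j _ => ?_
  rw [map_mul, psi_aeval B z hz hcompat]

/-- **(SEP) for a chart of a model.** -/
theorem sep_of_chartCert (B : Subalgebra Λ U) (z : U) (hz : z ∈ B) {n : ℕ} (b : Fin n → B)
    (hfree : ∀ f : B, ∃! p : Fin n → Λ[X], f = ∑ i, aeval (⟨z, hz⟩ : B) (p i) * b i)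
    {φ : Λ →+* κ} {ψ : U →+* E}
    (hcompat : ∀ a : Λ, ψ (algebraMap Λ U a) = algebraMap κ E (φ a))
    (hff : IsFF1 κ E (ψ z))
    (hchart : ∀ f : E, (∀ v : Place κ E, 0 ≤ v.ord (ψ z) → 0 ≤ v.ord f) ↔
      ∃ p : Fin n → κ[X], f = ∑ j, aeval (ψ z) (p j) * ψ (b j : U))
    {Q Q' : Place κ E} (hQ : 0 ≤ Q.ord (ψ z)) (hQ' : 0 ≤ Q'.ord (ψ z))
    (hv : ∀ u : B, ∀ γ : κ, ValAt Q (ψ (u : U)) γ → ValAt Q' (ψ (u : U)) γ) : Q = Q' := by
  refine sep_of_span hff (Set.range fun u : B => ψ (u : U)) ?_ ?_ hQ hQ' ?_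
  · rintro s ⟨u, rfl⟩
    exact (hchart _).2 (exists_eq_sum_of_free B z hz b hfree hcompat u)
  · intro f hf
    obtain ⟨p, rfl⟩ := (hchart f).1 hf
    refine Submodule.sum_mem _ fun j _ => ?_
    rw [aeval_eq_sum_range, Finset.sum_mul]
    refine Submodule.sum_mem _ fun m _ => ?_
    rw [smul_mul_assoc]
    refine Submodule.smul_mem _ _ (Submodule.subset_span ?_)
    refine ⟨(⟨z, hz⟩ : B) ^ m * b j, ?_⟩
    show ψ (z ^ m * (b j : U)) = _
    rw [map_mul, map_pow]
  · rintro s ⟨u, rfl⟩ γ hγ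
    exact hv u γ hγ

variable {K' F' k Ft : Type*} [Field K'] [Field F'] [Algebra K' F'] [Field k] [Field Ft]
  [Algebra k Ft]

/-- **The `IsChart` instance of one chart** `B = ⊕ Λ[z] b_i` of a model: from the value clause of
the reduction theorem (`hev`), compatibility of `red` with the two realisations (`hred`), and the
description of the functions regular on the chart of the special fibre (`hchart`). -/
theorem isChart_of_chartCert (B : Subalgebra Λ U) (z : U) (hz : z ∈ B) {n : ℕ} (b : Fin n → B)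
    (hfree : ∀ f : B, ∃! p : Fin n → Λ[X], f = ∑ i, aeval (⟨z, hz⟩ : B) (p i) * b i)
    {ψ₁ : U →+* F'} {φ₂ : Λ →+* k} {ψ₂ : U →+* Ft}
    (hcompat : ∀ a : Λ, ψ₂ (algebraMap Λ U a) = algebraMap k Ft (φ₂ a))
    (hff₂ : IsFF1 k Ft (ψ₂ z))
    (hchart₂ : ∀ f : Ft, (∀ v : Place k Ft, 0 ≤ v.ord (ψ₂ z) → 0 ≤ v.ord f) ↔
      ∃ p : Fin n → k[X], f = ∑ j, aeval (ψ₂ z) (p j) * ψ₂ (b j : U))
    (A : ValuationSubring K') (π : A →+* k) (O : ValuationSubring F') (red : O →+* Ft)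
    (r : Place K' F' → Place k Ft)
    (hred : ∀ u : U, ∃ h : ψ₁ u ∈ O, red ⟨ψ₁ u, h⟩ = ψ₂ u)
    (hev : ∀ (P : Place K' F') (γ₀ : k), EvK A π P (ψ₁ z) γ₀ → ∀ u : B, ∃ γ : k,
      EvK A π P (ψ₁ (u : U)) γ ∧ (r P).adicValuation (ψ₂ (u : U) - algebraMap k Ft γ) < 1) :
    IsChart A π O red r {f : O | ∃ u : B, (f : F') = ψ₁ (u : U)}
      {P | ∃ γ₀ : k, EvK A π P (ψ₁ z) γ₀} {Q | 0 ≤ Q.ord (ψ₂ z)} := by
  refine ⟨?_, ?_, ?_⟩
  · rintro P ⟨γ₀, hγ₀⟩
    obtain ⟨γ, -, hγ⟩ := hev P γ₀ hγ₀ ⟨z, hz⟩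
    have hval : ValAt (r P) (ψ₂ z) γ := hγ
    exact ValAt.ord_nonneg hval
  · rintro P ⟨γ₀, hγ₀⟩ f ⟨u, hu⟩
    obtain ⟨γ, ⟨a, haγ, ha⟩, hγ⟩ := hev P γ₀ hγ₀ u
    obtain ⟨hmem, hredu⟩ := hred (u : U)
    have hf : f = ⟨ψ₁ (u : U), hmem⟩ := Subtype.ext hu
    refine ⟨a, ?_, ?_⟩
    · show P.adicValuation ((f : F') - algebraMap K' F' (a : K')) < 1
      rw [hu]
      exact ha
    · show (r P).adicValuation (red f - algebraMap k Ft (π a)) < 1
      rw [hf, hredu, haγ]
      exact hγ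
  · intro Q hQ Q' hQ' hv
    refine sep_of_chartCert B z hz b hfree hcompat hff₂ hchart₂ hQ hQ' fun u γ hγ => ?_
    obtain ⟨hmem, hredu⟩ := hred (u : U)
    have := hv ⟨ψ₁ (u : U), hmem⟩ ⟨u, rfl⟩ γ
    rw [hredu] at this
    exact this hγ

end Chart

/-! ### The two charts of a model -/

section Model

variable {Λ U : Type*} [CommRing Λ] [CommRing U] [Algebra Λ U] {n : ℕ}
variable {K' F' k Ft : Type*} [Field K'] [Field F'] [Algebra K' F'] [Field k] [Field Ft]
  [Algebra k Ft]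

/-- The image of `x'` is the inverse of the image of `x`. -/
theorem psi_x' (M : Model Λ U n) {E : Type*} [Field E] (ψ : U →+* E) :
    ψ M.x' = (ψ M.x)⁻¹ := by
  have h1 : ψ M.x * ψ M.x' = 1 := by rw [← map_mul, M.hxx', map_one]
  exact eq_inv_of_mul_eq_one_right h1

/-- **The finite chart** of a reduction of a model is an `IsChart`. -/
theorem isChart_fin (M : Model Λ U n) {ψ₁ : U →+* F'} {φ₂ : Λ →+* k} {ψ₂ : U →+* Ft}
    (h₂ : Real M k Ft φ₂ ψ₂) (hff₂ : IsFF1 k Ft (ψ₂ M.x))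
    (hchart₂ : ∀ f : Ft, (∀ v : Place k Ft, 0 ≤ v.ord (ψ₂ M.x) → 0 ≤ v.ord f) ↔
      ∃ p : Fin n → k[X], f = ∑ j, aeval (ψ₂ M.x) (p j) * ψ₂ (M.b j : U))
    (A : ValuationSubring K') (π : A →+* k) (O : ValuationSubring F') (red : O →+* Ft)
    (r : Place K' F' → Place k Ft)
    (hred : ∀ u : U, ∃ h : ψ₁ u ∈ O, red ⟨ψ₁ u, h⟩ = ψ₂ u)
    (hev : ∀ (P : Place K' F') (γ₀ : k), EvK A π P (ψ₁ M.x) γ₀ → ∀ u : M.B, ∃ γ : k,
      EvK A π P (ψ₁ (u : U)) γ ∧ (r P).adicValuation (ψ₂ (u : U) - algebraMap k Ft γ) < 1) :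
    IsChart A π O red r {f : O | ∃ u : M.B, (f : F') = ψ₁ (u : U)}
      {P | ∃ γ₀ : k, EvK A π P (ψ₁ M.x) γ₀} {Q | 0 ≤ Q.ord (ψ₂ M.x)} :=
  isChart_of_chartCert M.B M.x M.hx M.b M.cert.free h₂.compat hff₂ hchart₂ A π O red r hred hev

/-- **The chart at infinity** of a reduction of a model is an `IsChart`. -/
theorem isChart_inf (M : Model Λ U n) {ψ₁ : U →+* F'} {φ₂ : Λ →+* k} {ψ₂ : U →+* Ft}
    (h₂ : Real M k Ft φ₂ ψ₂) (hff₂ : IsFF1 k Ft (ψ₂ M.x))
    (hchart₂' : ∀ f : Ft, (∀ v : Place k Ft, v.ord (ψ₂ M.x) ≤ 0 → 0 ≤ v.ord f) ↔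
      ∃ p : Fin n → k[X], f = ∑ j, aeval (ψ₂ M.x)⁻¹ (p j) * ψ₂ (M.b' j : U))
    (A : ValuationSubring K') (π : A →+* k) (O : ValuationSubring F') (red : O →+* Ft)
    (r : Place K' F' → Place k Ft)
    (hred : ∀ u : U, ∃ h : ψ₁ u ∈ O, red ⟨ψ₁ u, h⟩ = ψ₂ u)
    (hev' : ∀ (P : Place K' F') (γ₀ : k), EvK A π P (ψ₁ M.x') γ₀ → ∀ u : M.B', ∃ γ : k,
      EvK A π P (ψ₁ (u : U)) γ ∧ (r P).adicValuation (ψ₂ (u : U) - algebraMap k Ft γ) < 1) :
    IsChart A π O red r {f : O | ∃ u : M.B', (f : F') = ψ₁ (u : U)}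
      {P | ∃ γ₀ : k, EvK A π P (ψ₁ M.x') γ₀} {Q | Q.ord (ψ₂ M.x) ≤ 0} := by
  have hx' : ψ₂ M.x' = (ψ₂ M.x)⁻¹ := psi_x' M ψ₂
  have hord : ∀ v : Place k Ft, 0 ≤ v.ord (ψ₂ M.x') ↔ v.ord (ψ₂ M.x) ≤ 0 := by
    intro v
    rw [hx', v.ord_inv]
    omega
  have hff' : IsFF1 k Ft (ψ₂ M.x') := by
    rw [hx']
    exact hff₂.inv
  have hchart : ∀ f : Ft, (∀ v : Place k Ft, 0 ≤ v.ord (ψ₂ M.x') → 0 ≤ v.ord f) ↔
      ∃ p : Fin n → k[X], f = ∑ j, aeval (ψ₂ M.x') (p j) * ψ₂ (M.b' j : U) := by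
    intro f
    rw [hx', ← hchart₂' f]
    constructor
    · intro hf v hv
      exact hf v (by rw [← hx']; exact (hord v).2 hv)
    · intro hf v hv
      exact hf v ((hord v).1 (by rw [hx']; exact hv))
  have key := isChart_of_chartCert M.B' M.x' M.hx' M.b' M.cert'.free h₂.compat hff' hchart
    A π O red r hred hev'
  have hset : {Q : Place k Ft | Q.ord (ψ₂ M.x) ≤ 0} = {Q : Place k Ft | 0 ≤ Q.ord (ψ₂ M.x')} := by
    ext Q
    exact (hord Q).symm
  rw [hset]
  exact key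

/-- **The two charts cover all places** of the generic fibre: at every place, `x` or `1/x` takes
a value in the valuation ring `A`. -/
theorem cover_of_mul_eq_one (A : ValuationSubring K') (π : A →+* k) {X X' : F'}
    (hXX' : X * X' = 1) (P : Place K' F') (hres : RR.ResK P) :
    (∃ γ₀ : k, EvK A π P X γ₀) ∨ (∃ γ₀ : k, EvK A π P X' γ₀) := by
  have hX0 : X ≠ 0 := left_ne_zero_of_mul_eq_one hXX'
  have hX'inv : X' = X⁻¹ := eq_inv_of_mul_eq_one_right hXX'
  by_cases hle : P.adicValuation X ≤ 1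
  · obtain ⟨c, hc⟩ := exists_valAt hres hle
    by_cases hcA : c ∈ A
    · exact Or.inl ⟨π ⟨c, hcA⟩, ⟨c, hcA⟩, rfl, hc⟩
    · have hc0 : c ≠ 0 := by
        rintro rfl
        exact hcA A.zero_mem
      have hcinv : c⁻¹ ∈ A := (A.mem_or_inv_mem c).resolve_left hcA
      refine Or.inr ⟨π ⟨c⁻¹, hcinv⟩, ⟨c⁻¹, hcinv⟩, rfl, ?_⟩
      show P.adicValuation (X' - algebraMap K' F' c⁻¹) < 1
      have hvc : P.adicValuation (algebraMap K' F' c) = 1 :=
        adicValuation_algebraMap_eq_one P hc0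
      have hvX : P.adicValuation X = 1 := by
        have e : X = (X - algebraMap K' F' c) + algebraMap K' F' c := by ring
        rw [e, Valuation.map_add_eq_of_lt_right _ (by rw [hvc]; exact hc), hvc]
      have e2 : X' - algebraMap K' F' c⁻¹ =
          -((X - algebraMap K' F' c) * X⁻¹ * (algebraMap K' F' c)⁻¹) := by
        rw [hX'inv, map_inv₀]
        have hc0' : algebraMap K' F' c ≠ 0 := by
          rw [Ne, map_eq_zero]
          exact hc0
        field_simp
        ring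
      rw [e2, Valuation.map_neg, map_mul, map_mul, map_inv₀, map_inv₀, hvX, hvc, inv_one,
        mul_one, mul_one]
      exact hc
  · refine Or.inr ⟨0, EvK.of_lt_one ?_⟩
    rw [hX'inv, map_inv₀]
    push Not at hle
    exact inv_lt_one_of_one_lt₀ hle

/-- **The two charts of a model cover all places** of a realisation. -/
theorem cover (M : Model Λ U n) (ψ₁ : U →+* F') (hff₁ : IsFF1 K' F' (ψ₁ M.x))
    (A : ValuationSubring K') (π : A →+* k) (P : Place K' F') :
    (∃ γ₀ : k, EvK A π P (ψ₁ M.x) γ₀) ∨ (∃ γ₀ : k, EvK A π P (ψ₁ M.x') γ₀) :=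
  cover_of_mul_eq_one A π (by rw [← map_mul, M.hxx', map_one]) P (hff₁.resK P)

end Model

end Fermat.Agent.S27P.GR.ChartSep
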