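import Mathlib
import Fermat.Agent.S27P.GR.ChartSep

/-!
# S27 / (GR-CHART), complements: the covering in the form of `exists_goodRed`, and `Real.sep`

* `cover_zero_of_mul_eq_one`, `cover_zero` : at every place `x` takes a value in `A`, or `1/x`
  takes a value in the maximal ideal of `A` (so its residue is `0`);
* `real_sep`, `real_sep'` : (SEP) on the two charts of a realisation, in the literal form of
  `Real.sep` / `Real.sep'`, from `IsFF1` and the description of the chart rings.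
-/

set_option autoImplicit false
set_option linter.unusedSectionVars false
set_option linter.unusedVariables false

namespace Fermat.Agent.S27P.GR.ChartCover

open Polynomial AlgebraicCurve WithZero
open Fermat.Agent.Lib.FF Fermat.Agent.Lib.Red.PlaceRed Fermat.Agent.S27P.Inj.Centre
open Fermat.Agent.S27P.GR Fermat.Agent.S27P.GR.ChartSep

section Cover

variable {K' F' k : Type*} [Field K'] [Field F'] [Algebra K' F'] [Field k]

/-- **Covering, sharp form.**  At every place, `X` takes a value in the valuation ring `A`, or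
`X' = 1/X` takes a value in the maximal ideal of `A` (residue `0`). -/
theorem cover_zero_of_mul_eq_one (A : ValuationSubring K') (π : A →+* k)
    (hπ0 : ∀ a : A, ¬ IsUnit a → π a = 0) {X X' : F'} (hXX' : X * X' = 1) (P : Place K' F')
    (hres : RR.ResK P) : (∃ γ₀ : k, EvK A π P X γ₀) ∨ EvK A π P X' 0 := by
  have hX0 : X ≠ 0 := left_ne_zero_of_mul_eq_one hXX'
  have hX'inv : X' = X⁻¹ := eq_inv_of_mul_eq_one_right hXX'
  by_cases hle : P.adicValuation X ≤ 1
  · obtain ⟨c, hc⟩ := exists_valAt hres hle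
    by_cases hcA : c ∈ A
    · exact Or.inl ⟨π ⟨c, hcA⟩, ⟨c, hcA⟩, rfl, hc⟩
    · have hc0 : c ≠ 0 := by
        rintro rfl
        exact hcA A.zero_mem
      have hcinv : c⁻¹ ∈ A := (A.mem_or_inv_mem c).resolve_left hcA
      have hnu : ¬ IsUnit (⟨c⁻¹, hcinv⟩ : A) := by
        rintro ⟨u, hu⟩
        apply hcA
        have h1 : ((u⁻¹ : Aˣ) : K') * c⁻¹ = 1 := by
          have h2 : ((u⁻¹ : Aˣ) : A) * (u : A) = 1 := Units.inv_mul u
          have h3 := congrArg (Subtype.val) h2
          rw [hu] at h3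
          exact h3
        have h4 : ((u⁻¹ : Aˣ) : K') = c := by
          have : ((u⁻¹ : Aˣ) : K') = ((u⁻¹ : Aˣ) : K') * c⁻¹ * c := by
            rw [mul_assoc, inv_mul_cancel₀ hc0, mul_one]
          rw [this, h1, one_mul]
        rw [← h4]
        exact ((u⁻¹ : Aˣ) : A).2
      refine Or.inr ⟨⟨c⁻¹, hcinv⟩, hπ0 _ hnu, ?_⟩
      show P.adicValuation (X' - algebraMap K' F' c⁻¹) < 1
      have hvc : P.adicValuation (algebraMap K' F' c) = 1 :=
        adicValuation_algebraMap_eq_one P hc0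
      have hvX : P.adicValuation X = 1 := by
        have e : X = (X - algebraMap K' F' c) + algebraMap K' F' c := by ring
        rw [e, Valuation.map_add_eq_of_lt_right _ (by rw [hvc]; exact hc), hvc]
      have e2 : X' - algebraMap K' F' c⁻¹ =
          -((X - algebraMap K' F' c) * X⁻¹ * (algebraMap K' F' c)⁻¹) := by
        rw [hX'inv, map_inv₀]
        have hc0' : algebraMap K' F' c ≠ 0 := by
          rw [Ne, map_eq_zero]
          exact hc0
        field_simp
        ring
      rw [e2, Valuation.map_neg, map_mul, map_mul, map_inv₀, map_inv₀, hvX, hvc, inv_one,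
        mul_one, mul_one]
      exact hc
  · refine Or.inr (EvK.of_lt_one ?_)
    rw [hX'inv, map_inv₀]
    push Not at hle
    exact inv_lt_one_of_one_lt₀ hle

variable {Λ U : Type*} [CommRing Λ] [CommRing U] [Algebra Λ U] {n : ℕ}

/-- **The covering clause of `exists_goodRed`.** -/
theorem cover_zero (M : Model Λ U n) (ψ₁ : U →+* F') (hff₁ : IsFF1 K' F' (ψ₁ M.x))
    (A : ValuationSubring K') (π : A →+* k) (hπ0 : ∀ a : A, ¬ IsUnit a → π a = 0)
    (P : Place K' F') :
    (∃ γ₀ : k, EvK A π P (ψ₁ M.x) γ₀) ∨ EvK A π P (ψ₁ M.x') 0 :=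
  cover_zero_of_mul_eq_one A π hπ0 (by rw [← map_mul, M.hxx', map_one]) P (hff₁.resK P)

end Cover

section Sep

variable {Λ U : Type*} [CommRing Λ] [CommRing U] [Algebra Λ U] {n : ℕ} {M : Model Λ U n}
  {κ E : Type*} [Field κ] [Field E] [Algebra κ E] {φ : Λ →+* κ} {ψ : U →+* E}

/-- **`Real.sep`** (literal form), from `IsFF1` and the description of the finite chart ring. -/
theorem real_sep (h : Real M κ E φ ψ) (hff : IsFF1 κ E (ψ M.x))
    (hchart : ∀ f : E, (∀ v : Place κ E, 0 ≤ v.ord (ψ M.x) → 0 ≤ v.ord f) ↔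
      ∃ p : Fin n → κ[X], f = ∑ j, aeval (ψ M.x) (p j) * ψ (M.b j : U))
    (Q Q' : Place κ E) (hQ : 0 ≤ Q.ord (ψ M.x)) (hQ' : 0 ≤ Q'.ord (ψ M.x))
    (hv : ∀ u : M.B, ∀ γ : κ, Q.adicValuation (ψ (u : U) - algebraMap κ E γ) < 1 →
      Q'.adicValuation (ψ (u : U) - algebraMap κ E γ) < 1) : Q = Q' :=
  sep_of_chartCert M.B M.x M.hx M.b M.cert.free h.compat hff hchart hQ hQ' hv

/-- **`Real.sep'`** (literal form), from `IsFF1` and the description of the chart ring at
infinity. -/
theorem real_sep' (h : Real M κ E φ ψ) (hff : IsFF1 κ E (ψ M.x))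
    (hchart' : ∀ f : E, (∀ v : Place κ E, v.ord (ψ M.x) ≤ 0 → 0 ≤ v.ord f) ↔
      ∃ p : Fin n → κ[X], f = ∑ j, aeval (ψ M.x)⁻¹ (p j) * ψ (M.b' j : U))
    (Q Q' : Place κ E) (hQ : Q.ord (ψ M.x) ≤ 0) (hQ' : Q'.ord (ψ M.x) ≤ 0)
    (hv : ∀ u : M.B', ∀ γ : κ, Q.adicValuation (ψ (u : U) - algebraMap κ E γ) < 1 →
      Q'.adicValuation (ψ (u : U) - algebraMap κ E γ) < 1) : Q = Q' := by
  have hx' : ψ M.x' = (ψ M.x)⁻¹ := psi_x' M ψ
  have hord : ∀ v : Place κ E, 0 ≤ v.ord (ψ M.x') ↔ v.ord (ψ M.x) ≤ 0 := by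
    intro v
    rw [hx', v.ord_inv]
    omega
  have hffi : IsFF1 κ E (ψ M.x') := by
    rw [hx']
    exact hff.inv
  have hchart : ∀ f : E, (∀ v : Place κ E, 0 ≤ v.ord (ψ M.x') → 0 ≤ v.ord f) ↔
      ∃ p : Fin n → κ[X], f = ∑ j, aeval (ψ M.x') (p j) * ψ (M.b' j : U) := by
    intro f
    rw [hx', ← hchart' f]
    constructor
    · intro hf v hv
      exact hf v (by rw [← hx']; exact (hord v).2 hv)
    · intro hf v hv
      exact hf v ((hord v).1 (by rw [hx']; exact hv))
  exact sep_of_chartCert M.B' M.x' M.hx' M.b' M.cert'.free h.compat hffi hchart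
    ((hord Q).2 hQ) ((hord Q').2 hQ') hv

end Sep

end Fermat.Agent.S27P.GR.ChartCover
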