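import Mathlib
import Fermat.Agent.Lib.FF.RRApprox
import Fermat.Agent.S24.PlaceBasic

/-!
# S27 (GR-GENUS): genus and pole degree from a normal basis

Let `F/K` be a function field in the sense of `Lib.FF.IsFF1 K F x`.  Suppose the ring `B` of
functions regular at all places where `x` is finite has a `K[x]`-basis `b i`, and the ring `B'`
of functions regular at all places where `x⁻¹` is finite has the `K[x⁻¹]`-basis
`x ^ (-d i) * b i` (a *normal basis*).  Then

* `dim L(m • (x)_∞) = ∑ i, (m + 1 - d i)` as soon as `d i ≤ m + 1` for all `i`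
  (`finrank_L_smul_poleDiv`);
* `deg (x)_∞ = n` and `g = 1 - n + ∑ i, d i` (`genusFF_of_normalBasis`);
* two function fields with normal bases of the same shape `(n, d)` have the same genus and the
  same pole degree (`genusFF_eq_of_normalBasis`).

Everything is characteristic-free and universe-polymorphic.
-/

set_option autoImplicit false

noncomputable section

namespace Fermat.Agent.S27P.GR.GenusNB

open AlgebraicCurve IntermediateField Polynomial
open Fermat.Agent.Lib.FF

variable {K F : Type*} [Field K] [Field F] [Algebra K F]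

/-! ### Orders of polynomial values -/

/-- A polynomial in a function regular at `v` is regular at `v`. -/
theorem ord_aeval_nonneg (v : Place K F) {y : F} (hy : 0 ≤ v.ord y) (q : K[X]) :
    0 ≤ v.ord (aeval y q) := by
  have hy' : y ∈ v.toValuationSubring := Fermat.Agent.S24.mem_of_ord_nonneg v hy
  have h1 : aeval y q
      = ((aeval (⟨y, hy'⟩ : v.toValuationSubring) q : v.toValuationSubring) : F) := by
    have := Polynomial.aeval_algebraMap_apply (R := K) (B := F)
      (⟨y, hy'⟩ : v.toValuationSubring) q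
    exact this
  rw [h1]
  exact Fermat.Agent.S24.ord_nonneg_of_mem v (SetLike.coe_mem _)

/-- If `f = 0` or `ord g < ord f`, then `f + g` has the order of `g` (and is nonzero). -/
theorem ord_add_eq_of_lt (v : Place K F) {f g : F} (hg : g ≠ 0)
    (h : f = 0 ∨ v.ord g < v.ord f) : f + g ≠ 0 ∧ v.ord (f + g) = v.ord g := by
  rcases eq_or_ne f 0 with rfl | hf
  · simpa using hg
  · have hlt : v.ord g < v.ord f := h.resolve_left hf
    have hV : v.adicValuation f < v.adicValuation g := by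
      rw [v.adicValuation_eq_exp_neg_ord hf, v.adicValuation_eq_exp_neg_ord hg,
        WithZero.exp_lt_exp]
      omega
    have hadd : v.adicValuation (f + g) = v.adicValuation g :=
      Valuation.map_add_eq_of_lt_right _ hV
    have hne : f + g ≠ 0 := by
      intro h0
      rw [h0, map_zero] at hadd
      exact v.adicValuation_ne_zero hg hadd.symm
    refine ⟨hne, ?_⟩
    rw [v.adicValuation_eq_exp_neg_ord hne, v.adicValuation_eq_exp_neg_ord hg] at hadd
    have := WithZero.exp_injective hadd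
    omega

/-- A polynomial with nonzero constant term takes a unit value at a zero of `y`. -/
theorem ord_aeval_eq_zero (v : Place K F) {y : F} (hy : 0 < v.ord y) {q : K[X]}
    (hq : q.coeff 0 ≠ 0) : aeval y q ≠ 0 ∧ v.ord (aeval y q) = 0 := by
  have hdec : aeval y q = aeval y q.divX * y + algebraMap K F (q.coeff 0) := by
    conv_lhs => rw [← Polynomial.divX_mul_X_add q]
    simp
  have hc : algebraMap K F (q.coeff 0) ≠ 0 := by
    simpa using hq
  have hc0 : v.ord (algebraMap K F (q.coeff 0)) = 0 := Fermat.Agent.S24.ord_algebraMap v _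
  have hy0 : y ≠ 0 := by
    rintro rfl
    simp at hy
  have key : aeval y q.divX * y = 0 ∨
      v.ord (algebraMap K F (q.coeff 0)) < v.ord (aeval y q.divX * y) := by
    rcases eq_or_ne (aeval y q.divX) 0 with h0 | h0
    · left
      rw [h0, zero_mul]
    · right
      rw [v.ord_mul h0 hy0, hc0]
      have := ord_aeval_nonneg v hy.le q.divX
      omega
  obtain ⟨h1, h2⟩ := ord_add_eq_of_lt v hc key
  rw [hdec]
  exact ⟨h1, h2.trans hc0⟩

/-- The order of a polynomial in `x` at a pole of `x`. -/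
theorem ord_aeval_of_neg (v : Place K F) {x : F} (hx : v.ord x < 0) {p : K[X]} (hp : p ≠ 0) :
    aeval x p ≠ 0 ∧ v.ord (aeval x p) = p.natDegree * v.ord x := by
  have hx0 : x ≠ 0 := by
    rintro rfl
    simp at hx
  let _ : Invertible x := invertibleOfNonzero hx0
  have hrefl : aeval x⁻¹ (reflect p.natDegree p) * x ^ p.natDegree = aeval x p := by
    have := Polynomial.eval₂_reflect_mul_pow (algebraMap K F) x p.natDegree p le_rfl
    rw [invOf_eq_inv] at this
    simpa [Polynomial.aeval_def] using this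
  have hcoeff : (reflect p.natDegree p).coeff 0 ≠ 0 := by
    rw [Polynomial.coeff_reflect, Polynomial.revAt_zero]
    exact Polynomial.leadingCoeff_ne_zero.mpr hp
  have hinv : 0 < v.ord x⁻¹ := by
    rw [v.ord_inv]
    omega
  obtain ⟨h1, h2⟩ := ord_aeval_eq_zero v hinv hcoeff
  have hpow : x ^ p.natDegree ≠ 0 := pow_ne_zero _ hx0
  rw [← hrefl]
  refine ⟨mul_ne_zero h1 hpow, ?_⟩
  rw [v.ord_mul h1 hpow, h2, zero_add]
  have := v.ord_zpow x (p.natDegree : ℤ)
  rwa [zpow_natCast] at this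

/-! ### The Riemann–Roch spaces of the multiples of the pole divisor -/

variable {x : F}

theorem ne_zero_of_isFF1 (h : IsFF1 K F x) : x ≠ 0 := by
  rintro rfl
  exact h.transcendental (isAlgebraic_zero)

/-- `L(m • (x)_∞)` consists of the functions `f` regular where `x` is finite and such that
`x ^ (-m) * f` is regular where `x⁻¹` is finite. -/
theorem mem_L_smul_poleDiv_iff (h : IsFF1 K F x) (m : ℕ) (f : F) :
    f ∈ riemannRochSpace (m • h.poleDiv) ↔
      (∀ P : Place K F, 0 ≤ P.ord x → 0 ≤ P.ord f) ∧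
      (∀ P : Place K F, P.ord x ≤ 0 → 0 ≤ P.ord (x ^ (-(m : ℤ)) * f)) := by
  have hx0 : x ≠ 0 := ne_zero_of_isFF1 h
  have happ : ∀ P : Place K F, (m • h.poleDiv) P = (m : ℤ) * max (-(P.ord x)) 0 := by
    intro P
    rw [Finsupp.smul_apply, IsFF1.poleDiv_apply, nsmul_eq_mul]
  rw [mem_riemannRochSpace_iff]
  constructor
  · intro hL
    constructor
    · intro P hP
      rcases hL P with rfl | h1
      · simp
      · rw [happ, max_eq_right (by omega)] at h1
        omega
    · intro P hP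
      rcases eq_or_ne f 0 with rfl | hf
      · simp
      · rcases hL P with h0 | h1
        · exact absurd h0 hf
        · rw [happ, max_eq_left (by omega)] at h1
          rw [P.ord_mul (zpow_ne_zero _ hx0) hf, P.ord_zpow]
          linarith
  · rintro ⟨hB, hB'⟩ P
    rcases eq_or_ne f 0 with rfl | hf
    · exact Or.inl rfl
    · right
      rw [happ]
      rcases le_or_gt 0 (P.ord x) with hP | hP
      · rw [max_eq_right (by omega)]
        have := hB P hP
        omega
      · rw [max_eq_left (by omega)]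
        have h1 := hB' P hP.le
        rw [P.ord_mul (zpow_ne_zero _ hx0) hf, P.ord_zpow] at h1
        linarith

theorem aeval_mem_adjoin (x : F) (p : K[X]) : aeval x p ∈ K⟮x⟯ := by
  have hx : x ∈ K⟮x⟯ := mem_adjoin_simple_self K x
  have := Polynomial.aeval_algebraMap_apply (R := K) (B := F) (⟨x, hx⟩ : K⟮x⟯) p
  have h2 : aeval x p = ((aeval (⟨x, hx⟩ : K⟮x⟯) p : K⟮x⟯) : F) := this
  rw [h2]
  exact SetLike.coe_mem _

/-- Uniqueness of coordinates in a `K(x)`-independent family. -/
theorem coeff_eq_of_sum_eq {n : ℕ} {b : Fin n → F} (hb : LinearIndependent K⟮x⟯ b)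
    {u w : Fin n → F} (hu : ∀ i, u i ∈ K⟮x⟯) (hw : ∀ i, w i ∈ K⟮x⟯)
    (hsum : ∑ i, u i * b i = ∑ i, w i * b i) (i : Fin n) : u i = w i := by
  have h0 : ∑ j, (⟨u j, hu j⟩ - ⟨w j, hw j⟩ : K⟮x⟯) • b j = 0 := by
    have : ∀ j, (⟨u j, hu j⟩ - ⟨w j, hw j⟩ : K⟮x⟯) • b j = u j * b j - w j * b j := by
      intro j
      rw [Algebra.smul_def]
      show (u j - w j) * b j = _
      ring
    simp only [this, Finset.sum_sub_distrib, hsum, sub_self]
  have := Fintype.linearIndependent_iff.mp hb _ h0 i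
  have h1 : u i - w i = 0 := congrArg (fun z : K⟮x⟯ => (z : F)) this
  exact sub_eq_zero.mp h1

section NormalBasis

variable {n : ℕ} (b : Fin n → F) (d : Fin n → ℤ)

/-- `L(m • (x)_∞)` in normal-basis coordinates. -/
theorem mem_L_iff_exists (h : IsFF1 K F x) (hb : LinearIndependent K⟮x⟯ b)
    (hfin : ∀ f : F, (∀ P : Place K F, 0 ≤ P.ord x → 0 ≤ P.ord f) ↔
        ∃ c : Fin n → K[X], f = ∑ i, aeval x (c i) * b i)
    (hinf : ∀ f : F, (∀ P : Place K F, P.ord x ≤ 0 → 0 ≤ P.ord f) ↔
        ∃ c : Fin n → K[X], f = ∑ i, aeval x⁻¹ (c i) * (x ^ (-d i) * b i))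
    (m : ℕ) (f : F) :
    f ∈ riemannRochSpace (m • h.poleDiv) ↔
      ∃ c : Fin n → K[X], (∀ i, c i ≠ 0 → ((c i).natDegree : ℤ) ≤ m - d i) ∧
        f = ∑ i, aeval x (c i) * b i := by
  classical
  have hx0 : x ≠ 0 := ne_zero_of_isFF1 h
  have hxmem : x ∈ K⟮x⟯ := mem_adjoin_simple_self K x
  rw [mem_L_smul_poleDiv_iff]
  constructor
  · rintro ⟨hB, hB'⟩
    obtain ⟨c, hc⟩ := (hfin f).mp hB
    obtain ⟨c', hc'⟩ := (hinf _).mp hB'
    refine ⟨c, fun i hci => ?_, hc⟩
    -- compare coordinates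
    have hsum : ∑ j, aeval x (c j) * b j
        = ∑ j, (x ^ (m : ℤ) * aeval x⁻¹ (c' j) * x ^ (-d j)) * b j := by
      rw [← hc]
      have : f = x ^ (m : ℤ) * (x ^ (-(m : ℤ)) * f) := by
        rw [← mul_assoc, ← zpow_add₀ hx0, add_neg_cancel, zpow_zero, one_mul]
      rw [this, hc', Finset.mul_sum]
      refine Finset.sum_congr rfl fun j _ => ?_
      ring
    have hcoord := coeff_eq_of_sum_eq hb (fun j => aeval_mem_adjoin x (c j))
      (fun j => mul_mem (mul_mem (zpow_mem hxmem _) (by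
        have h1 : x⁻¹ ∈ K⟮x⟯ := inv_mem hxmem
        have := Polynomial.aeval_algebraMap_apply (R := K) (B := F) (⟨x⁻¹, h1⟩ : K⟮x⟯) (c' j)
        have h2 : aeval x⁻¹ (c' j) = ((aeval (⟨x⁻¹, h1⟩ : K⟮x⟯) (c' j) : K⟮x⟯) : F) := this
        rw [h2]
        exact SetLike.coe_mem _)) (zpow_mem hxmem _)) hsum i
    obtain ⟨v, hv⟩ := h.exists_pole
    obtain ⟨hne, hord⟩ := ord_aeval_of_neg v hv hci
    have hA : aeval x⁻¹ (c' i) ≠ 0 := by
      intro h0
      rw [hcoord, h0, mul_zero, zero_mul] at hne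
      exact hne rfl
    have hAord : 0 ≤ v.ord (aeval x⁻¹ (c' i)) :=
      ord_aeval_nonneg v (by rw [v.ord_inv]; omega) _
    rw [hcoord, v.ord_mul (mul_ne_zero (zpow_ne_zero _ hx0) hA) (zpow_ne_zero _ hx0),
      v.ord_mul (zpow_ne_zero _ hx0) hA, v.ord_zpow, v.ord_zpow] at hord
    by_contra hlt
    push Not at hlt
    have h1 : (1 : ℤ) ≤ (c i).natDegree - (m - d i) := by omega
    have h2 : ((c i).natDegree - ((m : ℤ) - d i)) * v.ord x ≤ 1 * v.ord x :=
      mul_le_mul_of_nonpos_right h1 hv.le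
    nlinarith
  · rintro ⟨c, hdeg, hc⟩
    refine ⟨(hfin f).mpr ⟨c, hc⟩, (hinf _).mpr ?_⟩
    refine ⟨fun i => if c i = 0 then 0 else reflect ((m : ℤ) - d i).toNat (c i), ?_⟩
    rw [hc, Finset.mul_sum]
    refine Finset.sum_congr rfl fun i _ => ?_
    dsimp only
    by_cases hci : c i = 0
    · simp [hci]
    · rw [if_neg hci]
      have hdi := hdeg i hci
      have he : (((m : ℤ) - d i).toNat : ℤ) = m - d i := Int.toNat_of_nonneg (by omega)
      have hle : (c i).natDegree ≤ ((m : ℤ) - d i).toNat := by omega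
      let _ : Invertible x := invertibleOfNonzero hx0
      have hrefl : aeval x⁻¹ (reflect ((m : ℤ) - d i).toNat (c i)) * x ^ ((m : ℤ) - d i).toNat
          = aeval x (c i) := by
        have := Polynomial.eval₂_reflect_mul_pow (algebraMap K F) x _ (c i) hle
        rw [invOf_eq_inv] at this
        simpa [Polynomial.aeval_def] using this
      have hz : x ^ (-(m : ℤ)) * x ^ ((m : ℤ) - d i).toNat = x ^ (-d i) := by
        rw [← zpow_natCast, he, ← zpow_add₀ hx0]
        congr 1
        ring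
      rw [← hrefl, ← hz]
      ring

/-- The coordinate map of the normal basis, on polynomials of bounded degrees. -/
def coordMap (K : Type*) {F : Type*} [Field K] [Field F] [Algebra K F] {n : ℕ} (b : Fin n → F)
    (x : F) (N : Fin n → ℕ) : (∀ i, degreeLT K (N i)) →ₗ[K] F :=
  ∑ i, ((LinearMap.mulRight K (b i)).comp
    ((aeval x).toLinearMap.comp (degreeLT K (N i)).subtype)).comp (LinearMap.proj i)

theorem coordMap_apply (x : F) (N : Fin n → ℕ) (c : ∀ i, degreeLT K (N i)) :
    coordMap K b x N c = ∑ i, aeval x (c i : K[X]) * b i := by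
  simp [coordMap, LinearMap.sum_apply]

theorem coordMap_injective (h : IsFF1 K F x) (hb : LinearIndependent K⟮x⟯ b) (N : Fin n → ℕ) :
    Function.Injective (coordMap K b x N) := by
  rw [← LinearMap.ker_eq_bot, LinearMap.ker_eq_bot']
  intro c hc
  rw [coordMap_apply] at hc
  have hinj : Function.Injective (aeval (R := K) x) :=
    transcendental_iff_injective.mp h.transcendental
  funext i
  have h1 : aeval x (c i : K[X]) = (fun _ : Fin n => (0 : F)) i :=
    coeff_eq_of_sum_eq hb (u := fun j => aeval x (c j : K[X])) (w := fun _ => 0)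
      (fun j => aeval_mem_adjoin x _) (fun _ => zero_mem _) (by simpa using hc) i
  have h2 : (c i : K[X]) = 0 := hinj (by simpa using h1)
  exact Subtype.ext h2

theorem range_coordMap (h : IsFF1 K F x) (hb : LinearIndependent K⟮x⟯ b)
    (hfin : ∀ f : F, (∀ P : Place K F, 0 ≤ P.ord x → 0 ≤ P.ord f) ↔
        ∃ c : Fin n → K[X], f = ∑ i, aeval x (c i) * b i)
    (hinf : ∀ f : F, (∀ P : Place K F, P.ord x ≤ 0 → 0 ≤ P.ord f) ↔
        ∃ c : Fin n → K[X], f = ∑ i, aeval x⁻¹ (c i) * (x ^ (-d i) * b i))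
    (m : ℕ) (hm : ∀ i, d i ≤ m + 1) :
    LinearMap.range (coordMap K b x (fun i => ((m : ℤ) + 1 - d i).toNat))
      = riemannRochSpace (m • h.poleDiv) := by
  ext f
  rw [mem_L_iff_exists b d h hb hfin hinf, LinearMap.mem_range]
  have hN : ∀ i, ((((m : ℤ) + 1 - d i).toNat : ℕ) : ℤ) = m + 1 - d i := fun i =>
    Int.toNat_of_nonneg (by have := hm i; omega)
  constructor
  · rintro ⟨c, rfl⟩
    refine ⟨fun i => (c i : K[X]), fun i hci => ?_, (coordMap_apply b x _ c)⟩
    dsimp only at hci ⊢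
    have h1 : (c i : K[X]).degree < (((m : ℤ) + 1 - d i).toNat : ℕ) :=
      Polynomial.mem_degreeLT.mp (c i).2
    rw [Polynomial.degree_eq_natDegree hci] at h1
    have h2 : (c i : K[X]).natDegree < ((m : ℤ) + 1 - d i).toNat := by exact_mod_cast h1
    have := hN i
    omega
  · rintro ⟨c, hdeg, rfl⟩
    refine ⟨fun i => ⟨c i, Polynomial.mem_degreeLT.mpr ?_⟩, by rw [coordMap_apply]⟩
    by_cases hci : c i = 0
    · rw [hci, Polynomial.degree_zero]
      exact WithBot.bot_lt_coe _
    · rw [Polynomial.degree_eq_natDegree hci]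
      have h1 := hdeg i hci
      have := hN i
      have h2 : (c i).natDegree < ((m : ℤ) + 1 - d i).toNat := by omega
      exact_mod_cast h2

/-- **Dimension of `L(m • (x)_∞)` from a normal basis.** -/
theorem finrank_L_smul_poleDiv (h : IsFF1 K F x) (hb : LinearIndependent K⟮x⟯ b)
    (hfin : ∀ f : F, (∀ P : Place K F, 0 ≤ P.ord x → 0 ≤ P.ord f) ↔
        ∃ c : Fin n → K[X], f = ∑ i, aeval x (c i) * b i)
    (hinf : ∀ f : F, (∀ P : Place K F, P.ord x ≤ 0 → 0 ≤ P.ord f) ↔
        ∃ c : Fin n → K[X], f = ∑ i, aeval x⁻¹ (c i) * (x ^ (-d i) * b i))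
    (m : ℕ) (hm : ∀ i, d i ≤ m + 1) :
    (Module.finrank K (riemannRochSpace (m • h.poleDiv)) : ℤ) = ∑ i, ((m : ℤ) + 1 - d i) := by
  rw [← range_coordMap b d h hb hfin hinf m hm,
    LinearMap.finrank_range_of_inj (coordMap_injective b h hb _)]
  have : ∀ i : Fin n, Module.Finite K (degreeLT K (((m : ℤ) + 1 - d i).toNat)) := fun i =>
    Module.Finite.equiv (Polynomial.degreeLTEquiv K _).symm
  rw [Module.finrank_pi_fintype]
  push_cast
  refine Finset.sum_congr rfl fun i _ => ?_
  rw [LinearEquiv.finrank_eq (Polynomial.degreeLTEquiv K _), Module.finrank_fin_fun]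
  exact Int.toNat_of_nonneg (by have := hm i; omega)

/-- **Genus and pole degree from a normal basis**: `deg (x)_∞ = n` and `g = 1 - n + ∑ d i`. -/
theorem genusFF_of_normalBasis (h : IsFF1 K F x) (hb : LinearIndependent K⟮x⟯ b)
    (hfin : ∀ f : F, (∀ P : Place K F, 0 ≤ P.ord x → 0 ≤ P.ord f) ↔
        ∃ c : Fin n → K[X], f = ∑ i, aeval x (c i) * b i)
    (hinf : ∀ f : F, (∀ P : Place K F, P.ord x ≤ 0 → 0 ≤ P.ord f) ↔
        ∃ c : Fin n → K[X], f = ∑ i, aeval x⁻¹ (c i) * (x ^ (-d i) * b i)) :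
    Divisor.degree h.poleDiv = n ∧ (genusFF K F : ℤ) = 1 - n + ∑ i, d i := by
  obtain ⟨c, hc⟩ := h.exists_degree_bound
  have hδ := h.degree_poleDiv_pos
  set δ := Divisor.degree h.poleDiv with hδdef
  -- a large `m`
  set m₀ : ℕ := max c.toNat (Finset.univ.sup fun i => (d i).toNat) with hm₀
  have hd : ∀ (m : ℕ), m₀ ≤ m → ∀ i, d i ≤ m + 1 := by
    intro m hm i
    have h1 : (d i).toNat ≤ Finset.univ.sup fun i => (d i).toNat :=
      Finset.le_sup (f := fun i => (d i).toNat) (Finset.mem_univ i)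
    have h2 : (Finset.univ.sup fun i => (d i).toNat) ≤ m₀ := le_max_right _ _
    have h3 : d i ≤ (d i).toNat := Int.self_le_toNat _
    omega
  have hdeg : ∀ (m : ℕ), m₀ ≤ m → c ≤ Divisor.degree (m • h.poleDiv) := by
    intro m hm
    rw [map_nsmul, nsmul_eq_mul, ← hδdef]
    have h1 : c ≤ c.toNat := Int.self_le_toNat _
    have h2 : c.toNat ≤ m₀ := le_max_left _ _
    have h3 : (m₀ : ℤ) ≤ m := by exact_mod_cast hm
    have h4 : (m : ℤ) * 1 ≤ m * δ := mul_le_mul_of_nonneg_left (by omega) (by positivity)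
    omega
  have hsum : ∀ m : ℕ, ∑ i, ((m : ℤ) + 1 - d i) = n * ((m : ℤ) + 1) - ∑ i, d i := by
    intro m
    rw [Finset.sum_sub_distrib, Finset.sum_const, Finset.card_univ, Fintype.card_fin,
      nsmul_eq_mul]
  have key : ∀ (m : ℕ), m₀ ≤ m →
      (n : ℤ) * ((m : ℤ) + 1) - ∑ i, d i = m * δ + 1 - genusFF K F := by
    intro m hm
    have h1 := (hc (m • h.poleDiv) (hdeg m hm)).2
    rw [finrank_L_smul_poleDiv b d h hb hfin hinf m (hd m hm), hsum, map_nsmul, nsmul_eq_mul,
      ← hδdef] at h1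
    exact h1
  have k0 := key m₀ le_rfl
  have k1 := key (m₀ + 1) (Nat.le_succ _)
  push_cast at k1
  have hn : δ = n := by linarith
  refine ⟨hn, ?_⟩
  rw [hn] at k0
  linarith

end NormalBasis

/-- **Two function fields with normal bases of the same shape have the same genus and the same
pole degree.**  (The seam to good reduction: generic and special fibre.) -/
theorem genusFF_eq_of_normalBasis {k Ft : Type*} [Field k] [Field Ft] [Algebra k Ft]
    {x : F} {x' : Ft} (h : IsFF1 K F x) (h' : IsFF1 k Ft x') {n : ℕ} (d : Fin n → ℤ)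
    (b : Fin n → F) (hb : LinearIndependent K⟮x⟯ b)
    (hfin : ∀ f : F, (∀ P : Place K F, 0 ≤ P.ord x → 0 ≤ P.ord f) ↔
        ∃ c : Fin n → K[X], f = ∑ i, aeval x (c i) * b i)
    (hinf : ∀ f : F, (∀ P : Place K F, P.ord x ≤ 0 → 0 ≤ P.ord f) ↔
        ∃ c : Fin n → K[X], f = ∑ i, aeval x⁻¹ (c i) * (x ^ (-d i) * b i))
    (b' : Fin n → Ft) (hb' : LinearIndependent k⟮x'⟯ b')
    (hfin' : ∀ f : Ft, (∀ P : Place k Ft, 0 ≤ P.ord x' → 0 ≤ P.ord f) ↔
        ∃ c : Fin n → k[X], f = ∑ i, aeval x' (c i) * b' i)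
    (hinf' : ∀ f : Ft, (∀ P : Place k Ft, P.ord x' ≤ 0 → 0 ≤ P.ord f) ↔
        ∃ c : Fin n → k[X], f = ∑ i, aeval x'⁻¹ (c i) * (x' ^ (-d i) * b' i)) :
    genusFF K F = genusFF k Ft ∧ Divisor.degree h.poleDiv = Divisor.degree h'.poleDiv := by
  obtain ⟨h1, h2⟩ := genusFF_of_normalBasis b d h hb hfin hinf
  obtain ⟨h1', h2'⟩ := genusFF_of_normalBasis b' d h' hb' hfin' hinf'
  refine ⟨?_, h1.trans h1'.symm⟩
  have : (genusFF K F : ℤ) = genusFF k Ft := h2.trans h2'.symm
  exact_mod_cast this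

end Fermat.Agent.S27P.GR.GenusNB
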