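import Mathlib
import Fermat.Agent.S27P.GR.GenusNB
import Fermat.Agent.Lib.FF.Holo
import Fermat.Agent.Lib.FF.CharP.Principal

/-!
# S27 (GR-FF): two normal charts give `IsFF1`, the pole degree and the genus

Ring-theoretic input, `Place`-theoretic output.  A *chart* of a field `Ft` over an algebraically
closed field `k` is a domain `C` with fraction field `Ft`, finite free over `k[X]` (basis `b`),
where `X ↦ x ∈ Ft`.  From one chart:

* `x` is transcendental over `k`, the images of `b` form a `k(x)`-basis of `Ft`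
  (`transcendental_of_chart`, `linearIndependent_of_chart`, `finrank_of_chart`), hence
  `IsFF1 k Ft x` (`isFF1_of_chart`);
* if `C` is integrally closed, the functions regular at all places where `x` is finite are
  exactly the elements of `C` (`regular_iff_mem_range`).

From two integrally closed charts, at `x` and at `x⁻¹`, whose bases are related by
`b' i = x ^ (-d i) * b i` (a normal basis): `deg (x)_∞ = n` and `g = 1 - n + ∑ d i`
(`exists_isFF1_genus_of_charts`).  Characteristic-free; every type in its own universe.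
-/

set_option autoImplicit false

noncomputable section

namespace Fermat.Agent.S27P.GR.ChartFF

open AlgebraicCurve IntermediateField Polynomial
open Fermat.Agent.Lib.FF

/-! ### Integrality along ring homs with comparable ranges -/

/-- If the range of `f` is contained in the range of `g`, integrality over `f` implies
integrality over `g`. -/
theorem isIntegralElem_of_range_le {R S A : Type*} [CommRing R] [CommRing S] [CommRing A]
    (f : R →+* A) (g : S →+* A) (hfg : ∀ r : R, ∃ s : S, g s = f r) {a : A}
    (ha : f.IsIntegralElem a) : g.IsIntegralElem a := by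
  obtain ⟨p, hp, hpa⟩ := ha
  have hlifts : p.map f ∈ Polynomial.lifts g := by
    rw [Polynomial.lifts_iff_coeff_lifts]
    intro m
    rw [Polynomial.coeff_map]
    exact hfg _
  obtain ⟨q, hq, -, hqm⟩ := Polynomial.lifts_and_natDegree_eq_and_monic hlifts (hp.map f)
  refine ⟨q, hqm, ?_⟩
  rw [← Polynomial.eval_map, hq, Polynomial.eval_map]
  exact hpa

/-! ### One chart -/

section Chart

variable {k : Type*} [Field k] {Ft : Type*} [Field Ft] [Algebra k Ft]
  {C : Type*} [CommRing C] [IsDomain C] [Algebra k[X] C] [Algebra C Ft] [IsFractionRing C Ft]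

omit [IsDomain C] [IsFractionRing C Ft] in
/-- The structure map `k[X] → C → Ft` is evaluation at `x`. -/
theorem chart_apply
    (hC : ∀ a : k, algebraMap C Ft (algebraMap k[X] C (Polynomial.C a)) = algebraMap k Ft a)
    {x : Ft} (hx : algebraMap C Ft (algebraMap k[X] C X) = x) (p : k[X]) :
    algebraMap C Ft (algebraMap k[X] C p) = aeval x p := by
  induction p using Polynomial.induction_on' with
  | add p q hp hq => rw [map_add, map_add, hp, hq, map_add]
  | monomial m a =>
    rw [← Polynomial.C_mul_X_pow_eq_monomial, map_mul, map_mul, map_pow, map_pow, hC, hx,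
      map_mul, map_pow, aeval_C, aeval_X]

variable {n : ℕ}

theorem algebraMap_injective_of_basis (b : Module.Basis (Fin n) k[X] C) :
    Function.Injective (algebraMap k[X] C) := by
  have : Module.Free k[X] C := Module.Free.of_basis b
  exact FaithfulSMul.algebraMap_injective k[X] C

theorem aeval_injective_of_chart (b : Module.Basis (Fin n) k[X] C)
    (hC : ∀ a : k, algebraMap C Ft (algebraMap k[X] C (Polynomial.C a)) = algebraMap k Ft a)
    {x : Ft} (hx : algebraMap C Ft (algebraMap k[X] C X) = x) :
    Function.Injective (aeval (R := k) x) := by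
  intro p q hpq
  rw [← chart_apply hC hx, ← chart_apply hC hx] at hpq
  exact algebraMap_injective_of_basis b (IsFractionRing.injective C Ft hpq)

/-- `x` is transcendental over `k`. -/
theorem transcendental_of_chart (b : Module.Basis (Fin n) k[X] C)
    (hC : ∀ a : k, algebraMap C Ft (algebraMap k[X] C (Polynomial.C a)) = algebraMap k Ft a)
    {x : Ft} (hx : algebraMap C Ft (algebraMap k[X] C X) = x) : Transcendental k x :=
  transcendental_iff_injective.mpr (aeval_injective_of_chart b hC hx)

omit [IsDomain C] [IsFractionRing C Ft] in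
/-- Coordinates of an element of the chart. -/
theorem algebraMap_eq_sum (b : Module.Basis (Fin n) k[X] C)
    (hC : ∀ a : k, algebraMap C Ft (algebraMap k[X] C (Polynomial.C a)) = algebraMap k Ft a)
    {x : Ft} (hx : algebraMap C Ft (algebraMap k[X] C X) = x) (c : C) :
    algebraMap C Ft c = ∑ i, aeval x (b.repr c i) * algebraMap C Ft (b i) := by
  conv_lhs => rw [← b.sum_repr c]
  rw [map_sum]
  refine Finset.sum_congr rfl fun i _ => ?_
  rw [Algebra.smul_def, map_mul, chart_apply hC hx]

omit [IsDomain C] [IsFractionRing C Ft] in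
theorem sum_eq_algebraMap (b : Module.Basis (Fin n) k[X] C)
    (hC : ∀ a : k, algebraMap C Ft (algebraMap k[X] C (Polynomial.C a)) = algebraMap k Ft a)
    {x : Ft} (hx : algebraMap C Ft (algebraMap k[X] C X) = x) (c : Fin n → k[X]) :
    ∑ i, aeval x (c i) * algebraMap C Ft (b i) = algebraMap C Ft (∑ i, c i • b i) := by
  rw [map_sum]
  refine Finset.sum_congr rfl fun i _ => ?_
  rw [Algebra.smul_def, map_mul, chart_apply hC hx]

/-- Every element of `Ft` has a polynomial denominator. -/
theorem exists_denominator (b : Module.Basis (Fin n) k[X] C)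
    (hC : ∀ a : k, algebraMap C Ft (algebraMap k[X] C (Polynomial.C a)) = algebraMap k Ft a)
    {x : Ft} (hx : algebraMap C Ft (algebraMap k[X] C X) = x) (f : Ft) :
    ∃ (c : C) (q : k[X]), q ≠ 0 ∧ aeval x q * f = algebraMap C Ft c := by
  have : Module.Finite k[X] C := Module.Finite.of_basis b
  have : Algebra.IsIntegral k[X] C := Algebra.IsIntegral.of_finite k[X] C
  obtain ⟨a, s, hs, rfl⟩ := IsFractionRing.div_surjective (A := C) f
  have hs0 : s ≠ 0 := nonZeroDivisors.ne_zero hs
  obtain ⟨c, q, hq, h⟩ := Algebra.IsAlgebraic.exists_smul_eq_mul k[X] a hs0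
  refine ⟨c, q, hq, ?_⟩
  have hS : algebraMap C Ft s ≠ 0 := by
    rw [Ne, map_eq_zero_iff _ (IsFractionRing.injective C Ft)]
    exact hs0
  have h2 : aeval x q * algebraMap C Ft a = algebraMap C Ft s * algebraMap C Ft c := by
    rw [← chart_apply hC hx, ← map_mul, ← map_mul, ← Algebra.smul_def, h]
  calc aeval x q * (algebraMap C Ft a / algebraMap C Ft s)
      = (aeval x q * algebraMap C Ft a) / algebraMap C Ft s := by ring
    _ = (algebraMap C Ft s * algebraMap C Ft c) / algebraMap C Ft s := by rw [h2]
    _ = algebraMap C Ft c := by field_simp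

/-- An element of `k(x)` is a quotient of two polynomial values, with nonzero denominator. -/
theorem exists_frac {x : Ft} (g : k⟮x⟯) :
    ∃ r s : k[X], s ≠ 0 ∧ (g : Ft) = aeval x r / aeval x s := by
  obtain ⟨r, s, h⟩ := (mem_adjoin_simple_iff k (g : Ft)).mp g.2
  by_cases hs : s = 0
  · refine ⟨0, 1, one_ne_zero, ?_⟩
    rw [h, hs]
    simp
  · exact ⟨r, s, hs, h⟩

/-- The images of the basis of the chart are linearly independent over `k(x)`. -/
theorem linearIndependent_of_chart (b : Module.Basis (Fin n) k[X] C)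
    (hC : ∀ a : k, algebraMap C Ft (algebraMap k[X] C (Polynomial.C a)) = algebraMap k Ft a)
    {x : Ft} (hx : algebraMap C Ft (algebraMap k[X] C X) = x) :
    LinearIndependent k⟮x⟯ (fun i => algebraMap C Ft (b i)) := by
  classical
  have hinj := aeval_injective_of_chart b hC hx
  rw [Fintype.linearIndependent_iff]
  intro g hg i
  choose r s hs hrs using fun j => exists_frac (g j)
  have hs' : ∀ j, aeval x (s j) ≠ 0 := fun j h0 => hs j (hinj (by rw [h0, map_zero]))
  -- clear denominators
  set p : Fin n → k[X] := fun j => r j * ∏ l ∈ Finset.univ.erase j, s l with hp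
  have hpj : ∀ j, aeval x (p j) = (g j : Ft) * aeval x (∏ l, s l) := by
    intro j
    rw [hp, ← Finset.mul_prod_erase Finset.univ s (Finset.mem_univ j), map_mul, map_mul, hrs j]
    field_simp [hs' j]
  have hsum : ∑ j, aeval x (p j) * algebraMap C Ft (b j) = 0 := by
    have h1 : ∑ j, aeval x (p j) * algebraMap C Ft (b j)
        = aeval x (∏ l, s l) * ∑ j, g j • algebraMap C Ft (b j) := by
      rw [Finset.mul_sum]
      refine Finset.sum_congr rfl fun j _ => ?_
      rw [hpj j, Algebra.smul_def]
      show _ = _ * ((g j : Ft) * _)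
      ring
    rw [h1, hg, mul_zero]
  rw [sum_eq_algebraMap b hC hx] at hsum
  have h0 : ∑ j, p j • b j = 0 :=
    IsFractionRing.injective C Ft (by rw [hsum, map_zero])
  have hpi : p i = 0 := Fintype.linearIndependent_iff.mp b.linearIndependent p h0 i
  have h2 := hpj i
  rw [hpi, map_zero] at h2
  have hprod : aeval x (∏ l, s l) ≠ 0 := by
    rw [map_prod]
    exact Finset.prod_ne_zero_iff.mpr fun l _ => hs' l
  have h3 : (g i : Ft) = 0 := by
    rcases mul_eq_zero.mp h2.symm with h | h
    · exact h
    · exact absurd h hprod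
  exact Subtype.ext h3

/-- The images of the basis of the chart span `Ft` over `k(x)`. -/
theorem span_of_chart (b : Module.Basis (Fin n) k[X] C)
    (hC : ∀ a : k, algebraMap C Ft (algebraMap k[X] C (Polynomial.C a)) = algebraMap k Ft a)
    {x : Ft} (hx : algebraMap C Ft (algebraMap k[X] C X) = x) :
    ⊤ ≤ Submodule.span k⟮x⟯ (Set.range fun i => algebraMap C Ft (b i)) := by
  intro f _
  have hinj := aeval_injective_of_chart b hC hx
  obtain ⟨c, q, hq, h⟩ := exists_denominator b hC hx f
  have hq' : aeval x q ≠ 0 := fun h0 => hq (hinj (by rw [h0, map_zero]))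
  have hxmem : x ∈ k⟮x⟯ := mem_adjoin_simple_self k x
  have hmem : ∀ p : k[X], aeval x p ∈ k⟮x⟯ := fun p => GenusNB.aeval_mem_adjoin x p
  have hf : f = ∑ i, (⟨aeval x (b.repr c i) / aeval x q, div_mem (hmem _) (hmem _)⟩ : k⟮x⟯)
      • algebraMap C Ft (b i) := by
    have h1 : f = (aeval x q)⁻¹ * algebraMap C Ft c := by
      rw [← h]
      field_simp
    rw [h1, algebraMap_eq_sum b hC hx c, Finset.mul_sum]
    refine Finset.sum_congr rfl fun i _ => ?_
    rw [Algebra.smul_def]
    show _ = (aeval x (b.repr c i) / aeval x q) * _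
    ring
  rw [hf]
  exact Submodule.sum_mem _ fun i _ =>
    Submodule.smul_mem _ _ (Submodule.subset_span ⟨i, rfl⟩)

/-- The `k(x)`-basis of `Ft` given by a chart. -/
def chartBasis (b : Module.Basis (Fin n) k[X] C)
    (hC : ∀ a : k, algebraMap C Ft (algebraMap k[X] C (Polynomial.C a)) = algebraMap k Ft a)
    {x : Ft} (hx : algebraMap C Ft (algebraMap k[X] C X) = x) : Module.Basis (Fin n) k⟮x⟯ Ft :=
  Module.Basis.mk (linearIndependent_of_chart b hC hx) (span_of_chart b hC hx)

theorem finiteDimensional_of_chart (b : Module.Basis (Fin n) k[X] C)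
    (hC : ∀ a : k, algebraMap C Ft (algebraMap k[X] C (Polynomial.C a)) = algebraMap k Ft a)
    {x : Ft} (hx : algebraMap C Ft (algebraMap k[X] C X) = x) : FiniteDimensional k⟮x⟯ Ft :=
  Module.Finite.of_basis (chartBasis b hC hx)

theorem finrank_of_chart (b : Module.Basis (Fin n) k[X] C)
    (hC : ∀ a : k, algebraMap C Ft (algebraMap k[X] C (Polynomial.C a)) = algebraMap k Ft a)
    {x : Ft} (hx : algebraMap C Ft (algebraMap k[X] C X) = x) : Module.finrank k⟮x⟯ Ft = n := by
  rw [Module.finrank_eq_card_basis (chartBasis b hC hx), Fintype.card_fin]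

/-- **A chart over an algebraically closed field gives the setting `IsFF1`.** -/
theorem isFF1_of_chart [IsAlgClosed k] (b : Module.Basis (Fin n) k[X] C)
    (hC : ∀ a : k, algebraMap C Ft (algebraMap k[X] C (Polynomial.C a)) = algebraMap k Ft a)
    {x : Ft} (hx : algebraMap C Ft (algebraMap k[X] C X) = x) : IsFF1 k Ft x := by
  have := finiteDimensional_of_chart b hC hx
  exact Fermat.Agent.Lib.FF.CharP.isFF1 x (transcendental_of_chart b hC hx)

omit [IsDomain C] in
/-- **The functions regular on an integrally closed chart are the elements of the chart.** -/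
theorem regular_iff_mem_range [IsIntegrallyClosed C] (b : Module.Basis (Fin n) k[X] C)
    (hC : ∀ a : k, algebraMap C Ft (algebraMap k[X] C (Polynomial.C a)) = algebraMap k Ft a)
    {x : Ft} (hx : algebraMap C Ft (algebraMap k[X] C X) = x) (h : IsFF1 k Ft x) (f : Ft) :
    (∀ P : Place k Ft, 0 ≤ P.ord x → 0 ≤ P.ord f) ↔ f ∈ (algebraMap C Ft).range := by
  rw [← h.isIntegral_adjoin_iff]
  have : Module.Finite k[X] C := Module.Finite.of_basis b
  have : Algebra.IsIntegral k[X] C := Algebra.IsIntegral.of_finite k[X] C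
  constructor
  · intro hint
    have h1 : (algebraMap C Ft).IsIntegralElem f := by
      refine isIntegralElem_of_range_le (algebraMap (Algebra.adjoin k {x}) Ft) (algebraMap C Ft)
        (fun r => ?_) hint
      have hr : (r : Ft) ∈ (aeval (R := k) x).range := by
        rw [← Algebra.adjoin_singleton_eq_range_aeval]
        exact r.2
      obtain ⟨p, hp⟩ := hr
      exact ⟨algebraMap k[X] C p, by rw [chart_apply hC hx]; exact hp⟩
    obtain ⟨y, hy⟩ := IsIntegrallyClosed.isIntegral_iff.mp (show IsIntegral C f from h1)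
    exact ⟨y, hy⟩
  · rintro ⟨c, rfl⟩
    obtain ⟨p, hp, hpc⟩ := (Algebra.IsIntegral.isIntegral (R := k[X]) c)
    have h1 : ((algebraMap C Ft).comp (algebraMap k[X] C)).IsIntegralElem (algebraMap C Ft c) := by
      refine ⟨p, hp, ?_⟩
      rw [← Polynomial.hom_eval₂, hpc, map_zero]
    refine isIntegralElem_of_range_le _ (algebraMap (Algebra.adjoin k {x}) Ft) (fun r => ?_) h1
    refine ⟨⟨aeval x r, ?_⟩, ?_⟩
    · rw [Algebra.adjoin_singleton_eq_range_aeval]
      exact ⟨r, rfl⟩
    · rw [RingHom.comp_apply, chart_apply hC hx]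
      rfl

omit [IsDomain C] in
/-- Normal-basis form of `regular_iff_mem_range`. -/
theorem regular_iff_exists [IsIntegrallyClosed C] (b : Module.Basis (Fin n) k[X] C)
    (hC : ∀ a : k, algebraMap C Ft (algebraMap k[X] C (Polynomial.C a)) = algebraMap k Ft a)
    {x : Ft} (hx : algebraMap C Ft (algebraMap k[X] C X) = x) (h : IsFF1 k Ft x) (f : Ft) :
    (∀ P : Place k Ft, 0 ≤ P.ord x → 0 ≤ P.ord f) ↔
      ∃ c : Fin n → k[X], f = ∑ i, aeval x (c i) * algebraMap C Ft (b i) := by
  rw [regular_iff_mem_range b hC hx h]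
  constructor
  · rintro ⟨c, rfl⟩
    exact ⟨fun i => b.repr c i, algebraMap_eq_sum b hC hx c⟩
  · rintro ⟨c, rfl⟩
    exact ⟨∑ i, c i • b i, (sum_eq_algebraMap b hC hx c).symm⟩

end Chart

/-! ### Two charts -/

/-- **Two normal charts give `IsFF1`, the pole degree and the genus.**  `C` is a chart at `x`,
`C'` a chart at `x⁻¹`, both integrally closed, with bases related by
`b' i = x ^ (-d i) * b i`.  Then `[Ft : k(x)] = deg (x)_∞ = n` and `g = 1 - n + ∑ d i`. -/
theorem exists_isFF1_genus_of_charts
    {k : Type*} [Field k] [IsAlgClosed k] {Ft : Type*} [Field Ft] [Algebra k Ft]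
    {C : Type*} [CommRing C] [IsDomain C] [IsIntegrallyClosed C] [Algebra k[X] C] [Algebra C Ft]
    [IsFractionRing C Ft]
    {C' : Type*} [CommRing C'] [IsDomain C'] [IsIntegrallyClosed C'] [Algebra k[X] C']
    [Algebra C' Ft] [IsFractionRing C' Ft]
    (hC : ∀ a : k, algebraMap C Ft (algebraMap k[X] C (Polynomial.C a)) = algebraMap k Ft a)
    (hC' : ∀ a : k, algebraMap C' Ft (algebraMap k[X] C' (Polynomial.C a)) = algebraMap k Ft a)
    {n : ℕ} (b : Module.Basis (Fin n) k[X] C) (b' : Module.Basis (Fin n) k[X] C')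
    (d : Fin n → ℤ) (x : Ft)
    (hx : algebraMap C Ft (algebraMap k[X] C X) = x)
    (hx' : algebraMap C' Ft (algebraMap k[X] C' X) = x⁻¹)
    (hbb' : ∀ i, algebraMap C' Ft (b' i) = x ^ (-d i) * algebraMap C Ft (b i)) :
    ∃ h : IsFF1 k Ft x, Module.finrank k⟮x⟯ Ft = n ∧ Divisor.degree h.poleDiv = n ∧
      (genusFF k Ft : ℤ) = 1 - n + ∑ i, d i := by
  have h : IsFF1 k Ft x := isFF1_of_chart b hC hx
  have h' : IsFF1 k Ft x⁻¹ := isFF1_of_chart b' hC' hx'
  have hb := linearIndependent_of_chart b hC hx
  have hfin : ∀ f : Ft, (∀ P : Place k Ft, 0 ≤ P.ord x → 0 ≤ P.ord f) ↔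
      ∃ c : Fin n → k[X], f = ∑ i, aeval x (c i) * algebraMap C Ft (b i) :=
    regular_iff_exists b hC hx h
  have hinf : ∀ f : Ft, (∀ P : Place k Ft, P.ord x ≤ 0 → 0 ≤ P.ord f) ↔
      ∃ c : Fin n → k[X], f = ∑ i, aeval x⁻¹ (c i) * (x ^ (-d i) * algebraMap C Ft (b i)) := by
    intro f
    have h1 := regular_iff_exists b' hC' hx' h' f
    simp only [hbb'] at h1
    rw [← h1]
    refine forall_congr' fun P => ?_
    rw [P.ord_inv]
    constructor
    · intro hh hP
      exact hh (by omega)
    · intro hh hP
      exact hh (by omega)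
  obtain ⟨hdeg, hgen⟩ := GenusNB.genusFF_of_normalBasis _ d h hb hfin hinf
  exact ⟨h, finrank_of_chart b hC hx, hdeg, hgen⟩

end Fermat.Agent.S27P.GR.ChartFF
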