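import Mathlib

/-!
# (GR-E3-IN): transition and span inputs of the spreading-out assembly

For `C(z) := integralClosure (Algebra.adjoin K {z}) F`:

* `exists_pow_mul_eq`      : `u ∈ C(x⁻¹)` ⟹ `x ^ m * u ∈ C(x)` for some `m`;
* `exists_inv_pow_mul_eq`  : `u ∈ C(x)` ⟹ `x⁻¹ ^ m * u ∈ C(x⁻¹)` for some `m`;
* `exists_aeval_mul_eq`    : every `y : F` has a nonzero polynomial multiple `s(x) * y ∈ C(x)`.

Pure algebra (no places); any field, any characteristic.  Mathlib only.
-/

namespace Fermat.Agent.S27P.GR.ChartTrans65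

open Polynomial

section Ring

variable {K R : Type*} [CommRing K] [CommRing R] [Algebra K R]

/-- Pure ring form: `x * y = 1`, `a ∈ K[y]` ⟹ `x ^ m * a ∈ K[x]` for all large `m`. -/
theorem exists_pow_mul_mem_adjoin {x y : R} (hxy : x * y = 1) {a : R}
    (ha : a ∈ Algebra.adjoin K {y}) :
    ∃ m₀ : ℕ, ∀ m, m₀ ≤ m → x ^ m * a ∈ Algebra.adjoin K {x} := by
  have hx : x ∈ Algebra.adjoin K {x} := Algebra.self_mem_adjoin_singleton K x
  induction ha using Algebra.adjoin_induction with
  | mem z hz =>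
    rw [Set.mem_singleton_iff] at hz
    subst hz
    refine ⟨1, fun m hm => ?_⟩
    obtain ⟨k, rfl⟩ := Nat.exists_eq_add_of_le hm
    have h1 : x ^ (1 + k) * z = x ^ k := by
      rw [pow_add, pow_one]
      linear_combination x ^ k * hxy
    rw [h1]
    exact pow_mem hx k
  | algebraMap c =>
    exact ⟨0, fun m _ => mul_mem (pow_mem hx m) (Subalgebra.algebraMap_mem _ c)⟩
  | add a b _ _ iha ihb =>
    obtain ⟨ma, hma⟩ := iha
    obtain ⟨mb, hmb⟩ := ihb
    refine ⟨max ma mb, fun m hm => ?_⟩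
    rw [mul_add]
    exact add_mem (hma m (le_trans (le_max_left _ _) hm)) (hmb m (le_trans (le_max_right _ _) hm))
  | mul a b _ _ iha ihb =>
    obtain ⟨ma, hma⟩ := iha
    obtain ⟨mb, hmb⟩ := ihb
    refine ⟨ma + mb, fun m hm => ?_⟩
    obtain ⟨k, rfl⟩ := Nat.exists_eq_add_of_le hm
    have h1 : x ^ (ma + mb + k) * (a * b) = (x ^ ma * a) * (x ^ (mb + k) * b) := by ring
    rw [h1]
    exact mul_mem (hma ma le_rfl) (hmb (mb + k) (Nat.le_add_right _ _))

/-- `u` integral over `K[y]`, `x * y = 1` ⟹ `x ^ m * u` integral over `K[x]` for some `m`. -/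
theorem exists_pow_mul_isIntegral {x y : R} (hxy : x * y = 1) {u : R}
    (hu : IsIntegral (Algebra.adjoin K {y}) u) :
    ∃ m : ℕ, IsIntegral (Algebra.adjoin K {x}) (x ^ m * u) := by
  obtain ⟨p, hp, hpu⟩ := hu
  set p' : R[X] := p.map (algebraMap (Algebra.adjoin K {y}) R) with hp'
  have hp'm : p'.Monic := hp.map _
  have hp'u : p'.eval u = 0 := by
    rw [hp', eval_map]
    exact hpu
  have hcoef : ∀ i, ∃ m₀ : ℕ, ∀ m, m₀ ≤ m → x ^ m * p'.coeff i ∈ Algebra.adjoin K {x} := by
    intro i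
    apply exists_pow_mul_mem_adjoin hxy
    rw [hp', coeff_map]
    exact (p.coeff i).2
  choose m₀ hm₀ using hcoef
  set m := (Finset.range p'.natDegree).sup m₀ with hm
  refine ⟨m, ?_⟩
  set q : R[X] := scaleRoots p' (x ^ m) with hq
  have hqm : q.Monic := (monic_scaleRoots_iff _).mpr hp'm
  have hqu : q.eval (x ^ m * u) = 0 := by
    have h := scaleRoots_eval₂_eq_zero (RingHom.id R) (p := p') (r := u) (s := x ^ m)
      (by rw [eval₂_id]; exact hp'u)
    rw [eval₂_id] at h
    exact h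
  have hqc : ∀ i, q.coeff i ∈ (Algebra.adjoin K {x}).toSubring := by
    intro i
    rw [hq, coeff_scaleRoots, Subalgebra.mem_toSubring]
    by_cases hi : i < p'.natDegree
    · have h1 : m₀ i ≤ m * (p'.natDegree - i) := by
        have h2 : m₀ i ≤ m := Finset.le_sup (f := m₀) (Finset.mem_range.mpr hi)
        have h3 : 1 ≤ p'.natDegree - i := by omega
        calc m₀ i ≤ m * 1 := by rw [mul_one]; exact h2
          _ ≤ m * (p'.natDegree - i) := Nat.mul_le_mul_left m h3
      have h4 := hm₀ i _ h1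
      rw [mul_comm, ← pow_mul]
      exact h4
    · by_cases hi' : i = p'.natDegree
      · subst hi'
        rw [Nat.sub_self, pow_zero, mul_one, hp'm.coeff_natDegree]
        exact one_mem _
      · have h0 : p'.coeff i = 0 := coeff_eq_zero_of_natDegree_lt (by omega)
        rw [h0, zero_mul]
        exact zero_mem _
  have hqc' : (↑q.coeffs : Set R) ⊆ (Algebra.adjoin K {x}).toSubring := by
    intro c hc
    obtain ⟨i, -, rfl⟩ := Polynomial.mem_coeffs_iff.mp (Finset.mem_coe.mp hc)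
    exact hqc i
  refine ⟨q.toSubring (Algebra.adjoin K {x}).toSubring hqc',
    (monic_toSubring q _ hqc').mpr hqm, ?_⟩
  have h5 : eval₂ (algebraMap (Algebra.adjoin K {x}) R) (x ^ m * u)
      (q.toSubring (Algebra.adjoin K {x}).toSubring hqc')
      = eval (x ^ m * u) ((q.toSubring (Algebra.adjoin K {x}).toSubring hqc').map
          (Subring.subtype (Algebra.adjoin K {x}).toSubring)) := by
    rw [eval_map]
    rfl
  rw [h5, map_toSubring]
  exact hqu

end Ring

section Field

open IntermediateField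
open scoped IntermediateField.algebraAdjoinAdjoin

variable {K F : Type*} [Field K] [Field F] [Algebra K F]

/-- The inclusion `C(z) → F` as a `K`-algebra hom (the `ι` of the assembly). -/
noncomputable def incl (K : Type*) {F : Type*} [Field K] [Field F] [Algebra K F] (z : F) :
    integralClosure (Algebra.adjoin K {z}) F →ₐ[K] F :=
  IsScalarTower.toAlgHom K (integralClosure (Algebra.adjoin K {z}) F) F

@[simp] theorem incl_apply (z : F) (c : integralClosure (Algebra.adjoin K {z}) F) :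
    incl K z c = (c : F) := rfl

theorem incl_injective (z : F) : Function.Injective (incl K z) :=
  fun _ _ h => Subtype.ext h

/-- The element `z` of `C(z)`. -/
theorem self_mem (z : F) : z ∈ integralClosure (Algebra.adjoin K {z}) F :=
  (integralClosure (Algebra.adjoin K {z}) F).algebraMap_mem
    ⟨z, Algebra.self_mem_adjoin_singleton K z⟩

/-- (htr), coercion form: `u ∈ C(x⁻¹)` ⟹ `x ^ m * u ∈ C(x)` for some `m`. -/
theorem exists_pow_mul_eq {x : F} (hx : x ≠ 0) (u : integralClosure (Algebra.adjoin K {x⁻¹}) F) :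
    ∃ (m : ℕ) (c : integralClosure (Algebra.adjoin K {x}) F), x ^ m * (u : F) = (c : F) := by
  obtain ⟨m, hm⟩ := exists_pow_mul_isIntegral (K := K) (mul_inv_cancel₀ hx) u.2
  exact ⟨m, ⟨_, hm⟩, rfl⟩

/-- (htr'), coercion form: `u ∈ C(x)` ⟹ `x⁻¹ ^ m * u ∈ C(x⁻¹)` for some `m`. -/
theorem exists_inv_pow_mul_eq {x : F} (hx : x ≠ 0) (u : integralClosure (Algebra.adjoin K {x}) F) :
    ∃ (m : ℕ) (c' : integralClosure (Algebra.adjoin K {x⁻¹}) F), x⁻¹ ^ m * (u : F) = (c' : F) := by
  obtain ⟨m, hm⟩ := exists_pow_mul_isIntegral (K := K) (inv_mul_cancel₀ hx) u.2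
  exact ⟨m, ⟨_, hm⟩, rfl⟩

/-- (htr), `incl` form. -/
theorem exists_pow_mul_incl {x : F} (hx : x ≠ 0)
    (u : integralClosure (Algebra.adjoin K {x⁻¹}) F) :
    ∃ (m : ℕ) (c : integralClosure (Algebra.adjoin K {x}) F),
      incl K x ⟨x, self_mem x⟩ ^ m * incl K x⁻¹ u = incl K x c :=
  exists_pow_mul_eq hx u

/-- (htr'), `incl` form. -/
theorem exists_inv_pow_mul_incl {x : F} (hx : x ≠ 0)
    (u : integralClosure (Algebra.adjoin K {x}) F) :
    ∃ (m : ℕ) (c' : integralClosure (Algebra.adjoin K {x⁻¹}) F),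
      incl K x⁻¹ ⟨x⁻¹, self_mem x⁻¹⟩ ^ m * incl K x u = incl K x⁻¹ c' :=
  exists_inv_pow_mul_eq hx u

/-- (hspan): every `y : F` has a nonzero polynomial multiple in `C(x)`. -/
theorem exists_aeval_mul_eq (x : F) [FiniteDimensional K⟮x⟯ F] (y : F) :
    ∃ (s : K[X]) (c : integralClosure (Algebra.adjoin K {x}) F), s ≠ 0 ∧
      aeval x s * y = (c : F) := by
  have hloc : IsLocalization (Algebra.algebraMapSubmonoid
      (integralClosure (Algebra.adjoin K {x}) F) (nonZeroDivisors (Algebra.adjoin K {x}))) F :=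
    IsIntegralClosure.isLocalization (Algebra.adjoin K {x}) K⟮x⟯ F _
  obtain ⟨⟨c, ⟨s', hs'⟩⟩, hc⟩ := IsLocalization.surj (Algebra.algebraMapSubmonoid
      (integralClosure (Algebra.adjoin K {x}) F) (nonZeroDivisors (Algebra.adjoin K {x}))) y
  obtain ⟨a, ha, rfl⟩ := hs'
  have ha' : (a : F) ∈ (aeval (R := K) x).range := by
    rw [← Algebra.adjoin_singleton_eq_range_aeval]
    exact a.2
  obtain ⟨s, hs⟩ := ha'
  have hs' : aeval x s = (a : F) := hs
  refine ⟨s, c, ?_, ?_⟩
  · rintro rfl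
    rw [map_zero] at hs'
    have : a = 0 := Subtype.ext hs'.symm
    exact nonZeroDivisors.ne_zero ha this
  · rw [hs', mul_comm]
    exact hc

/-- (hspan), `incl` form. -/
theorem exists_aeval_mul_incl (x : F) [FiniteDimensional K⟮x⟯ F] (y : F) :
    ∃ (s : K[X]) (c : integralClosure (Algebra.adjoin K {x}) F), s ≠ 0 ∧
      aeval (incl K x ⟨x, self_mem x⟩) s * y = incl K x c :=
  exists_aeval_mul_eq x y

end Field

end Fermat.Agent.S27P.GR.ChartTrans65
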