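import Fermat.Agent.S27P.GR.Defs

/-!
# S27 / (GR), row GR-D (twin): domain-ness from one uniformiser

`isDomain_of_localCert`: a ring `R`, free of positive rank over `k[t]`, with a local certificate
`LocalCertN k R t 0 1` (one uniformiser `τ` at `t = 0`), is a domain.

Route: `𝔫 = (τ, t)` is the only maximal ideal containing `t`; every `s ∉ 𝔫` is comaximal with `t`,
hence regular (`R` is `t`-adically separated), so `R` embeds in `S = R_𝔫`; `S` is a Noetherian
local ring with principal maximal ideal `(τ)`, `τ` not nilpotent; by Krull's intersection theorem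
every nonzero element of `S` is a unit times a power of `τ`, so `S` is a domain.

Mathlib + `GR/Defs` only; universe-polymorphic.
-/

set_option autoImplicit false

namespace Fermat.Agent.S27P.GR.DomainB

open Polynomial

/-! ### A local ring with principal, separated, non-nilpotent maximal ideal is a domain -/

theorem isDomain_of_maximalIdeal_eq_span {S : Type*} [CommRing S] [IsLocalRing S] (π : S)
    (hmax : IsLocalRing.maximalIdeal S = Ideal.span {π})
    (hsep : ∀ x : S, (∀ m : ℕ, ∃ y, x = π ^ m * y) → x = 0)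
    (hnil : ∀ m : ℕ, π ^ m ≠ 0) : IsDomain S := by
  classical
  have key : ∀ x : S, x ≠ 0 → ∃ (m : ℕ) (w : S), IsUnit w ∧ x = π ^ m * w := by
    intro x hx
    have hex : ∃ m : ℕ, ¬ ∃ y, x = π ^ m * y := by
      by_contra hcon
      exact hx (hsep x fun m => not_not.1 (not_exists.1 hcon m))
    have hm0 : Nat.find hex ≠ 0 := by
      intro h0
      have h1 := Nat.find_spec hex
      rw [h0] at h1
      exact h1 ⟨x, by rw [pow_zero, one_mul]⟩
    obtain ⟨m, hm⟩ := Nat.exists_eq_succ_of_ne_zero hm0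
    have hlt : m < Nat.find hex := by omega
    obtain ⟨y, hy⟩ := not_not.1 (Nat.find_min hex hlt)
    refine ⟨m, y, ?_, hy⟩
    by_contra hyu
    have hymem : y ∈ IsLocalRing.maximalIdeal S := (IsLocalRing.mem_maximalIdeal y).2 hyu
    rw [hmax, Ideal.mem_span_singleton'] at hymem
    obtain ⟨z, hz⟩ := hymem
    have h1 := Nat.find_spec hex
    rw [hm] at h1
    exact h1 ⟨z, by rw [hy, ← hz, pow_succ]; ring⟩
  have : NoZeroDivisors S := ⟨by
    intro x y hxy
    by_contra hcon
    rw [not_or] at hcon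
    obtain ⟨m, w, hw, rfl⟩ := key x hcon.1
    obtain ⟨m', w', hw', rfl⟩ := key y hcon.2
    have h1 : π ^ (m + m') * (w * w') = 0 := by
      rw [← hxy, pow_add]
      ring
    exact hnil (m + m') ((hw.mul hw').mul_left_eq_zero.1 h1)⟩
  exact NoZeroDivisors.to_isDomain S

/-! ### The abstract core -/

theorem isDomain_of_localization {R : Type*} [CommRing R] [IsNoetherianRing R] (t τ v u : R)
    (𝔫 : Ideal R) [h𝔫 : 𝔫.IsMaximal]
    (hreg : ∀ f : R, t * f = 0 → f = 0)
    (hsep : ∀ f : R, (∀ m : ℕ, ∃ g, f = t ^ m * g) → f = 0)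
    (hcomax : ∀ s : R, s ∉ 𝔫 → ∃ a b, a * s + b * t = 1)
    (h𝔫eq : 𝔫 = Ideal.span {τ, t}) (hv : v ∉ 𝔫) (hvt : v * t = u * τ) : IsDomain R := by
  -- `R` embeds in the localisation
  have hinj : Function.Injective (algebraMap R (Localization.AtPrime 𝔫)) := by
    rw [injective_iff_map_eq_zero]
    intro f hf
    obtain ⟨⟨s, hs⟩, hsf⟩ :=
      (IsLocalization.map_eq_zero_iff 𝔫.primeCompl (Localization.AtPrime 𝔫) f).1 hf
    obtain ⟨a, b, hab⟩ := hcomax s hs
    have hsf' : s * f = 0 := hsf
    have h1 : f = t * (b * f) := by linear_combination (-f) * hab + a * hsf'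
    refine hsep f fun m => ⟨b ^ m * f, ?_⟩
    induction m with
    | zero => rw [pow_zero, pow_zero, one_mul, one_mul]
    | succ m ih =>
      calc f = t ^ m * (b ^ m * f) := ih
        _ = t ^ m * (b ^ m * (t * (b * f))) := by rw [← h1]
        _ = t ^ (m + 1) * (b ^ (m + 1) * f) := by ring
  have hvu : IsUnit (algebraMap R (Localization.AtPrime 𝔫) v) :=
    (IsLocalization.AtPrime.isUnit_to_map_iff (Localization.AtPrime 𝔫) 𝔫 v).2 hv
  have hvt' : algebraMap R (Localization.AtPrime 𝔫) v * algebraMap R (Localization.AtPrime 𝔫) t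
      = algebraMap R (Localization.AtPrime 𝔫) u * algebraMap R (Localization.AtPrime 𝔫) τ := by
    rw [← map_mul, ← map_mul, hvt]
  -- the maximal ideal of the localisation is `(τ)`
  have hmax : IsLocalRing.maximalIdeal (Localization.AtPrime 𝔫)
      = Ideal.span {algebraMap R (Localization.AtPrime 𝔫) τ} := by
    have hmap : ∀ J : Ideal R, J = Ideal.span {τ, t} →
        Ideal.map (algebraMap R (Localization.AtPrime 𝔫)) J
          = Ideal.span {algebraMap R (Localization.AtPrime 𝔫) τ,
              algebraMap R (Localization.AtPrime 𝔫) t} := by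
      rintro J rfl
      rw [Ideal.map_span, Set.image_pair]
    rw [← IsLocalization.AtPrime.map_eq_maximalIdeal 𝔫 (Localization.AtPrime 𝔫), hmap 𝔫 h𝔫eq]
    apply le_antisymm
    · rw [Ideal.span_le]
      rintro x (rfl | rfl)
      · exact Ideal.subset_span rfl
      · rw [SetLike.mem_coe, Ideal.mem_span_singleton']
        obtain ⟨v', hv'⟩ := hvu
        refine ⟨↑v'⁻¹ * algebraMap R (Localization.AtPrime 𝔫) u, ?_⟩
        rw [mul_assoc, ← hvt', ← hv', ← mul_assoc, Units.inv_mul, one_mul]
    · exact Ideal.span_mono (by simp)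
  -- `t` is not nilpotent
  have htreg : ∀ (m : ℕ) (f : R), t ^ m * f = 0 → f = 0 := by
    intro m
    induction m with
    | zero =>
      intro f hf
      rwa [pow_zero, one_mul] at hf
    | succ m ih =>
      intro f hf
      exact ih f (hreg _ (by rw [← hf]; ring))
  have htnil : ∀ m : ℕ, t ^ m ≠ 0 := by
    intro m hm
    have h10 : (1 : R) = 0 := htreg m 1 (by rw [mul_one, hm])
    exact h𝔫.ne_top ((Ideal.eq_top_iff_one _).2 (h10 ▸ 𝔫.zero_mem))
  have hπnil : ∀ m : ℕ, algebraMap R (Localization.AtPrime 𝔫) τ ^ m ≠ 0 := by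
    intro m hm
    have h1 : algebraMap R (Localization.AtPrime 𝔫) v ^ m
        * algebraMap R (Localization.AtPrime 𝔫) t ^ m = 0 := by
      rw [← mul_pow, hvt', mul_pow, hm, mul_zero]
    have h2 : algebraMap R (Localization.AtPrime 𝔫) (t ^ m) = 0 := by
      rw [map_pow]
      exact (hvu.pow m).mul_right_eq_zero.1 h1
    exact htnil m (hinj (by rw [h2, map_zero]))
  -- Krull's intersection theorem
  have : IsNoetherianRing (Localization.AtPrime 𝔫) :=
    IsLocalization.isNoetherianRing 𝔫.primeCompl (Localization.AtPrime 𝔫) inferInstance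
  have hkrull : ∀ x : Localization.AtPrime 𝔫,
      (∀ m : ℕ, ∃ y, x = algebraMap R (Localization.AtPrime 𝔫) τ ^ m * y) → x = 0 := by
    intro x hx
    have h1 := Ideal.iInf_pow_eq_bot_of_isLocalRing
      (IsLocalRing.maximalIdeal (Localization.AtPrime 𝔫)) (Ideal.IsMaximal.ne_top inferInstance)
    have h2 : x ∈ ⨅ i : ℕ, IsLocalRing.maximalIdeal (Localization.AtPrime 𝔫) ^ i := by
      rw [Submodule.mem_iInf]
      intro i
      rw [hmax, Ideal.span_singleton_pow, Ideal.mem_span_singleton']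
      obtain ⟨y, hy⟩ := hx i
      exact ⟨y, by rw [hy, mul_comm]⟩
    rw [h1] at h2
    exact (Submodule.mem_bot _).1 h2
  have := isDomain_of_maximalIdeal_eq_span
    (algebraMap R (Localization.AtPrime 𝔫) τ) hmax hkrull hπnil
  exact Function.Injective.isDomain (algebraMap R (Localization.AtPrime 𝔫)) hinj

/-! ### A free `k[t]`-module of finite rank -/

section Free

variable {k R : Type*} [Field k] [CommRing R] [Algebra k R] {n : ℕ} (t : R) (β : Fin n → R)
  (hfree : ∀ f : R, ∃! p : Fin n → k[X], f = ∑ i, aeval t (p i) * β i)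

include hfree

theorem nontrivial_of_free (hn : 0 < n) : Nontrivial R := by
  by_contra hcon
  rw [not_nontrivial_iff_subsingleton] at hcon
  obtain ⟨p, -, hp⟩ := hfree 0
  have h0 : (0 : Fin n → k[X]) = p := hp 0 (Subsingleton.elim _ _)
  have h1 : (fun _ => (1 : k[X])) = p := hp (fun _ => 1) (Subsingleton.elim _ _)
  exact zero_ne_one (congrFun (h0.trans h1.symm) ⟨0, hn⟩)

theorem eq_zero_of_sum_eq_zero (p : Fin n → k[X]) (h : ∑ i, aeval t (p i) * β i = 0) :
    p = 0 := by
  obtain ⟨q, -, hq⟩ := hfree 0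
  have h1 := hq p h.symm
  have h2 := hq 0 (by simp)
  rw [h1, h2]

theorem t_regular (f : R) (hf : t * f = 0) : f = 0 := by
  obtain ⟨p, hp, -⟩ := hfree f
  have h1 : ∑ i, aeval t (X * p i) * β i = 0 := by
    rw [← hf, hp, Finset.mul_sum]
    refine Finset.sum_congr rfl fun i _ => ?_
    rw [map_mul, aeval_X]
    ring
  have h2 := eq_zero_of_sum_eq_zero t β hfree _ h1
  rw [hp]
  refine Finset.sum_eq_zero fun i _ => ?_
  have h3 : X * p i = 0 := congrFun h2 i
  rw [(mul_eq_zero.1 h3).resolve_left X_ne_zero, map_zero, zero_mul]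

theorem t_separated (f : R) (hf : ∀ m : ℕ, ∃ g, f = t ^ m * g) : f = 0 := by
  obtain ⟨p, hp, -⟩ := hfree f
  have hp0 : ∀ i, p i = 0 := by
    intro i
    by_contra hne
    obtain ⟨g, hg⟩ := hf ((p i).natDegree + 1)
    obtain ⟨q, hq, -⟩ := hfree g
    have hfq : f = ∑ j, aeval t (X ^ ((p i).natDegree + 1) * q j) * β j := by
      rw [hg, hq, Finset.mul_sum]
      refine Finset.sum_congr rfl fun j _ => ?_
      rw [map_mul, map_pow, aeval_X]
      ring
    have h1 : ∑ j, aeval t (p j - X ^ ((p i).natDegree + 1) * q j) * β j = 0 := by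
      simp only [map_sub, sub_mul, Finset.sum_sub_distrib]
      rw [← hp, ← hfq, sub_self]
    have h2 := congrFun (eq_zero_of_sum_eq_zero t β hfree _ h1) i
    have h3 : p i = X ^ ((p i).natDegree + 1) * q i := sub_eq_zero.1 h2
    have hq0 : q i ≠ 0 := by
      intro h
      rw [h, mul_zero] at h3
      exact hne h3
    have h4 := congrArg natDegree h3
    rw [natDegree_mul (pow_ne_zero _ X_ne_zero) hq0, natDegree_X_pow] at h4
    omega
  rw [hp]
  exact Finset.sum_eq_zero fun i _ => by rw [hp0 i, map_zero, zero_mul]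

theorem isNoetherianRing_of_free : IsNoetherianRing R := by
  classical
  have hfg : Algebra.FiniteType k R := by
    refine ⟨⟨insert t (Finset.univ.image β), ?_⟩⟩
    rw [eq_top_iff]
    intro f _
    obtain ⟨p, hp, -⟩ := hfree f
    rw [hp]
    refine Subalgebra.sum_mem _ fun i _ => Subalgebra.mul_mem _ ?_ ?_
    · rw [aeval_eq_sum_range]
      exact Subalgebra.sum_mem _ fun j _ => Subalgebra.smul_mem _
        (Subalgebra.pow_mem _ (Algebra.subset_adjoin (by simp)) _) _
    · exact Algebra.subset_adjoin (by simp)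
  exact Algebra.FiniteType.isNoetherianRing k R

end Free

/-! ### The theorem -/

/-- **Row GR-D.** A ring free of positive rank over `k[t]` with a local certificate with one
uniformiser at `t = 0` is a domain. -/
theorem isDomain_of_localCert {k R : Type*} [Field k] [CommRing R] [Algebra k R] {n : ℕ}
    (hn : 0 < n) (t : R) (β : Fin n → R)
    (hfree : ∀ f : R, ∃! p : Fin n → k[X], f = ∑ i, aeval t (p i) * β i)
    (h : LocalCertN k R t 0 1) : IsDomain R := by
  obtain ⟨τ, v, u, c, N, w, hC1, hC2, hC3, hC4⟩ := h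
  simp only [map_zero, sub_zero] at hC1 hC2 hC3 hC4
  have hC1' := hC1 0
  obtain ⟨r₂, s₂, hC2'⟩ := hC2 0
  have hC3' := hC3 0
  rw [Fin.prod_univ_one] at hC4
  have := nontrivial_of_free t β hfree hn
  have := isNoetherianRing_of_free t β hfree
  have hreg := t_regular t β hfree
  have hsep := t_separated t β hfree
  -- `t` is not a unit
  have htu : ∀ g : R, t * g ≠ 1 := by
    intro g hg
    have h10 : (1 : R) = 0 := hsep 1 fun m => ⟨g ^ m, by rw [← mul_pow, hg, one_pow]⟩
    exact one_ne_zero h10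
  have hmem : ∀ x : R, x ∈ Ideal.span {τ 0, t} ↔ ∃ r s, x = τ 0 * r + t * s := by
    intro x
    rw [Ideal.mem_span_pair]
    constructor
    · rintro ⟨a, b, rfl⟩
      exact ⟨a, b, by ring⟩
    · rintro ⟨r, s, rfl⟩
      exact ⟨r, s, by ring⟩
  -- an element `≡` a nonzero constant modulo `(τ, t)` is comaximal with `t`
  have hcom : ∀ (κ : k) (r s : R), κ ≠ 0 →
      ∃ a b : R, a * (algebraMap k R κ + τ 0 * r + t * s) + b * t = 1 := by
    intro κ r s hκ
    have hcc : algebraMap k R κ⁻¹ * algebraMap k R κ = 1 := by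
      rw [← map_mul, inv_mul_cancel₀ hκ, map_one]
    obtain ⟨g, hg⟩ := sub_dvd_pow_sub_pow (1 : R) (-(τ 0 * (algebraMap k R κ⁻¹ * r))) N
    have hpow : (-(τ 0 * (algebraMap k R κ⁻¹ * r))) ^ N
        = t * w * (-(algebraMap k R κ⁻¹ * r)) ^ N := by
      rw [← hC4, ← mul_pow]
      congr 1
      ring
    rw [one_pow, hpow] at hg
    refine ⟨algebraMap k R κ⁻¹ * g,
      (-(algebraMap k R κ⁻¹ * r)) ^ N * w - algebraMap k R κ⁻¹ * s * g, ?_⟩
    linear_combination g * hcc - hg
  have h𝔫top : (1 : R) ∉ Ideal.span {τ 0, t} := by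
    intro h1
    obtain ⟨r, s, hrs⟩ := (hmem 1).1 h1
    obtain ⟨a, b, hab⟩ := hcom 1 (-r) (-s) one_ne_zero
    have h0 : algebraMap k R 1 + τ 0 * -r + t * -s = 0 := by
      rw [map_one]
      linear_combination hrs
    rw [h0, mul_zero, zero_add] at hab
    exact htu b (by rw [mul_comm]; exact hab)
  have hmaxI : (Ideal.span {τ 0, t}).IsMaximal := by
    rw [Ideal.isMaximal_iff]
    refine ⟨h𝔫top, fun J x hJ hx hxJ => ?_⟩
    obtain ⟨κ, r, s, hκ⟩ := hC3' x
    have hκ0 : κ ≠ 0 := by
      rintro rfl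
      rw [map_zero, sub_zero] at hκ
      exact hx ((hmem x).2 ⟨r, s, hκ⟩)
    have h1 : algebraMap k R κ ∈ J := by
      have h2 : algebraMap k R κ = x - (τ 0 * r + t * s) := by
        rw [← hκ]
        ring
      rw [h2]
      exact J.sub_mem hxJ (hJ ((hmem _).2 ⟨r, s, rfl⟩))
    have h2 : algebraMap k R κ⁻¹ * algebraMap k R κ = 1 := by
      rw [← map_mul, inv_mul_cancel₀ hκ0, map_one]
    rw [← h2]
    exact J.mul_mem_left _ h1
  have hcomax : ∀ s : R, s ∉ Ideal.span {τ 0, t} → ∃ a b, a * s + b * t = 1 := by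
    intro s hs
    obtain ⟨κ, r, s', hκ⟩ := hC3' s
    have hκ0 : κ ≠ 0 := by
      rintro rfl
      rw [map_zero, sub_zero] at hκ
      exact hs ((hmem s).2 ⟨r, s', hκ⟩)
    obtain ⟨a, b, hab⟩ := hcom κ r s' hκ0
    refine ⟨a, b, ?_⟩
    have h2 : s = algebraMap k R κ + τ 0 * r + t * s' := by
      rw [← sub_eq_iff_eq_add'] at *
      linear_combination hκ
    rw [h2]
    exact hab
  have hv : v 0 ∉ Ideal.span {τ 0, t} := by
    intro hv
    have h1 : algebraMap k R (c 0 : k) ∈ Ideal.span {τ 0, t} := by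
      have h2 : algebraMap k R (c 0 : k) = v 0 - (τ 0 * r₂ + t * s₂) := by
        rw [← hC2']
        ring
      rw [h2]
      exact Ideal.sub_mem _ hv ((hmem _).2 ⟨r₂, s₂, rfl⟩)
    have h2 : algebraMap k R (((c 0)⁻¹ : kˣ) : k) * algebraMap k R (c 0 : k) = 1 := by
      rw [← map_mul, Units.inv_mul, map_one]
    exact h𝔫top (h2 ▸ Ideal.mul_mem_left _ _ h1)
  exact isDomain_of_localization t (τ 0) (v 0) (u 0) (Ideal.span {τ 0, t}) hreg hsep hcomax rfl
    hv hC1'

end Fermat.Agent.S27P.GR.DomainB
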