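import Mathlib
import Fermat.Agent.S27P.GR.Defs
import Fermat.Agent.Lib.FF.IntP
import Fermat.Agent.S27P.GR.ExistLocal

/-!
# S27 / (GR), row GR-E2b (twin): the chart certificate exists over `K`

`K` algebraically closed of characteristic zero, `z : F` transcendental, `F` finite over `K(z)`,
`C := integralClosure K[z] F`.  Then `C` has a `K[z]`-basis `β` of size `[F : K(z)]` carrying a
`ChartCert`: the trace-dual family is `βd j = ∑ k, adj(G) k j • β k` with `G` the trace matrix,
`d = det G ≠ 0` (separability) splits over `K`, and the local certificates at the roots of `d`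
are an input (`hloc`, the conclusion of row GR-E2a).
-/

set_option autoImplicit false
set_option linter.style.haveILetI false

namespace Fermat.Agent.S27P.GR.ExistChart45

open Polynomial IntermediateField Fermat.Agent.S27P.GR Fermat.Agent.Lib.FF
open scoped IntermediateField.algebraAdjoinAdjoin

noncomputable section

/-! ### Abstract core: the trace-dual family of a basis -/

section Core

variable {R S : Type*} [CommRing R] [CommRing S] [Algebra R S] {n : ℕ}

/-- `tr (β i * βd j) = det G · δ_ij` for `βd j = ∑ k, adj(G) k j • β k`, `G` the trace matrix. -/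
theorem trace_mul_dual (β : Module.Basis (Fin n) R S) (i j : Fin n) :
    Algebra.trace R S (β i * ∑ k, (Algebra.traceMatrix R β).adjugate k j • β k)
      = if i = j then Algebra.discr R β else 0 := by
  classical
  have h1 : Algebra.trace R S (β i * ∑ k, (Algebra.traceMatrix R β).adjugate k j • β k)
      = ∑ k, Algebra.traceMatrix R β i k * (Algebra.traceMatrix R β).adjugate k j := by
    rw [Finset.mul_sum, map_sum]
    refine Finset.sum_congr rfl fun k _ => ?_
    rw [mul_smul_comm, map_smul, smul_eq_mul, Algebra.traceMatrix_apply,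
      Algebra.traceForm_apply, mul_comm]
  have h2 : ∑ k, Algebra.traceMatrix R β i k * (Algebra.traceMatrix R β).adjugate k j
      = (Algebra.traceMatrix R β * (Algebra.traceMatrix R β).adjugate) i j := by
    rw [Matrix.mul_apply]
  rw [h1, h2, Matrix.mul_adjugate, Matrix.smul_apply, Matrix.one_apply, Algebra.discr_def]
  split_ifs <;> simp

/-- The trace is the sum of the diagonal coordinates in a basis. -/
theorem trace_eq_sum_repr (β : Module.Basis (Fin n) R S) (y : S) :
    Algebra.trace R S y = ∑ s, β.repr (y * β s) s := by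
  classical
  rw [Algebra.trace_eq_matrix_trace β, Matrix.trace]
  refine Finset.sum_congr rfl fun s _ => ?_
  rw [Matrix.diag_apply, Algebra.leftMulMatrix_eq_repr_mul]

end Core

/-! ### The chart ring `C = integralClosure K[z] F` -/

section Main

variable {K F : Type*} [Field K] [Field F] [Algebra K F]

/-- The generator `z` of `K[z] = Algebra.adjoin K {z}`. -/
def zA (K : Type*) {F : Type*} [Field K] [Field F] [Algebra K F] (z : F) :
    Algebra.adjoin K {z} :=
  ⟨z, Algebra.self_mem_adjoin_singleton K z⟩

theorem coe_aeval_zA (z : F) (p : K[X]) : ((aeval (zA K z) p : Algebra.adjoin K {z}) : F)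
    = aeval z p :=
  aeval_subalgebra_coe p (Algebra.adjoin K {z}) (zA K z)

/-- `K[X] → K[z]`, `p ↦ p(z)`, is bijective for transcendental `z`. -/
theorem aeval_zA_bijective {z : F} (hz : Transcendental K z) :
    Function.Bijective (aeval (zA K z) : K[X] → Algebra.adjoin K {z}) := by
  constructor
  · rw [injective_iff_map_eq_zero]
    intro p hp
    have h1 : aeval z p = 0 := by
      rw [← coe_aeval_zA, hp]
      rfl
    exact (transcendental_iff.mp hz) p h1
  · intro a
    have h1 : (a : F) ∈ (aeval z : K[X] →ₐ[K] F).range := by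
      rw [← Algebra.adjoin_singleton_eq_range_aeval]
      exact a.2
    obtain ⟨p, hp⟩ := h1
    exact ⟨p, Subtype.ext (by rw [coe_aeval_zA]; exact hp)⟩

theorem coe_aeval_xInt (z : F) (p : K[X]) :
    ((aeval (IntP.xInt K z) p : integralClosure (Algebra.adjoin K {z}) F) : F) = aeval z p := by
  have h1 := aeval_algHom_apply
    (IsScalarTower.toAlgHom K (integralClosure (Algebra.adjoin K {z}) F) F) (IntP.xInt K z) p
  exact h1.symm

/-- Multiplication by `p(z)` in `C` is the `K[z]`-scalar action. -/
theorem aeval_xInt_mul (z : F) (p : K[X]) (c : integralClosure (Algebra.adjoin K {z}) F) :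
    aeval (IntP.xInt K z) p * c = aeval (zA K z) p • c := by
  apply Subtype.ext
  rw [Algebra.smul_def]
  show ((aeval (IntP.xInt K z) p : integralClosure (Algebra.adjoin K {z}) F) : F) * (c : F)
    = ((aeval (zA K z) p : Algebra.adjoin K {z}) : F) * (c : F)
  rw [coe_aeval_xInt, coe_aeval_zA]

/-- **GR-E2b.**  The chart certificate of `C = integralClosure K[z] F` over an algebraically
closed field of characteristic zero, given the local certificates (row GR-E2a). -/
theorem exists_chartCert [IsAlgClosed K] [CharZero K]
    (z : F) (hz : Transcendental K z) [FiniteDimensional K⟮z⟯ F]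
    (hloc : ∀ a : K, ∃ m : ℕ,
      LocalCertN K (integralClosure (Algebra.adjoin K {z}) F) (IntP.xInt K z) a m) :
    ∃ β : Fin (Module.finrank K⟮z⟯ F) → integralClosure (Algebra.adjoin K {z}) F,
      ChartCert K (integralClosure (Algebra.adjoin K {z}) F) (IntP.xInt K z) β := by
  classical
  haveI := IntP.free_integralClosure z hz
  haveI := IntP.finite_integralClosure z hz
  obtain ⟨β, hβdef⟩ : ∃ β : Module.Basis (Fin (Module.finrank K⟮z⟯ F)) (Algebra.adjoin K {z})
      (integralClosure (Algebra.adjoin K {z}) F), β = β :=
    ⟨Module.finBasisOfFinrankEq (Algebra.adjoin K {z})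
      (integralClosure (Algebra.adjoin K {z}) F) (IntP.finrank_integralClosure z hz), rfl⟩
  have hbij := aeval_zA_bijective (K := K) hz
  choose poly hpoly using hbij.2
  have hd0 : Algebra.discr (Algebra.adjoin K {z}) β ≠ 0 := by
    haveI : IsLocalization (Algebra.algebraMapSubmonoid
        (integralClosure (Algebra.adjoin K {z}) F) (nonZeroDivisors (Algebra.adjoin K {z}))) F :=
      IsIntegralClosure.isLocalization (Algebra.adjoin K {z}) K⟮z⟯ F _
    haveI : CharZero K⟮z⟯ := charZero_of_injective_algebraMap (algebraMap K K⟮z⟯).injective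
    have h1 := Algebra.discr_localizationLocalization (Algebra.adjoin K {z}) (Rₘ := K⟮z⟯)
      (nonZeroDivisors (Algebra.adjoin K {z})) F β
    have h2 := Algebra.discr_not_zero_of_basis K⟮z⟯
      (β.localizationLocalization K⟮z⟯ (nonZeroDivisors (Algebra.adjoin K {z})) F)
    intro h0
    rw [h1, h0, map_zero] at h2
    exact h2 rfl
  refine ⟨β, ⟨fun f => ?_, ?_⟩⟩
  · refine ⟨fun i => poly (β.repr f i), ?_, ?_⟩
    · show f = ∑ i, aeval (IntP.xInt K z) (poly (β.repr f i)) * β i
      conv_lhs => rw [← β.sum_repr f]
      refine Finset.sum_congr rfl fun i _ => ?_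
      rw [aeval_xInt_mul, hpoly]
    · intro p' hp'
      funext i
      apply hbij.1
      rw [hpoly]
      have h1 : f = ∑ i, aeval (zA K z) (p' i) • β i := by
        rw [hp']
        exact Finset.sum_congr rfl fun i _ => aeval_xInt_mul z _ _
      rw [h1, β.repr_sum_self]
  · obtain ⟨βd, hβd⟩ : ∃ βd : Fin (Module.finrank K⟮z⟯ F) →
        integralClosure (Algebra.adjoin K {z}) F,
        ∀ j, βd j = ∑ k, (Algebra.traceMatrix (Algebra.adjoin K {z}) β).adjugate k j • β k :=
      ⟨_, fun _ => rfl⟩
    obtain ⟨d, hd⟩ : ∃ d : K[X], d = poly (Algebra.discr (Algebra.adjoin K {z}) β) := ⟨_, rfl⟩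
    have hdA : aeval (zA K z) d = Algebra.discr (Algebra.adjoin K {z}) β := by rw [hd, hpoly]
    have hdne : d ≠ 0 := by
      intro h0
      apply hd0
      rw [← hdA, h0, map_zero]
    have hsplit := (IsAlgClosed.splits d).eq_prod_roots
    have hprod : ∏ q : Fin d.roots.toList.length, (X - C (d.roots.toList[q.1] : K))
        = (d.roots.map (X - C ·)).prod := by
      rw [Fin.prod_univ_fun_getElem d.roots.toList (fun a => (X - C a : K[X]))]
      conv_rhs => rw [← Multiset.coe_toList d.roots]
      rw [Multiset.map_coe, Multiset.prod_coe]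
    refine ⟨βd, fun i j s t => poly (β.repr (β i * βd j * β s) t), d.roots.toList.length,
      fun q => d.roots.toList[q.1], Units.mk0 d.leadingCoeff (leadingCoeff_ne_zero.mpr hdne),
      ?_, ?_, fun q => hloc _⟩
    · intro i j s
      conv_lhs => rw [← β.sum_repr (β i * βd j * β s)]
      refine Finset.sum_congr rfl fun t _ => ?_
      rw [aeval_xInt_mul, hpoly]
    · intro i j
      apply hbij.1
      rw [map_sum]
      simp only [hpoly]
      rw [← trace_eq_sum_repr β (β i * βd j), hβd j, trace_mul_dual β i j]
      split_ifs with hij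
      · rw [Units.val_mk0, hprod, ← hsplit, hdA]
      · rw [map_zero]

/-- **GR-E2b, closed form** (local certificates from `GR/ExistLocal.lean`). -/
theorem exists_chartCert_closed [IsAlgClosed K] [CharZero K]
    (z : F) (hz : Transcendental K z) [FiniteDimensional K⟮z⟯ F] :
    ∃ β : Fin (Module.finrank K⟮z⟯ F) → integralClosure (Algebra.adjoin K {z}) F,
      ChartCert K (integralClosure (Algebra.adjoin K {z}) F) (IntP.xInt K z) β :=
  exists_chartCert z hz fun a => Fermat.Agent.S27P.GR.exists_localCertN z hz a

/-- GR-E2b in the shape of cut v1 (`∃ n β`), with `n = [F : K(z)]` recorded. -/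
theorem exists_chartCert_nat [IsAlgClosed K] [CharZero K]
    (z : F) (hz : Transcendental K z) [FiniteDimensional K⟮z⟯ F] :
    ∃ (n : ℕ) (β : Fin n → integralClosure (Algebra.adjoin K {z}) F),
      n = Module.finrank K⟮z⟯ F ∧ 0 < n ∧
      ChartCert K (integralClosure (Algebra.adjoin K {z}) F) (IntP.xInt K z) β := by
  obtain ⟨β, hβ⟩ := exists_chartCert_closed z hz
  exact ⟨_, β, rfl, Module.finrank_pos, hβ⟩

end Main

end

end Fermat.Agent.S27P.GR.ExistChart45
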