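import Mathlib
import Fermat.Agent.S27P.GR.LocDed

/-!
# S27 / (GR): the local generators of a fibre of the model, in abstract form

Pure commutative algebra (Mathlib only, universe-polymorphic).  These are the instances of
`LocDed.LocGen` that the fibre theorem of (GR) needs, stated with explicit identities so that they
apply to `S := B_ψ = ⊕ k'[x]·b̄_i` for every specialisation `ψ` of a certificate:

* `exists_sub_mem_of_isMaximal` (FIB-C): over an algebraically closed `k`, a maximal ideal of an
  integral `k[X]`-algebra contains `x - c` for some `c : k`;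
* `locGen_of_reduced_fibre` (FIB-A): if `a` is regular and `S ⧸ (a)` is Artinian and reduced
  (an étale fibre), then `a` is a local generator at every maximal ideal containing `a`;
* `locGen_of_cert` (FIB-B): if `v * a = u * ∏ τ_j ^ e_j` with `u`, `v` invertible modulo `a`,
  `a` regular and `S` `a`-adically separated, and `S = k + τ_j S + a S` for all `j`, then every
  maximal ideal containing `a` contains some `τ_j`, which is a local generator there;
* `idempotent_mem_of_charts`, `idempotent_trivial_of_charts` (FIB-D): the two-chart argument —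
  an idempotent of the finite chart lies in the chart at infinity, hence in the intersection of
  the two charts.
-/

set_option autoImplicit false
set_option linter.style.haveILetI false
set_option linter.unusedSectionVars false

namespace Fermat.Agent.S27P.GR.FibLoc

open Polynomial Fermat.Agent.S27P.GR.LocDed

/-! ### (FIB-C) maximal ideals lie over `x - c` -/

/-- Over an algebraically closed field, a maximal ideal of `k[X]` contains `X - C c` for some
`c`. -/
theorem exists_X_sub_C_mem {k : Type*} [Field k] [IsAlgClosed k] (p : Ideal k[X])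
    [hp : p.IsMaximal] : ∃ c : k, X - C c ∈ p := by
  have hp0 : p ≠ ⊥ := by
    intro h0
    have hf : IsField k[X] := by
      have h1 := (Ideal.Quotient.maximal_ideal_iff_isField_quotient p).1 hp
      rw [h0] at h1
      exact (RingEquiv.quotientBot k[X]).symm.toMulEquiv.isField h1
    exact Polynomial.not_isField k hf
  obtain ⟨f, hf⟩ := IsPrincipalIdealRing.principal p
  have hfp : p = Ideal.span {f} := hf
  have hf0 : f ≠ 0 := by
    intro h0
    apply hp0
    rw [hfp, h0, Ideal.span_singleton_eq_bot]
  have hfu : ¬ IsUnit f := by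
    intro hu
    apply hp.ne_top
    rw [hfp]
    exact Ideal.span_singleton_eq_top.2 hu
  have hdeg : f.degree ≠ 0 := by
    intro hd
    exact hfu (Polynomial.isUnit_iff_degree_eq_zero.2 hd)
  obtain ⟨c, hc⟩ := IsAlgClosed.exists_root f hdeg
  refine ⟨c, ?_⟩
  -- `X - C c ∣ f`, and `p` is prime, `f ∈ p`
  have hdvd : X - C c ∣ f := Polynomial.dvd_iff_isRoot.2 hc
  obtain ⟨g, hg⟩ := hdvd
  have hfmem : f ∈ p := by
    rw [hfp]
    exact Ideal.mem_span_singleton_self f
  rw [hg] at hfmem
  rcases hp.isPrime.mem_or_mem hfmem with h | h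
  · exact h
  · -- `g ∈ (f)` and `f = (X - C c) * g` force `X - C c` to be a unit: impossible
    exfalso
    rw [hfp, Ideal.mem_span_singleton] at h
    obtain ⟨w, hw⟩ := h
    have h0 : f = f * ((X - C c) * w) := by
      calc f = (X - C c) * g := hg
        _ = (X - C c) * (f * w) := by rw [← hw]
        _ = f * ((X - C c) * w) := by ring
    have h1 : f * (1 - (X - C c) * w) = 0 := by
      rw [mul_sub, mul_one, ← h0, sub_self]
    have h2 : (1 : k[X]) - (X - C c) * w = 0 := (mul_eq_zero.1 h1).resolve_left hf0
    have h3 : IsUnit (X - C c) := IsUnit.of_mul_eq_one w (sub_eq_zero.1 h2).symm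
    have h4 := Polynomial.degree_eq_zero_of_isUnit h3
    rw [Polynomial.degree_X_sub_C] at h4
    exact one_ne_zero h4

/-- **(FIB-C)** Over an algebraically closed field `k`, a maximal ideal of an integral
`k[X]`-algebra contains the image of `X - C c` for some `c : k`. -/
theorem exists_sub_mem_of_isMaximal {k : Type*} [Field k] [IsAlgClosed k] {S : Type*}
    [CommRing S] [Algebra k[X] S] [Algebra.IsIntegral k[X] S] (m : Ideal S) [hm : m.IsMaximal] :
    ∃ c : k, algebraMap k[X] S (X - C c) ∈ m := by
  haveI : (m.comap (algebraMap k[X] S)).IsMaximal :=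
    Ideal.isMaximal_comap_of_isIntegral_of_isMaximal m
  obtain ⟨c, hc⟩ := exists_X_sub_C_mem (m.comap (algebraMap k[X] S))
  exact ⟨c, hc⟩

/-! ### (FIB-A) étale fibres -/

/-- In a reduced Artinian ring every maximal ideal is killed by an element outside it. -/
theorem exists_not_mem_mul_eq_zero {R : Type*} [CommRing R] [IsArtinianRing R] [IsReduced R]
    (M : Ideal R) [hM : M.IsMaximal] : ∃ s : R, s ∉ M ∧ ∀ y ∈ M, s * y = 0 := by
  classical
  let I : MaximalSpectrum R := ⟨M, hM⟩
  let s : R := (IsArtinianRing.equivPi R).symm (Pi.single I 1)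
  have hs : ∀ J : MaximalSpectrum R, (Ideal.Quotient.mk J.asIdeal) s =
      (Pi.single I (1 : R ⧸ I.asIdeal) : ∀ J : MaximalSpectrum R, R ⧸ J.asIdeal) J := by
    intro J
    rw [← IsArtinianRing.equivPi_apply]
    show (IsArtinianRing.equivPi R) ((IsArtinianRing.equivPi R).symm (Pi.single I 1)) J = _
    rw [AlgEquiv.apply_symm_apply]
  refine ⟨s, fun hsM => ?_, fun y hy => ?_⟩
  · have h1 := hs I
    rw [Pi.single_eq_same] at h1
    have h2 : (Ideal.Quotient.mk I.asIdeal) s = 0 := Ideal.Quotient.eq_zero_iff_mem.2 hsM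
    rw [h2] at h1
    exact zero_ne_one h1
  · apply (IsArtinianRing.equivPi R).injective
    rw [map_zero]
    funext J
    rw [IsArtinianRing.equivPi_apply, Pi.zero_apply, map_mul, hs J]
    by_cases hJ : J = I
    · subst hJ
      have : (Ideal.Quotient.mk I.asIdeal) y = 0 := Ideal.Quotient.eq_zero_iff_mem.2 hy
      rw [this, mul_zero]
    · rw [Pi.single_eq_of_ne hJ, zero_mul]

/-- **(FIB-A)** If `a` is a non-zero-divisor of `S` and `S ⧸ (a)` is Artinian and reduced, then
`a` is a local generator at every maximal ideal containing it. -/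
theorem locGen_of_reduced_fibre {S : Type*} [CommRing S] (a : S)
    (hareg : ∀ y : S, a * y = 0 → y = 0) [IsArtinianRing (S ⧸ Ideal.span {a})]
    [IsReduced (S ⧸ Ideal.span {a})] (m : Ideal S) (hm : m.IsMaximal) (ham : a ∈ m) :
    LocGen m a := by
  have h1m : (1 : S) ∉ m := (Ideal.ne_top_iff_one m).1 hm.ne_top
  refine ⟨ham, fun y hy => ⟨1, h1m, by rw [one_mul]; exact hareg y hy⟩, fun y hy => ?_⟩
  have hle : Ideal.span {a} ≤ m := (Ideal.span_singleton_le_iff_mem m).2 ham
  haveI hM : (m.map (Ideal.Quotient.mk (Ideal.span {a}))).IsMaximal :=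
    Ideal.map_eq_top_or_isMaximal_of_surjective _ Ideal.Quotient.mk_surjective hm |>.resolve_left
      (by
        intro htop
        apply hm.ne_top
        have h2 := Ideal.comap_map_of_surjective (Ideal.Quotient.mk (Ideal.span {a}))
          Ideal.Quotient.mk_surjective m
        rw [htop, Ideal.comap_top] at h2
        rw [← Ideal.mk_ker (I := Ideal.span {a})] at hle
        have h3 : m ⊔ Ideal.comap (Ideal.Quotient.mk (Ideal.span {a})) ⊥ = m :=
          sup_eq_left.2 (by rw [← RingHom.ker_eq_comap_bot]; exact hle)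
        rw [h3] at h2
        exact h2.symm)
  obtain ⟨sb, hsb, hkill⟩ :=
    exists_not_mem_mul_eq_zero (m.map (Ideal.Quotient.mk (Ideal.span {a})))
  obtain ⟨s, rfl⟩ := Ideal.Quotient.mk_surjective sb
  refine ⟨s, fun hsm => hsb (Ideal.mem_map_of_mem _ hsm), ?_⟩
  have h0 : (Ideal.Quotient.mk (Ideal.span {a})) (s * y) = 0 := by
    rw [map_mul]
    exact hkill _ (Ideal.mem_map_of_mem _ hy)
  rw [Ideal.Quotient.eq_zero_iff_mem, Ideal.mem_span_singleton] at h0
  obtain ⟨z, hz⟩ := h0
  exact ⟨z, hz⟩

/-! ### (FIB-B) ramified fibres, from the identities of a certificate -/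

/-- **(FIB-B)** Let `a : S` be regular with `S` `a`-adically separated, and suppose
`v * a = u * ∏ j, τ j ^ e j` with `u`, `v` invertible modulo `a`, all `e j > 0`, and
`S = k + τ j • S + a • S` for every `j`.  Then every maximal ideal containing `a` contains some
`τ j`, and `τ j` is a local generator there. -/
theorem locGen_of_cert {k S : Type*} [Field k] [CommRing S] [Algebra k S] {ι : Type*}
    [Fintype ι] (a : S) (hareg : ∀ y : S, a * y = 0 → y = 0)
    (hsep : ∀ y : S, (∀ n : ℕ, ∃ z, y = a ^ n * z) → y = 0)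
    (τ : ι → S) (e : ι → ℕ) (he : ∀ j, 0 < e j) (u v u' v' w₁ w₂ : S)
    (huv : v * a = u * ∏ j, τ j ^ e j) (hu : u * u' = 1 + a * w₁) (hv : v * v' = 1 + a * w₂)
    (hres : ∀ j, ∀ y : S, ∃ (c : k) (y₁ y₂ : S), y = algebraMap k S c + τ j * y₁ + a * y₂)
    (m : Ideal S) (hm : m.IsMaximal) (ham : a ∈ m) : ∃ j, τ j ∈ m ∧ LocGen m (τ j) := by
  classical
  have h1m : (1 : S) ∉ m := (Ideal.ne_top_iff_one m).1 hm.ne_top
  have hum : u ∉ m := by
    intro h
    apply h1m
    have : (1 : S) = u * u' - a * w₁ := by rw [hu]; ring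
    rw [this]
    exact m.sub_mem (m.mul_mem_right _ h) (m.mul_mem_right _ ham)
  have hvm : v ∉ m := by
    intro h
    apply h1m
    have : (1 : S) = v * v' - a * w₂ := by rw [hv]; ring
    rw [this]
    exact m.sub_mem (m.mul_mem_right _ h) (m.mul_mem_right _ ham)
  have hprod : ∏ j, τ j ^ e j ∈ m := by
    have h : u * ∏ j, τ j ^ e j ∈ m := by
      rw [← huv]
      exact m.mul_mem_left _ ham
    exact (hm.isPrime.mem_or_mem h).resolve_left hum
  obtain ⟨j, -, hj⟩ := (hm.isPrime.prod_mem_iff).1 hprod
  have hτm : τ j ∈ m := hm.isPrime.mem_of_pow_mem _ hj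
  -- the product splits off one factor `τ j`
  obtain ⟨ρ, hρ⟩ : ∃ ρ : S, ∏ i, τ i ^ e i = τ j * ρ := by
    refine ⟨τ j ^ (e j - 1) * ∏ i ∈ Finset.univ.erase j, τ i ^ e i, ?_⟩
    rw [← Finset.mul_prod_erase Finset.univ (fun i => τ i ^ e i) (Finset.mem_univ j),
      ← mul_assoc, ← pow_succ', Nat.sub_add_cancel (he j)]
  refine ⟨j, hτm, hτm, fun y hy => ⟨1, h1m, ?_⟩, fun y hy => ?_⟩
  · -- `τ j` is a non-zero-divisor
    rw [one_mul]
    have h1 : a * (v * y) = 0 := by
      have : a * (v * y) = (v * a) * y := by ring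
      rw [this, huv, hρ]
      have : u * (τ j * ρ) * y = u * ρ * (τ j * y) := by ring
      rw [this, hy, mul_zero]
    have h2 : v * y = 0 := hareg _ h1
    have h3 : y = a * (-w₂ * y) := by
      have : (1 + a * w₂) * y = 0 := by
        rw [← hv]
        have : v * v' * y = v' * (v * y) := by ring
        rw [this, h2, mul_zero]
      linear_combination this
    apply hsep
    intro n
    induction n with
    | zero => exact ⟨y, by rw [pow_zero, one_mul]⟩
    | succ n ih =>
      obtain ⟨z, hz⟩ := ih
      refine ⟨-w₂ * z, ?_⟩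
      have h4 : y = a * (-w₂ * (a ^ n * z)) := by
        rw [← hz]
        exact h3
      rw [h4]
      ring
  · -- `m` is generated by `τ j` up to the multiplier `v`
    obtain ⟨c, y₁, y₂, hyc⟩ := hres j y
    have hc0 : c = 0 := by
      by_contra hc
      apply h1m
      have hcm : algebraMap k S c ∈ m := by
        have : algebraMap k S c = y - τ j * y₁ - a * y₂ := by rw [hyc]; ring
        rw [this]
        exact m.sub_mem (m.sub_mem hy (m.mul_mem_right _ hτm)) (m.mul_mem_right _ ham)
      have h5 : (1 : S) = algebraMap k S c⁻¹ * algebraMap k S c := by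
        rw [← map_mul, inv_mul_cancel₀ hc, map_one]
      rw [h5]
      exact m.mul_mem_left _ hcm
    rw [hc0, map_zero, zero_add] at hyc
    refine ⟨v, hvm, v * y₁ + u * ρ * y₂, ?_⟩
    have h6 : v * y = τ j * (v * y₁) + (v * a) * y₂ := by rw [hyc]; ring
    rw [h6, huv, hρ]
    ring

/-! ### (FIB-D) idempotents and the two charts -/

/-- **(FIB-D), first half.**  Let `S'` be a subring of `T` (the chart at infinity) which is a
domain locally at every maximal ideal containing `t`, where `t ∈ S'` is regular in `T`.  If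
`e : T` is idempotent and `t ^ N * e ∈ S'`, then `e ∈ S'`. -/
theorem idempotent_mem_of_charts {T : Type*} [CommRing T] (S' : Subring T) (t : S')
    (htreg : ∀ y : T, (t : T) * y = 0 → y = 0)
    (hloc : ∀ m : Ideal S', m.IsMaximal → t ∈ m →
      ∀ a b : S', a * b = 0 → ∃ σ : S', σ ∉ m ∧ (σ * a = 0 ∨ σ * b = 0))
    (e : T) (he : e * e = e) (N : ℕ) (hN : (t : T) ^ N * e ∈ S') : e ∈ S' := by
  -- the conductor ideal of `e`
  let I : Ideal S' :=
    { carrier := {s | (s : T) * e ∈ S'}
      add_mem' := by
        intro a b ha hb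
        show ((a + b : S') : T) * e ∈ S'
        rw [Subring.coe_add, add_mul]
        exact S'.add_mem ha hb
      zero_mem' := by
        show ((0 : S') : T) * e ∈ S'
        rw [Subring.coe_zero, zero_mul]
        exact S'.zero_mem
      smul_mem' := by
        intro c a ha
        show ((c * a : S') : T) * e ∈ S'
        rw [Subring.coe_mul, mul_assoc]
        exact S'.mul_mem c.2 ha }
  have hI : ∀ s : S', s ∈ I ↔ (s : T) * e ∈ S' := fun s => Iff.rfl
  have htop : I = ⊤ := by
    by_contra hne
    obtain ⟨m, hm, hle⟩ := Ideal.exists_le_maximal I hne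
    have htN : t ^ N ∈ I := by
      rw [hI, Subring.coe_pow]
      exact hN
    have htm : t ∈ m := hm.isPrime.mem_of_pow_mem N (hle htN)
    -- `s' := t ^ N * e` satisfies `s' * (s' - t ^ N) = 0`
    let s' : S' := ⟨(t : T) ^ N * e, hN⟩
    have hs' : s' * (s' - t ^ N) = 0 := by
      apply Subtype.ext
      show ((t : T) ^ N * e) * ((t : T) ^ N * e - ((t ^ N : S') : T)) = 0
      rw [Subring.coe_pow]
      have : (t : T) ^ N * e * ((t : T) ^ N * e - (t : T) ^ N) =
          (t : T) ^ N * (t : T) ^ N * (e * e - e) := by ring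
      rw [this, he, sub_self, mul_zero]
    have hpow : ∀ (n : ℕ) (y : T), (t : T) ^ n * y = 0 → y = 0 := by
      intro n
      induction n with
      | zero => intro y hy; rwa [pow_zero, one_mul] at hy
      | succ n ih =>
        intro y hy
        rw [pow_succ, mul_assoc] at hy
        exact htreg y (ih _ hy)
    obtain ⟨σ, hσ, h | h⟩ := hloc m hm htm s' (s' - t ^ N) hs'
    · -- `σ * e = 0`
      apply hσ
      apply hle
      rw [hI]
      have h1 : (t : T) ^ N * ((σ : T) * e) = 0 := by
        have h2 := congrArg (Subtype.val) h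
        have h3 : (σ : T) * ((t : T) ^ N * e) = 0 := h2
        rw [mul_left_comm]
        exact h3
      rw [hpow N _ h1]
      exact S'.zero_mem
    · -- `σ * e = σ`
      apply hσ
      apply hle
      rw [hI]
      have h1 : (t : T) ^ N * ((σ : T) * e - σ) = 0 := by
        have h2 := congrArg (Subtype.val) h
        have h3 : (σ : T) * ((t : T) ^ N * e - ((t ^ N : S') : T)) = 0 := h2
        rw [Subring.coe_pow] at h3
        have : (t : T) ^ N * ((σ : T) * e - σ) = (σ : T) * ((t : T) ^ N * e - (t : T) ^ N) := by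
          ring
        rw [this]
        exact h3
      have h4 : (σ : T) * e = σ := sub_eq_zero.1 (hpow N _ h1)
      rw [h4]
      exact σ.2
  have h1 : (1 : S') ∈ I := by
    rw [htop]
    exact Submodule.mem_top
  rw [hI, Subring.coe_one, one_mul] at h1
  exact h1

/-- The local-domain hypothesis of `idempotent_mem_of_charts` from `LocGen`. -/
theorem locDomain_of_locGen {R : Type*} [CommRing R] [IsNoetherianRing R] {m : Ideal R}
    (hm : m.IsMaximal) {t : R} (h : LocGen m t) (a b : R) (hab : a * b = 0) :
    ∃ σ : R, σ ∉ m ∧ (σ * a = 0 ∨ σ * b = 0) := by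
  haveI := hm
  haveI := isDomain_localization_of_locGen h
  have h0 : algebraMap R (Localization.AtPrime m) a * algebraMap R (Localization.AtPrime m) b
      = 0 := by
    rw [← map_mul, hab, map_zero]
  rcases mul_eq_zero.1 h0 with h1 | h1
  · obtain ⟨s, hs⟩ := (IsLocalization.map_eq_zero_iff m.primeCompl _ a).1 h1
    exact ⟨s, s.2, Or.inl hs⟩
  · obtain ⟨s, hs⟩ := (IsLocalization.map_eq_zero_iff m.primeCompl _ b).1 h1
    exact ⟨s, s.2, Or.inr hs⟩

/-- **(FIB-D)** The two-chart argument: if every element of the finite chart `S` becomes an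
element of the chart at infinity `S'` after multiplication by a power of `t`, `S'` is locally a
domain along `t = 0`, and `S ∩ S' = k`, then the idempotents of `S` are trivial. -/
theorem idempotent_trivial_of_charts {k T : Type*} [Field k] [CommRing T] [Algebra k T]
    [Nontrivial T] (S S' : Subring T) (t : S') (htreg : ∀ y : T, (t : T) * y = 0 → y = 0)
    (hloc : ∀ m : Ideal S', m.IsMaximal → t ∈ m →
      ∀ a b : S', a * b = 0 → ∃ σ : S', σ ∉ m ∧ (σ * a = 0 ∨ σ * b = 0))
    (hpole : ∀ y ∈ S, ∃ N : ℕ, (t : T) ^ N * y ∈ S')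
    (hinter : ∀ y ∈ S, y ∈ S' → ∃ c : k, y = algebraMap k T c)
    (e : S) (he : e * e = e) : e = 0 ∨ e = 1 := by
  have heT : (e : T) * (e : T) = e := by
    have := congrArg (Subtype.val) he
    exact this
  obtain ⟨N, hN⟩ := hpole e e.2
  have hmem : (e : T) ∈ S' := idempotent_mem_of_charts S' t htreg hloc e heT N hN
  obtain ⟨c, hc⟩ := hinter e e.2 hmem
  have hcc : c * c = c := by
    apply (algebraMap k T).injective
    rw [map_mul, ← hc, heT]
  have hc01 : c = 0 ∨ c = 1 := by
    have h1 : c * (c - 1) = 0 := by rw [mul_sub, hcc, mul_one, sub_self]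
    rcases mul_eq_zero.1 h1 with h | h
    · exact Or.inl h
    · exact Or.inr (sub_eq_zero.1 h)
  rcases hc01 with h | h
  · left
    apply Subtype.ext
    rw [hc, h, map_zero]
    rfl
  · right
    apply Subtype.ext
    rw [hc, h, map_one]
    rfl

end Fermat.Agent.S27P.GR.FibLoc
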