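import Mathlib

/-!
# S27 / (GR-FB): the two tail clauses of `Model.exists_real` as standalone lemmas

For a subalgebra `B' ⊆ U` over `Λ`, a field `k` that is a `Λ`-algebra, and a field `Ft` that is a
fraction field of `k ⊗[Λ] B'`, with `ψ : U →+* Ft` restricting to `b ↦ 1 ⊗ b` on `B'`:

* `exists_ringEquiv` : every ring automorphism of `k` fixing the image of `Λ` extends to a ring
  automorphism of `Ft` fixing `ψ(U)` pointwise;
* `exists_quot_repr` : every element of `Ft` is a quotient of two `k`-combinations of `ψ(U)`.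
-/

set_option autoImplicit false

noncomputable section

namespace Fermat.Agent.S27P.GR.FibreAux

open scoped TensorProduct

universe u v w z

variable {Λ : Type u} {U : Type v} {k : Type w} {Ft : Type z}
  [CommRing Λ] [CommRing U] [Algebra Λ U] [Field k] [Algebra Λ k]
  (B' : Subalgebra Λ U) [Field Ft] [Algebra k Ft] [Algebra (k ⊗[Λ] ↥B') Ft]
  [IsScalarTower k (k ⊗[Λ] ↥B') Ft] [IsFractionRing (k ⊗[Λ] ↥B') Ft]
  (ψ : U →+* Ft)

/-- Every element of `k ⊗[Λ] B'` is a finite sum of pure tensors, indexed by some `Fin m`. -/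
theorem exists_sum_tmul (r : k ⊗[Λ] ↥B') :
    ∃ (m : ℕ) (c : Fin m → k) (b : Fin m → ↥B'), r = ∑ i, c i ⊗ₜ[Λ] b i := by
  induction r using TensorProduct.induction_on with
  | zero => exact ⟨0, Fin.elim0, Fin.elim0, by simp⟩
  | tmul c b => exact ⟨1, fun _ => c, fun _ => b, by simp⟩
  | add r s hr hs =>
    obtain ⟨m₁, c₁, b₁, rfl⟩ := hr
    obtain ⟨m₂, c₂, b₂, rfl⟩ := hs
    refine ⟨m₁ + m₂, Fin.append c₁ c₂, Fin.append b₁ b₂, ?_⟩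
    rw [Fin.sum_univ_add]
    simp

omit [IsFractionRing (k ⊗[Λ] ↥B') Ft] in
/-- The image in `Ft` of a pure tensor. -/
theorem algebraMap_tmul
    (hψ : ∀ b : ↥B', ψ (b : U) = algebraMap (k ⊗[Λ] ↥B') Ft (1 ⊗ₜ[Λ] b)) (c : k) (b : ↥B') :
    algebraMap (k ⊗[Λ] ↥B') Ft (c ⊗ₜ[Λ] b) = algebraMap k Ft c * ψ (b : U) := by
  rw [hψ, IsScalarTower.algebraMap_apply k (k ⊗[Λ] ↥B') Ft, ← map_mul]
  congr 1
  rw [Algebra.TensorProduct.algebraMap_apply, Algebra.TensorProduct.tmul_mul_tmul]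
  simp

omit [IsFractionRing (k ⊗[Λ] ↥B') Ft] in
/-- The image in `Ft` of a sum of pure tensors. -/
theorem algebraMap_sum_tmul
    (hψ : ∀ b : ↥B', ψ (b : U) = algebraMap (k ⊗[Λ] ↥B') Ft (1 ⊗ₜ[Λ] b)) {m : ℕ}
    (c : Fin m → k) (b : Fin m → ↥B') :
    algebraMap (k ⊗[Λ] ↥B') Ft (∑ i, c i ⊗ₜ[Λ] b i) =
      ∑ i, algebraMap k Ft (c i) * ψ (b i : U) := by
  rw [map_sum]
  exact Finset.sum_congr rfl fun i _ => algebraMap_tmul B' ψ hψ _ _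

/-- **Generation clause**: every element of `Ft` is a quotient of two `k`-linear combinations of
elements of `ψ(U)` (indeed of `ψ(B')`). -/
theorem exists_quot_repr
    (hψ : ∀ b : ↥B', ψ (b : U) = algebraMap (k ⊗[Λ] ↥B') Ft (1 ⊗ₜ[Λ] b)) (f : Ft) :
    ∃ (m : ℕ) (c d : Fin m → k) (u w : Fin m → U),
      (∑ i, algebraMap k Ft (d i) * ψ (w i)) ≠ 0 ∧
      f * (∑ i, algebraMap k Ft (d i) * ψ (w i)) = ∑ i, algebraMap k Ft (c i) * ψ (u i) := by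
  obtain ⟨⟨r₁, r₂⟩, h⟩ := IsLocalization.surj (nonZeroDivisors (k ⊗[Λ] ↥B')) f
  obtain ⟨m₁, c₁, b₁, h₁⟩ := exists_sum_tmul B' r₁
  obtain ⟨m₂, c₂, b₂, h₂⟩ := exists_sum_tmul B' (r₂ : k ⊗[Λ] ↥B')
  have e₁ : algebraMap (k ⊗[Λ] ↥B') Ft r₁ = ∑ i, algebraMap k Ft (c₁ i) * ψ (b₁ i : U) := by
    rw [h₁]; exact algebraMap_sum_tmul B' ψ hψ _ _
  have e₂ : algebraMap (k ⊗[Λ] ↥B') Ft (r₂ : k ⊗[Λ] ↥B') =
      ∑ i, algebraMap k Ft (c₂ i) * ψ (b₂ i : U) := by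
    rw [h₂]; exact algebraMap_sum_tmul B' ψ hψ _ _
  have hne : algebraMap (k ⊗[Λ] ↥B') Ft (r₂ : k ⊗[Λ] ↥B') ≠ 0 :=
    (IsLocalization.map_units Ft r₂).ne_zero
  refine ⟨m₁ + m₂, Fin.append c₁ 0, Fin.append 0 c₂, Fin.append (fun i => (b₁ i : U)) 0,
    Fin.append 0 (fun i => (b₂ i : U)), ?_, ?_⟩
  · rw [Fin.sum_univ_add]
    simp only [Fin.append_left, Fin.append_right, Pi.zero_apply, map_zero, zero_mul,
      Finset.sum_const_zero, zero_add]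
    rw [← e₂]
    exact hne
  · rw [Fin.sum_univ_add, Fin.sum_univ_add]
    simp only [Fin.append_left, Fin.append_right, Pi.zero_apply, map_zero, zero_mul,
      Finset.sum_const_zero, zero_add, add_zero]
    rw [← e₂, ← e₁]
    exact h

/-- **Automorphism clause**: a ring automorphism `σ` of `k` fixing the image of `Λ` extends to a
ring automorphism of `Ft` which is `σ` on `k` and fixes `ψ(U)` pointwise. -/
theorem exists_ringEquiv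
    (hψ : ∀ b : ↥B', ψ (b : U) = algebraMap (k ⊗[Λ] ↥B') Ft (1 ⊗ₜ[Λ] b)) {x' : U}
    (hx' : x' ∈ B') (hx'0 : ψ x' ≠ 0) (hB' : ∀ u : U, ∃ m : ℕ, x' ^ m * u ∈ B')
    (σ : k ≃+* k) (hσ : ∀ a : Λ, σ (algebraMap Λ k a) = algebraMap Λ k a) :
    ∃ Φ : Ft ≃+* Ft, (∀ c : k, Φ (algebraMap k Ft c) = algebraMap k Ft (σ c)) ∧
      ∀ u : U, Φ (ψ u) = ψ u := by
  let σ' : k ≃ₐ[Λ] k := AlgEquiv.ofRingEquiv (f := σ) hσ
  let e : (k ⊗[Λ] ↥B') ≃ₐ[Λ] (k ⊗[Λ] ↥B') := Algebra.TensorProduct.congr σ' AlgEquiv.refl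
  let Φ : Ft ≃+* Ft := IsFractionRing.ringEquivOfRingEquiv (K := Ft) (L := Ft) e.toRingEquiv
  have hΦ : ∀ r, Φ (algebraMap (k ⊗[Λ] ↥B') Ft r) = algebraMap (k ⊗[Λ] ↥B') Ft (e r) :=
    fun r => IsFractionRing.ringEquivOfRingEquiv_algebraMap _ r
  have he : ∀ (c : k) (b : ↥B'), e (c ⊗ₜ[Λ] b) = σ c ⊗ₜ[Λ] b := fun c b => by
    simp [e, σ']
  have hb : ∀ b : ↥B', Φ (ψ (b : U)) = ψ (b : U) := fun b => by
    rw [hψ, hΦ, he, map_one]
  refine ⟨Φ, fun c => ?_, fun u => ?_⟩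
  · rw [IsScalarTower.algebraMap_apply k (k ⊗[Λ] ↥B') Ft, hΦ,
      Algebra.TensorProduct.algebraMap_apply, he,
      IsScalarTower.algebraMap_apply k (k ⊗[Λ] ↥B') Ft, Algebra.TensorProduct.algebraMap_apply]
    simp
  · obtain ⟨m, hm⟩ := hB' u
    have h1 : Φ (ψ (x' ^ m * u)) = ψ (x' ^ m * u) := hb ⟨_, hm⟩
    have h2 : Φ (ψ x') = ψ x' := hb ⟨x', hx'⟩
    rw [map_mul, map_mul, map_pow, map_pow, h2] at h1
    exact mul_left_cancel₀ (pow_ne_zero m hx'0) h1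

/-- Variant of `exists_ringEquiv` with `ψ x' ≠ 0` derived from `x * x' = 1`. -/
theorem exists_ringEquiv_of_mul_eq_one
    (hψ : ∀ b : ↥B', ψ (b : U) = algebraMap (k ⊗[Λ] ↥B') Ft (1 ⊗ₜ[Λ] b)) {x x' : U}
    (hxx' : x * x' = 1) (hx' : x' ∈ B') (hB' : ∀ u : U, ∃ m : ℕ, x' ^ m * u ∈ B')
    (σ : k ≃+* k) (hσ : ∀ a : Λ, σ (algebraMap Λ k a) = algebraMap Λ k a) :
    ∃ Φ : Ft ≃+* Ft, (∀ c : k, Φ (algebraMap k Ft c) = algebraMap k Ft (σ c)) ∧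
      ∀ u : U, Φ (ψ u) = ψ u := by
  refine exists_ringEquiv B' ψ hψ hx' (fun h0 => ?_) hB' σ hσ
  have h1 : ψ x * ψ x' = 1 := by rw [← map_mul, hxx', map_one]
  rw [h0, mul_zero] at h1
  exact zero_ne_one h1

end Fermat.Agent.S27P.GR.FibreAux
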