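import Mathlib

/-!
# S27 / (GR): algebras given by structure constants — the multiplication matrix and its adjugate

Abstract, Mathlib-only core of the row GR-G (`exists_gauss`), step (N) of the recipe: a commutative
ring `E` containing "coordinates" `e : Fin n → E` over a coefficient ring `S` (through a ring
homomorphism `ev : S →+* E`), with structure constants `Γ` (`e i * e j = ∑ l, ev (Γ i j l) * e l`)
and a unit vector `υ` (`1 = ∑ l, ev (υ l) * e l`).

* `comb ev e v = ∑ i, ev (v i) * e i`;
* `mulMat Γ v` : the matrix of multiplication by `comb ev e v`;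
* `comb_mul_comb` : `comb v * comb w = comb (mulMat Γ v *ᵥ w)`;
* `comb_mul_adjugate` : `comb v * comb (adjugate (mulMat Γ v) *ᵥ υ) = ev (det (mulMat Γ v))`
  (an explicit "inverse up to a denominator in `S`");
* `det_mulMat_ne_zero` : over a domain `S`, with `E` without zero divisors and `e` independent,
  `comb v ≠ 0 → det (mulMat Γ v) ≠ 0`;
* `map_det_mulMat` : compatibility with a change of coefficients `θ : S →+* S'`.
-/

set_option autoImplicit false

namespace Fermat.Agent.S27P.GR.StructConst

open Matrix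

variable {S E : Type*} [CommRing S] [CommRing E] {n : ℕ}

/-- The combination `∑ i, ev (v i) * e i`. -/
def comb (ev : S →+* E) (e : Fin n → E) (v : Fin n → S) : E := ∑ i, ev (v i) * e i

theorem comb_def (ev : S →+* E) (e : Fin n → E) (v : Fin n → S) :
    comb ev e v = ∑ i, ev (v i) * e i := rfl

@[simp]
theorem comb_zero (ev : S →+* E) (e : Fin n → E) : comb ev e 0 = 0 := by
  simp [comb]

theorem comb_add (ev : S →+* E) (e : Fin n → E) (v w : Fin n → S) :
    comb ev e (v + w) = comb ev e v + comb ev e w := by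
  simp only [comb, Pi.add_apply, map_add, add_mul, Finset.sum_add_distrib]

theorem comb_neg (ev : S →+* E) (e : Fin n → E) (v : Fin n → S) :
    comb ev e (-v) = -comb ev e v := by
  simp only [comb, Pi.neg_apply, map_neg, neg_mul, Finset.sum_neg_distrib]

theorem comb_sub (ev : S →+* E) (e : Fin n → E) (v w : Fin n → S) :
    comb ev e (v - w) = comb ev e v - comb ev e w := by
  simp only [comb, Pi.sub_apply, map_sub, sub_mul, Finset.sum_sub_distrib]

theorem comb_smul (ev : S →+* E) (e : Fin n → E) (s : S) (v : Fin n → S) :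
    comb ev e (s • v) = ev s * comb ev e v := by
  simp only [comb, Pi.smul_apply, smul_eq_mul, map_mul, Finset.mul_sum, mul_assoc]

theorem comb_mul_left (ev : S →+* E) (e : Fin n → E) (s : S) (v : Fin n → S) :
    comb ev e (fun i => s * v i) = ev s * comb ev e v :=
  comb_smul ev e s v

/-- Change of coefficients. -/
theorem comb_comp {S' : Type*} [CommRing S'] (θ : S →+* S') (ev' : S' →+* E) (e : Fin n → E)
    (v : Fin n → S) : comb (ev'.comp θ) e v = comb ev' e (fun i => θ (v i)) := rfl

/-- The matrix of multiplication by `comb ev e v` with respect to `e`. -/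
def mulMat (Γ : Fin n → Fin n → Fin n → S) (v : Fin n → S) : Matrix (Fin n) (Fin n) S :=
  Matrix.of fun l j => ∑ i, v i * Γ i j l

theorem mulMat_apply (Γ : Fin n → Fin n → Fin n → S) (v : Fin n → S) (l j : Fin n) :
    mulMat Γ v l j = ∑ i, v i * Γ i j l := rfl

/-- **Product formula.** -/
theorem comb_mul_comb (ev : S →+* E) (e : Fin n → E) (Γ : Fin n → Fin n → Fin n → S)
    (hΓ : ∀ i j, e i * e j = ∑ l, ev (Γ i j l) * e l) (v w : Fin n → S) :
    comb ev e v * comb ev e w = comb ev e (mulMat Γ v *ᵥ w) := by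
  have h1 : comb ev e v * comb ev e w
      = ∑ i, ∑ j, ∑ l, ev (v i) * ev (w j) * ev (Γ i j l) * e l := by
    rw [comb, comb, Finset.sum_mul_sum]
    refine Finset.sum_congr rfl fun i _ => Finset.sum_congr rfl fun j _ => ?_
    rw [mul_mul_mul_comm, hΓ i j, Finset.mul_sum]
    refine Finset.sum_congr rfl fun l _ => ?_
    ring
  have h2 : comb ev e (mulMat Γ v *ᵥ w)
      = ∑ l, ∑ j, ∑ i, ev (v i) * ev (w j) * ev (Γ i j l) * e l := by
    rw [comb]
    refine Finset.sum_congr rfl fun l _ => ?_
    rw [Matrix.mulVec, dotProduct, map_sum, Finset.sum_mul]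
    refine Finset.sum_congr rfl fun j _ => ?_
    rw [mulMat_apply, map_mul, map_sum, Finset.sum_mul, Finset.sum_mul]
    refine Finset.sum_congr rfl fun i _ => ?_
    rw [map_mul]
    ring
  rw [h1, h2]
  calc ∑ i, ∑ j, ∑ l, ev (v i) * ev (w j) * ev (Γ i j l) * e l
      = ∑ i, ∑ l, ∑ j, ev (v i) * ev (w j) * ev (Γ i j l) * e l :=
        Finset.sum_congr rfl fun i _ => Finset.sum_comm
    _ = ∑ l, ∑ i, ∑ j, ev (v i) * ev (w j) * ev (Γ i j l) * e l := Finset.sum_comm
    _ = ∑ l, ∑ j, ∑ i, ev (v i) * ev (w j) * ev (Γ i j l) * e l :=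
        Finset.sum_congr rfl fun l _ => Finset.sum_comm

/-- **Inverse up to a denominator**: `comb v * comb (adj(M_v) υ) = ev (det M_v)`. -/
theorem comb_mul_adjugate (ev : S →+* E) (e : Fin n → E) (Γ : Fin n → Fin n → Fin n → S)
    (hΓ : ∀ i j, e i * e j = ∑ l, ev (Γ i j l) * e l) (υ : Fin n → S)
    (hυ : (1 : E) = ∑ l, ev (υ l) * e l) (v : Fin n → S) :
    comb ev e v * comb ev e ((mulMat Γ v).adjugate *ᵥ υ) = ev (mulMat Γ v).det := by
  rw [comb_mul_comb ev e Γ hΓ, Matrix.mulVec_mulVec, Matrix.mul_adjugate, Matrix.smul_mulVec,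
    Matrix.one_mulVec, comb_smul, comb_def ev e υ, ← hυ, mul_one]

/-- `1 = comb υ` as a product formula: `ev s = comb (s • υ)`. -/
theorem ev_eq_comb (ev : S →+* E) (e : Fin n → E) (υ : Fin n → S)
    (hυ : (1 : E) = ∑ l, ev (υ l) * e l) (s : S) : ev s = comb ev e (s • υ) := by
  rw [comb_smul, comb_def ev e υ, ← hυ, mul_one]

/-- **The multiplication matrix of a nonzero element is nonsingular** (coefficients in a domain,
values in a ring without zero divisors, `e` independent). -/
theorem det_mulMat_ne_zero [IsDomain S] [NoZeroDivisors E] (ev : S →+* E) (e : Fin n → E)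
    (Γ : Fin n → Fin n → Fin n → S) (hΓ : ∀ i j, e i * e j = ∑ l, ev (Γ i j l) * e l)
    (hind : ∀ w : Fin n → S, ∑ i, ev (w i) * e i = 0 → w = 0) (v : Fin n → S)
    (hv : comb ev e v ≠ 0) : (mulMat Γ v).det ≠ 0 := by
  intro hdet
  obtain ⟨w, hw0, hw⟩ := Matrix.exists_mulVec_eq_zero_iff.2 hdet
  have h := comb_mul_comb ev e Γ hΓ v w
  rw [hw, comb_zero] at h
  rcases mul_eq_zero.1 h with h1 | h1
  · exact hv h1
  · exact hw0 (hind w h1)

/-- Change of coefficients for the multiplication matrix. -/
theorem map_mulMat {S' : Type*} [CommRing S'] (θ : S →+* S') (Γ : Fin n → Fin n → Fin n → S)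
    (v : Fin n → S) :
    (mulMat Γ v).map θ = mulMat (fun i j l => θ (Γ i j l)) (fun i => θ (v i)) := by
  ext l j
  rw [Matrix.map_apply, mulMat_apply, mulMat_apply, map_sum]
  refine Finset.sum_congr rfl fun i _ => ?_
  rw [map_mul]

/-- Change of coefficients for the determinant of the multiplication matrix. -/
theorem map_det_mulMat {S' : Type*} [CommRing S'] (θ : S →+* S') (Γ : Fin n → Fin n → Fin n → S)
    (v : Fin n → S) :
    θ (mulMat Γ v).det = (mulMat (fun i j l => θ (Γ i j l)) (fun i => θ (v i))).det := by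
  rw [← map_mulMat, ← RingHom.mapMatrix_apply, RingHom.map_det]

/-- **Nonvanishing of the reduced denominator**: if the image of `comb v` under a change of
coefficients `θ` is nonzero (in a ring without zero divisors, with independent `e'`), then
`θ (det (mulMat Γ v)) ≠ 0`. -/
theorem map_det_mulMat_ne_zero {S' E' : Type*} [CommRing S'] [IsDomain S'] [CommRing E']
    [NoZeroDivisors E'] (θ : S →+* S') (ev' : S' →+* E') (e' : Fin n → E')
    (Γ : Fin n → Fin n → Fin n → S)
    (hΓ' : ∀ i j, e' i * e' j = ∑ l, ev' (θ (Γ i j l)) * e' l)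
    (hind : ∀ w : Fin n → S', ∑ i, ev' (w i) * e' i = 0 → w = 0) (v : Fin n → S)
    (hv : ∑ i, ev' (θ (v i)) * e' i ≠ 0) : θ (mulMat Γ v).det ≠ 0 := by
  rw [map_det_mulMat]
  exact det_mulMat_ne_zero ev' e' (fun i j l => θ (Γ i j l)) hΓ' hind (fun i => θ (v i)) hv

end Fermat.Agent.S27P.GR.StructConst
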