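import Mathlib
import Fermat.Agent.S27P.GR.GaussModel
import Fermat.Agent.S27P.GR.StructConst

/-!
# S27 / (GR), row GR-G: the Gauss valuation ring of two compatible lattices

`exists_gauss` (literal of the (GR) cut v1): `F'/K'` and `Ft/k` fields with transcendental `x`,
`xt` and "bases" `b`, `c` over `K'(x)`, `k(xt)` having the SAME structure constants `γ` in `A[X]`
(`A` a valuation subring of `K'`, `π : A → k` onto, killing the non-units).  Then
`O = {(∑ p_i(x) b_i) / s(x) | p_i, s ∈ A[X], s̄ ≠ 0}` is a valuation subring of `F'` with a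
reduction `red : O → Ft`, `(∑ p_i(x) b_i) / s(x) ↦ (∑ p̄_i(xt) c_i) / s̄(xt)`.

Route: the lattice `B = {∑ p_i(x) b_i | p_i ∈ A[X]}` is a subring (`lat`), `ρ : B → Ft`
(`latRed`) is a ring homomorphism, `IsModel A π B ρ` (`isModel_lat`: `frac` and `content` by
division by a coefficient of maximal valuation, `exists_scale`), so helper71's
`GaussModel.gaussRing / gaussRed` apply; the normal form of the denominators (`s(x)` instead of a
general lattice element) is `StructConst.comb_mul_adjugate` + `map_det_mulMat_ne_zero`.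
-/

set_option autoImplicit false

noncomputable section

namespace Fermat.Agent.S27P.GR.GaussOf

open Polynomial Matrix Fermat.Agent.S27P.GR.StructConst Fermat.Agent.S27P.GR.GaussModel

variable {K' F' k Ft : Type*} [Field K'] [Field F'] [Algebra K' F'] [Field k] [Field Ft]
  [Algebra k Ft]

/-! ### Scaling a finite family of polynomials into the valuation ring -/

/-- A finite family of polynomials over `K'`, not all zero, becomes integral with a coefficient
equal to `1` after division by a coefficient of maximal valuation. -/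
theorem exists_scale (A : ValuationSubring K') {J : Type*} [Fintype J] (q : J → K'[X])
    (hq : ∃ j, q j ≠ 0) :
    ∃ (a₀ : K') (Q : J → A[X]), a₀ ≠ 0 ∧ (∀ j, (Q j).map A.subtype = C a₀⁻¹ * q j) ∧
      ∃ j m, (Q j).coeff m = 1 := by
  classical
  let S : Finset (Σ _ : J, ℕ) := Finset.univ.sigma fun j => (q j).support
  have hS : S.Nonempty := by
    obtain ⟨j, hj⟩ := hq
    obtain ⟨m, hm⟩ := Polynomial.nonempty_support_iff.2 hj
    exact ⟨⟨j, m⟩, Finset.mem_sigma.2 ⟨Finset.mem_univ _, hm⟩⟩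
  obtain ⟨⟨j₀, m₀⟩, hmem, hmax⟩ :=
    Finset.exists_max_image S (fun jm => A.valuation ((q jm.1).coeff jm.2)) hS
  have ha₀ : (q j₀).coeff m₀ ≠ 0 := Polynomial.mem_support_iff.1 (Finset.mem_sigma.1 hmem).2
  have hle : ∀ j m, A.valuation ((q j).coeff m) ≤ A.valuation ((q j₀).coeff m₀) := by
    intro j m
    by_cases h0 : (q j).coeff m = 0
    · rw [h0, map_zero]
      exact zero_le
    · exact hmax ⟨j, m⟩ (Finset.mem_sigma.2 ⟨Finset.mem_univ _, Polynomial.mem_support_iff.2 h0⟩)
  have hlift : ∀ j, ∃ Q : A[X], Q.map A.subtype = C ((q j₀).coeff m₀)⁻¹ * q j := by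
    intro j
    rw [← Polynomial.mem_lifts, Polynomial.lifts_iff_coeff_lifts]
    intro m
    rw [Polynomial.coeff_C_mul]
    have hval : A.valuation (((q j₀).coeff m₀)⁻¹ * (q j).coeff m) ≤ 1 := by
      rw [← div_eq_inv_mul, map_div₀]
      exact div_le_one_of_le₀ (hle j m) zero_le
    exact ⟨⟨_, (A.valuation_le_one_iff _).1 hval⟩, rfl⟩
  choose Q hQ using hlift
  refine ⟨(q j₀).coeff m₀, Q, ha₀, hQ, j₀, m₀, ?_⟩
  apply Subtype.ext
  have h1 : ((Q j₀).map A.subtype).coeff m₀ = (((Q j₀).coeff m₀ : A) : K') :=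
    Polynomial.coeff_map _ _
  rw [← h1, hQ j₀, Polynomial.coeff_C_mul, inv_mul_cancel₀ ha₀]
  rfl

/-! ### The two evaluations -/

/-- `p ↦ p(x)` for `p ∈ A[X]`. -/
def evF (A : ValuationSubring K') (x : F') : A[X] →+* F' :=
  (aeval x : K'[X] →ₐ[K'] F').toRingHom.comp (mapRingHom A.subtype)

theorem evF_apply (A : ValuationSubring K') (x : F') (p : A[X]) :
    evF A x p = aeval x (p.map A.subtype) := rfl

/-- `p ↦ p̄(xt)` for `p ∈ A[X]`. -/
def evT {A : ValuationSubring K'} (π : A →+* k) (xt : Ft) : A[X] →+* Ft :=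
  (aeval xt : k[X] →ₐ[k] Ft).toRingHom.comp (mapRingHom π)

theorem evT_apply {A : ValuationSubring K'} (π : A →+* k) (xt : Ft) (p : A[X]) :
    evT π xt p = aeval xt (p.map π) := rfl

theorem evF_C (A : ValuationSubring K') (x : F') (a : A) :
    evF A x (C a) = algebraMap K' F' (a : K') := by
  rw [evF_apply, Polynomial.map_C, aeval_C]
  rfl

theorem evT_C {A : ValuationSubring K'} (π : A →+* k) (xt : Ft) (a : A) :
    evT π xt (C a) = algebraMap k Ft (π a) := by
  rw [evT_apply, Polynomial.map_C, aeval_C]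

theorem evF_ne_zero (A : ValuationSubring K') {x : F'} (hx : Transcendental K' x) {s : A[X]}
    (hs : s ≠ 0) : evF A x s ≠ 0 := by
  intro h0
  rw [evF_apply] at h0
  have h1 := (transcendental_iff.1 hx) _ h0
  exact hs (Polynomial.map_injective A.subtype Subtype.val_injective
    (by rw [h1, Polynomial.map_zero]))

theorem evT_ne_zero {A : ValuationSubring K'} (π : A →+* k) {xt : Ft} (hxt : Transcendental k xt)
    {s : A[X]} (hs : s.map π ≠ 0) : evT π xt s ≠ 0 := by
  intro h0
  rw [evT_apply] at h0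
  exact hs ((transcendental_iff.1 hxt) _ h0)

/-! ### The lattice and its reduction -/

section Lattice

variable (A : ValuationSubring K') (π : A →+* k) {n : ℕ} (x : F') (xt : Ft) (b : Fin n → F')
  (c : Fin n → Ft)

/-- Coordinates in the lattice are unique. -/
theorem combF_injective
    (hb : ∀ p : Fin n → K'[X], ∑ i, aeval x (p i) * b i = 0 → p = 0) :
    Function.Injective (comb (evF A x) b) := by
  intro p q hpq
  have h0 : comb (evF A x) b (p - q) = 0 := by rw [comb_sub, hpq, sub_self]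
  have h1 := hb (fun i => ((p - q) i).map A.subtype) h0
  funext i
  have h2 : ((p - q) i).map A.subtype = 0 := congrFun h1 i
  have h3 : (p - q) i = 0 :=
    Polynomial.map_injective A.subtype Subtype.val_injective (by rw [h2, Polynomial.map_zero])
  exact sub_eq_zero.1 h3

/-- The lattice `{∑ p_i(x) b_i | p_i ∈ A[X]}` as a subring of `F'`. -/
def lat (γ : Fin n → Fin n → Fin n → A[X])
    (hγb : ∀ i j, b i * b j = ∑ l, aeval x ((γ i j l).map A.subtype) * b l)
    (υ : Fin n → A[X]) (hυb : (1 : F') = ∑ l, aeval x ((υ l).map A.subtype) * b l) :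
    Subring F' where
  carrier := Set.range (comb (evF A x) b)
  mul_mem' := by
    rintro _ _ ⟨p, rfl⟩ ⟨q, rfl⟩
    exact ⟨mulMat γ p *ᵥ q, (comb_mul_comb (evF A x) b γ hγb p q).symm⟩
  one_mem' := ⟨υ, hυb.symm⟩
  add_mem' := by
    rintro _ _ ⟨p, rfl⟩ ⟨q, rfl⟩
    exact ⟨p + q, comb_add _ _ p q⟩
  zero_mem' := ⟨0, comb_zero _ _⟩
  neg_mem' := by
    rintro _ ⟨p, rfl⟩
    exact ⟨-p, comb_neg _ _ p⟩

variable {A x b}
variable {γ : Fin n → Fin n → Fin n → A[X]}
  {hγb : ∀ i j, b i * b j = ∑ l, aeval x ((γ i j l).map A.subtype) * b l}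
  {υ : Fin n → A[X]} {hυb : (1 : F') = ∑ l, aeval x ((υ l).map A.subtype) * b l}

theorem comb_mem_lat (p : Fin n → A[X]) : comb (evF A x) b p ∈ lat A x b γ hγb υ hυb :=
  ⟨p, rfl⟩

/-- The element `∑ p_i(x) b_i` of the lattice. -/
def latMk (γ : Fin n → Fin n → Fin n → A[X])
    (hγb : ∀ i j, b i * b j = ∑ l, aeval x ((γ i j l).map A.subtype) * b l)
    (υ : Fin n → A[X]) (hυb : (1 : F') = ∑ l, aeval x ((υ l).map A.subtype) * b l)
    (p : Fin n → A[X]) : lat A x b γ hγb υ hυb :=
  ⟨comb (evF A x) b p, ⟨p, rfl⟩⟩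

theorem coe_latMk (p : Fin n → A[X]) :
    ((latMk γ hγb υ hυb p : lat A x b γ hγb υ hυb) : F') = comb (evF A x) b p := rfl

theorem exists_eq_latMk (y : lat A x b γ hγb υ hυb) : ∃ p, y = latMk γ hγb υ hυb p := by
  obtain ⟨p, hp⟩ := y.2
  exact ⟨p, Subtype.ext hp.symm⟩

/-- The reduction of the lattice, as a function. -/
def latRedFun (y : lat A x b γ hγb υ hυb) : Ft :=
  comb (evT π xt) c (Classical.choose y.2)

theorem latRedFun_latMk (hb : ∀ p : Fin n → K'[X], ∑ i, aeval x (p i) * b i = 0 → p = 0)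
    (p : Fin n → A[X]) :
    latRedFun π xt c (latMk γ hγb υ hυb p) = comb (evT π xt) c p := by
  unfold latRedFun
  congr 1
  exact combF_injective A x b hb (Classical.choose_spec (latMk γ hγb υ hυb p).2)

/-- **The reduction of the lattice**: `∑ p_i(x) b_i ↦ ∑ p̄_i(xt) c_i`. -/
def latRed (hb : ∀ p : Fin n → K'[X], ∑ i, aeval x (p i) * b i = 0 → p = 0)
    (hγc : ∀ i j, c i * c j = ∑ l, aeval xt ((γ i j l).map π) * c l)
    (hυc : (1 : Ft) = ∑ l, aeval xt ((υ l).map π) * c l) :
    lat A x b γ hγb υ hυb →+* Ft where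
  toFun := latRedFun π xt c
  map_one' := by
    have h1 : (1 : lat A x b γ hγb υ hυb) = latMk γ hγb υ hυb υ := Subtype.ext hυb
    rw [h1, latRedFun_latMk π xt c hb]
    exact hυc.symm
  map_mul' := by
    intro y z
    obtain ⟨p, rfl⟩ := exists_eq_latMk y
    obtain ⟨q, rfl⟩ := exists_eq_latMk z
    have h1 : latMk γ hγb υ hυb p * latMk γ hγb υ hυb q
        = latMk γ hγb υ hυb (mulMat γ p *ᵥ q) :=
      Subtype.ext (comb_mul_comb (evF A x) b γ hγb p q)
    rw [h1, latRedFun_latMk π xt c hb, latRedFun_latMk π xt c hb, latRedFun_latMk π xt c hb]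
    exact (comb_mul_comb (evT π xt) c γ hγc p q).symm
  map_zero' := by
    have h1 : (0 : lat A x b γ hγb υ hυb) = latMk γ hγb υ hυb 0 :=
      Subtype.ext (comb_zero _ _).symm
    rw [h1, latRedFun_latMk π xt c hb, comb_zero]
  map_add' := by
    intro y z
    obtain ⟨p, rfl⟩ := exists_eq_latMk y
    obtain ⟨q, rfl⟩ := exists_eq_latMk z
    have h1 : latMk γ hγb υ hυb p + latMk γ hγb υ hυb q = latMk γ hγb υ hυb (p + q) :=
      Subtype.ext (comb_add _ _ p q).symm
    rw [h1, latRedFun_latMk π xt c hb, latRedFun_latMk π xt c hb, latRedFun_latMk π xt c hb,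
      comb_add]

variable {π xt c}
variable {hb : ∀ p : Fin n → K'[X], ∑ i, aeval x (p i) * b i = 0 → p = 0}
  {hγc : ∀ i j, c i * c j = ∑ l, aeval xt ((γ i j l).map π) * c l}
  {hυc : (1 : Ft) = ∑ l, aeval xt ((υ l).map π) * c l}

theorem latRed_latMk (p : Fin n → A[X]) :
    latRed π xt c hb hγc hυc (latMk γ hγb υ hυb p) = comb (evT π xt) c p :=
  latRedFun_latMk π xt c hb p

/-- The element `s(x)` of the lattice. -/
theorem latMk_smul_coe (s : A[X]) :
    ((latMk γ hγb υ hυb (s • υ) : lat A x b γ hγb υ hυb) : F') = evF A x s :=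
  (ev_eq_comb (evF A x) b υ hυb s).symm

theorem latRed_latMk_smul (s : A[X]) :
    latRed π xt c hb hγc hυc (latMk γ hγb υ hυb (s • υ)) = evT π xt s := by
  rw [latRed_latMk]
  exact (ev_eq_comb (evT π xt) c υ hυc s).symm

/-- **The lattice is a model** in the sense of `GaussModel.IsModel`. -/
theorem isModel_lat (hπ0 : ∀ a : A, ¬ IsUnit a → π a = 0) (hx : Transcendental K' x)
    (hbs : ∀ y : F', ∃ (p : Fin n → K'[X]) (s : K'[X]), s ≠ 0 ∧
      aeval x s * y = ∑ i, aeval x (p i) * b i)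
    (hc : ∀ p : Fin n → k[X], ∑ i, aeval xt (p i) * c i = 0 → p = 0) :
    IsModel A π (lat A x b γ hγb υ hυb) (latRed π xt c hb hγc hυc) := by
  have hconst : ∀ a : A, algebraMap K' F' (a : K')
      = ((latMk γ hγb υ hυb (C a • υ) : lat A x b γ hγb υ hυb) : F') := by
    intro a
    rw [latMk_smul_coe, evF_C]
  refine ⟨hπ0, fun a => ?_, fun a => ?_, fun y => ?_, fun β hβ => ?_⟩
  · rw [hconst a]
    exact (latMk γ hγb υ hυb (C a • υ)).2
  · have h1 : (⟨algebraMap K' F' (a : K'), by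
        rw [hconst a]; exact (latMk γ hγb υ hυb (C a • υ)).2⟩ : lat A x b γ hγb υ hυb)
        = latMk γ hγb υ hυb (C a • υ) := Subtype.ext (hconst a)
    rw [h1, latRed_latMk_smul, evT_C]
  · -- fractions
    obtain ⟨p, s, hs, hy⟩ := hbs y
    obtain ⟨a₀, Q, ha₀, hQ, -⟩ := exists_scale A (fun o : Option (Fin n) => o.elim s p)
      ⟨none, hs⟩
    have hQs : (Q none).map A.subtype = C a₀⁻¹ * s := hQ none
    have hQp : ∀ i, (Q (some i)).map A.subtype = C a₀⁻¹ * p i := fun i => hQ (some i)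
    have hQs0 : Q none ≠ 0 := by
      intro h0
      rw [h0, Polynomial.map_zero] at hQs
      rcases mul_eq_zero.1 hQs.symm with h | h
      · exact inv_ne_zero ha₀ (Polynomial.C_eq_zero.1 h)
      · exact hs h
    have hden : evF A x (Q none) ≠ 0 := evF_ne_zero A hx hQs0
    refine ⟨latMk γ hγb υ hυb (fun i => Q (some i)), latMk γ hγb υ hυb (Q none • υ), ?_, ?_⟩
    · rw [latMk_smul_coe]
      exact hden
    · rw [latMk_smul_coe, coe_latMk, eq_div_iff hden, mul_comm, evF_apply, hQs, map_mul, aeval_C,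
        mul_assoc, hy, comb_def, Finset.mul_sum]
      refine Finset.sum_congr rfl fun i _ => ?_
      rw [evF_apply, hQp i, map_mul, aeval_C, mul_assoc]
  · -- content
    obtain ⟨p, rfl⟩ := exists_eq_latMk β
    have hp : ∃ i, (fun i => (p i).map A.subtype) i ≠ 0 := by
      by_contra hcon
      push Not at hcon
      apply hβ
      rw [coe_latMk, comb_def]
      refine Finset.sum_eq_zero fun i _ => ?_
      rw [evF_apply, hcon i, map_zero, zero_mul]
    obtain ⟨a₀, Q, ha₀, hQ, j, m, hjm⟩ := exists_scale A (fun i => (p i).map A.subtype) hp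
    refine ⟨a₀, latMk γ hγb υ hυb Q, ?_, ?_⟩
    · rw [coe_latMk, coe_latMk, comb_def, comb_def, Finset.mul_sum]
      refine Finset.sum_congr rfl fun i _ => ?_
      rw [evF_apply, evF_apply, hQ i, map_mul, aeval_C, ← mul_assoc, ← mul_assoc, ← map_mul,
        mul_inv_cancel₀ ha₀, map_one, one_mul]
    · rw [latRed_latMk]
      intro h0
      have h1 := hc (fun i => (Q i).map π) h0
      have h2 : (Q j).map π = 0 := congrFun h1 j
      have h3 : ((Q j).map π).coeff m = 0 := by rw [h2, Polynomial.coeff_zero]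
      rw [Polynomial.coeff_map, hjm, map_one] at h3
      exact one_ne_zero h3

end Lattice

/-! ### The theorem -/

/-- **GR-G: the Gauss valuation ring of two compatible lattices.** -/
theorem exists_gauss (A : ValuationSubring K') (π : A →+* k) (hπ : Function.Surjective π)
    (hπ0 : ∀ a : A, ¬ IsUnit a → π a = 0) {n : ℕ} (x : F') (xt : Ft)
    (hx : Transcendental K' x) (hxt : Transcendental k xt) (b : Fin n → F') (c : Fin n → Ft)
    (hb : ∀ p : Fin n → K'[X], ∑ i, aeval x (p i) * b i = 0 → p = 0)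
    (hbs : ∀ y : F', ∃ (p : Fin n → K'[X]) (s : K'[X]), s ≠ 0 ∧
      aeval x s * y = ∑ i, aeval x (p i) * b i)
    (hc : ∀ p : Fin n → k[X], ∑ i, aeval xt (p i) * c i = 0 → p = 0)
    (hcs : ∀ y : Ft, ∃ (p : Fin n → k[X]) (s : k[X]), s ≠ 0 ∧
      aeval xt s * y = ∑ i, aeval xt (p i) * c i)
    (γ : Fin n → Fin n → Fin n → A[X])
    (hγb : ∀ i j, b i * b j = ∑ l, aeval x ((γ i j l).map A.subtype) * b l)
    (hγc : ∀ i j, c i * c j = ∑ l, aeval xt ((γ i j l).map π) * c l)
    (υ : Fin n → A[X]) (hυb : (1 : F') = ∑ l, aeval x ((υ l).map A.subtype) * b l)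
    (hυc : (1 : Ft) = ∑ l, aeval xt ((υ l).map π) * c l) :
    ∃ (O : ValuationSubring F') (red : O →+* Ft), Function.Surjective red ∧
      (∀ y : O, red y = 0 ↔ ¬ IsUnit y) ∧
      (∀ a : K', algebraMap K' F' a ∈ O ↔ a ∈ A) ∧
      (∀ a : A, ∃ h : algebraMap K' F' (a : K') ∈ O, red ⟨_, h⟩ = algebraMap k Ft (π a)) ∧
      (∀ f : O, red f = 0 → ∃ (a : A) (g : O), π a = 0 ∧
        (f : F') = algebraMap K' F' (a : K') * (g : F')) ∧
      (∀ y : F', y ≠ 0 → ∃ (a : K') (u : Oˣ), y = algebraMap K' F' a * ((u : O) : F')) ∧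
      (∀ y : F', y ∈ O ↔ ∃ (p : Fin n → A[X]) (s : A[X]), s.map π ≠ 0 ∧
        aeval x (s.map A.subtype) * y = ∑ i, aeval x ((p i).map A.subtype) * b i) ∧
      (∀ (y : O) (p : Fin n → A[X]) (s : A[X]), s.map π ≠ 0 →
        aeval x (s.map A.subtype) * (y : F') = ∑ i, aeval x ((p i).map A.subtype) * b i →
        aeval xt (s.map π) * red y = ∑ i, aeval xt ((p i).map π) * c i) := by
  classical
  set B := lat A x b γ hγb υ hυb with hB
  set ρ : B →+* Ft := latRed π xt c hb hγc hυc with hρ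
  have hM : IsModel A π B ρ := isModel_lat hπ0 hx hbs hc
  -- membership and reduction of a fraction with denominator `s(x)`
  have key : ∀ (y : F') (p : Fin n → A[X]) (s : A[X]), s.map π ≠ 0 →
      aeval x (s.map A.subtype) * y = ∑ i, aeval x ((p i).map A.subtype) * b i →
      ∃ hy : y ∈ gaussRing hM,
        aeval xt (s.map π) * gaussRed hM ⟨y, hy⟩ = ∑ i, aeval xt ((p i).map π) * c i := by
    intro y p s hs hy
    have hρd : ρ (latMk γ hγb υ hυb (s • υ)) ≠ 0 := by
      rw [hρ, latRed_latMk_smul]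
      exact evT_ne_zero π hxt hs
    have hdF : ((latMk γ hγb υ hυb (s • υ) : B) : F') ≠ 0 := coe_ne_zero_of_red_ne_zero hρd
    have hyd : y = ((latMk γ hγb υ hυb p : B) : F') / ((latMk γ hγb υ hυb (s • υ) : B) : F') := by
      rw [eq_div_iff hdF, mul_comm, latMk_smul_coe, coe_latMk]
      exact hy
    have hmem : y ∈ gaussRing hM := (mem_gaussRing_iff hM).2 ⟨_, _, hρd, hyd⟩
    refine ⟨hmem, ?_⟩
    rw [gaussRed_div hM ⟨y, hmem⟩ hρd hyd, hρ, latRed_latMk_smul, latRed_latMk]
    exact mul_div_cancel₀ _ (evT_ne_zero π hxt hs)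
  refine ⟨gaussRing hM, gaussRed hM, ?_, ?_, ?_, ?_, ?_, ?_, ?_, ?_⟩
  · -- surjectivity
    intro y
    obtain ⟨p, s, hs, hy⟩ := hcs y
    obtain ⟨S, rfl⟩ := Polynomial.map_surjective π hπ s
    choose P hP using fun i => Polynomial.map_surjective π hπ (p i)
    have hS0 : S ≠ 0 := by
      rintro rfl
      exact hs (Polynomial.map_zero _)
    have hden : aeval x (S.map A.subtype) ≠ 0 := evF_ne_zero A hx hS0
    obtain ⟨hz, hzr⟩ := key ((aeval x (S.map A.subtype))⁻¹ *
      ∑ i, aeval x ((P i).map A.subtype) * b i) P S hs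
      (by rw [← mul_assoc, mul_inv_cancel₀ hden, one_mul])
    refine ⟨⟨_, hz⟩, ?_⟩
    have hne : aeval xt (S.map π) ≠ 0 := evT_ne_zero π hxt hs
    apply mul_left_cancel₀ hne
    rw [hzr, hy]
    refine Finset.sum_congr rfl fun i _ => ?_
    rw [hP i]
  · intro y
    rw [isUnit_iff hM y, not_not]
  · exact fun a => algebraMap_mem_gaussRing_iff hM a
  · exact fun a => ⟨coe_mem hM ⟨_, hM.const_mem a⟩, gaussRed_algebraMap hM a⟩
  · -- non-units are divisible by a non-unit constant
    intro f hf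
    by_cases hf0 : (f : F') = 0
    · exact ⟨0, 0, map_zero π, by rw [hf0]; simp⟩
    obtain ⟨a, u, hau⟩ := scale hM (f : F') hf0
    have haO : algebraMap K' F' a ∈ gaussRing hM := by
      have h1 : algebraMap K' F' a = (f : F') * (((u⁻¹ : (gaussRing hM)ˣ) : gaussRing hM) : F') := by
        rw [hau, mul_assoc]
        have h2 : (((u : gaussRing hM) : F')) * (((u⁻¹ : (gaussRing hM)ˣ) : gaussRing hM) : F')
            = 1 := congrArg Subtype.val (Units.mul_inv u)
        rw [h2, mul_one]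
      rw [h1]
      exact (gaussRing hM).mul_mem _ _ f.2 (((u⁻¹ : (gaussRing hM)ˣ) : gaussRing hM)).2
    have haA : a ∈ A := (algebraMap_mem_gaussRing_iff hM a).1 haO
    refine ⟨⟨a, haA⟩, (u : gaussRing hM), ?_, hau⟩
    have h3 : f = (⟨algebraMap K' F' a, haO⟩ : gaussRing hM) * (u : gaussRing hM) :=
      Subtype.ext hau
    have h4 : gaussRed hM (⟨algebraMap K' F' a, haO⟩ : gaussRing hM)
        = algebraMap k Ft (π ⟨a, haA⟩) := gaussRed_algebraMap hM ⟨a, haA⟩
    rw [h3, map_mul, h4] at hf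
    have hu : gaussRed hM (u : gaussRing hM) ≠ 0 := (isUnit_iff hM _).1 u.isUnit
    rcases mul_eq_zero.1 hf with h5 | h5
    · exact (map_eq_zero (algebraMap k Ft)).1 h5
    · exact absurd h5 hu
  · exact scale hM
  · -- normal form of the denominators
    intro y
    constructor
    · intro hy
      obtain ⟨α, β, hβ, hyαβ⟩ := (mem_gaussRing_iff hM).1 hy
      obtain ⟨pa, rfl⟩ := exists_eq_latMk α
      obtain ⟨pb, rfl⟩ := exists_eq_latMk β
      rw [hρ, latRed_latMk] at hβ
      have hβF : comb (evF A x) b pb ≠ 0 := by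
        intro h0
        have : ((latMk γ hγb υ hυb pb : B) : F') = 0 := h0
        exact coe_ne_zero_of_red_ne_zero (ρ := ρ) (b := latMk γ hγb υ hυb pb)
          (by rw [hρ, latRed_latMk]; exact hβ) this
      have hN : ((mulMat γ pb).det).map π ≠ 0 :=
        map_det_mulMat_ne_zero (mapRingHom π) (aeval xt : k[X] →ₐ[k] Ft).toRingHom c γ hγc hc pb
          hβ
      have hadj := comb_mul_adjugate (evF A x) b γ hγb υ hυb pb
      refine ⟨mulMat γ pa *ᵥ ((mulMat γ pb).adjugate *ᵥ υ), (mulMat γ pb).det, hN, ?_⟩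
      have h1 : aeval x (((mulMat γ pb).det).map A.subtype) = evF A x (mulMat γ pb).det := rfl
      rw [h1, ← hadj, hyαβ, coe_latMk, coe_latMk]
      have h2 := comb_mul_comb (evF A x) b γ hγb pa ((mulMat γ pb).adjugate *ᵥ υ)
      have h3 : (∑ i, aeval x (((mulMat γ pa *ᵥ ((mulMat γ pb).adjugate *ᵥ υ)) i).map A.subtype)
          * b i) = comb (evF A x) b (mulMat γ pa *ᵥ ((mulMat γ pb).adjugate *ᵥ υ)) := rfl
      rw [h3, ← h2]
      field_simp
    · rintro ⟨p, s, hs, hy⟩
      exact (key y p s hs hy).1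
  · intro y p s hs hy
    obtain ⟨hy', hr⟩ := key (y : F') p s hs hy
    exact hr

end Fermat.Agent.S27P.GR.GaussOf
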