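/-
S27 / (GR), brick GR-SPEC, commutative-algebra core (helper14).

IDEAL REDUCTION.  `A` a valuation ring with maximal ideal `m`; `B` an `A`-algebra ("the integral
model `B_A` of one affine chart"), `BK` a Dedekind domain in which every nonzero element of `A` is
a unit and every element is `b / c` ("the generic fibre `B_K`"), `red : B → Bk` surjective with
kernel `m B` onto a Dedekind domain `Bk` ("the special fibre").  `B` is a finite module over
`A[x]`.  Let `P₁, …, P_d` be maximal ideals of `BK` which are *integral points*: every `b : B` is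
congruent mod `P_i` to a constant of `A`.  Then

  `red (B ∩ P₁ ⋯ P_d) = n₁ ⋯ n_d`,   `n_i := red (B ∩ P_i)` a maximal ideal of `Bk`.

In particular, if `a : B` vanishes along `P₁ ⋯ P_d` then `red a ∈ n₁ ⋯ n_d`: the zeros of `a` at
integral points reduce to zeros of `red a`, with multiplicity (`red_mem_prod`).  No Hensel, no
completeness, no noetherian hypothesis on `A`, any rank.

Proof: `B ⧸ (B ∩ I)` is a finite torsion-free, hence free, `A`-module (`x` is killed by a monic
polynomial); adding one point makes the ideal strictly smaller, and by Nakayama its reduction is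
strictly smaller too; in the Dedekind domain `Bk` there is no ideal strictly between `I₀ n` and
`I₀`.
-/
import Mathlib

set_option autoImplicit false
set_option linter.unusedSectionVars false

namespace Fermat.Agent.S27P.GR.IdealRed

open Polynomial

section Core

variable {A : Type*} [CommRing A] [IsDomain A] [ValuationRing A]
variable {B : Type*} [CommRing B] [Algebra A B]

/-- Elements of `m B` are of the form `c b` with `c ∈ m`. -/
theorem exists_mul_of_mem_map {y : B}
    (hy : y ∈ Ideal.map (algebraMap A B) (IsLocalRing.maximalIdeal A)) :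
    ∃ c ∈ IsLocalRing.maximalIdeal A, ∃ b : B, y = algebraMap A B c * b := by
  rw [Ideal.map] at hy
  induction hy using Submodule.span_induction with
  | mem y hy =>
    obtain ⟨c, hc, rfl⟩ := hy
    exact ⟨c, hc, 1, by simp⟩
  | zero => exact ⟨0, zero_mem _, 0, by simp⟩
  | add y z _ _ ihy ihz =>
    obtain ⟨c, hc, b, rfl⟩ := ihy
    obtain ⟨c', hc', b', rfl⟩ := ihz
    rcases ValuationRing.dvd_total c c' with ⟨d, rfl⟩ | ⟨d, rfl⟩
    · exact ⟨c, hc, b + algebraMap A B d * b', by rw [map_mul]; ring⟩
    · exact ⟨c', hc', algebraMap A B d * b + b', by rw [map_mul]; ring⟩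
  | smul r y _ ih =>
    obtain ⟨c, hc, b, rfl⟩ := ih
    exact ⟨c, hc, r * b, by rw [smul_eq_mul]; ring⟩

/-- A finite torsion-free module over a valuation ring is free. -/
theorem free_of_finite_of_torsionFree (M : Type*) [AddCommGroup M] [Module A M]
    [Module.Finite A M] [Module.IsTorsionFree A M] : Module.Free A M := by
  have : Module.Flat A M := by
    rw [Module.Flat.flat_iff_torsion_eq_bot_of_isBezout,
      ← Submodule.isTorsionFree_iff_torsion_eq_bot]
    infer_instance
  exact Module.free_of_flat_of_isLocalRing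

/-- **Nakayama step.**  If `J' < J` are ideals of `B` with finite torsion-free quotients, then
their images under a reduction map with kernel `m B` are different. -/
theorem map_ne_map_of_lt {Bk : Type*} [CommRing Bk] (red : B →+* Bk)
    (hred : Function.Surjective red)
    (hker : RingHom.ker red = Ideal.map (algebraMap A B) (IsLocalRing.maximalIdeal A))
    {J J' : Ideal B} (hJJ' : J' < J)
    [Module.Finite A (B ⧸ J')] [Module.IsTorsionFree A (B ⧸ J')]
    [Module.Finite A (B ⧸ J)] [Module.IsTorsionFree A (B ⧸ J)] :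
    Ideal.map red J' ≠ Ideal.map red J := by
  intro heq
  have hle : J' ≤ J := hJJ'.le
  -- the projection `B ⧸ J' → B ⧸ J`
  let π : (B ⧸ J') →ₗ[A] (B ⧸ J) := (Ideal.Quotient.factorₐ A hle).toLinearMap
  have hπ : ∀ b : B, π (Ideal.Quotient.mk J' b) = Ideal.Quotient.mk J b := fun b => rfl
  have hπsurj : Function.Surjective π := by
    intro y
    obtain ⟨b, rfl⟩ := Ideal.Quotient.mk_surjective y
    exact ⟨Ideal.Quotient.mk J' b, hπ b⟩
  have hfree : Module.Free A (B ⧸ J) := free_of_finite_of_torsionFree _
  obtain ⟨s, hs⟩ := Module.projective_lifting_property π LinearMap.id hπsurj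
  set N : Submodule A (B ⧸ J') := LinearMap.ker π with hN
  -- `N` is finitely generated: it is the range of `id - s ∘ π`
  have hNfg : N.FG := by
    have hrange : N = LinearMap.range
        ((LinearMap.id - s.comp π : (B ⧸ J') →ₗ[A] (B ⧸ J'))) := by
      apply le_antisymm
      · intro n hn
        refine ⟨n, ?_⟩
        have h0 : π n = 0 := hn
        simp [h0]
      · rintro _ ⟨z, rfl⟩
        show π ((LinearMap.id - s.comp π : (B ⧸ J') →ₗ[A] (B ⧸ J')) z) = 0
        have h1 : π (s (π z)) = π z := by
          have := congrArg (fun f => f (π z)) hs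
          simpa using this
        simp [h1]
    rw [hrange, LinearMap.range_eq_map]
    exact (Module.Finite.fg_top).map _
  -- `N ≤ m • N`
  have hNm : N ≤ IsLocalRing.maximalIdeal A • N := by
    intro n hn
    obtain ⟨b, rfl⟩ := Ideal.Quotient.mk_surjective n
    have hbJ : b ∈ J := by
      have h0 : π (Ideal.Quotient.mk J' b) = 0 := hn
      rw [hπ] at h0
      exact Ideal.Quotient.eq_zero_iff_mem.mp h0
    have hb1 : red b ∈ Ideal.map red J' := by
      rw [heq]
      exact Ideal.mem_map_of_mem red hbJ
    obtain ⟨b', hb'J, hb'⟩ := (Ideal.mem_map_iff_of_surjective red hred).mp hb1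
    have hker' : b - b' ∈ RingHom.ker red := by
      rw [RingHom.mem_ker, map_sub, hb', sub_self]
    rw [hker] at hker'
    obtain ⟨c, hc, b'', hb''⟩ := exists_mul_of_mem_map hker'
    by_cases hc0 : c = 0
    · have : b = b' := by
        rw [hc0, map_zero, zero_mul] at hb''
        exact sub_eq_zero.mp hb''
      have h0 : Ideal.Quotient.mk J' b = 0 := by
        rw [this]
        exact Ideal.Quotient.eq_zero_iff_mem.mpr hb'J
      rw [h0]
      exact zero_mem _
    · -- `b'' ∈ J` by torsion-freeness of `B ⧸ J`
      have hcb : algebraMap A B c * b'' ∈ J := by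
        rw [← hb'']
        exact J.sub_mem hbJ (hle hb'J)
      have hb''J : b'' ∈ J := by
        have h1 : c • (Ideal.Quotient.mk J b'') = 0 := by
          have h3 : c • (Ideal.Quotient.mk J b'') =
              Ideal.Quotient.mk J (algebraMap A B c * b'') := by
            rw [Algebra.smul_def, map_mul]
            rfl
          rw [h3]
          exact Ideal.Quotient.eq_zero_iff_mem.mpr hcb
        rcases smul_eq_zero.mp h1 with h | h
        · exact absurd h hc0
        · exact Ideal.Quotient.eq_zero_iff_mem.mp h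
      have hmem : Ideal.Quotient.mk J' b'' ∈ N := by
        show π (Ideal.Quotient.mk J' b'') = 0
        rw [hπ]
        exact Ideal.Quotient.eq_zero_iff_mem.mpr hb''J
      have hrepr : Ideal.Quotient.mk J' b = c • Ideal.Quotient.mk J' b'' := by
        have h2 : b = b' + algebraMap A B c * b'' := by
          rw [← hb'']
          ring
        rw [h2, map_add, Ideal.Quotient.eq_zero_iff_mem.mpr hb'J, zero_add, map_mul,
          Algebra.smul_def]
        rfl
      rw [hrepr]
      exact Submodule.smul_mem_smul hc hmem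
  have hjac : IsLocalRing.maximalIdeal A ≤ Ideal.jacobson ⊥ := by
    rw [IsLocalRing.jacobson_eq_maximalIdeal ⊥ bot_ne_top]
  have hNbot : N = ⊥ :=
    Submodule.eq_bot_of_le_smul_of_le_jacobson_bot _ N hNfg hNm hjac
  -- hence `J ≤ J'`
  apply hJJ'.not_ge
  intro b hb
  have : Ideal.Quotient.mk J' b ∈ N := by
    show π (Ideal.Quotient.mk J' b) = 0
    rw [hπ]
    exact Ideal.Quotient.eq_zero_iff_mem.mpr hb
  rw [hNbot] at this
  exact Ideal.Quotient.eq_zero_iff_mem.mp this

/-- If `B = Σ_{g ∈ s} A[x] g` and `μ` is monic with `μ(x) ∈ J`, then `B ⧸ J` is a finite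
`A`-module. -/
theorem finite_quot_of_monic (x : B) (s : Finset B)
    (hs : ∀ b : B, ∃ p : B → A[X], b = ∑ g ∈ s, aeval x (p g) * g)
    (μ : A[X]) (hμ : μ.Monic) (J : Ideal B) (hJ : aeval x μ ∈ J) :
    Module.Finite A (B ⧸ J) := by
  classical
  refine ⟨⟨(s ×ˢ Finset.range μ.natDegree).image
    (fun ge => Ideal.Quotient.mk J (x ^ ge.2 * ge.1)), ?_⟩⟩
  rw [eq_top_iff]
  rintro y -
  obtain ⟨b, rfl⟩ := Ideal.Quotient.mk_surjective y
  obtain ⟨p, hp⟩ := hs b
  rw [hp, map_sum]
  refine Submodule.sum_mem _ fun g hg => ?_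
  -- replace `p g` by its remainder modulo `μ`
  have h1 : aeval x (p g) - aeval x (p g %ₘ μ) ∈ J := by
    have h2 : aeval x (p g) - aeval x (p g %ₘ μ) = aeval x μ * aeval x (p g /ₘ μ) := by
      have h3 := congrArg (aeval x) (Polynomial.modByMonic_add_div (p g) μ)
      rw [map_add, map_mul] at h3
      rw [← h3]
      ring
    rw [h2]
    exact J.mul_mem_right _ hJ
  have h3 : Ideal.Quotient.mk J (aeval x (p g) * g) =
      Ideal.Quotient.mk J (aeval x (p g %ₘ μ) * g) := by
    rw [Ideal.Quotient.eq, ← sub_mul]
    exact J.mul_mem_right _ h1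
  rw [h3]
  set r := p g %ₘ μ with hr
  have hrdeg : r = 0 ∨ r.natDegree < μ.natDegree := by
    by_cases hr0 : r = 0
    · exact Or.inl hr0
    · exact Or.inr (Polynomial.natDegree_lt_natDegree hr0 (Polynomial.degree_modByMonic_lt _ hμ))
  rcases hrdeg with hr0 | hrdeg
  · rw [hr0, map_zero, zero_mul, map_zero]
    exact zero_mem _
  · rw [Polynomial.aeval_eq_sum_range' hrdeg, Finset.sum_mul, map_sum]
    refine Submodule.sum_mem _ fun e he => ?_
    have h4 : Ideal.Quotient.mk J (r.coeff e • x ^ e * g) =
        r.coeff e • Ideal.Quotient.mk J (x ^ e * g) := by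
      rw [smul_mul_assoc, Algebra.smul_def, Algebra.smul_def, map_mul]
      rfl
    rw [h4]
    refine Submodule.smul_mem _ _ (Submodule.subset_span ?_)
    rw [Finset.coe_image]
    exact ⟨(g, e), Finset.mem_coe.mpr (Finset.mem_product.mpr ⟨hg, he⟩), rfl⟩

section Generic

variable {BK : Type*} [CommRing BK] [Algebra A BK] [Algebra B BK] [IsScalarTower A B BK]

/-- `B ⧸ (B ∩ I)` is torsion-free over `A` when the nonzero elements of `A` are units of `BK`. -/
theorem isTorsionFree_quot_comap (hunit : ∀ c : A, c ≠ 0 → IsUnit (algebraMap A BK c))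
    (I : Ideal BK) : Module.IsTorsionFree A (B ⧸ Ideal.comap (algebraMap B BK) I) := by
  refine Module.IsTorsionFree.of_smul_eq_zero fun c y h => ?_
  by_cases hc : c = 0
  · exact Or.inl hc
  right
  obtain ⟨b, rfl⟩ := Ideal.Quotient.mk_surjective y
  have h3 : c • (Ideal.Quotient.mk (Ideal.comap (algebraMap B BK) I) b) =
      Ideal.Quotient.mk _ (algebraMap A B c * b) := by
    rw [Algebra.smul_def, map_mul]
    rfl
  rw [h3, Ideal.Quotient.eq_zero_iff_mem, Ideal.mem_comap, map_mul,
    ← IsScalarTower.algebraMap_apply] at h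
  rw [Ideal.Quotient.eq_zero_iff_mem, Ideal.mem_comap]
  exact (Ideal.unit_mul_mem_iff_mem I (hunit c hc)).mp h

/-- `B ∩ ·` is injective on ideals of `BK` when every element of `BK` is `b / c`. -/
theorem eq_of_comap_eq (hunit : ∀ c : A, c ≠ 0 → IsUnit (algebraMap A BK c))
    (hloc : ∀ y : BK, ∃ c : A, c ≠ 0 ∧ ∃ b : B, algebraMap A BK c * y = algebraMap B BK b)
    {I I' : Ideal BK}
    (h : Ideal.comap (algebraMap B BK) I ≤ Ideal.comap (algebraMap B BK) I') : I ≤ I' := by
  intro y hy
  obtain ⟨c, hc, b, hb⟩ := hloc y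
  have hbI : b ∈ Ideal.comap (algebraMap B BK) I := by
    rw [Ideal.mem_comap, ← hb]
    exact I.mul_mem_left _ hy
  have := h hbI
  rw [Ideal.mem_comap, ← hb] at this
  exact (Ideal.unit_mul_mem_iff_mem I' (hunit c hc)).mp this

end Generic

/-- In a Dedekind domain there is no ideal strictly between `I₀ n` and `I₀` (`n` maximal). -/
theorem eq_mul_of_between {R : Type*} [CommRing R] [IsDedekindDomain R] {I₀ L n : Ideal R}
    (hI₀ : I₀ ≠ ⊥) (hn : n.IsMaximal) (h1 : I₀ * n ≤ L) (h2 : L ≤ I₀) (h3 : L ≠ I₀) :
    L = I₀ * n := by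
  obtain ⟨L', rfl⟩ := Ideal.dvd_iff_le.mpr h2
  have h4 : I₀ * L' ∣ I₀ * n := Ideal.dvd_iff_le.mpr h1
  have h5 : L' ∣ n := (mul_dvd_mul_iff_left hI₀).mp h4
  have h6 : n ≤ L' := Ideal.dvd_iff_le.mp h5
  by_cases hL' : L' = ⊤
  · exfalso
    apply h3
    rw [hL', Ideal.mul_top]
  · rw [hn.eq_of_le hL' h6]

section Main

variable {BK : Type*} [CommRing BK] [IsDedekindDomain BK] [Algebra A BK] [Algebra B BK]
  [IsScalarTower A B BK]
variable {Bk : Type*} [CommRing Bk] [IsDedekindDomain Bk]

variable (A B) in
/-- `P` is an *integral point* of the generic fibre: a nonzero maximal ideal of `BK` modulo which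
every element of the model `B` is congruent to a constant of `A`. -/
def IsIntegralPoint (P : Ideal BK) : Prop :=
  P.IsMaximal ∧ P ≠ ⊥ ∧ ∀ b : B, ∃ c : A, algebraMap B BK b - algebraMap A BK c ∈ P

/-- The reduction of an integral point is a maximal ideal of the special fibre. -/
theorem isMaximal_map_comap (red : B →+* Bk) (hred : Function.Surjective red)
    (hker : RingHom.ker red = Ideal.map (algebraMap A B) (IsLocalRing.maximalIdeal A))
    (hunit : ∀ c : A, c ≠ 0 → IsUnit (algebraMap A BK c))
    {P : Ideal BK} (hP : IsIntegralPoint A B P) :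
    (Ideal.map red (Ideal.comap (algebraMap B BK) P)).IsMaximal := by
  have hPtop : P ≠ ⊤ := hP.1.ne_top
  rw [Ideal.isMaximal_iff]
  constructor
  · intro h1
    obtain ⟨b, hb, hb1⟩ := (Ideal.mem_map_iff_of_surjective red hred).mp h1
    have hk : b - 1 ∈ RingHom.ker red := by
      rw [RingHom.mem_ker, map_sub, hb1, map_one, sub_self]
    rw [hker] at hk
    obtain ⟨c, hc, b'', hb''⟩ := exists_mul_of_mem_map hk
    obtain ⟨c'', hc''⟩ := hP.2.2 b''
    have hu : IsUnit (1 + c * c'') := by
      by_contra hnu
      have h2 : 1 + c * c'' ∈ IsLocalRing.maximalIdeal A := (IsLocalRing.mem_maximalIdeal _).mpr hnu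
      have h3 : c * c'' ∈ IsLocalRing.maximalIdeal A := Ideal.mul_mem_right _ _ hc
      have h4 : (1 : A) ∈ IsLocalRing.maximalIdeal A := by
        have h5 := Ideal.sub_mem _ h2 h3
        rwa [add_sub_cancel_right] at h5
      exact (Ideal.ne_top_iff_one _).mp (IsLocalRing.maximalIdeal.isMaximal A).ne_top h4
    have hne : (1 + c * c'' : A) ≠ 0 := hu.ne_zero
    have hmem : algebraMap A BK (1 + c * c'') ∈ P := by
      have e1 : algebraMap B BK b ∈ P := hb
      have e2 : algebraMap B BK b = 1 + algebraMap A BK c * algebraMap B BK b'' := by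
        have : b = 1 + algebraMap A B c * b'' := by
          rw [← hb'']
          ring
        rw [this, map_add, map_one, map_mul, ← IsScalarTower.algebraMap_apply]
      have e3 : algebraMap A BK (1 + c * c'') = algebraMap B BK b -
          algebraMap A BK c * (algebraMap B BK b'' - algebraMap A BK c'') := by
        rw [e2, map_add, map_one, map_mul]
        ring
      rw [e3]
      exact P.sub_mem e1 (P.mul_mem_left _ hc'')
    exact hPtop (Ideal.eq_top_of_isUnit_mem _ hmem (hunit _ hne))
  · intro J y hJ hy hyJ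
    obtain ⟨b, rfl⟩ := hred y
    obtain ⟨c, hc⟩ := hP.2.2 b
    have h1 : red b - red (algebraMap A B c) ∈
        Ideal.map red (Ideal.comap (algebraMap B BK) P) := by
      rw [← map_sub]
      apply Ideal.mem_map_of_mem
      rw [Ideal.mem_comap, map_sub, ← IsScalarTower.algebraMap_apply]
      exact hc
    have h2 : red (algebraMap A B c) ∈ J := by
      have := J.sub_mem hyJ (hJ h1)
      simpa using this
    by_cases hcu : IsUnit c
    · obtain ⟨d, hd⟩ := hcu.exists_right_inv
      have h3 : red (algebraMap A B c) * red (algebraMap A B d) = 1 := by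
        rw [← map_mul, ← map_mul, hd, map_one, map_one]
      rw [← h3]
      exact J.mul_mem_right _ h2
    · exfalso
      apply hy
      have hcm : c ∈ IsLocalRing.maximalIdeal A := (IsLocalRing.mem_maximalIdeal c).mpr hcu
      have h0 : red (algebraMap A B c) = 0 := by
        rw [← RingHom.mem_ker, hker]
        exact Ideal.mem_map_of_mem _ hcm
      rw [h0, sub_zero] at h1
      exact h1

/-- A monic polynomial in `x` vanishing along a product of integral points. -/
theorem exists_monic_aeval_mem (x : B) (l : List (Ideal BK))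
    (hl : ∀ P ∈ l, IsIntegralPoint A B P) :
    ∃ μ : A[X], μ.Monic ∧ algebraMap B BK (aeval x μ) ∈ l.prod := by
  induction l with
  | nil => exact ⟨1, monic_one, by simp [Ideal.one_eq_top]⟩
  | cons P l' ih =>
    obtain ⟨μ', hμ', hmem'⟩ := ih fun Q hQ => hl Q (List.mem_cons_of_mem _ hQ)
    obtain ⟨c, hc⟩ := (hl P List.mem_cons_self).2.2 x
    refine ⟨(X - C c) * μ', (monic_X_sub_C c).mul hμ', ?_⟩
    rw [List.prod_cons, map_mul, map_mul, map_sub, aeval_X, aeval_C, map_sub,
      ← IsScalarTower.algebraMap_apply]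
    exact Ideal.mul_mem_mul hc hmem'

/-- **Ideal reduction.**  The reduction of `B ∩ P₁ ⋯ P_d` is the product of the reductions of
the integral points `P_i`. -/
theorem map_comap_prod (red : B →+* Bk) (hred : Function.Surjective red)
    (hker : RingHom.ker red = Ideal.map (algebraMap A B) (IsLocalRing.maximalIdeal A))
    (hBk : ¬ IsField Bk)
    (hunit : ∀ c : A, c ≠ 0 → IsUnit (algebraMap A BK c))
    (hloc : ∀ y : BK, ∃ c : A, c ≠ 0 ∧ ∃ b : B, algebraMap A BK c * y = algebraMap B BK b)
    (x : B) (s : Finset B) (hs : ∀ b : B, ∃ p : B → A[X], b = ∑ g ∈ s, aeval x (p g) * g)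
    (l : List (Ideal BK)) (hl : ∀ P ∈ l, IsIntegralPoint A B P) :
    Ideal.map red (Ideal.comap (algebraMap B BK) l.prod) =
      (l.map fun P => Ideal.map red (Ideal.comap (algebraMap B BK) P)).prod := by
  induction l with
  | nil => simp [Ideal.one_eq_top, Ideal.map_top]
  | cons P l' ih =>
    have hl' : ∀ Q ∈ l', IsIntegralPoint A B Q := fun Q hQ => hl Q (List.mem_cons_of_mem _ hQ)
    have hP : IsIntegralPoint A B P := hl P List.mem_cons_self
    specialize ih hl'
    set I' : Ideal BK := l'.prod with hI'
    set J : Ideal B := Ideal.comap (algebraMap B BK) I' with hJ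
    set J' : Ideal B := Ideal.comap (algebraMap B BK) (P * I') with hJ'
    set n : Ideal Bk := Ideal.map red (Ideal.comap (algebraMap B BK) P) with hn
    have hnmax : n.IsMaximal := isMaximal_map_comap red hred hker hunit hP
    -- nonvanishing of the products
    have hI'ne : I' ≠ ⊥ := by
      rw [← Ideal.zero_eq_bot]
      apply List.prod_ne_zero
      intro h0
      exact (hl' _ h0).2.1 (Ideal.zero_eq_bot)
    have hmapJne : Ideal.map red J ≠ ⊥ := by
      rw [ih, ← Ideal.zero_eq_bot]
      apply List.prod_ne_zero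
      intro h0
      obtain ⟨Q, hQ, hQ0⟩ := List.mem_map.mp h0
      have hQmax : (Ideal.map red (Ideal.comap (algebraMap B BK) Q)).IsMaximal :=
        isMaximal_map_comap red hred hker hunit (hl' Q hQ)
      exact Ring.ne_bot_of_isMaximal_of_not_isField hQmax hBk hQ0
    -- finite torsion-free quotients
    obtain ⟨μ', hμ', hmem'⟩ := exists_monic_aeval_mem x l' hl'
    obtain ⟨μ, hμ, hmem⟩ := exists_monic_aeval_mem x (P :: l') hl
    rw [List.prod_cons] at hmem
    have : Module.Finite A (B ⧸ J) := finite_quot_of_monic x s hs μ' hμ' J hmem'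
    have : Module.Finite A (B ⧸ J') := finite_quot_of_monic x s hs μ hμ J' hmem
    have : Module.IsTorsionFree A (B ⧸ J) := isTorsionFree_quot_comap hunit I'
    have : Module.IsTorsionFree A (B ⧸ J') := isTorsionFree_quot_comap hunit (P * I')
    -- strictness
    have hle : J' ≤ J := Ideal.comap_mono Ideal.mul_le_right
    have hlt : J' < J := by
      refine lt_of_le_of_ne hle fun heq => ?_
      have h1 : I' ≤ P * I' := eq_of_comap_eq hunit hloc (le_of_eq heq.symm)
      have h2 : P * I' = ⊤ * I' := by
        rw [Ideal.top_mul]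
        exact le_antisymm Ideal.mul_le_right h1
      exact hP.1.ne_top (mul_left_injective₀ hI'ne h2)
    have hne : Ideal.map red J' ≠ Ideal.map red J := map_ne_map_of_lt red hred hker hlt
    -- sandwich
    have h1 : Ideal.map red J * n ≤ Ideal.map red J' := by
      rw [hn, ← Ideal.map_mul]
      apply Ideal.map_mono
      rw [hJ, hJ', mul_comm P I']
      exact Ideal.le_comap_mul _
    have h2 : Ideal.map red J' ≤ Ideal.map red J := Ideal.map_mono hle
    have h3 := eq_mul_of_between hmapJne hnmax h1 h2 hne
    rw [List.prod_cons, List.map_cons, List.prod_cons, ← ih, mul_comm n]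
    exact h3

/-- **Zeros reduce to zeros, with multiplicity**: if `a` vanishes along the integral points
`P₁ ⋯ P_d` then `red a` lies in the product of their reductions. -/
theorem red_mem_prod (red : B →+* Bk) (hred : Function.Surjective red)
    (hker : RingHom.ker red = Ideal.map (algebraMap A B) (IsLocalRing.maximalIdeal A))
    (hBk : ¬ IsField Bk)
    (hunit : ∀ c : A, c ≠ 0 → IsUnit (algebraMap A BK c))
    (hloc : ∀ y : BK, ∃ c : A, c ≠ 0 ∧ ∃ b : B, algebraMap A BK c * y = algebraMap B BK b)
    (x : B) (s : Finset B) (hs : ∀ b : B, ∃ p : B → A[X], b = ∑ g ∈ s, aeval x (p g) * g)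
    (l : List (Ideal BK)) (hl : ∀ P ∈ l, IsIntegralPoint A B P)
    (a : B) (ha : algebraMap B BK a ∈ l.prod) :
    red a ∈ (l.map fun P => Ideal.map red (Ideal.comap (algebraMap B BK) P)).prod := by
  rw [← map_comap_prod red hred hker hBk hunit hloc x s hs l hl]
  exact Ideal.mem_map_of_mem red ha

end Main

end Core

end Fermat.Agent.S27P.GR.IdealRed
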