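import Mathlib

/-!
# Lifting points of the special fibre (S27, layer (GR), brick GR-SURJ0)

Let `A` be an integrally closed local domain whose fraction field `K'` is algebraically closed
(e.g. a valuation subring of an algebraically closed field, of any rank), and let `C` be a finite
flat `A`-algebra.  Then every maximal ideal `N` of `C` is the pull-back of the maximal ideal of
`A` under an `A`-algebra homomorphism `ψ : C → A` (an "`A`-point" of `C`).

This is the commutative-algebra core of the surjectivity of the reduction map on places: for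
`C = B_A / (x - α)` the `A`-point `ψ` is a place of the generic fibre reducing to the point `N`
of the special fibre.

Proof: going-down for the flat algebra `C` gives a prime `q ≤ N` lying over `(0)`; the domain
`C ⧸ q` is integral over `A` and embeds in `K'`, hence equals `A`.
-/

set_option autoImplicit false

namespace Fermat.Agent.S27P.GR.LiftPoint

/-- An integral domain `D`, integral over an integrally closed domain `A` with algebraically
closed fraction field, in which `A` embeds, retracts onto `A` by an injective `A`-algebra map. -/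
theorem exists_injective_algHom_of_integral {A : Type*} [CommRing A] [IsDomain A]
    [IsIntegrallyClosed A]
    (K' : Type*) [Field K'] [Algebra A K'] [IsFractionRing A K'] [IsAlgClosed K']
    {D : Type*} [CommRing D] [IsDomain D] [Algebra A D] [Algebra.IsIntegral A D]
    (hinj : Function.Injective (algebraMap A D)) :
    ∃ ψ : D →ₐ[A] A, Function.Injective ψ := by
  classical
  have : Module.IsTorsionFree A D := by
    rw [← faithfulSMul_iff_algebraMap_injective] at hinj
    infer_instance
  have : Module.IsTorsionFree A K' := inferInstance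
  have : Algebra.IsAlgebraic A D := inferInstance
  let φ : D →ₐ[A] K' := IsAlgClosed.lift
  have hKinj : Function.Injective (algebraMap A K') := IsFractionRing.injective A K'
  have hφinj : Function.Injective φ := by
    rw [← AlgHom.coe_toRingHom, RingHom.injective_iff_ker_eq_bot]
    apply Ideal.eq_bot_of_comap_eq_bot (R := A)
    ext a
    simp only [Ideal.mem_comap, RingHom.mem_ker, AlgHom.coe_toRingHom, AlgHom.commutes,
      Ideal.mem_bot]
    exact ⟨fun h => hKinj (by rw [h, map_zero]), fun h => by rw [h, map_zero]⟩
  have hmem : ∀ d : D, φ d ∈ (⊥ : Subalgebra A K') := by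
    intro d
    have hd : IsIntegral A (φ d) := (Algebra.IsIntegral.isIntegral (R := A) d).map φ
    obtain ⟨y, hy⟩ := IsIntegrallyClosed.isIntegral_iff.mp hd
    rw [Algebra.mem_bot]
    exact ⟨y, hy⟩
  refine ⟨(Algebra.botEquivOfInjective hKinj).toAlgHom.comp (φ.codRestrict ⊥ hmem), ?_⟩
  intro d₁ d₂ h
  have h1 : φ.codRestrict ⊥ hmem d₁ = φ.codRestrict ⊥ hmem d₂ :=
    (Algebra.botEquivOfInjective hKinj).injective h
  exact hφinj (congrArg Subtype.val h1)

/-- **Lifting points of the special fibre.**  `A` an integrally closed local domain with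
algebraically closed fraction field `K'`, `C` a finite flat `A`-algebra: every maximal ideal of
`C` is the preimage of the maximal ideal of `A` under an `A`-algebra map `C → A`. -/
theorem exists_algHom_comap_maximalIdeal_eq {A : Type*} [CommRing A] [IsDomain A]
    [IsIntegrallyClosed A] [IsLocalRing A]
    (K' : Type*) [Field K'] [Algebra A K'] [IsFractionRing A K'] [IsAlgClosed K']
    {C : Type*} [CommRing C] [Algebra A C] [Module.Finite A C] [Module.Flat A C]
    (N : Ideal C) (hN : N.IsMaximal) :
    ∃ ψ : C →ₐ[A] A, (IsLocalRing.maximalIdeal A).comap ψ.toRingHom = N := by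
  classical
  have : Algebra.HasGoingDown A C := Algebra.HasGoingDown.of_flat
  have : Algebra.IsIntegral A C := Algebra.IsIntegral.of_finite A C
  have := hN
  have hNm : N.under A = IsLocalRing.maximalIdeal A :=
    IsLocalRing.eq_maximalIdeal (Ideal.IsMaximal.under A N)
  have : N.LiesOver (IsLocalRing.maximalIdeal A) := ⟨hNm.symm⟩
  have : (⊥ : Ideal A).IsPrime := Ideal.isPrime_bot
  obtain ⟨q, hqN, hqprime, hqover⟩ :=
    Ideal.exists_ideal_le_liesOver_of_le (p := (⊥ : Ideal A))
      (q := IsLocalRing.maximalIdeal A) N bot_le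
  have := hqprime
  -- the domain `C ⧸ q`
  have : IsDomain (C ⧸ q) := Ideal.Quotient.isDomain q
  have : Algebra.IsIntegral A (C ⧸ q) := inferInstance
  have hinj : Function.Injective (algebraMap A (C ⧸ q)) := by
    rw [injective_iff_map_eq_zero]
    intro a ha
    have h1 : algebraMap A C a ∈ q := by
      rw [← Ideal.Quotient.eq_zero_iff_mem]
      exact ha
    have h2 : a ∈ q.under A := h1
    rw [← hqover.over] at h2
    exact h2
  obtain ⟨ψD, hψD⟩ := exists_injective_algHom_of_integral K' (D := C ⧸ q) hinj
  refine ⟨ψD.comp (Ideal.Quotient.mkₐ A q), ?_⟩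
  set ψ : C →ₐ[A] A := ψD.comp (Ideal.Quotient.mkₐ A q) with hψ
  have hker : ∀ c : C, ψ c = 0 → c ∈ q := by
    intro c hc
    have h1 : ψD (Ideal.Quotient.mk q c) = ψD 0 := by
      rw [map_zero]
      exact hc
    exact Ideal.Quotient.eq_zero_iff_mem.mp (hψD h1)
  -- `N ≤ ψ⁻¹(m)`, and `ψ⁻¹(m)` is proper
  have hle : N ≤ (IsLocalRing.maximalIdeal A).comap ψ.toRingHom := by
    intro c hc
    rw [Ideal.mem_comap, AlgHom.toRingHom_eq_coe, RingHom.coe_coe]
    by_contra hu
    rw [IsLocalRing.mem_maximalIdeal, mem_nonunits_iff, not_not] at hu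
    have h0 : ψ (c - algebraMap A C (ψ c)) = 0 := by
      rw [map_sub, AlgHom.commutes, Algebra.algebraMap_self_apply, sub_self]
    have h1 : c - algebraMap A C (ψ c) ∈ N := hqN (hker _ h0)
    have h2 : algebraMap A C (ψ c) ∈ N := by
      have := N.sub_mem hc h1
      rwa [sub_sub_cancel] at this
    have h3 : ψ c ∈ N.under A := h2
    rw [hNm] at h3
    exact h3 hu
  have hne : (IsLocalRing.maximalIdeal A).comap ψ.toRingHom ≠ ⊤ := by
    intro htop
    have h1 : (1 : C) ∈ (IsLocalRing.maximalIdeal A).comap ψ.toRingHom := by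
      rw [htop]
      trivial
    rw [Ideal.mem_comap, map_one] at h1
    exact (IsLocalRing.maximalIdeal.isMaximal A).ne_top
      ((Ideal.eq_top_iff_one _).mpr h1)
  exact (hN.eq_of_le hne hle).symm

/-- The same with a reduction map `π : A → k` whose kernel is the maximal ideal: the points of
the special fibre `C ⧸ m C → k` all come from `A`-points. -/
theorem exists_algHom_forall_mem_iff {A : Type*} [CommRing A] [IsDomain A]
    [IsIntegrallyClosed A] [IsLocalRing A]
    (K' : Type*) [Field K'] [Algebra A K'] [IsFractionRing A K'] [IsAlgClosed K']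
    {k : Type*} [CommRing k] (π : A →+* k)
    (hπ : ∀ a : A, π a = 0 ↔ a ∈ IsLocalRing.maximalIdeal A)
    {C : Type*} [CommRing C] [Algebra A C] [Module.Finite A C] [Module.Flat A C]
    (N : Ideal C) (hN : N.IsMaximal) :
    ∃ ψ : C →ₐ[A] A, ∀ c : C, c ∈ N ↔ π (ψ c) = 0 := by
  obtain ⟨ψ, hψ⟩ := exists_algHom_comap_maximalIdeal_eq (A := A) K' N hN
  refine ⟨ψ, fun c => ?_⟩
  rw [hπ, ← hψ, Ideal.mem_comap]
  rfl

/-- The `ValuationSubring` instance of `exists_algHom_comap_maximalIdeal_eq`. -/
theorem exists_algHom_of_valuationSubring {K' : Type*} [Field K'] [IsAlgClosed K']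
    (A : ValuationSubring K')
    {C : Type*} [CommRing C] [Algebra A C] [Module.Finite A C] [Module.Flat A C]
    (N : Ideal C) (hN : N.IsMaximal) :
    ∃ ψ : C →ₐ[A] A, (IsLocalRing.maximalIdeal A).comap ψ.toRingHom = N :=
  exists_algHom_comap_maximalIdeal_eq (A := A) K' N hN

end Fermat.Agent.S27P.GR.LiftPoint
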