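import Mathlib
import Fermat.Agent.S27P.GR.Defs
import Fermat.Agent.S27P.GR.GoodBasis
import Fermat.Agent.Lib.Red.PlaceRedMain
import Fermat.Agent.Lib.Red.TorsionOneStep
import Fermat.Agent.Lib.FF.CechGenus

/-!
# S27 / (GR-M), twin: the reduction theorem for two realisations of a model

`exists_isRed_of` : for two realisations of a model `M` (the generic one over `K'`, the special
one over `k`) and a valuation ring `A ⊆ K'` with residue map `π : A → k`, from the Gauss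
valuation (`exists_gauss`, as a hypothesis), and the chart descriptions of both realisations
(`Real.chart`, `Real.chart'`, as hypotheses): the place reduction `r`, `OneStep.IsRed O red r`,
surjectivity, genus equality and the compatibility of `r` with the values of chart functions.
-/

set_option autoImplicit false
set_option linter.style.haveILetI false

noncomputable section

namespace Fermat.Agent.S27P.GR.Main70

open AlgebraicCurve Polynomial IntermediateField
open Fermat.Agent.Lib.Red Fermat.Agent.Lib.Red.OneStep Fermat.Agent.Lib.Red.PlaceRed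
open Fermat.Agent.Lib.FF

variable {K' F' k Ft : Type*} [Field K'] [Field F'] [Algebra K' F'] [Field k] [Field Ft]
  [Algebra k Ft]
variable {A : ValuationSubring K'} {π : A →+* k} {O : ValuationSubring F'} {red : O →+* Ft}
  {r : Place K' F' → Place k Ft}

/-! ### Values of chart functions commute with the reduction of places -/

/-- **Tube lemma.**  If `z` takes a value in `A` at `P`, every `u ∈ O` regular on the chart of
`z` takes a value in `A` at `P`, and `red u` takes the reduced value at `r P`. -/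
theorem tube_value [HasPrincipalDivisors K' F'] (h : IsRed O red r)
    (hπ0 : ∀ a : A, ¬ IsUnit a → π a = 0)
    (hR : Chart.RedData A π O red)
    (hres : ∀ P : Place K' F', RR.ResK P)
    (z z' : O) (hzz' : z * z' = 1)
    (hEz : ∀ (P : Place K' F') (γ : k), EvK A π P (z : F') γ → 0 ≤ (r P).ord (red z))
    (hEz' : ∀ P : Place K' F', EvK A π P (z' : F') 0 → 0 < (r P).ord (red z'))
    (P : Place K' F') (γ₀ : k) (hP : EvK A π P (z : F') γ₀)
    (u : O) (hu : ∀ v : Place K' F', 0 ≤ v.ord (z : F') → 0 ≤ v.ord (u : F')) :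
    ∃ γ : k, EvK A π P (u : F') γ ∧ (r P).adicValuation (red u - algebraMap k Ft γ) < 1 := by
  have hzF : (z : F') * (z' : F') = 1 := congrArg Subtype.val hzz'
  have hz0 : (z : F') ≠ 0 := left_ne_zero_of_mul_eq_one hzF
  have hz'0 : (z' : F') ≠ 0 := right_ne_zero_of_mul_eq_one hzF
  have hrz : red z * red z' = 1 := by rw [← map_mul, hzz', map_one]
  have hrz0 : red z ≠ 0 := left_ne_zero_of_mul_eq_one hrz
  have hrz'0 : red z' ≠ 0 := right_ne_zero_of_mul_eq_one hrz
  -- `red z` is regular at `r P`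
  have h2 : 0 ≤ (r P).ord (red z) := hEz P γ₀ hP
  -- the tube of `P` consists of places where `z` is regular
  have htube : ∀ P' : Place K' F', r P' = r P → 0 ≤ P'.ord (z : F') := by
    intro P' hP'
    by_contra hneg
    have hord : P'.ord (z : F') + P'.ord (z' : F') = 0 := by
      rw [← P'.ord_mul hz0 hz'0, hzF, Place.ord_one]
    have hpos : 0 < P'.ord (z' : F') := by omega
    have hE : EvK A π P' (z' : F') 0 :=
      EvK.of_lt_one ((adicValuation_lt_one_iff P' hz'0).2 hpos)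
    have h3 := hEz' P' hE
    have hord' : (r P').ord (red z) + (r P').ord (red z') = 0 := by
      rw [← (r P').ord_mul hrz0 hrz'0, hrz, Place.ord_one]
    rw [hP'] at h3 hord'
    omega
  have hutube : ∀ P' : Place K' F', r P' = r P → 0 ≤ P'.ord (u : F') :=
    fun P' hP' => hu P' (htube P' hP')
  -- the value of `u` at `P`
  obtain ⟨c, hc⟩ := exists_const_sub_pos P (hres P) (hutube P rfl)
  -- the value lies in `A`
  have hcA : c ∈ A := by
    by_contra hcA
    have hc0 : c ≠ 0 := fun h0 => hcA (h0 ▸ A.zero_mem)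
    have hinv : c⁻¹ ∈ A := (A.mem_or_inv_mem c).resolve_left hcA
    have hnu : ¬ IsUnit (⟨c⁻¹, hinv⟩ : A) := by
      rintro ⟨w, hw⟩
      apply hcA
      have h1 : (((w⁻¹ : Aˣ) : A) : K') * c⁻¹ = 1 := by
        have := congrArg Subtype.val (Units.inv_mul w)
        rw [hw] at this
        exact this
      have h2 : (((w⁻¹ : Aˣ) : A) : K') = c := by
        field_simp at h1
        exact h1
      rw [← h2]
      exact ((w⁻¹ : Aˣ) : A).2
    have hπa : π ⟨c⁻¹, hinv⟩ = 0 := hπ0 _ hnu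
    set aO : O := hR.const ⟨c⁻¹, hinv⟩ with haO
    have haOF : (aO : F') = algebraMap K' F' c⁻¹ := rfl
    have hraO : red aO = 0 := by rw [haO, hR.red_const, hπa, map_zero]
    have hred1 : red (aO * u - 1) = -1 := by
      rw [map_sub, map_mul, hraO, zero_mul, map_one, zero_sub]
    have hne : red (aO * u - 1) ≠ 0 := by rw [hred1]; exact neg_ne_zero.2 one_ne_zero
    obtain ⟨w, hw⟩ := h.isUnit_of_red_ne_zero hne
    have hwF : ((w : O) : F') = algebraMap K' F' c⁻¹ * ((u : F') - algebraMap K' F' c) := by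
      rw [hw]
      show (aO : F') * (u : F') - 1 = _
      rw [haOF, mul_sub, ← map_mul, inv_mul_cancel₀ hc0, map_one]
    refine h.false_of_zero w P ?_ ?_ ?_
    · rw [hwF, ord_const_mul P (inv_ne_zero hc0)]
      rcases hc with hc | hc
      · exfalso
        have : ((w : O) : F') = 0 := by rw [hwF, hc, sub_self, mul_zero]
        exact coe_unit_ne_zero w this
      · exact hc
    · intro P' hP'
      rw [hwF, ord_const_mul P' (inv_ne_zero hc0)]
      exact ord_sub_const_nonneg P' (hutube P' hP') c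
    · rw [hw, hred1, ord_neg, Place.ord_one]
  -- conclusion
  set a : A := ⟨c, hcA⟩ with ha
  set cO : O := hR.const a with hcO
  have hcOF : (cO : F') = algebraMap K' F' c := rfl
  have hrcO : red cO = algebraMap k Ft (π a) := hR.red_const a
  refine ⟨π a, ⟨a, rfl, ?_⟩, ?_⟩
  · rcases hc with hc | hc
    · show P.adicValuation ((u : F') - algebraMap K' F' c) < 1
      rw [hc, sub_self, map_zero]
      exact zero_lt_one
    · have hne : (u : F') - algebraMap K' F' c ≠ 0 := by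
        intro h0
        rw [h0, Place.ord_zero] at hc
        exact lt_irrefl _ hc
      exact (adicValuation_lt_one_iff P hne).2 hc
  · by_cases hr0 : red (u - cO) = 0
    · rw [map_sub, hrcO] at hr0
      rw [hr0, map_zero]
      exact zero_lt_one
    · obtain ⟨w, hw⟩ := h.isUnit_of_red_ne_zero hr0
      have hwF : ((w : O) : F') = (u : F') - algebraMap K' F' c := by
        rw [hw]; rfl
      have hpos : 0 < P.ord ((w : O) : F') := by
        rw [hwF]
        rcases hc with hc | hc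
        · exfalso
          have : ((w : O) : F') = 0 := by rw [hwF, hc, sub_self]
          exact coe_unit_ne_zero w this
        · exact hc
      have hrw : red (w : O) = red u - algebraMap k Ft (π a) := by
        rw [hw, map_sub, hrcO]
      have hne : red u - algebraMap k Ft (π a) ≠ 0 := by
        rw [← hrw]; exact IsRed.red_unit_ne_zero w
      rw [adicValuation_lt_one_iff (r P) hne]
      by_contra hle
      refine h.false_of_zero w P hpos ?_ ?_
      · intro P' hP'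
        rw [hwF]
        exact ord_sub_const_nonneg P' (hutube P' hP') c
      · rw [hrw]
        omega

/-- If `z'` takes a unit value at `P`, its inverse `z` takes the inverse value. -/
theorem evK_inv_of_ne_zero (hπ0 : ∀ a : A, ¬ IsUnit a → π a = 0) {P : Place K' F'} {z z' : F'}
    (hzz' : z * z' = 1) {γ : k} (hγ : γ ≠ 0) (h : EvK A π P z' γ) : EvK A π P z γ⁻¹ := by
  obtain ⟨a, rfl, ha⟩ := h
  have hau : IsUnit a := by
    by_contra hnu
    exact hγ (hπ0 a hnu)
  obtain ⟨w, hw⟩ := hau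
  set b : A := ((w⁻¹ : Aˣ) : A) with hb
  have hab : a * b = 1 := by rw [← hw, hb]; exact Units.mul_inv w
  have hπb : π b = (π a)⁻¹ := by
    apply eq_inv_of_mul_eq_one_right
    rw [← map_mul, hab, map_one]
  have habF : algebraMap K' F' (a : K') * algebraMap K' F' (b : K') = 1 := by
    rw [← map_mul]
    have : (a : K') * (b : K') = 1 := congrArg Subtype.val hab
    rw [this, map_one]
  set v := P.adicValuation with hv
  have hva1 : v (algebraMap K' F' (a : K')) ≤ 1 := P.adicValuation_algebraMap_le_one _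
  have hvb1 : v (algebraMap K' F' (b : K')) ≤ 1 := P.adicValuation_algebraMap_le_one _
  have hvab : v (algebraMap K' F' (a : K')) * v (algebraMap K' F' (b : K')) = 1 := by
    rw [← map_mul, habF, map_one]
  have hva : v (algebraMap K' F' (a : K')) = 1 := by
    refine le_antisymm hva1 ?_
    calc (1 : _) = v (algebraMap K' F' (a : K')) * v (algebraMap K' F' (b : K')) := hvab.symm
      _ ≤ v (algebraMap K' F' (a : K')) * 1 := mul_le_mul' le_rfl hvb1
      _ = v (algebraMap K' F' (a : K')) := mul_one _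
  have hvz' : v z' = 1 := by
    have e : z' = (z' - algebraMap K' F' (a : K')) + algebraMap K' F' (a : K') := by ring
    rw [e, Valuation.map_add_eq_of_lt_right, hva]
    rw [hva]
    exact ha
  have hvz : v z = 1 := by
    have h1 : v z * v z' = 1 := by rw [← map_mul, hzz', map_one]
    rw [hvz', mul_one] at h1
    exact h1
  refine ⟨b, hπb, ?_⟩
  have e : z - algebraMap K' F' (b : K')
      = -(z * algebraMap K' F' (b : K') * (z' - algebraMap K' F' (a : K'))) := by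
    linear_combination (algebraMap K' F' (b : K')) * hzz' - z * habF
  rw [e, Valuation.map_neg, map_mul, map_mul, ← hv, hvz, one_mul]
  calc v (algebraMap K' F' (b : K')) * v (z' - algebraMap K' F' (a : K'))
      ≤ 1 * v (z' - algebraMap K' F' (a : K')) := mul_le_mul' hvb1 le_rfl
    _ = v (z' - algebraMap K' F' (a : K')) := one_mul _
    _ < 1 := ha

/-! ### The core: engine + `IsRed` + values -/

/-- **Core of (GR-M).**  From the Gauss valuation data `(O, red)`, a good basis and the lifting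
of chart functions (T3, T3'), the frozen engine gives the place reduction `r`; it is an
`IsRed`, it is onto, and it commutes with the values of the functions of the two charts. -/
theorem exists_isRed_core [IsAlgClosed K'] [IsAlgClosed k]
    (hπ0 : ∀ a : A, ¬ IsUnit a → π a = 0) (hsurj : Function.Surjective π)
    (hredsurj : Function.Surjective red)
    (hA : ∀ c : K', algebraMap K' F' c ∈ O ↔ c ∈ A)
    (hRa : ∀ a : A, ∃ h : algebraMap K' F' (a : K') ∈ O, red ⟨_, h⟩ = algebraMap k Ft (π a))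
    (hker : ∀ y : O, red y = 0 ↔ ¬ IsUnit y)
    (hscale : ∀ f : O, red f = 0 →
      ∃ (a : A) (g : O), π a = 0 ∧ (f : F') = algebraMap K' F' (a : K') * (g : F'))
    (hsc : ∀ y : F', y ≠ 0 → ∃ (a : K') (u : Oˣ), y = algebraMap K' F' a * ((u : O) : F'))
    (x x' : O) (hxx' : x * x' = 1) (hF : IsFF1 K' F' (x : F')) (hFt : IsFF1 k Ft (red x))
    [Algebra.IsSeparable K'⟮(x : F')⟯ F'] [Algebra.IsSeparable k⟮red x⟯ Ft]
    {O₀ : ValuationSubring K'⟮(x : F')⟯} {red₀ : O₀ →+* k⟮red x⟯} {ι : Type*} [Fintype ι]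
    (G : Ortho.GoodBasis O red O₀ red₀ ι)
    (hT3 : ∀ s : Ft, (∀ Q : Place k Ft, 0 ≤ Q.ord (red x) → 0 ≤ Q.ord s) →
      ∃ y : O, red y = s ∧ ∀ P : Place K' F', 0 ≤ P.ord (x : F') → 0 ≤ P.ord (y : F'))
    (hT3' : ∀ s : Ft, (∀ Q : Place k Ft, Q.ord (red x) ≤ 0 → 0 ≤ Q.ord s) →
      ∃ y : O, red y = s ∧ ∀ P : Place K' F', P.ord (x : F') ≤ 0 → 0 ≤ P.ord (y : F')) :
    ∃ r : Place K' F' → Place k Ft, IsRed O red r ∧ Function.Surjective r ∧
      (∀ (P : Place K' F') (γ₀ : k), EvK A π P (x : F') γ₀ → ∀ u : O,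
        (∀ v : Place K' F', 0 ≤ v.ord (x : F') → 0 ≤ v.ord (u : F')) →
        ∃ γ : k, EvK A π P (u : F') γ ∧
          (r P).adicValuation (red u - algebraMap k Ft γ) < 1) ∧
      (∀ (P : Place K' F') (γ₀ : k), EvK A π P (x' : F') γ₀ → ∀ u : O,
        (∀ v : Place K' F', v.ord (x : F') ≤ 0 → 0 ≤ v.ord (u : F')) →
        ∃ γ : k, EvK A π P (u : F') γ ∧
          (r P).adicValuation (red u - algebraMap k Ft γ) < 1) := by
  have hR : Chart.RedData A π O red :=
    ⟨fun a => (hRa a).choose, fun a => (hRa a).choose_spec⟩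
  obtain ⟨r, hE1, hE2, hspec⟩ := PlaceRedMain.exists_reduction_of_gauss hπ0 hsurj hR hA hker
    hscale x x' hxx' hF hFt K'⟮(x : F')⟯ rfl k⟮red x⟯ rfl G hT3 hT3'
  have hIsRed : IsRed O red r :=
    { scale := hsc
      ker := fun y hy => (hker y).2 hy
      const := by
        rintro y ⟨c, hc⟩
        have hcO : algebraMap K' F' c ∈ O := hc ▸ y.2
        have hcA : c ∈ A := (hA c).1 hcO
        refine ⟨π ⟨c, hcA⟩, ?_⟩
        have e : y = hR.const ⟨c, hcA⟩ := Subtype.ext hc.symm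
        rw [e, hR.red_const]
      spec := fun u D hD Q => hspec (u : O) (IsRed.red_unit_ne_zero u) D hD Q }
  have := hF.hasPrincipalDivisors
  have hxF : (x : F') * (x' : F') = 1 := congrArg Subtype.val hxx'
  have hx0 : (x : F') ≠ 0 := left_ne_zero_of_mul_eq_one hxF
  have hx'0 : (x' : F') ≠ 0 := right_ne_zero_of_mul_eq_one hxF
  have hrx : red x * red x' = 1 := by rw [← map_mul, hxx', map_one]
  have hrx0 : red x ≠ 0 := left_ne_zero_of_mul_eq_one hrx
  have hrx'0 : red x' ≠ 0 := right_ne_zero_of_mul_eq_one hrx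
  have hordx : ∀ Q : Place k Ft, Q.ord (red x) + Q.ord (red x') = 0 := fun Q => by
    rw [← Q.ord_mul hrx0 hrx'0, hrx, Place.ord_one]
  have hordxF : ∀ v : Place K' F', v.ord (x : F') + v.ord (x' : F') = 0 := fun v => by
    rw [← v.ord_mul hx0 hx'0, hxF, Place.ord_one]
  -- `red x` has no zero or pole at `r P` when `x` takes a nonzero value of `k` at `P`
  have hord0 : ∀ (P : Place K' F') (γ : k), γ ≠ 0 → EvK A π P (x : F') γ →
      (r P).ord (red x) = 0 := by
    intro P γ hγ hP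
    have h1 := hE1 P γ hP
    have hb : -algebraMap k Ft γ ≠ 0 := neg_ne_zero.2 ((_root_.map_ne_zero _).2 hγ)
    have hob : (r P).ord (-algebraMap k Ft γ) = 0 := by
      rw [ord_neg, Fermat.Agent.S24.ord_algebraMap]
    have h2 := ord_sub_eq_of_lt (r P) (a := red x - algebraMap k Ft γ) hb
      (Or.inr (by rw [hob]; exact h1))
    rw [hob] at h2
    rw [← h2]
    congr 1
    ring
  refine ⟨r, hIsRed, hIsRed.surjective_of_red_surjective hredsurj, ?_, ?_⟩
  · intro P γ₀ hP u hu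
    refine tube_value hIsRed hπ0 hR hF.resK x x' hxx' ?_ hE2 P γ₀ hP u hu
    intro P' γ hP'
    have h1 := hE1 P' γ hP'
    rw [← Fermat.Agent.S24.mem_iff_ord_nonneg]
    have e : red x = (red x - algebraMap k Ft γ) + algebraMap k Ft γ := by ring
    rw [e]
    exact (r P').toValuationSubring.add_mem _ _
      (Fermat.Agent.S24.mem_of_ord_nonneg _ h1.le) ((r P').algebraMap_mem' γ)
  · intro P γ₀ hP u hu
    have hxx'2 : x' * x = 1 := by rw [mul_comm]; exact hxx'
    refine tube_value hIsRed hπ0 hR hF.resK x' x hxx'2 ?_ ?_ P γ₀ hP u ?_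
    · intro P' γ hP'
      by_cases hγ : γ = 0
      · subst hγ
        exact (hE2 P' hP').le
      · have h1 : EvK A π P' (x : F') γ⁻¹ := evK_inv_of_ne_zero hπ0 hxF hγ hP'
        have h2 := hord0 P' γ⁻¹ (inv_ne_zero hγ) h1
        have h3 := hordx (r P')
        omega
    · intro P' hP'
      have h1 := hE1 P' 0 hP'
      rwa [map_zero, sub_zero] at h1
    · intro v hv
      apply hu v
      have := hordxF v
      omega

/-! ### Model-level lemmas: transport along a realisation, transition matrices -/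

section ModelLemmas

variable {Λ U : Type*} [CommRing Λ] [CommRing U] [Algebra Λ U] {n : ℕ}

/-- `ψ (p(z)) = p^φ(ψ z)` for compatible ring homs. -/
theorem map_aeval {κ E : Type*} [CommRing κ] [CommRing E] [Algebra κ E] {φ : Λ →+* κ}
    {ψ : U →+* E} (hcompat : ∀ a : Λ, ψ (algebraMap Λ U a) = algebraMap κ E (φ a)) (z : U)
    (p : Λ[X]) : ψ (aeval z p) = aeval (ψ z) (p.map φ) := by
  rw [aeval_def, aeval_def, hom_eval₂, eval₂_map]
  congr 1
  ext a
  exact hcompat a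

/-- Coordinates in the chart `B`, read in `U`. -/
theorem coe_sum_B (M : Model Λ U n) (f : M.B) (p : Fin n → Λ[X])
    (hf : f = ∑ i, aeval (⟨M.x, M.hx⟩ : M.B) (p i) * M.b i) :
    (f : U) = ∑ i, aeval M.x (p i) * (M.b i : U) := by
  have h1 := congrArg M.B.val hf
  rw [map_sum] at h1
  simp only [map_mul, ← aeval_algHom_apply] at h1
  exact h1

/-- Coordinates in the chart `B'`, read in `U`. -/
theorem coe_sum_B' (M : Model Λ U n) (f : M.B') (p : Fin n → Λ[X])
    (hf : f = ∑ i, aeval (⟨M.x', M.hx'⟩ : M.B') (p i) * M.b' i) :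
    (f : U) = ∑ i, aeval M.x' (p i) * (M.b' i : U) := by
  have h1 := congrArg M.B'.val hf
  rw [map_sum] at h1
  simp only [map_mul, ← aeval_algHom_apply] at h1
  exact h1

/-- Every element of `B` is a `Λ[x]`-combination of the `b i` (in `U`). -/
theorem exists_coords_B (M : Model Λ U n) (f : M.B) :
    ∃ p : Fin n → Λ[X], (f : U) = ∑ i, aeval M.x (p i) * (M.b i : U) := by
  obtain ⟨p, hp, -⟩ := M.cert.free f
  exact ⟨p, coe_sum_B M f p hp⟩

/-- Every element of `B'` is a `Λ[x']`-combination of the `b' i` (in `U`). -/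
theorem exists_coords_B' (M : Model Λ U n) (f : M.B') :
    ∃ p : Fin n → Λ[X], (f : U) = ∑ i, aeval M.x' (p i) * (M.b' i : U) := by
  obtain ⟨p, hp, -⟩ := M.cert'.free f
  exact ⟨p, coe_sum_B' M f p hp⟩

/-- Reflection of a polynomial and inversion of the variable. -/
theorem aeval_reflect {R S : Type*} [CommRing R] [CommRing S] [Algebra R S] (x x' : S)
    (hxx' : x * x' = 1) (N : ℕ) (f : R[X]) (hf : f.natDegree ≤ N) :
    aeval x' (reflect N f) = x' ^ N * aeval x f := by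
  letI : Invertible x := ⟨x', by rw [mul_comm]; exact hxx', hxx'⟩
  have h1 := eval₂_reflect_mul_pow (algebraMap R S) x N f hf
  have h2 : (⅟x : S) = x' := rfl
  rw [h2] at h1
  rw [aeval_def, aeval_def, ← h1]
  have h3 : x' ^ N * x ^ N = 1 := by rw [← mul_pow, mul_comm, hxx', one_pow]
  calc eval₂ (algebraMap R S) x' (reflect N f)
      = eval₂ (algebraMap R S) x' (reflect N f) * (x' ^ N * x ^ N) := by rw [h3, mul_one]
    _ = x' ^ N * (eval₂ (algebraMap R S) x' (reflect N f) * x ^ N) := by ring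

/-- **Transition matrices of a model**, with polynomial entries in `x' = 1/x`. -/
theorem exists_transition (M : Model Λ U n) :
    ∃ (e : ℕ) (T T' : Matrix (Fin n) (Fin n) Λ[X]),
      (∀ i, M.x' ^ e * (M.b' i : U) = ∑ j, aeval M.x' (T i j) * (M.b j : U)) ∧
      (∀ j, M.x' ^ e * (M.b j : U) = ∑ i, aeval M.x' (T' j i) * (M.b' i : U)) := by
  classical
  have h1 : ∀ i, ∃ (m : ℕ) (q : Fin n → Λ[X]),
      M.x ^ m * (M.b' i : U) = ∑ j, aeval M.x (q j) * (M.b j : U) := by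
    intro i
    obtain ⟨m, hm⟩ := M.hB (M.b' i : U)
    obtain ⟨q, hq⟩ := exists_coords_B M ⟨_, hm⟩
    exact ⟨m, q, hq⟩
  have h2 : ∀ j, ∃ (m : ℕ) (q : Fin n → Λ[X]),
      M.x' ^ m * (M.b j : U) = ∑ i, aeval M.x' (q i) * (M.b' i : U) := by
    intro j
    obtain ⟨m, hm⟩ := M.hB' (M.b j : U)
    obtain ⟨q, hq⟩ := exists_coords_B' M ⟨_, hm⟩
    exact ⟨m, q, hq⟩
  choose m q hq using h1
  choose m' q' hq' using h2
  set e : ℕ := (∑ i, ∑ j, (q i j).natDegree) + ∑ j, m' j with he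
  have hdeg : ∀ i j, (q i j).natDegree ≤ e := by
    intro i j
    have a1 : (q i j).natDegree ≤ ∑ j, (q i j).natDegree :=
      Finset.single_le_sum (f := fun j => (q i j).natDegree) (fun _ _ => Nat.zero_le _)
        (Finset.mem_univ j)
    have a2 : ∑ j, (q i j).natDegree ≤ ∑ i, ∑ j, (q i j).natDegree :=
      Finset.single_le_sum (f := fun i => ∑ j, (q i j).natDegree) (fun _ _ => Nat.zero_le _)
        (Finset.mem_univ i)
    omega
  have hm' : ∀ j, m' j ≤ e := by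
    intro j
    have a1 : m' j ≤ ∑ j, m' j :=
      Finset.single_le_sum (f := fun j => m' j) (fun _ _ => Nat.zero_le _) (Finset.mem_univ j)
    omega
  have hx'x : M.x' * M.x = 1 := by rw [mul_comm]; exact M.hxx'
  refine ⟨e, fun i j => X ^ (e + m i - (q i j).natDegree) * reflect (q i j).natDegree (q i j),
    fun j i => X ^ (e - m' j) * q' j i, ?_, ?_⟩
  · intro i
    have e1 : M.x' ^ e * (M.b' i : U) = M.x' ^ (e + m i) * (M.x ^ m i * (M.b' i : U)) := by
      have : M.x' ^ (e + m i) * M.x ^ m i = M.x' ^ e := by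
        rw [pow_add, mul_assoc, ← mul_pow, hx'x, one_pow, mul_one]
      rw [← mul_assoc, this]
    rw [e1, hq i, Finset.mul_sum]
    refine Finset.sum_congr rfl fun j _ => ?_
    rw [map_mul, map_pow, aeval_X, aeval_reflect M.x M.x' M.hxx' _ _ le_rfl, ← mul_assoc,
      ← mul_assoc, ← pow_add, Nat.sub_add_cancel (by have := hdeg i j; omega)]
  · intro j
    have e1 : M.x' ^ e * (M.b j : U) = M.x' ^ (e - m' j) * (M.x' ^ m' j * (M.b j : U)) := by
      rw [← mul_assoc, ← pow_add, Nat.sub_add_cancel (hm' j)]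
    rw [e1, hq' j, Finset.mul_sum]
    refine Finset.sum_congr rfl fun i _ => ?_
    rw [map_mul, map_pow, aeval_X, mul_assoc]

end ModelLemmas

/-! ### The reduction theorem -/

section Main

variable {Λ U : Type*} [CommRing Λ] [CommRing U] [Algebra Λ U] {n : ℕ}

theorem isSeparable_congr {x y : Ft} (h : x = y) (hs : Algebra.IsSeparable k⟮y⟯ Ft) :
    Algebra.IsSeparable k⟮x⟯ Ft := by
  subst h
  exact hs

/-- The degree over `K'(x)` from a `K'[x]`-independent, `K'(x)`-spanning family. -/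
theorem finrank_adjoin_eq {x : F'} (hx : Transcendental K' x) (b : Fin n → F')
    (hb : ∀ p : Fin n → K'[X], ∑ i, aeval x (p i) * b i = 0 → p = 0)
    (hbs : ∀ y : F', ∃ (p : Fin n → K'[X]) (s : K'[X]), s ≠ 0 ∧
      aeval x s * y = ∑ i, aeval x (p i) * b i) :
    Module.finrank K'⟮x⟯ F' = n := by
  have hli := GoodBasis.linearIndependent_adjoin hx b hb
  have hsp : ⊤ ≤ Submodule.span K'⟮x⟯ (Set.range b) := by
    rintro y -
    obtain ⟨d, rfl⟩ := GoodBasis.span_b hx hbs y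
    refine Submodule.sum_mem _ fun i _ => ?_
    rw [← Algebra.smul_def]
    exact Submodule.smul_mem _ _ (Submodule.subset_span ⟨i, rfl⟩)
  have h1 := Module.finrank_eq_card_basis (Module.Basis.mk hli hsp)
  rw [h1, Fintype.card_fin]

/-- **(GR-M), hypothesis form.**  The reduction theorem for two realisations of a model and a
valuation ring, from the Gauss valuation (`hgauss` = the instance of `exists_gauss`) and the
chart descriptions of the two realisations (`Real.isFF1`, `Real.isSeparable`, `Real.chart`,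
`Real.chart'`). -/
theorem exists_isRed_of (M : Model Λ U n) [IsAlgClosed K'] [IsAlgClosed k]
    {φ₁ : Λ →+* K'} {ψ₁ : U →+* F'} (h₁ : Real M K' F' φ₁ ψ₁)
    {φ₂ : Λ →+* k} {ψ₂ : U →+* Ft} (h₂ : Real M k Ft φ₂ ψ₂)
    (hφ₁ : Function.Injective φ₁) (A : ValuationSubring K') (π : A →+* k)
    (hπ : Function.Surjective π) (hπ0 : ∀ a : A, ¬ IsUnit a → π a = 0)
    (hφ : ∀ a : Λ, ∃ h : φ₁ a ∈ A, π ⟨φ₁ a, h⟩ = φ₂ a)
    (hgauss : ∀ (γ : Fin n → Fin n → Fin n → A[X])
      (_ : ∀ i j, ψ₁ (M.b i : U) * ψ₁ (M.b j : U) =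
        ∑ l, aeval (ψ₁ M.x) ((γ i j l).map A.subtype) * ψ₁ (M.b l : U))
      (_ : ∀ i j, ψ₂ (M.b i : U) * ψ₂ (M.b j : U) =
        ∑ l, aeval (ψ₂ M.x) ((γ i j l).map π) * ψ₂ (M.b l : U))
      (υ : Fin n → A[X])
      (_ : (1 : F') = ∑ l, aeval (ψ₁ M.x) ((υ l).map A.subtype) * ψ₁ (M.b l : U))
      (_ : (1 : Ft) = ∑ l, aeval (ψ₂ M.x) ((υ l).map π) * ψ₂ (M.b l : U)),
      ∃ (O : ValuationSubring F') (red : O →+* Ft), Function.Surjective red ∧
        (∀ y : O, red y = 0 ↔ ¬ IsUnit y) ∧ (∀ a : K', algebraMap K' F' a ∈ O ↔ a ∈ A) ∧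
        (∀ a : A, ∃ h : algebraMap K' F' (a : K') ∈ O, red ⟨_, h⟩ = algebraMap k Ft (π a)) ∧
        (∀ f : O, red f = 0 →
          ∃ (a : A) (g : O), π a = 0 ∧ (f : F') = algebraMap K' F' (a : K') * (g : F')) ∧
        (∀ y : F', y ≠ 0 → ∃ (a : K') (u : Oˣ), y = algebraMap K' F' a * ((u : O) : F')) ∧
        (∀ y : F', y ∈ O ↔ ∃ (p : Fin n → A[X]) (s : A[X]), s.map π ≠ 0 ∧
          aeval (ψ₁ M.x) (s.map A.subtype) * y =
            ∑ i, aeval (ψ₁ M.x) ((p i).map A.subtype) * ψ₁ (M.b i : U)) ∧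
        (∀ (y : O) (p : Fin n → A[X]) (s : A[X]), s.map π ≠ 0 →
          aeval (ψ₁ M.x) (s.map A.subtype) * (y : F') =
            ∑ i, aeval (ψ₁ M.x) ((p i).map A.subtype) * ψ₁ (M.b i : U) →
          aeval (ψ₂ M.x) (s.map π) * red y =
            ∑ i, aeval (ψ₂ M.x) ((p i).map π) * ψ₂ (M.b i : U)))
    (hFF₁ : IsFF1 K' F' (ψ₁ M.x)) (hFF₂ : IsFF1 k Ft (ψ₂ M.x))
    (hsep₁ : Algebra.IsSeparable K'⟮ψ₁ M.x⟯ F') (hsep₂ : Algebra.IsSeparable k⟮ψ₂ M.x⟯ Ft)
    (hch₁ : ∀ f : F', (∀ v : Place K' F', 0 ≤ v.ord (ψ₁ M.x) → 0 ≤ v.ord f) ↔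
      ∃ p : Fin n → K'[X], f = ∑ j, aeval (ψ₁ M.x) (p j) * ψ₁ (M.b j : U))
    (hch₁' : ∀ f : F', (∀ v : Place K' F', v.ord (ψ₁ M.x) ≤ 0 → 0 ≤ v.ord f) ↔
      ∃ p : Fin n → K'[X], f = ∑ j, aeval (ψ₁ M.x)⁻¹ (p j) * ψ₁ (M.b' j : U))
    (hch₂ : ∀ f : Ft, (∀ v : Place k Ft, 0 ≤ v.ord (ψ₂ M.x) → 0 ≤ v.ord f) ↔
      ∃ p : Fin n → k[X], f = ∑ j, aeval (ψ₂ M.x) (p j) * ψ₂ (M.b j : U))
    (hch₂' : ∀ f : Ft, (∀ v : Place k Ft, v.ord (ψ₂ M.x) ≤ 0 → 0 ≤ v.ord f) ↔
      ∃ p : Fin n → k[X], f = ∑ j, aeval (ψ₂ M.x)⁻¹ (p j) * ψ₂ (M.b' j : U)) :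
    ∃ (O : ValuationSubring F') (red : O →+* Ft) (r : Place K' F' → Place k Ft) (xO : Oˣ),
      ((xO : O) : F') = ψ₁ M.x ∧ red (xO : O) = ψ₂ M.x ∧ OneStep.IsRed O red r ∧
      Function.Surjective r ∧ IsFF1 K' F' (ψ₁ M.x) ∧ IsFF1 k Ft (ψ₂ M.x) ∧
      genusFF K' F' = genusFF k Ft ∧
      Module.finrank K'⟮ψ₁ M.x⟯ F' = Module.finrank k⟮ψ₂ M.x⟯ Ft ∧
      (∀ γ : k, ∃ c : O, OneStep.IsConst K' c ∧ red c = algebraMap k Ft γ) ∧
      (∀ u : U, ∃ h : ψ₁ u ∈ O, red ⟨ψ₁ u, h⟩ = ψ₂ u) ∧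
      (∀ (P : Place K' F') (γ₀ : k), EvK A π P (ψ₁ M.x) γ₀ → ∀ u : M.B, ∃ γ : k,
        EvK A π P (ψ₁ (u : U)) γ ∧
          (r P).adicValuation (ψ₂ (u : U) - algebraMap k Ft γ) < 1) ∧
      (∀ (P : Place K' F') (γ₀ : k), EvK A π P (ψ₁ M.x') γ₀ → ∀ u : M.B', ∃ γ : k,
        EvK A π P (ψ₁ (u : U)) γ ∧
          (r P).adicValuation (ψ₂ (u : U) - algebraMap k Ft γ) < 1) := by
  classical
  -- the ring hom `Λ → A`
  have hφmem : ∀ a : Λ, φ₁ a ∈ A := fun a => let ⟨h, _⟩ := hφ a; h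
  let φA : Λ →+* A := RingHom.codRestrict φ₁ A hφmem
  have hπφA : ∀ a : Λ, π (φA a) = φ₂ a := fun a => by
    obtain ⟨h, h2⟩ := hφ a
    exact h2
  have hφA₁ : ∀ p : Λ[X], (p.map φA).map A.subtype = p.map φ₁ := fun p => by
    rw [Polynomial.map_map]
    rfl
  have hφA₂ : ∀ p : Λ[X], (p.map φA).map π = p.map φ₂ := fun p => by
    rw [Polynomial.map_map]
    congr 1
    ext a
    exact hπφA a
  -- the two base functions and their inverses
  have hx₁x' : ψ₁ M.x * ψ₁ M.x' = 1 := by rw [← map_mul, M.hxx', map_one]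
  have hx₂x' : ψ₂ M.x * ψ₂ M.x' = 1 := by rw [← map_mul, M.hxx', map_one]
  have hinv₁ : ψ₁ M.x' = (ψ₁ M.x)⁻¹ := eq_inv_of_mul_eq_one_right hx₁x'
  have hinv₂ : ψ₂ M.x' = (ψ₂ M.x)⁻¹ := eq_inv_of_mul_eq_one_right hx₂x'
  have hx₁0 : ψ₁ M.x ≠ 0 := left_ne_zero_of_mul_eq_one hx₁x'
  have hx₂0 : ψ₂ M.x ≠ 0 := left_ne_zero_of_mul_eq_one hx₂x'
  -- transport of coordinates
  have hB₁ : ∀ (f : M.B) (p : Fin n → Λ[X]), (f : U) = ∑ i, aeval M.x (p i) * (M.b i : U) →
      ψ₁ (f : U) = ∑ i, aeval (ψ₁ M.x) (((p i).map φA).map A.subtype) * ψ₁ (M.b i : U) := by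
    intro f p hf
    rw [hf, map_sum]
    refine Finset.sum_congr rfl fun i _ => ?_
    rw [map_mul, map_aeval h₁.compat, hφA₁]
  have hB₂ : ∀ (f : M.B) (p : Fin n → Λ[X]), (f : U) = ∑ i, aeval M.x (p i) * (M.b i : U) →
      ψ₂ (f : U) = ∑ i, aeval (ψ₂ M.x) (((p i).map φA).map π) * ψ₂ (M.b i : U) := by
    intro f p hf
    rw [hf, map_sum]
    refine Finset.sum_congr rfl fun i _ => ?_
    rw [map_mul, map_aeval h₂.compat, hφA₂]
  have hB₁' : ∀ (f : M.B') (p : Fin n → Λ[X]),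
      (f : U) = ∑ i, aeval M.x' (p i) * (M.b' i : U) →
      ψ₁ (f : U) = ∑ i, aeval (ψ₁ M.x)⁻¹ ((p i).map φ₁) * ψ₁ (M.b' i : U) := by
    intro f p hf
    rw [hf, map_sum]
    refine Finset.sum_congr rfl fun i _ => ?_
    rw [map_mul, map_aeval h₁.compat, hinv₁]
  -- structure constants
  have hγex : ∀ i j, ∃ p : Fin n → Λ[X],
      ((M.b i * M.b j : M.B) : U) = ∑ l, aeval M.x (p l) * (M.b l : U) :=
    fun i j => exists_coords_B M _
  choose pγ hpγ using hγex
  obtain ⟨pυ, hpυ⟩ := exists_coords_B M (1 : M.B)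
  have hγb : ∀ i j, ψ₁ (M.b i : U) * ψ₁ (M.b j : U) =
      ∑ l, aeval (ψ₁ M.x) (((pγ i j l).map φA).map A.subtype) * ψ₁ (M.b l : U) := by
    intro i j
    rw [← map_mul]
    exact hB₁ (M.b i * M.b j) (pγ i j) (hpγ i j)
  have hγc : ∀ i j, ψ₂ (M.b i : U) * ψ₂ (M.b j : U) =
      ∑ l, aeval (ψ₂ M.x) (((pγ i j l).map φA).map π) * ψ₂ (M.b l : U) := by
    intro i j
    rw [← map_mul]
    exact hB₂ (M.b i * M.b j) (pγ i j) (hpγ i j)
  have hυb : (1 : F') =
      ∑ l, aeval (ψ₁ M.x) (((pυ l).map φA).map A.subtype) * ψ₁ (M.b l : U) := by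
    rw [← hB₁ 1 pυ hpυ]
    exact (map_one ψ₁).symm
  have hυc : (1 : Ft) = ∑ l, aeval (ψ₂ M.x) (((pυ l).map φA).map π) * ψ₂ (M.b l : U) := by
    rw [← hB₂ 1 pυ hpυ]
    exact (map_one ψ₂).symm
  obtain ⟨O, red, hredsurj, hker, hA, hRa, hscale, hsc, hmem, hredf⟩ :=
    hgauss (fun i j l => (pγ i j l).map φA) hγb hγc (fun l => (pυ l).map φA) hυb hυc
  have hR : Chart.RedData A π O red :=
    ⟨fun a => (hRa a).choose, fun a => (hRa a).choose_spec⟩
  have hone : (1 : A[X]).map π ≠ 0 := by rw [Polynomial.map_one]; exact one_ne_zero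
  -- the elements of `B` lie in `O` and reduce as they should
  have hBO : ∀ f : M.B, ∃ h : ψ₁ (f : U) ∈ O, red ⟨ψ₁ (f : U), h⟩ = ψ₂ (f : U) := by
    intro f
    obtain ⟨p, hp⟩ := exists_coords_B M f
    have e1 := hB₁ f p hp
    have e2 := hB₂ f p hp
    have e3 : aeval (ψ₁ M.x) ((1 : A[X]).map A.subtype) * ψ₁ (f : U) =
        ∑ i, aeval (ψ₁ M.x) (((p i).map φA).map A.subtype) * ψ₁ (M.b i : U) := by
      rw [Polynomial.map_one, map_one, one_mul]
      exact e1
    have hm : ψ₁ (f : U) ∈ O := (hmem _).2 ⟨fun i => (p i).map φA, 1, hone, e3⟩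
    refine ⟨hm, ?_⟩
    have h3 := hredf ⟨_, hm⟩ (fun i => (p i).map φA) 1 hone e3
    rw [Polynomial.map_one, map_one, one_mul] at h3
    rw [h3, e2]
  -- the base function as a unit of `O`
  obtain ⟨hxO, hredx⟩ := hBO ⟨M.x, M.hx⟩
  set xO : O := ⟨ψ₁ M.x, hxO⟩ with hxOdef
  have hxu : IsUnit xO := by
    by_contra hnu
    exact hx₂0 (hredx ▸ (hker xO).2 hnu)
  obtain ⟨xu, hxu'⟩ := hxu
  set xO' : O := ((xu⁻¹ : Oˣ) : O) with hxO'def
  have hxx' : xO * xO' = 1 := by rw [← hxu']; exact Units.mul_inv xu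
  have hxO'F : (xO' : F') = ψ₁ M.x' := by
    have h1 : ψ₁ M.x * (xO' : F') = 1 := congrArg Subtype.val hxx'
    exact mul_left_cancel₀ hx₁0 (h1.trans hx₁x'.symm)
  have hredx' : red xO' = ψ₂ M.x' := by
    have h1 : red xO * red xO' = 1 := by rw [← map_mul, hxx', map_one]
    rw [hredx] at h1
    exact mul_left_cancel₀ hx₂0 (h1.trans hx₂x'.symm)
  -- all of `U`
  have hU : ∀ u : U, ∃ h : ψ₁ u ∈ O, red ⟨ψ₁ u, h⟩ = ψ₂ u := by
    intro u
    obtain ⟨m, hm⟩ := M.hB u
    obtain ⟨hfO, hfred⟩ := hBO ⟨_, hm⟩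
    have e1 : ψ₁ u = (xO' : F') ^ m * ψ₁ (M.x ^ m * u) := by
      rw [hxO'F, map_mul, map_pow, ← mul_assoc, ← mul_pow, mul_comm (ψ₁ M.x'), hx₁x', one_pow,
        one_mul]
    have hm' : ψ₁ u ∈ O := by
      rw [e1]
      exact mul_mem (pow_mem xO'.2 m) hfO
    refine ⟨hm', ?_⟩
    have e2 : (⟨ψ₁ u, hm'⟩ : O) = xO' ^ m * ⟨ψ₁ (M.x ^ m * u), hfO⟩ := Subtype.ext e1
    rw [e2, map_mul, map_pow, hredx', hfred]
    show ψ₂ M.x' ^ m * ψ₂ (M.x ^ m * u) = ψ₂ u
    rw [map_mul, map_pow, ← mul_assoc, ← mul_pow, mul_comm (ψ₂ M.x'), hx₂x', one_pow, one_mul]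
  -- engine inputs
  have hF : IsFF1 K' F' (xO : F') := hFF₁
  have hFt : IsFF1 k Ft (red xO) := hredx.symm ▸ hFF₂
  haveI : Algebra.IsSeparable K'⟮(xO : F')⟯ F' := hsep₁
  haveI : Algebra.IsSeparable k⟮red xO⟯ Ft := isSeparable_congr hredx hsep₂
  obtain ⟨O₀, red₀, G, -, -⟩ := GoodBasis.exists_goodBasis' (A := A) (π := π) h₁.trans h₂.trans
    h₁.indep h₁.span h₂.indep (fun l => (pυ l).map φA) hυb hυc O red hredsurj hker hmem hredf
    xO rfl hredx
  have hbO : ∀ j, ∃ h : ψ₁ (M.b j : U) ∈ O, red ⟨_, h⟩ = ψ₂ (M.b j : U) := fun j => hU _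
  have hb'O : ∀ j, ∃ h : ψ₁ (M.b' j : U) ∈ O, red ⟨_, h⟩ = ψ₂ (M.b' j : U) := fun j => hU _
  choose hbm hbr using hbO
  choose hb'm hb'r using hb'O
  have hT3 : ∀ s : Ft, (∀ Q : Place k Ft, 0 ≤ Q.ord (red xO) → 0 ≤ Q.ord s) →
      ∃ y : O, red y = s ∧ ∀ P : Place K' F', 0 ≤ P.ord (xO : F') → 0 ≤ P.ord (y : F') := by
    intro s hs
    rw [hredx] at hs
    obtain ⟨p, hp⟩ := (hch₂ s).1 hs
    have hl : ∀ j, ∃ Pj : A[X], Pj.map π = p j := fun j =>
      Polynomial.map_surjective π hπ (p j)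
    choose Pl hPl using hl
    refine ⟨∑ j, hR.evalO xO.2 (Pl j) * ⟨_, hbm j⟩, ?_, ?_⟩
    · rw [map_sum, hp]
      refine Finset.sum_congr rfl fun j _ => ?_
      rw [map_mul, hR.red_evalO, hbr, hPl]
      have e : (⟨(xO : F'), xO.2⟩ : O) = xO := rfl
      rw [e, hredx]
    · have hy : ((∑ j, hR.evalO xO.2 (Pl j) * ⟨_, hbm j⟩ : O) : F') =
          ∑ j, aeval (ψ₁ M.x) ((Pl j).map A.subtype) * ψ₁ (M.b j : U) := by
        rw [← O.subtype_apply, map_sum]
        refine Finset.sum_congr rfl fun j _ => ?_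
        rw [map_mul]
        show ((hR.evalO xO.2 (Pl j) : O) : F') * ψ₁ (M.b j : U) = _
        rw [hR.coe_evalO]
      rw [hy]
      exact (hch₁ _).2 ⟨fun j => (Pl j).map A.subtype, rfl⟩
  have hT3' : ∀ s : Ft, (∀ Q : Place k Ft, Q.ord (red xO) ≤ 0 → 0 ≤ Q.ord s) →
      ∃ y : O, red y = s ∧ ∀ P : Place K' F', P.ord (xO : F') ≤ 0 → 0 ≤ P.ord (y : F') := by
    intro s hs
    rw [hredx] at hs
    obtain ⟨p, hp⟩ := (hch₂' s).1 hs
    have hl : ∀ j, ∃ Pj : A[X], Pj.map π = p j := fun j =>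
      Polynomial.map_surjective π hπ (p j)
    choose Pl hPl using hl
    refine ⟨∑ j, hR.evalO xO'.2 (Pl j) * ⟨_, hb'm j⟩, ?_, ?_⟩
    · rw [map_sum, hp]
      refine Finset.sum_congr rfl fun j _ => ?_
      rw [map_mul, hR.red_evalO, hb'r, hPl]
      have e : (⟨(xO' : F'), xO'.2⟩ : O) = xO' := rfl
      rw [e, hredx', hinv₂]
    · have hy : ((∑ j, hR.evalO xO'.2 (Pl j) * ⟨_, hb'm j⟩ : O) : F') =
          ∑ j, aeval (ψ₁ M.x)⁻¹ ((Pl j).map A.subtype) * ψ₁ (M.b' j : U) := by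
        rw [← O.subtype_apply, map_sum]
        refine Finset.sum_congr rfl fun j _ => ?_
        rw [map_mul]
        show ((hR.evalO xO'.2 (Pl j) : O) : F') * ψ₁ (M.b' j : U) = _
        rw [hR.coe_evalO, hxO'F, hinv₁]
      rw [hy]
      exact (hch₁' _).2 ⟨fun j => (Pl j).map A.subtype, rfl⟩
  obtain ⟨r, hIsRed, hrsurj, hV, hV'⟩ := exists_isRed_core hπ0 hπ hredsurj hA hRa hker hscale hsc
    xO xO' hxx' hF hFt G hT3 hT3'
  refine ⟨O, red, r, xu, by rw [hxu'], by rw [hxu']; exact hredx, hIsRed, hrsurj, hFF₁, hFF₂,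
    ?_, ?_, ?_, hU, ?_, ?_⟩
  · -- genus
    obtain ⟨e, T, T', hT, hT'⟩ := exists_transition M
    refine Cech.genusFF_eq_of_good_reduction φ₁ φ₂ hφ₁ hFF₁ hFF₂
      (fun j => ψ₁ (M.b j : U)) (fun j => ψ₁ (M.b' j : U))
      (fun j => ψ₂ (M.b j : U)) (fun j => ψ₂ (M.b' j : U))
      (GoodBasis.linearIndependent_adjoin h₁.trans _ h₁.indep)
      (GoodBasis.linearIndependent_adjoin h₂.trans _ h₂.indep)
      hch₁ hch₁' hch₂ hch₂' e T T' ?_ ?_ ?_ ?_
    · intro i
      have h := congrArg ψ₁ (hT i)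
      rw [map_mul, map_pow, map_sum, hinv₁] at h
      rw [h]
      refine Finset.sum_congr rfl fun j _ => ?_
      rw [map_mul, map_aeval h₁.compat, hinv₁]
    · intro j
      have h := congrArg ψ₁ (hT' j)
      rw [map_mul, map_pow, map_sum, hinv₁] at h
      rw [h]
      refine Finset.sum_congr rfl fun i _ => ?_
      rw [map_mul, map_aeval h₁.compat, hinv₁]
    · intro i
      have h := congrArg ψ₂ (hT i)
      rw [map_mul, map_pow, map_sum, hinv₂] at h
      rw [h]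
      refine Finset.sum_congr rfl fun j _ => ?_
      rw [map_mul, map_aeval h₂.compat, hinv₂]
    · intro j
      have h := congrArg ψ₂ (hT' j)
      rw [map_mul, map_pow, map_sum, hinv₂] at h
      rw [h]
      refine Finset.sum_congr rfl fun i _ => ?_
      rw [map_mul, map_aeval h₂.compat, hinv₂]
  · -- degree
    exact (finrank_adjoin_eq h₁.trans _ h₁.indep h₁.span).trans
      (finrank_adjoin_eq h₂.trans _ h₂.indep h₂.span).symm
  · -- lifting constants
    intro γ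
    obtain ⟨a, rfl⟩ := hπ γ
    exact ⟨hR.const a, ⟨(a : K'), rfl⟩, hR.red_const a⟩
  · -- values on the finite chart
    intro P γ₀ hP u
    obtain ⟨hm, hr⟩ := hU (u : U)
    obtain ⟨p, hp⟩ := exists_coords_B M u
    have hreg : ∀ v : Place K' F', 0 ≤ v.ord (xO : F') →
        0 ≤ v.ord ((⟨ψ₁ (u : U), hm⟩ : O) : F') :=
      (hch₁ _).2 ⟨fun i => ((p i).map φA).map A.subtype, hB₁ u p hp⟩
    obtain ⟨γ, hγ1, hγ2⟩ := hV P γ₀ hP ⟨ψ₁ (u : U), hm⟩ hreg
    exact ⟨γ, hγ1, by rw [← hr]; exact hγ2⟩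
  · -- values on the chart at infinity
    intro P γ₀ hP u
    obtain ⟨hm, hr⟩ := hU (u : U)
    obtain ⟨p, hp⟩ := exists_coords_B' M u
    have hreg : ∀ v : Place K' F', v.ord (xO : F') ≤ 0 →
        0 ≤ v.ord ((⟨ψ₁ (u : U), hm⟩ : O) : F') :=
      (hch₁' _).2 ⟨fun i => (p i).map φ₁, hB₁' u p hp⟩
    have hP' : EvK A π P (xO' : F') γ₀ := by rw [hxO'F]; exact hP
    obtain ⟨γ, hγ1, hγ2⟩ := hV' P γ₀ hP' ⟨ψ₁ (u : U), hm⟩ hreg
    exact ⟨γ, hγ1, by rw [← hr]; exact hγ2⟩

end Main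

end Fermat.Agent.S27P.GR.Main70
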