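import Mathlib
import Fermat.Agent.S27P.GR.Main70
import Fermat.Agent.S27P.GR.Gauss
import Fermat.Agent.S27P.GR.RealC

/-!
# S27 / (GR-M), twin: the reduction theorem, closed form

`Main70.exists_isRed` = the literal of row GR-M (#4155), with no hypothesis left:
`Main70.exists_isRed_of` fed with `exists_gauss` (GR-G, `GR/Gauss.lean`) and the chart
descriptions of the two realisations (GR-RL, `GR/RealC.lean`).
-/

set_option autoImplicit false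

noncomputable section

namespace Fermat.Agent.S27P.GR.Main70

open AlgebraicCurve Polynomial IntermediateField
open Fermat.Agent.Lib.Red Fermat.Agent.Lib.Red.PlaceRed Fermat.Agent.Lib.FF

/-- **(GR-M) The reduction theorem** for two realisations of a model and a valuation ring. -/
theorem exists_isRed {Λ U : Type*} [CommRing Λ] [CommRing U] [Algebra Λ U] {n : ℕ}
    (M : Model Λ U n) {K' F' k Ft : Type*} [Field K'] [Field F'] [Algebra K' F'] [Field k]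
    [Field Ft] [Algebra k Ft] [IsAlgClosed K'] [IsAlgClosed k] {φ₁ : Λ →+* K'} {ψ₁ : U →+* F'}
    (h₁ : Real M K' F' φ₁ ψ₁) {φ₂ : Λ →+* k} {ψ₂ : U →+* Ft} (h₂ : Real M k Ft φ₂ ψ₂)
    (hφ₁ : Function.Injective φ₁) (A : ValuationSubring K') (π : A →+* k)
    (hπ : Function.Surjective π) (hπ0 : ∀ a : A, ¬ IsUnit a → π a = 0)
    (hφ : ∀ a : Λ, ∃ h : φ₁ a ∈ A, π ⟨φ₁ a, h⟩ = φ₂ a) :
    ∃ (O : ValuationSubring F') (red : O →+* Ft) (r : Place K' F' → Place k Ft) (xO : Oˣ),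
      ((xO : O) : F') = ψ₁ M.x ∧ red (xO : O) = ψ₂ M.x ∧ OneStep.IsRed O red r ∧
      Function.Surjective r ∧ IsFF1 K' F' (ψ₁ M.x) ∧ IsFF1 k Ft (ψ₂ M.x) ∧
      genusFF K' F' = genusFF k Ft ∧
      Module.finrank K'⟮ψ₁ M.x⟯ F' = Module.finrank k⟮ψ₂ M.x⟯ Ft ∧
      (∀ γ : k, ∃ c : O, OneStep.IsConst K' c ∧ red c = algebraMap k Ft γ) ∧
      (∀ u : U, ∃ h : ψ₁ u ∈ O, red ⟨ψ₁ u, h⟩ = ψ₂ u) ∧
      (∀ (P : Place K' F') (γ₀ : k), EvK A π P (ψ₁ M.x) γ₀ → ∀ u : M.B, ∃ γ : k,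
        EvK A π P (ψ₁ (u : U)) γ ∧
          (r P).adicValuation (ψ₂ (u : U) - algebraMap k Ft γ) < 1) ∧
      (∀ (P : Place K' F') (γ₀ : k), EvK A π P (ψ₁ M.x') γ₀ → ∀ u : M.B', ∃ γ : k,
        EvK A π P (ψ₁ (u : U)) γ ∧
          (r P).adicValuation (ψ₂ (u : U) - algebraMap k Ft γ) < 1) :=
  exists_isRed_of M h₁ h₂ hφ₁ A π hπ hπ0 hφ
    (fun γ hγb hγc υ hυb hυc => exists_gauss A π hπ hπ0 (ψ₁ M.x) (ψ₂ M.x) h₁.trans h₂.trans
      _ _ h₁.indep h₁.span h₂.indep h₂.span γ hγb hγc υ hυb hυc)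
    (RealC.isFF1 h₁) (RealC.isFF1 h₂) (RealC.isSeparable h₁) (RealC.isSeparable h₂)
    (RealC.chart h₁) (RealC.chart' h₁) (RealC.chart h₂) (RealC.chart' h₂)

end Fermat.Agent.S27P.GR.Main70
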