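import Mathlib
import Fermat.Agent.S27P.GR.Defs
import Fermat.Agent.S27P.GR.MainCore
import Fermat.Agent.S27P.GR.Gauss
import Fermat.Agent.S27P.GR.GoodBasis
import Fermat.Agent.S27P.GR.RealC
import Fermat.Agent.S27P.GR.Transition

/-!
# S27 / (GR), row GR-M closed: the reduction theorem `exists_isRed`

`MainCore.exists_isRed_core` (helper42) composed with `exists_gauss` (GR-G), `exists_goodBasis`
(GR-GB), the function-field facts of the two realisations `RealC.*` (GR-RL) and the structure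
constants of the model `Model.exists_struct` (GR-T).
-/

set_option autoImplicit false

noncomputable section

namespace Fermat.Agent.S27P.GR.MainClosed56

open Polynomial AlgebraicCurve IntermediateField
open Fermat.Agent.Lib.FF Fermat.Agent.Lib.Red Fermat.Agent.Lib.Red.PlaceRed

/-- **GR-M**: the reduction theorem for two realisations of one model and a valuation ring of the
constants compatible with the two coefficient maps. -/
theorem exists_isRed {Λ U : Type*} [CommRing Λ] [CommRing U] [Algebra Λ U] {n : ℕ}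
    (M : Model Λ U n) {K' F' k Ft : Type*} [Field K'] [Field F'] [Algebra K' F'] [Field k]
    [Field Ft] [Algebra k Ft] [IsAlgClosed K'] [IsAlgClosed k] {φ₁ : Λ →+* K'} {ψ₁ : U →+* F'}
    (h₁ : Real M K' F' φ₁ ψ₁) {φ₂ : Λ →+* k} {ψ₂ : U →+* Ft} (h₂ : Real M k Ft φ₂ ψ₂)
    (hφ₁ : Function.Injective φ₁) (A : ValuationSubring K') (π : A →+* k)
    (hπ : Function.Surjective π) (hπ0 : ∀ a : A, ¬ IsUnit a → π a = 0)
    (hφ : ∀ a : Λ, ∃ h : φ₁ a ∈ A, π ⟨φ₁ a, h⟩ = φ₂ a) :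
    ∃ (O : ValuationSubring F') (red : O →+* Ft) (r : Place K' F' → Place k Ft) (xO : Oˣ),
      ((xO : O) : F') = ψ₁ M.x ∧ red (xO : O) = ψ₂ M.x ∧ OneStep.IsRed O red r ∧
      Function.Surjective r ∧ IsFF1 K' F' (ψ₁ M.x) ∧ IsFF1 k Ft (ψ₂ M.x) ∧
      genusFF K' F' = genusFF k Ft ∧
      Module.finrank K'⟮ψ₁ M.x⟯ F' = Module.finrank k⟮ψ₂ M.x⟯ Ft ∧
      (∀ γ : k, ∃ c : O, OneStep.IsConst K' c ∧ red c = algebraMap k Ft γ) ∧
      (∀ u : U, ∃ h : ψ₁ u ∈ O, red ⟨ψ₁ u, h⟩ = ψ₂ u) ∧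
      (∀ (P : Place K' F') (γ₀ : k), EvK A π P (ψ₁ M.x) γ₀ → ∀ u : M.B, ∃ γ : k,
        EvK A π P (ψ₁ (u : U)) γ ∧ (r P).adicValuation (ψ₂ (u : U) - algebraMap k Ft γ) < 1) ∧
      (∀ (P : Place K' F') (γ₀ : k), EvK A π P (ψ₁ M.x') γ₀ → ∀ u : M.B', ∃ γ : k,
        EvK A π P (ψ₁ (u : U)) γ ∧ (r P).adicValuation (ψ₂ (u : U) - algebraMap k Ft γ) < 1) := by
  classical
  obtain ⟨γ, υ, hγ, hυ⟩ := M.exists_struct
  -- the coefficient map `Λ → A`
  let φA : Λ →+* A := φ₁.codRestrict A (fun a => (hφ a).1)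
  have hφA₁ : ∀ p : Λ[X], (p.map φA).map A.subtype = p.map φ₁ := by
    intro p
    rw [Polynomial.map_map]
    rfl
  have hφA₂ : ∀ p : Λ[X], (p.map φA).map π = p.map φ₂ := by
    intro p
    rw [Polynomial.map_map]
    congr 1
    ext a
    exact (hφ a).2
  have hγb : ∀ i j, ψ₁ (M.b i : U) * ψ₁ (M.b j : U)
      = ∑ l, aeval (ψ₁ M.x) (((γ i j l).map φA).map A.subtype) * ψ₁ (M.b l : U) := by
    intro i j
    rw [← map_mul, hγ i j, MainCore.map_repr h₁]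
    exact Finset.sum_congr rfl fun l _ => by rw [hφA₁]
  have hγc : ∀ i j, ψ₂ (M.b i : U) * ψ₂ (M.b j : U)
      = ∑ l, aeval (ψ₂ M.x) (((γ i j l).map φA).map π) * ψ₂ (M.b l : U) := by
    intro i j
    rw [← map_mul, hγ i j, MainCore.map_repr h₂]
    exact Finset.sum_congr rfl fun l _ => by rw [hφA₂]
  have hυb : (1 : F') = ∑ l, aeval (ψ₁ M.x) (((υ l).map φA).map A.subtype) * ψ₁ (M.b l : U) := by
    rw [← map_one ψ₁, hυ, MainCore.map_repr h₁]
    exact Finset.sum_congr rfl fun l _ => by rw [hφA₁]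
  have hυc : (1 : Ft) = ∑ l, aeval (ψ₂ M.x) (((υ l).map φA).map π) * ψ₂ (M.b l : U) := by
    rw [← map_one ψ₂, hυ, MainCore.map_repr h₂]
    exact Finset.sum_congr rfl fun l _ => by rw [hφA₂]
  obtain ⟨O, red, g1, g2, g3, g4, g5, g6, g7, g8⟩ :=
    exists_gauss A π hπ hπ0 (ψ₁ M.x) (ψ₂ M.x) h₁.trans h₂.trans
      (fun i => ψ₁ (M.b i : U)) (fun i => ψ₂ (M.b i : U)) h₁.indep h₁.span h₂.indep h₂.span
      (fun i j l => (γ i j l).map φA) hγb hγc (fun l => (υ l).map φA) hυb hυc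
  obtain ⟨O₀, red₀, -, -, G, -⟩ :=
    GoodBasis.exists_goodBasis (A := A) (π := π) h₁.trans h₂.trans h₁.indep h₁.span h₂.indep
      (fun l => (υ l).map φA) hυb hυc O red g1 g2 g7 g8
  have := RealC.isSeparable h₁
  have := RealC.isSeparable h₂
  obtain ⟨r, xO, hres⟩ := MainCore.exists_isRed_core M h₁ h₂ hφ₁ A π hπ hπ0 hφ
    (RealC.isFF1 h₁) (RealC.isFF1 h₂) (RealC.chart h₁) (RealC.chart' h₁) (RealC.chart h₂)
    (RealC.chart' h₂) O red g1 g2 g3 g4 g5 g6 g7 g8 G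
  exact ⟨O, red, r, xO, hres⟩

end Fermat.Agent.S27P.GR.MainClosed56
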