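import Mathlib
import Fermat.Agent.S27P.GR.Defs
import Fermat.Agent.Lib.FF.CechGenus

/-!
# S27 / (GR), row GR-M, brick (B2): genus and degree are the same in any two realisations

For a two-chart model `M : Model Λ U n`:

* `exists_coord`, `exists_coord'` : coordinates of an element of a chart ring, read in `U`;
* `exists_transition` : transition matrices over `Λ[X]` (polynomials in `x' = 1/x`) between the
  two chart bases, `x' ^ e • b' = T(x') • b` and `x' ^ e • b = T'(x') • b'`;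
* `real_map_aeval`, `real_map_x'` : transport of polynomial expressions along a realisation;
* `real_linearIndependent`, `real_finrank` : the images of the `b i` form a basis of `E` over
  `κ(x)`, so `[E : κ(x)] = n`;
* `genusFF_eq_of_real` : two realisations with the chart descriptions (`Real.chart`,
  `Real.chart'` of row GR-RL, taken as hypotheses) have the same genus, the first coefficient
  map being injective (frozen engine `Lib.FF.Cech.genusFF_eq_of_good_reduction`);
* `finrank_eq_of_real` : the degrees over the rational subfields agree.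
-/

set_option autoImplicit false

noncomputable section

namespace Fermat.Agent.S27P.GR.Main38

open Polynomial AlgebraicCurve IntermediateField
open Fermat.Agent.Lib.FF

section Model

variable {Λ U : Type*} [CommRing Λ] [CommRing U] [Algebra Λ U] {n : ℕ}

/-- Coordinates of an element of the chart ring `B` in the basis `b`, read in `U`. -/
theorem exists_coord (M : Model Λ U n) {u : U} (hu : u ∈ M.B) :
    ∃ p : Fin n → Λ[X], u = ∑ j, aeval M.x (p j) * (M.b j : U) := by
  obtain ⟨p, hp, -⟩ := M.cert.free ⟨u, hu⟩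
  refine ⟨p, ?_⟩
  have h := congrArg (Subtype.val : M.B → U) hp
  simp only [AddSubmonoidClass.coe_finsetSum, MulMemClass.coe_mul] at h
  rw [h]
  refine Finset.sum_congr rfl fun j _ => ?_
  rw [Polynomial.aeval_subalgebra_coe]

/-- Coordinates of an element of the chart ring `B'` in the basis `b'`, read in `U`. -/
theorem exists_coord' (M : Model Λ U n) {u : U} (hu : u ∈ M.B') :
    ∃ p : Fin n → Λ[X], u = ∑ j, aeval M.x' (p j) * (M.b' j : U) := by
  obtain ⟨p, hp, -⟩ := M.cert'.free ⟨u, hu⟩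
  refine ⟨p, ?_⟩
  have h := congrArg (Subtype.val : M.B' → U) hp
  simp only [AddSubmonoidClass.coe_finsetSum, MulMemClass.coe_mul] at h
  rw [h]
  refine Finset.sum_congr rfl fun j _ => ?_
  rw [Polynomial.aeval_subalgebra_coe]

theorem x'_mul_x (M : Model Λ U n) : M.x' * M.x = 1 := by
  rw [mul_comm]; exact M.hxx'

theorem x'_pow_mul_x_pow (M : Model Λ U n) (m : ℕ) : M.x' ^ m * M.x ^ m = 1 := by
  rw [← mul_pow, x'_mul_x, one_pow]

/-- `x' ^ N * p(x) = (reflect N p)(x')` for `natDegree p ≤ N`. -/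
theorem x'_pow_mul_aeval (M : Model Λ U n) (N : ℕ) (p : Λ[X]) (hp : p.natDegree ≤ N) :
    M.x' ^ N * aeval M.x p = aeval M.x' (reflect N p) := by
  let _ : Invertible M.x := ⟨M.x', x'_mul_x M, M.hxx'⟩
  have h1 := eval₂_reflect_mul_pow (algebraMap Λ U) M.x N p hp
  have h2 : (⅟ M.x) = M.x' := rfl
  rw [h2] at h1
  rw [aeval_def, aeval_def, ← h1, mul_comm, mul_assoc, mul_comm (M.x ^ N), x'_pow_mul_x_pow,
    mul_one]

/-- Transition from the chart `B'` to the chart `B`, one basis element, any large exponent. -/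
theorem exists_transition_row (M : Model Λ U n) (i : Fin n) :
    ∃ e₀ : ℕ, ∀ e : ℕ, e₀ ≤ e → ∃ T : Fin n → Λ[X],
      M.x' ^ e * (M.b' i : U) = ∑ j, aeval M.x' (T j) * (M.b j : U) := by
  obtain ⟨m, hm⟩ := M.hB (M.b' i : U)
  obtain ⟨p, hp⟩ := exists_coord M hm
  set N := Finset.univ.sup fun j => (p j).natDegree with hN
  have hNj : ∀ j, (p j).natDegree ≤ N := fun j =>
    Finset.le_sup (f := fun j => (p j).natDegree) (Finset.mem_univ j)
  refine ⟨N, fun e he => ⟨fun j => X ^ (e - N + m) * reflect N (p j), ?_⟩⟩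
  have h1 : (M.b' i : U) = M.x' ^ m * ∑ j, aeval M.x (p j) * (M.b j : U) := by
    rw [← hp, ← mul_assoc, x'_pow_mul_x_pow, one_mul]
  have he' : e = (e - N + m) + N - m := by omega
  calc M.x' ^ e * (M.b' i : U)
      = M.x' ^ (e - N + m) * ∑ j, (M.x' ^ N * aeval M.x (p j)) * (M.b j : U) := by
        conv_lhs => rw [h1]
        rw [Finset.mul_sum, Finset.mul_sum, Finset.mul_sum]
        refine Finset.sum_congr rfl fun j _ => ?_
        have : M.x' ^ e * M.x' ^ m = M.x' ^ (e - N + m) * M.x' ^ N := by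
          rw [← pow_add, ← pow_add]; congr 1; omega
        calc M.x' ^ e * (M.x' ^ m * (aeval M.x (p j) * (M.b j : U)))
            = (M.x' ^ e * M.x' ^ m) * (aeval M.x (p j) * (M.b j : U)) := by ring
          _ = _ := by rw [this]; ring
    _ = ∑ j, aeval M.x' (X ^ (e - N + m) * reflect N (p j)) * (M.b j : U) := by
        rw [Finset.mul_sum]
        refine Finset.sum_congr rfl fun j _ => ?_
        rw [x'_pow_mul_aeval M N (p j) (hNj j), map_mul, map_pow, aeval_X]
        ring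

/-- Transition from the chart `B` to the chart `B'`, one basis element, any large exponent. -/
theorem exists_transition_row' (M : Model Λ U n) (j : Fin n) :
    ∃ e₀ : ℕ, ∀ e : ℕ, e₀ ≤ e → ∃ T : Fin n → Λ[X],
      M.x' ^ e * (M.b j : U) = ∑ i, aeval M.x' (T i) * (M.b' i : U) := by
  obtain ⟨m, hm⟩ := M.hB' (M.b j : U)
  obtain ⟨p, hp⟩ := exists_coord' M hm
  refine ⟨m, fun e he => ⟨fun i => X ^ (e - m) * p i, ?_⟩⟩
  have he' : e = (e - m) + m := by omega
  calc M.x' ^ e * (M.b j : U) = M.x' ^ (e - m) * (M.x' ^ m * (M.b j : U)) := by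
        rw [← mul_assoc, ← pow_add, ← he']
    _ = ∑ i, aeval M.x' (X ^ (e - m) * p i) * (M.b' i : U) := by
        rw [hp, Finset.mul_sum]
        refine Finset.sum_congr rfl fun i _ => ?_
        rw [map_mul, map_pow, aeval_X]
        ring

/-- **Transition matrices** between the two chart bases, over `Λ[X]` in the variable `x'`. -/
theorem exists_transition (M : Model Λ U n) :
    ∃ (e : ℕ) (T T' : Matrix (Fin n) (Fin n) Λ[X]),
      (∀ i, M.x' ^ e * (M.b' i : U) = ∑ j, aeval M.x' (T i j) * (M.b j : U)) ∧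
      (∀ j, M.x' ^ e * (M.b j : U) = ∑ i, aeval M.x' (T' j i) * (M.b' i : U)) := by
  choose e₁ h₁ using exists_transition_row M
  choose e₂ h₂ using exists_transition_row' M
  set e := (Finset.univ.sup e₁) ⊔ (Finset.univ.sup e₂) with he
  have he₁ : ∀ i, e₁ i ≤ e := fun i =>
    (Finset.le_sup (f := e₁) (Finset.mem_univ i)).trans le_sup_left
  have he₂ : ∀ j, e₂ j ≤ e := fun j =>
    (Finset.le_sup (f := e₂) (Finset.mem_univ j)).trans le_sup_right
  choose T hT using fun i => h₁ i e (he₁ i)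
  choose T' hT' using fun j => h₂ j e (he₂ j)
  exact ⟨e, Matrix.of T, Matrix.of T', hT, hT'⟩

end Model

section Real

variable {Λ U : Type*} [CommRing Λ] [CommRing U] [Algebra Λ U] {n : ℕ} {M : Model Λ U n}
variable {κ E : Type*} [Field κ] [Field E] [Algebra κ E] {φ : Λ →+* κ} {ψ : U →+* E}

/-- Polynomial expressions are transported along a realisation. -/
theorem real_map_aeval (h : Real M κ E φ ψ) (p : Λ[X]) (u : U) :
    ψ (aeval u p) = aeval (ψ u) (p.map φ) := by
  rw [aeval_def, aeval_def, hom_eval₂, eval₂_map]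
  congr 1
  ext a
  exact h.compat a

theorem real_map_x_mul (_h : Real M κ E φ ψ) : ψ M.x * ψ M.x' = 1 := by
  rw [← map_mul, M.hxx', map_one]

theorem real_map_x_ne_zero (h : Real M κ E φ ψ) : ψ M.x ≠ 0 :=
  left_ne_zero_of_mul_eq_one (real_map_x_mul h)

theorem real_map_x' (h : Real M κ E φ ψ) : ψ M.x' = (ψ M.x)⁻¹ :=
  eq_inv_of_mul_eq_one_right (real_map_x_mul h)

/-- Transition identities are transported along a realisation. -/
theorem real_transition (h : Real M κ E φ ψ) {e : ℕ} {T T' : Matrix (Fin n) (Fin n) Λ[X]}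
    (hT : ∀ i, M.x' ^ e * (M.b' i : U) = ∑ j, aeval M.x' (T i j) * (M.b j : U))
    (hT' : ∀ j, M.x' ^ e * (M.b j : U) = ∑ i, aeval M.x' (T' j i) * (M.b' i : U)) :
    (∀ i, (ψ M.x)⁻¹ ^ e * ψ (M.b' i : U) =
      ∑ j, aeval (ψ M.x)⁻¹ ((T i j).map φ) * ψ (M.b j : U)) ∧
    (∀ j, (ψ M.x)⁻¹ ^ e * ψ (M.b j : U) =
      ∑ i, aeval (ψ M.x)⁻¹ ((T' j i).map φ) * ψ (M.b' i : U)) := by
  constructor
  · intro i
    have := congrArg ψ (hT i)
    rw [map_mul, map_pow, map_sum, real_map_x' h] at this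
    rw [this]
    refine Finset.sum_congr rfl fun j _ => ?_
    rw [map_mul, real_map_aeval h, real_map_x' h]
  · intro j
    have := congrArg ψ (hT' j)
    rw [map_mul, map_pow, map_sum, real_map_x' h] at this
    rw [this]
    refine Finset.sum_congr rfl fun i _ => ?_
    rw [map_mul, real_map_aeval h, real_map_x' h]

/-- Every element of `κ(x)` is a quotient of polynomials in `x`, with nonzero denominator. -/
theorem exists_poly_quot {x : E} (f : κ⟮x⟯) :
    ∃ r s : κ[X], aeval x s ≠ 0 ∧ aeval x s * (f : E) = aeval x r := by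
  obtain ⟨r, s, hrs⟩ := (mem_adjoin_simple_iff κ (f : E)).1 f.2
  by_cases hs : aeval x s = 0
  · refine ⟨0, 1, by simp, ?_⟩
    rw [hrs, hs, div_zero]; simp
  · exact ⟨r, s, hs, by rw [hrs, mul_div_cancel₀ _ hs]⟩

/-- The images of the basis `b` are linearly independent over `κ(x)`. -/
theorem real_linearIndependent (h : Real M κ E φ ψ) :
    LinearIndependent κ⟮ψ M.x⟯ (fun i => ψ (M.b i : U)) := by
  classical
  rw [Fintype.linearIndependent_iff]
  intro g hg i
  choose r s hs hrs using fun i => exists_poly_quot (κ := κ) (x := ψ M.x) (g i)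
  -- common denominator
  have hS : aeval (ψ M.x) (∏ j, s j) ≠ 0 := by
    rw [map_prod]
    exact Finset.prod_ne_zero_iff.2 fun j _ => hs j
  have hq : ∀ j, aeval (ψ M.x) (∏ l, s l) * ((g j : κ⟮ψ M.x⟯) : E) =
      aeval (ψ M.x) (r j * ∏ l ∈ Finset.univ.erase j, s l) := by
    intro j
    rw [← Finset.mul_prod_erase Finset.univ s (Finset.mem_univ j), map_mul, map_mul, ← hrs j]
    ring
  have h0 : ∑ j, aeval (ψ M.x) (r j * ∏ l ∈ Finset.univ.erase j, s l) * ψ (M.b j : U) = 0 := by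
    have h1 : aeval (ψ M.x) (∏ l, s l) * ∑ j, g j • ψ (M.b j : U) = 0 := by rw [hg, mul_zero]
    rw [Finset.mul_sum] at h1
    rw [← h1]
    refine Finset.sum_congr rfl fun j _ => ?_
    rw [← hq j, IntermediateField.smul_def, smul_eq_mul]
    ring
  have h2 := congrFun (h.indep _ h0) i
  have h3 : aeval (ψ M.x) (∏ l, s l) * ((g i : κ⟮ψ M.x⟯) : E) = 0 := by
    rw [hq i, h2]; simp
  have h4 : ((g i : κ⟮ψ M.x⟯) : E) = 0 := (mul_eq_zero.1 h3).resolve_left hS
  exact Subtype.ext h4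

/-- The images of the basis `b` span `E` over `κ(x)`. -/
theorem real_span (h : Real M κ E φ ψ) :
    ⊤ ≤ Submodule.span κ⟮ψ M.x⟯ (Set.range fun i => ψ (M.b i : U)) := by
  intro y _
  obtain ⟨p, s, hs, hy⟩ := h.span y
  have hs' : aeval (ψ M.x) s ≠ 0 := fun h0 =>
    hs ((transcendental_iff_injective.1 h.trans) (by rw [h0, map_zero]))
  have hy' : y = ∑ i, ((⟨aeval (ψ M.x) (p i), Cech.aeval_mem_adjoin_simple (mem_adjoin_simple_self κ _) _⟩ :
      κ⟮ψ M.x⟯) * (⟨aeval (ψ M.x) s, Cech.aeval_mem_adjoin_simple (mem_adjoin_simple_self κ _) _⟩ :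
      κ⟮ψ M.x⟯)⁻¹) • ψ (M.b i : U) := by
    have : ∀ i, ((⟨aeval (ψ M.x) (p i), Cech.aeval_mem_adjoin_simple (mem_adjoin_simple_self κ _) _⟩ :
      κ⟮ψ M.x⟯) * (⟨aeval (ψ M.x) s, Cech.aeval_mem_adjoin_simple (mem_adjoin_simple_self κ _) _⟩ :
      κ⟮ψ M.x⟯)⁻¹) • ψ (M.b i : U) = (aeval (ψ M.x) s)⁻¹ * (aeval (ψ M.x) (p i) * ψ (M.b i : U)) := by
      intro i
      rw [IntermediateField.smul_def, smul_eq_mul]
      push_cast
      ring
    rw [Finset.sum_congr rfl fun i _ => this i, ← Finset.mul_sum, ← hy, ← mul_assoc,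
      inv_mul_cancel₀ hs', one_mul]
  rw [hy']
  exact Submodule.sum_mem _ fun i _ => Submodule.smul_mem _ _ (Submodule.subset_span ⟨i, rfl⟩)

/-- `[E : κ(x)] = n` in every realisation. -/
theorem real_finrank (h : Real M κ E φ ψ) : Module.finrank κ⟮ψ M.x⟯ E = n := by
  have hb := Module.finrank_eq_card_basis (Module.Basis.mk (real_linearIndependent h) (real_span h))
  rw [hb, Fintype.card_fin]

end Real

section Genus

variable {Λ U : Type*} [CommRing Λ] [CommRing U] [Algebra Λ U] {n : ℕ} {M : Model Λ U n}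
variable {K' F' k Ft : Type*} [Field K'] [Field F'] [Algebra K' F'] [Field k] [Field Ft]
  [Algebra k Ft]

/-- The degrees over the rational subfields agree in any two realisations. -/
theorem finrank_eq_of_real {φ₁ : Λ →+* K'} {ψ₁ : U →+* F'} (h₁ : Real M K' F' φ₁ ψ₁)
    {φ₂ : Λ →+* k} {ψ₂ : U →+* Ft} (h₂ : Real M k Ft φ₂ ψ₂) :
    Module.finrank K'⟮ψ₁ M.x⟯ F' = Module.finrank k⟮ψ₂ M.x⟯ Ft := by
  rw [real_finrank h₁, real_finrank h₂]

/-- **The genus is the same in any two realisations** described by their two charts, the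
coefficient map of the first one being injective. -/
theorem genusFF_eq_of_real {φ₁ : Λ →+* K'} {ψ₁ : U →+* F'} (h₁ : Real M K' F' φ₁ ψ₁)
    {φ₂ : Λ →+* k} {ψ₂ : U →+* Ft} (h₂ : Real M k Ft φ₂ ψ₂) (hφ₁ : Function.Injective φ₁)
    (hF : IsFF1 K' F' (ψ₁ M.x)) (hFt : IsFF1 k Ft (ψ₂ M.x))
    (hR : ∀ f : F', (∀ v : Place K' F', 0 ≤ v.ord (ψ₁ M.x) → 0 ≤ v.ord f) ↔
      ∃ p : Fin n → K'[X], f = ∑ j, aeval (ψ₁ M.x) (p j) * ψ₁ (M.b j : U))
    (hR' : ∀ f : F', (∀ v : Place K' F', v.ord (ψ₁ M.x) ≤ 0 → 0 ≤ v.ord f) ↔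
      ∃ p : Fin n → K'[X], f = ∑ j, aeval (ψ₁ M.x)⁻¹ (p j) * ψ₁ (M.b' j : U))
    (hS : ∀ f : Ft, (∀ v : Place k Ft, 0 ≤ v.ord (ψ₂ M.x) → 0 ≤ v.ord f) ↔
      ∃ p : Fin n → k[X], f = ∑ j, aeval (ψ₂ M.x) (p j) * ψ₂ (M.b j : U))
    (hS' : ∀ f : Ft, (∀ v : Place k Ft, v.ord (ψ₂ M.x) ≤ 0 → 0 ≤ v.ord f) ↔
      ∃ p : Fin n → k[X], f = ∑ j, aeval (ψ₂ M.x)⁻¹ (p j) * ψ₂ (M.b' j : U)) :
    genusFF K' F' = genusFF k Ft := by
  obtain ⟨e, T, T', hT, hT'⟩ := exists_transition M
  have k₁ := real_transition h₁ hT hT'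
  have k₂ := real_transition h₂ hT hT'
  exact Cech.genusFF_eq_of_good_reduction φ₁ φ₂ hφ₁ hF hFt
    (fun i => ψ₁ (M.b i : U)) (fun i => ψ₁ (M.b' i : U))
    (fun i => ψ₂ (M.b i : U)) (fun i => ψ₂ (M.b' i : U))
    (real_linearIndependent h₁) (real_linearIndependent h₂) hR hR' hS hS'
    e T T' k₁.1 k₁.2 k₂.1 k₂.2

end Genus

end Fermat.Agent.S27P.GR.Main38
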