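import Mathlib
import Fermat.Agent.Lib.Red.PlaceRedMain
import Fermat.Agent.S27P.GR.GaussModel

/-!
# S27 / (GR-SPEC), route 3: the place reduction of a Gauss valuation from the frozen
`Lib.Red.PlaceRedMain.exists_reduction_of_gauss`

Setting: `F/L`, `Ft/k` function fields of one variable over algebraically closed fields, `A ⊆ L`
a valuation ring with residue map `π : A → k`, `O ⊆ F` a valuation ring with residue map
`red : O → Ft` (the Gauss valuation of a model), `x ∈ O` a base function with inverse `x' ∈ O`.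

* `gaussSub O x`, `gaussSubRed …` : the Gauss ring `O ∩ L(x)` of `L⟮x⟯` and its residue map
  into `k⟮red x⟯`; `compat_gaussSub : Ortho.Compat O red (gaussSub O x) (gaussSubRed …)`;
* `goodBasis_of_family` : an `Ortho.GoodBasis` from a family of `O` spanning `F` over `L⟮x⟯`
  whose reductions are linearly independent over `k⟮red x⟯`;
* `exists_reduction` : **the place reduction** `r` with `r_* div(y) = div(red y)` for every
  `y ∈ O` with `red y ≠ 0`, compatible with the values of `x`, and **surjective**;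
* `exists_reduction_of_rings` : the same with the two lifting hypotheses (T3), (T3') in ring
  form (`S ⊆ O` integral over `L[x]` whose reduction contains the integral closure of `k[red x]`,
  and the twin at infinity);
* `centre_of_spec` : the centre relation `f(P) = c ⟹ (red f)(r P) = π c` for chart-regular `f`;
* `exists_isRed_of_model` : for a model `IsModel A π B ρ` (`GaussModel`),
  `∃ r, IsRed (gaussRing h) (gaussRed h) r ∧ Function.Surjective r ∧ …`.
-/

set_option autoImplicit false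

noncomputable section

namespace Fermat.Agent.S27P.GR.SpecGauss

open AlgebraicCurve Polynomial IntermediateField
open Fermat.Agent.S24 Fermat.Agent.Lib.FF Fermat.Agent.Lib.Red Fermat.Agent.Lib.Red.OneStep
open Fermat.Agent.Lib.Red.PlaceRed Fermat.Agent.Lib.Red.PlaceRedNorm

variable {L : Type*} {F : Type*} {k : Type*} {Ft : Type*} [Field L] [Field F] [Algebra L F]
  [Field k] [Field Ft] [Algebra k Ft]
variable {A : ValuationSubring L} {π : A →+* k} {O : ValuationSubring F} {red : O →+* Ft}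

/-! ### The Gauss ring of `L(x)` -/

section Sub

/-- The Gauss ring `O ∩ L(x)` of `L⟮x⟯`. -/
def gaussSub (O : ValuationSubring F) (x : F) : ValuationSubring ↥(L⟮x⟯) :=
  O.comap (algebraMap ↥(L⟮x⟯) F)

theorem mem_gaussSub_iff {x : F} (c : ↥(L⟮x⟯)) :
    c ∈ gaussSub (L := L) O x ↔ algebraMap ↥(L⟮x⟯) F c ∈ O := Iff.rfl

/-- The inclusion of the Gauss ring of `L(x)` into `O`. -/
def gaussSubToO (O : ValuationSubring F) (x : F) : gaussSub (L := L) O x →+* O :=
  ((algebraMap ↥(L⟮x⟯) F).comp (gaussSub (L := L) O x).subtype).codRestrict O (fun c => c.2)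

theorem coe_gaussSubToO {x : F} (c : gaussSub (L := L) O x) :
    ((gaussSubToO O x c : O) : F) = algebraMap ↥(L⟮x⟯) F (c : ↥(L⟮x⟯)) := rfl

/-- The reduction of an element of `O ∩ L(x)` lies in `k(red x)`. -/
theorem red_mem_adjoin (hR : Chart.RedData A π O red)
    (hAO : ∀ c : L, algebraMap L F c ∈ O → c ∈ A)
    (hunit : ∀ u : O, red u ≠ 0 → IsUnit u) (x : O) (htr : Transcendental k (red x))
    (g : O) (hg : (g : F) ∈ L⟮(x : F)⟯) : red g ∈ k⟮red x⟯ := by
  by_cases h0 : red g = 0
  · rw [h0]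
    exact zero_mem _
  · obtain ⟨r, s, hrs⟩ := (mem_adjoin_simple_iff L (g : F)).1 hg
    obtain ⟨p, q, -, -, -, h2⟩ := exists_quot hR hAO hunit x htr g h0 r s hrs
    rw [h2]
    have hmem : ∀ f : k[X], aeval (red x) f ∈ k⟮red x⟯ := fun f =>
      IntermediateField.algebra_adjoin_le_adjoin k _ (Polynomial.aeval_mem_adjoin_singleton k _)
    exact div_mem (hmem _) (hmem _)

/-- The residue map of the Gauss ring of `L(x)`, with values in `k(red x)`. -/
def gaussSubRed (hR : Chart.RedData A π O red)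
    (hAO : ∀ c : L, algebraMap L F c ∈ O → c ∈ A)
    (hunit : ∀ u : O, red u ≠ 0 → IsUnit u) (x : O) (htr : Transcendental k (red x)) :
    gaussSub (L := L) O (x : F) →+* ↥(k⟮red x⟯) :=
  (red.comp (gaussSubToO O (x : F))).codRestrict (k⟮red x⟯) (fun c =>
    red_mem_adjoin hR hAO hunit x htr (gaussSubToO O (x : F) c) (c : ↥(L⟮(x : F)⟯)).2)

theorem compat_gaussSub (hR : Chart.RedData A π O red)
    (hAO : ∀ c : L, algebraMap L F c ∈ O → c ∈ A)
    (hker : ∀ y : O, red y = 0 ↔ ¬ IsUnit y) (hunit : ∀ u : O, red u ≠ 0 → IsUnit u) (x : O)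
    (htr : Transcendental k (red x)) :
    Ortho.Compat O red (gaussSub (L := L) O (x : F)) (gaussSubRed hR hAO hunit x htr) where
  ker := hker
  mem_iff _ := Iff.rfl
  red_comp _ _ := rfl

/-- A good basis over `L(x)` from a family of `O` spanning `F` whose reductions are linearly
independent over `k(red x)`. -/
def goodBasis_of_family (hR : Chart.RedData A π O red)
    (hAO : ∀ c : L, algebraMap L F c ∈ O → c ∈ A)
    (hker : ∀ y : O, red y = 0 ↔ ¬ IsUnit y) (hunit : ∀ u : O, red u ≠ 0 → IsUnit u) (x : O)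
    (htr : Transcendental k (red x)) (hredsurj : Function.Surjective red)
    {ι : Type*} [Fintype ι] (b : ι → O)
    (hind : LinearIndependent ↥(k⟮red x⟯) (fun i => red (b i)))
    (hspan : ∀ y : F, ∃ c : ι → ↥(L⟮(x : F)⟯), y = ∑ i, algebraMap ↥(L⟮(x : F)⟯) F (c i) * (b i : F)) :
    Ortho.GoodBasis O red (gaussSub (L := L) O (x : F)) (gaussSubRed hR hAO hunit x htr) ι where
  compat := compat_gaussSub hR hAO hker hunit x htr
  surj := hredsurj
  b := b
  ind := hind
  span := hspan

end Sub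

/-! ### The place reduction -/

section Main

variable [IsAlgClosed L] [IsAlgClosed k]

/-- **The place reduction of a Gauss valuation** (frozen `PlaceRedMain.exists_reduction_of_gauss`
with the good basis built from a family, plus surjectivity of the place map).  `r` is
compatible with the values of `x`, satisfies `r_*(div y) = div (red y)` for every `y ∈ O` with
nonzero reduction, and is onto. -/
theorem exists_reduction
    (hπ0 : ∀ a : A, ¬ IsUnit a → π a = 0) (hsurj : Function.Surjective π)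
    (hR : Chart.RedData A π O red) (hA : ∀ c : L, algebraMap L F c ∈ O ↔ c ∈ A)
    (hker : ∀ y : O, red y = 0 ↔ ¬ IsUnit y)
    (hscale : ∀ f : O, red f = 0 →
      ∃ (a : A) (g : O), π a = 0 ∧ (f : F) = algebraMap L F (a : L) * (g : F))
    (x x' : O) (hxx' : x * x' = 1) (hF : IsFF1 L F (x : F)) (hFt : IsFF1 k Ft (red x))
    [Algebra.IsSeparable ↥(L⟮(x : F)⟯) F] [Algebra.IsSeparable ↥(k⟮red x⟯) Ft]
    (hredsurj : Function.Surjective red)
    {ι : Type*} [Fintype ι] (b : ι → O)
    (hind : LinearIndependent ↥(k⟮red x⟯) (fun i => red (b i)))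
    (hspan : ∀ y : F, ∃ c : ι → ↥(L⟮(x : F)⟯),
      y = ∑ i, algebraMap ↥(L⟮(x : F)⟯) F (c i) * (b i : F))
    (hT3 : ∀ s : Ft, (∀ Q : Place k Ft, 0 ≤ Q.ord (red x) → 0 ≤ Q.ord s) →
      ∃ y : O, red y = s ∧ ∀ P : Place L F, 0 ≤ P.ord (x : F) → 0 ≤ P.ord (y : F))
    (hT3' : ∀ s : Ft, (∀ Q : Place k Ft, Q.ord (red x) ≤ 0 → 0 ≤ Q.ord s) →
      ∃ y : O, red y = s ∧ ∀ P : Place L F, P.ord (x : F) ≤ 0 → 0 ≤ P.ord (y : F)) :
    ∃ r : Place L F → Place k Ft,
      Function.Surjective r ∧
      (∀ (P : Place L F) (γ : k), EvK A π P (x : F) γ →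
        0 < (r P).ord (red x - algebraMap k Ft γ)) ∧
      (∀ P : Place L F, EvK A π P (x' : F) 0 → (r P).ord (red x) < 0) ∧
      ∀ y : O, red y ≠ 0 → ∀ D : Place L F →₀ ℤ, (∀ P, D P = P.ord (y : F)) →
        ∀ Q, Finsupp.mapDomain r D Q = Q.ord (red y) := by
  have hunit : ∀ u : O, red u ≠ 0 → IsUnit u := fun u hu => by
    by_contra h
    exact hu ((hker u).2 h)
  have htr : Transcendental k (red x) := hFt.transcendental
  have G := goodBasis_of_family hR (fun c hc => (hA c).1 hc) hker hunit x htr hredsurj b hind hspan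
  obtain ⟨r, hr1, hr2, hr3⟩ := PlaceRedMain.exists_reduction_of_gauss hπ0 hsurj hR hA hker hscale
    x x' hxx' hF hFt (L⟮(x : F)⟯) rfl (k⟮red x⟯) rfl G hT3 hT3'
  have hr : red x * red x' = 1 := by rw [← map_mul, hxx', map_one]
  have hrx' : red x' = (red x)⁻¹ := eq_inv_of_mul_eq_one_right hr
  have hnc : ∀ γ : k, red x ≠ algebraMap k Ft γ := fun γ hγ =>
    htr (hγ ▸ isAlgebraic_algebraMap γ)
  refine ⟨r, ?_, hr1, ?_, hr3⟩
  · -- surjectivity: a place outside the range would carry no zero of any reduction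
    intro Q
    have := hF.hasPrincipalDivisors
    by_contra hQ
    have hnot : Q ∉ Set.range r := fun ⟨P, hP⟩ => hQ ⟨P, hP⟩
    have key : ∀ y : O, red y ≠ 0 → Q.ord (red y) = 0 := by
      intro y hy
      have h1 := hr3 y hy (pdiv L (y : F)) (fun P => pdiv_apply _ P) Q
      rw [Finsupp.mapDomain_notin_range _ _ hnot] at h1
      exact h1.symm
    by_cases hx : 0 ≤ Q.ord (red x)
    · obtain ⟨γ, hγ⟩ := exists_const_sub_pos Q (hFt.resK Q) hx
      rcases hγ with hγ | hγ
      · exact hnc γ hγ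
      · obtain ⟨a, rfl⟩ := hsurj γ
        have hy : red (x - hR.const a) = red x - algebraMap k Ft (π a) := by
          rw [map_sub, hR.red_const]
        have h0 := key (x - hR.const a) (by rw [hy]; exact sub_ne_zero.2 (hnc _))
        rw [hy] at h0
        omega
    · have hne : red x' ≠ 0 := by
        rw [hrx']
        exact inv_ne_zero (fun h0 => hnc 0 (by rw [h0, map_zero]))
      have h0 := key x' hne
      rw [hrx', Place.ord_inv] at h0
      omega
  · intro P hP
    have h := hr2 P hP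
    rw [hrx', Place.ord_inv] at h
    omega

/-- The same with the two lifting hypotheses in integrality form: every function of `Ft`
integral over `k[red x]` (resp. `k[(red x)⁻¹]`) is the reduction of a function of `O` integral
over `L[x]` (resp. `L[x⁻¹]`). -/
theorem exists_reduction_of_integral
    (hπ0 : ∀ a : A, ¬ IsUnit a → π a = 0) (hsurj : Function.Surjective π)
    (hR : Chart.RedData A π O red) (hA : ∀ c : L, algebraMap L F c ∈ O ↔ c ∈ A)
    (hker : ∀ y : O, red y = 0 ↔ ¬ IsUnit y)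
    (hscale : ∀ f : O, red f = 0 →
      ∃ (a : A) (g : O), π a = 0 ∧ (f : F) = algebraMap L F (a : L) * (g : F))
    (x x' : O) (hxx' : x * x' = 1) (hF : IsFF1 L F (x : F)) (hFt : IsFF1 k Ft (red x))
    [Algebra.IsSeparable ↥(L⟮(x : F)⟯) F] [Algebra.IsSeparable ↥(k⟮red x⟯) Ft]
    (hredsurj : Function.Surjective red)
    {ι : Type*} [Fintype ι] (b : ι → O)
    (hind : LinearIndependent ↥(k⟮red x⟯) (fun i => red (b i)))
    (hspan : ∀ y : F, ∃ c : ι → ↥(L⟮(x : F)⟯),
      y = ∑ i, algebraMap ↥(L⟮(x : F)⟯) F (c i) * (b i : F))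
    (hI : ∀ s : Ft, IsIntegral (Algebra.adjoin k {red x}) s →
      ∃ y : O, red y = s ∧ IsIntegral (Algebra.adjoin L {(x : F)}) (y : F))
    (hI' : ∀ s : Ft, IsIntegral (Algebra.adjoin k {(red x)⁻¹}) s →
      ∃ y : O, red y = s ∧ IsIntegral (Algebra.adjoin L {(x : F)⁻¹}) (y : F)) :
    ∃ r : Place L F → Place k Ft,
      Function.Surjective r ∧
      (∀ (P : Place L F) (γ : k), EvK A π P (x : F) γ →
        0 < (r P).ord (red x - algebraMap k Ft γ)) ∧
      (∀ P : Place L F, EvK A π P (x' : F) 0 → (r P).ord (red x) < 0) ∧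
      ∀ y : O, red y ≠ 0 → ∀ D : Place L F →₀ ℤ, (∀ P, D P = P.ord (y : F)) →
        ∀ Q, Finsupp.mapDomain r D Q = Q.ord (red y) := by
  refine exists_reduction hπ0 hsurj hR hA hker hscale x x' hxx' hF hFt hredsurj b hind hspan ?_ ?_
  · intro s hs
    obtain ⟨y, hy, hint⟩ := hI s ((hFt.isIntegral_adjoin_iff s).2 hs)
    exact ⟨y, hy, (hF.isIntegral_adjoin_iff (y : F)).1 hint⟩
  · intro s hs
    obtain ⟨y, hy, hint⟩ := hI' s ((hFt.isIntegral_adjoin_inv_iff s).2 hs)
    exact ⟨y, hy, (hF.isIntegral_adjoin_inv_iff (y : F)).1 hint⟩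

end Main

/-! ### The centre relation -/

section Centre

variable {r : Place L F → Place k Ft}

/-- **The centre relation from `spec`.**  If `f ∈ O` takes the value `c` at `P` and is regular
at every place of the fibre of `r` through `P`, then `red f` takes the value `c` at `r P`. -/
theorem centre_of_spec [HasPrincipalDivisors L F] (hR : Chart.RedData A π O red)
    (hspec : ∀ y : O, red y ≠ 0 → ∀ D : Place L F →₀ ℤ, (∀ P, D P = P.ord (y : F)) →
        ∀ Q, Finsupp.mapDomain r D Q = Q.ord (red y))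
    (f : O) (P : Place L F) (c : k) (hc : EvK A π P (f : F) c)
    (hreg : ∀ P' : Place L F, r P' = r P → 0 ≤ P'.ord (f : F)) :
    (r P).adicValuation (red f - algebraMap k Ft c) < 1 := by
  obtain ⟨a, rfl, ha⟩ := hc
  set y : O := f - hR.const a with hy
  have hredy : red y = red f - algebraMap k Ft (π a) := by rw [hy, map_sub, hR.red_const]
  rw [← hredy]
  by_cases h0 : red y = 0
  · rw [h0, map_zero]
    exact zero_lt_one
  · have hyF : (y : F) = (f : F) - algebraMap L F (a : L) := rfl
    have hy0 : (y : F) ≠ 0 := fun h => h0 (by rw [show y = 0 from Subtype.ext h, map_zero])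
    have hpos : 0 < P.ord (y : F) := (adicValuation_lt_one_iff P hy0).1 (by rw [hyF]; exact ha)
    have h1 := hspec y h0 (pdiv L (y : F)) (fun P => pdiv_apply _ P) (r P)
    have h2 := le_mapDomain_of r (pdiv L (y : F)) (r P) (fun P' hP' => by
      rw [pdiv_apply, hyF]
      exact ord_sub_const_nonneg P' (hreg P' hP') _) (P₀ := P) rfl
    rw [pdiv_apply, h1] at h2
    exact (adicValuation_lt_one_iff (r P) h0).2 (lt_of_lt_of_le hpos h2)

/-- On the finite chart: the fibre of `r` through a point with `A`-integral `x`-value consists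
of points at which `x` is regular. -/
theorem ord_nonneg_of_fibre {x x' : O} (hxx' : x * x' = 1)
    (hr1 : ∀ (P : Place L F) (γ : k), EvK A π P (x : F) γ →
      0 < (r P).ord (red x - algebraMap k Ft γ))
    (hr2 : ∀ P : Place L F, EvK A π P (x' : F) 0 → (r P).ord (red x) < 0)
    {P : Place L F} {γ : k} (hP : EvK A π P (x : F) γ) {P' : Place L F} (hP' : r P' = r P) :
    0 ≤ P'.ord (x : F) := by
  by_contra hneg
  rw [not_le] at hneg
  have hxF : (x : F) * (x' : F) = 1 := congrArg Subtype.val hxx'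
  have hx' : (x' : F) = (x : F)⁻¹ := eq_inv_of_mul_eq_one_right hxF
  have hx'0 : (x' : F) ≠ 0 := right_ne_zero_of_mul_eq_one hxF
  have h1 : EvK A π P' (x' : F) 0 := EvK.of_lt_one (by
    rw [adicValuation_lt_one_iff P' hx'0, hx', Place.ord_inv]
    omega)
  have h2 := hr2 P' h1
  rw [hP'] at h2
  have h3 := hr1 P γ hP
  have h4 : 0 ≤ (r P).ord (red x) := by
    by_contra hlt
    rw [not_le] at hlt
    have h5 : (red x : Ft) ∉ (r P).toValuationSubring := (notMem_iff_ord_neg (r P)).2 hlt
    apply h5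
    have h6 : red x - algebraMap k Ft γ ∈ (r P).toValuationSubring :=
      mem_of_ord_nonneg (r P) h3.le
    have h7 := add_mem h6 ((r P).algebraMap_mem' γ)
    rwa [sub_add_cancel] at h7
  omega

/-- On the chart at infinity: the fibre of `r` through a point with `A`-integral `x'`-value
consists of points at which `x'` is regular. -/
theorem ord_nonpos_of_fibre (hπ0 : ∀ a : A, ¬ IsUnit a → π a = 0) {x x' : O} (hxx' : x * x' = 1)
    (hnc : ∀ γ : k, red x ≠ algebraMap k Ft γ)
    (hr1 : ∀ (P : Place L F) (γ : k), EvK A π P (x : F) γ →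
      0 < (r P).ord (red x - algebraMap k Ft γ))
    (hr2 : ∀ P : Place L F, EvK A π P (x' : F) 0 → (r P).ord (red x) < 0)
    {P : Place L F} {γ : k} (hP : EvK A π P (x' : F) γ) {P' : Place L F} (hP' : r P' = r P) :
    P'.ord (x : F) ≤ 0 := by
  by_contra hpos
  rw [not_le] at hpos
  have hxF : (x : F) * (x' : F) = 1 := congrArg Subtype.val hxx'
  have hx' : (x' : F) = (x : F)⁻¹ := eq_inv_of_mul_eq_one_right hxF
  have hx0 : (x : F) ≠ 0 := left_ne_zero_of_mul_eq_one hxF
  have hredx0 : red x ≠ 0 := fun h0 => hnc 0 (by rw [h0, map_zero])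
  have h1 : EvK A π P' (x : F) 0 := EvK.of_lt_one ((adicValuation_lt_one_iff P' hx0).2 hpos)
  have h2 := hr1 P' 0 h1
  rw [map_zero, sub_zero, hP'] at h2
  by_cases hγ : γ = 0
  · subst hγ
    have := hr2 P hP
    omega
  · have h3 : EvK A π P (x : F) γ⁻¹ := by
      have h := EvK.inv hπ0 hP hγ
      rwa [hx', inv_inv] at h
    have h4 := hr1 P γ⁻¹ h3
    have h5 : (r P).adicValuation (algebraMap k Ft γ⁻¹) < 1 := by
      have e : algebraMap k Ft γ⁻¹ = red x - (red x - algebraMap k Ft γ⁻¹) := by ring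
      rw [e]
      exact (r P).adicValuation.map_sub_lt ((adicValuation_lt_one_iff _ hredx0).2 h2)
        ((adicValuation_lt_one_iff _ (sub_ne_zero.2 (hnc _))).2 h4)
    rw [adicValuation_algebraMap_eq_one (r P) (inv_ne_zero hγ)] at h5
    exact lt_irrefl _ h5

end Centre

/-! ### The bundled place reduction -/

section Bundle

/-- `r` is a **place reduction** of the Gauss valuation `(O, red)` over `(A, π)` with base
function `x` (inverse `x'`): it is onto, compatible with the values of `x`, satisfies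
`r_*(div y) = div (red y)` for every `y ∈ O` with nonzero reduction, and the functions of `O`
regular on a chart take `A`-integral values on the residue discs of that chart. -/
structure IsPlaceRed (A : ValuationSubring L) (π : A →+* k) (O : ValuationSubring F)
    (red : O →+* Ft) (x x' : O) (r : Place L F → Place k Ft) : Prop where
  surj : Function.Surjective r
  fin : ∀ (P : Place L F) (γ : k), EvK A π P (x : F) γ →
    0 < (r P).ord (red x - algebraMap k Ft γ)
  inf : ∀ P : Place L F, EvK A π P (x' : F) 0 → (r P).ord (red x) < 0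
  spec : ∀ y : O, red y ≠ 0 → ∀ D : Place L F →₀ ℤ, (∀ P, D P = P.ord (y : F)) →
    ∀ Q, Finsupp.mapDomain r D Q = Q.ord (red y)
  ev : ∀ f : O, (∀ P : Place L F, 0 ≤ P.ord (x : F) → 0 ≤ P.ord (f : F)) →
    ∀ (P : Place L F) (γ : k), EvK A π P (x : F) γ → ∃ c : k, EvK A π P (f : F) c
  ev' : ∀ f : O, (∀ P : Place L F, P.ord (x : F) ≤ 0 → 0 ≤ P.ord (f : F)) →
    ∀ (P : Place L F) (γ : k), EvK A π P (x' : F) γ → ∃ c : k, EvK A π P (f : F) c

namespace IsPlaceRed

variable {x x' : O} {r : Place L F → Place k Ft}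

/-- **Centre relation on the finite chart**: a chart-regular `f ∈ O` with value `c` at a point
`P` of a residue disc of `x` reduces to a function with value `c` at `r P`. -/
theorem centre [HasPrincipalDivisors L F] (h : IsPlaceRed A π O red x x' r)
    (hR : Chart.RedData A π O red) (hxx' : x * x' = 1)
    (f : O) (hf : ∀ P : Place L F, 0 ≤ P.ord (x : F) → 0 ≤ P.ord (f : F))
    (P : Place L F) (γ : k) (hP : EvK A π P (x : F) γ) (c : k) (hc : EvK A π P (f : F) c) :
    (r P).adicValuation (red f - algebraMap k Ft c) < 1 :=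
  centre_of_spec hR h.spec f P c hc
    (fun _ hP' => hf _ (ord_nonneg_of_fibre hxx' h.fin h.inf hP hP'))

/-- **Centre relation on the chart at infinity.** -/
theorem centre' [HasPrincipalDivisors L F] (h : IsPlaceRed A π O red x x' r)
    (hπ0 : ∀ a : A, ¬ IsUnit a → π a = 0) (hR : Chart.RedData A π O red) (hxx' : x * x' = 1)
    (hnc : ∀ γ : k, red x ≠ algebraMap k Ft γ)
    (f : O) (hf : ∀ P : Place L F, P.ord (x : F) ≤ 0 → 0 ≤ P.ord (f : F))
    (P : Place L F) (γ : k) (hP : EvK A π P (x' : F) γ) (c : k) (hc : EvK A π P (f : F) c) :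
    (r P).adicValuation (red f - algebraMap k Ft c) < 1 :=
  centre_of_spec hR h.spec f P c hc
    (fun _ hP' => hf _ (ord_nonpos_of_fibre hπ0 hxx' hnc h.fin h.inf hP hP'))

/-- The finite chart, in the form `∃ a : A, f(P) = a ∧ (red f)(r P) = π a`. -/
theorem exists_centre [HasPrincipalDivisors L F] (h : IsPlaceRed A π O red x x' r)
    (hR : Chart.RedData A π O red) (hxx' : x * x' = 1)
    (f : O) (hf : ∀ P : Place L F, 0 ≤ P.ord (x : F) → 0 ≤ P.ord (f : F))
    (P : Place L F) (γ : k) (hP : EvK A π P (x : F) γ) :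
    ∃ a : A, P.adicValuation ((f : F) - algebraMap L F (a : L)) < 1 ∧
      (r P).adicValuation (red f - algebraMap k Ft (π a)) < 1 := by
  obtain ⟨c, hc⟩ := h.ev f hf P γ hP
  have h1 := h.centre hR hxx' f hf P γ hP c hc
  obtain ⟨a, rfl, ha⟩ := hc
  exact ⟨a, ha, h1⟩

/-- The chart at infinity, in the form `∃ a : A, f(P) = a ∧ (red f)(r P) = π a`. -/
theorem exists_centre' [HasPrincipalDivisors L F] (h : IsPlaceRed A π O red x x' r)
    (hπ0 : ∀ a : A, ¬ IsUnit a → π a = 0) (hR : Chart.RedData A π O red) (hxx' : x * x' = 1)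
    (hnc : ∀ γ : k, red x ≠ algebraMap k Ft γ)
    (f : O) (hf : ∀ P : Place L F, P.ord (x : F) ≤ 0 → 0 ≤ P.ord (f : F))
    (P : Place L F) (γ : k) (hP : EvK A π P (x' : F) γ) :
    ∃ a : A, P.adicValuation ((f : F) - algebraMap L F (a : L)) < 1 ∧
      (r P).adicValuation (red f - algebraMap k Ft (π a)) < 1 := by
  obtain ⟨c, hc⟩ := h.ev' f hf P γ hP
  have h1 := h.centre' hπ0 hR hxx' hnc f hf P γ hP c hc
  obtain ⟨a, rfl, ha⟩ := hc
  exact ⟨a, ha, h1⟩

/-- `spec` in the literal form of `OneStep.IsRed.spec`. -/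
theorem spec_units (h : IsPlaceRed A π O red x x' r) :
    ∀ (u : Oˣ) (D : Divisor L F), (∀ P, D P = P.ord (((u : O) : F))) →
      ∀ Q, Finsupp.mapDomain r D Q = Q.ord (red u) :=
  fun u D hD Q => h.spec u (u.isUnit.map red).ne_zero D hD Q

end IsPlaceRed

end Bundle

/-! ### Existence -/

section Exists

variable [IsAlgClosed L] [IsAlgClosed k]

/-- **Existence of the place reduction of a Gauss valuation**, bundled. -/
theorem exists_isPlaceRed
    (hπ0 : ∀ a : A, ¬ IsUnit a → π a = 0) (hsurj : Function.Surjective π)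
    (hR : Chart.RedData A π O red) (hA : ∀ c : L, algebraMap L F c ∈ O ↔ c ∈ A)
    (hker : ∀ y : O, red y = 0 ↔ ¬ IsUnit y)
    (hscale : ∀ f : O, red f = 0 →
      ∃ (a : A) (g : O), π a = 0 ∧ (f : F) = algebraMap L F (a : L) * (g : F))
    (x x' : O) (hxx' : x * x' = 1) (hF : IsFF1 L F (x : F)) (hFt : IsFF1 k Ft (red x))
    [Algebra.IsSeparable ↥(L⟮(x : F)⟯) F] [Algebra.IsSeparable ↥(k⟮red x⟯) Ft]
    (hredsurj : Function.Surjective red)
    {ι : Type*} [Fintype ι] (b : ι → O)
    (hind : LinearIndependent ↥(k⟮red x⟯) (fun i => red (b i)))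
    (hspan : ∀ y : F, ∃ c : ι → ↥(L⟮(x : F)⟯),
      y = ∑ i, algebraMap ↥(L⟮(x : F)⟯) F (c i) * (b i : F))
    (hT3 : ∀ s : Ft, (∀ Q : Place k Ft, 0 ≤ Q.ord (red x) → 0 ≤ Q.ord s) →
      ∃ y : O, red y = s ∧ ∀ P : Place L F, 0 ≤ P.ord (x : F) → 0 ≤ P.ord (y : F))
    (hT3' : ∀ s : Ft, (∀ Q : Place k Ft, Q.ord (red x) ≤ 0 → 0 ≤ Q.ord s) →
      ∃ y : O, red y = s ∧ ∀ P : Place L F, P.ord (x : F) ≤ 0 → 0 ≤ P.ord (y : F)) :
    ∃ r : Place L F → Place k Ft, IsPlaceRed A π O red x x' r := by
  obtain ⟨r, hrsurj, hr1, hr2, hr3⟩ := exists_reduction hπ0 hsurj hR hA hker hscale x x' hxx' hF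
    hFt hredsurj b hind hspan hT3 hT3'
  have hunit : ∀ u : O, red u ≠ 0 → IsUnit u := fun u hu => by
    by_contra h
    exact hu ((hker u).2 h)
  have htr : Transcendental k (red x) := hFt.transcendental
  have G := goodBasis_of_family hR (fun c hc => (hA c).1 hc) hker hunit x htr hredsurj b hind hspan
  have hxF : (x : F) * (x' : F) = 1 := congrArg Subtype.val hxx'
  have hx' : (x' : F) = (x : F)⁻¹ := eq_inv_of_mul_eq_one_right hxF
  have hr : red x * red x' = 1 := by rw [← map_mul, hxx', map_one]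
  have hrx' : red x' = (red x)⁻¹ := eq_inv_of_mul_eq_one_right hr
  -- norm data for the two charts
  have hND : NormData A π red ↥(L⟮(x : F)⟯) ↥(k⟮red x⟯) x := by
    refine normData_of_goodBasis G hR (fun c hc => (hA c).1 hc) hunit x htr ?_
    intro f
    obtain ⟨r, s, hrs⟩ := (mem_adjoin_simple_iff L (f : F)).1 f.2
    exact ⟨r, s, hrs⟩
  have hND' : NormData A π red ↥(L⟮(x : F)⟯) ↥(k⟮red x⟯) x' := hND.inv hxx'
  have hmin := PlaceRedMain.coeff_minpoly_mem_of_goodBasis G
  have hchart : IsChart A π O red x :=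
    PlaceRedMain.isChart_of_gauss hπ0 hsurj hR hA hker hscale x hF hFt (L⟮(x : F)⟯) rfl
      (k⟮red x⟯) rfl hmin hND hT3
  have hF' : IsFF1 L F (x' : F) := by rw [hx']; exact hF.inv
  have hFt' : IsFF1 k Ft (red x') := by rw [hrx']; exact hFt.inv
  have hK₀' : L⟮(x' : F)⟯ = L⟮(x : F)⟯ := by
    rw [hx']
    apply le_antisymm
    · rw [adjoin_simple_le_iff]
      exact inv_mem (mem_adjoin_simple_self L (x : F))
    · rw [adjoin_simple_le_iff]
      have h := inv_mem (mem_adjoin_simple_self L (x : F)⁻¹)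
      rwa [inv_inv] at h
  have hE₀' : k⟮red x'⟯ = k⟮red x⟯ := by
    rw [hrx']
    apply le_antisymm
    · rw [adjoin_simple_le_iff]
      exact inv_mem (mem_adjoin_simple_self k (red x))
    · rw [adjoin_simple_le_iff]
      have h := inv_mem (mem_adjoin_simple_self k (red x)⁻¹)
      rwa [inv_inv] at h
  have hlift' : ∀ s : Ft, RegChart k (red x') s →
      ∃ y : O, red y = s ∧ RegChart L (x' : F) (y : F) := by
    intro s hs
    obtain ⟨y, hy, hreg⟩ := hT3' s (fun Q hQ => hs Q (by rw [hrx', Place.ord_inv]; omega))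
    refine ⟨y, hy, fun P hP => hreg P ?_⟩
    rw [hx', Place.ord_inv] at hP
    omega
  have hchart' : IsChart A π O red x' :=
    PlaceRedMain.isChart_of_gauss hπ0 hsurj hR hA hker hscale x' hF' hFt' (L⟮(x : F)⟯) hK₀'
      (k⟮red x⟯) hE₀' hmin hND' hlift'
  refine ⟨r, hrsurj, hr1, hr2, hr3, fun f hf P γ hP => hchart.ev f hf P γ hP,
    fun f hf P γ hP => hchart'.ev f (fun P' hP' => hf P' ?_) P γ hP⟩
  rw [hx', Place.ord_inv] at hP'
  omega

end Exists

/-! ### The Gauss ring of a model -/

section Model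

open Fermat.Agent.S27P.GR.GaussModel

variable {B : Subring F} {ρ : B →+* Ft}

/-- The constants data of the Gauss ring of a model. -/
theorem redData_of_model (h : IsModel A π B ρ) :
    Chart.RedData A π (gaussRing h) (gaussRed h) :=
  ⟨fun a => coe_mem h ⟨_, h.const_mem a⟩, fun a => gaussRed_algebraMap h a⟩

theorem ker_iff_of_model (h : IsModel A π B ρ) (y : gaussRing h) :
    gaussRed h y = 0 ↔ ¬ IsUnit y := by
  rw [isUnit_iff h y, not_not]

/-- A function of the Gauss ring with zero reduction is a constant of the maximal ideal of `A`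
times a function of the Gauss ring. -/
theorem scale_of_model (h : IsModel A π B ρ) (f : gaussRing h) (hf : gaussRed h f = 0) :
    ∃ (a : A) (g : gaussRing h), π a = 0 ∧ (f : F) = algebraMap L F (a : L) * (g : F) := by
  by_cases hf0 : (f : F) = 0
  · exact ⟨0, 0, map_zero π, by rw [hf0]; simp⟩
  · obtain ⟨c, u, hcu⟩ := GaussModel.scale h (f : F) hf0
    have hu0 : (((u : gaussRing h)) : F) ≠ 0 := fun h0 => hf0 (by rw [hcu, h0, mul_zero])
    have hcmem : algebraMap L F c ∈ gaussRing h := by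
      have e : algebraMap L F c = (f : F) * (((u⁻¹ : (gaussRing h)ˣ) : gaussRing h) : F) := by
        have h1 : (((u : gaussRing h)) : F) * (((u⁻¹ : (gaussRing h)ˣ) : gaussRing h) : F) = 1 :=
          congrArg Subtype.val (Units.mul_inv u)
        rw [hcu, mul_assoc, h1, mul_one]
      rw [e]
      exact mul_mem f.2 (Subtype.mem _)
    have hcA : c ∈ A := (algebraMap_mem_gaussRing_iff h c).1 hcmem
    refine ⟨⟨c, hcA⟩, u, ?_, hcu⟩
    have hfeq : f = ⟨algebraMap L F c, hcmem⟩ * (u : gaussRing h) := Subtype.ext hcu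
    have h2 : gaussRed h ⟨algebraMap L F c, hcmem⟩ * gaussRed h (u : gaussRing h) = 0 := by
      rw [← map_mul, ← hfeq, hf]
    have hured : gaussRed h (u : gaussRing h) ≠ 0 := (isUnit_iff h _).1 u.isUnit
    have h3 : gaussRed h ⟨algebraMap L F c, hcmem⟩ = 0 :=
      (mul_eq_zero.1 h2).resolve_right hured
    have h4 := gaussRed_algebraMap h ⟨c, hcA⟩
    rw [show (⟨algebraMap L F ((⟨c, hcA⟩ : A) : L), coe_mem h ⟨_, h.const_mem ⟨c, hcA⟩⟩⟩ :
      gaussRing h) = ⟨algebraMap L F c, hcmem⟩ from rfl, h3] at h4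
    exact (map_eq_zero (algebraMap k Ft)).1 h4.symm

/-- A place reduction of the Gauss ring of a model gives `OneStep.IsRed`. -/
theorem isRed_of_isPlaceRed (h : IsModel A π B ρ) {x x' : gaussRing h}
    {r : Place L F → Place k Ft} (hr : IsPlaceRed A π (gaussRing h) (gaussRed h) x x' r) :
    IsRed (gaussRing h) (gaussRed h) r :=
  isRed_of_spec h r hr.spec_units

/-- **(GR-SPEC) for a model.**  Let `h : IsModel A π B ρ` with Gauss ring `O` and residue map
`red`, `L`, `k` algebraically closed, `x` a unit of `O`, both fibres `IsFF1` with base functions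
`x`, `red x` and separable over `L(x)`, `k(red x)`; `b` a family of `O` spanning `F` over `L(x)`
with reductions linearly independent over `k(red x)`; `red` onto; and the chart-regular
functions of `Ft` lift to chart-regular functions of `O` (both charts).  Then there is a place
reduction `r`, and `IsRed O red r` holds with `r` surjective. -/
theorem exists_isRed_of_model [IsAlgClosed L] [IsAlgClosed k] (h : IsModel A π B ρ)
    (hsurj : Function.Surjective π)
    (x x' : gaussRing h) (hxx' : x * x' = 1) (hF : IsFF1 L F (x : F))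
    (hFt : IsFF1 k Ft (gaussRed h x))
    [Algebra.IsSeparable ↥(L⟮(x : F)⟯) F] [Algebra.IsSeparable ↥(k⟮gaussRed h x⟯) Ft]
    (hredsurj : Function.Surjective (gaussRed h))
    {ι : Type*} [Fintype ι] (b : ι → gaussRing h)
    (hind : LinearIndependent ↥(k⟮gaussRed h x⟯) (fun i => gaussRed h (b i)))
    (hspan : ∀ y : F, ∃ c : ι → ↥(L⟮(x : F)⟯),
      y = ∑ i, algebraMap ↥(L⟮(x : F)⟯) F (c i) * (b i : F))
    (hT3 : ∀ s : Ft, (∀ Q : Place k Ft, 0 ≤ Q.ord (gaussRed h x) → 0 ≤ Q.ord s) →
      ∃ y : gaussRing h, gaussRed h y = s ∧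
        ∀ P : Place L F, 0 ≤ P.ord (x : F) → 0 ≤ P.ord (y : F))
    (hT3' : ∀ s : Ft, (∀ Q : Place k Ft, Q.ord (gaussRed h x) ≤ 0 → 0 ≤ Q.ord s) →
      ∃ y : gaussRing h, gaussRed h y = s ∧
        ∀ P : Place L F, P.ord (x : F) ≤ 0 → 0 ≤ P.ord (y : F)) :
    ∃ r : Place L F → Place k Ft,
      IsPlaceRed A π (gaussRing h) (gaussRed h) x x' r ∧
      IsRed (gaussRing h) (gaussRed h) r ∧ Function.Surjective r := by
  obtain ⟨r, hr⟩ := exists_isPlaceRed h.ker_π hsurj (redData_of_model h)
    (algebraMap_mem_gaussRing_iff h) (ker_iff_of_model h) (scale_of_model h) x x' hxx' hF hFt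
    hredsurj b hind hspan hT3 hT3'
  exact ⟨r, hr, isRed_of_isPlaceRed h hr, hr.surj⟩

end Model

end Fermat.Agent.S27P.GR.SpecGauss
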