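import Mathlib
import Fermat.Agent.S27P.GR.Literals
import Fermat.Agent.S27P.GR.SpecGauss
import Fermat.Agent.S27P.GR.GoodBasis

/-!
# S27 / (GR-M), route II: the reduction theorem from a model hom and the frozen engine

`M : Model Λ U n` with two realisations `h₁ : Real M K' F' φ₁ ψ₁` (generic fibre) and
`h₂ : Real M k Ft φ₂ ψ₂` (special fibre), `A ⊆ K'` a valuation ring with residue map
`π : A → k` compatible with `φ₁`, `φ₂`.

Route II: the lattice ring `B = ⊕ A[x] b_i ⊆ F'` with its reduction `ρ : B → Ft` is a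
`GaussModel.IsModel` (row GR-MH, `exists_isModel_stmt`); its Gauss ring and residue map are fed to
`SpecGauss.exists_isRed_of_model` (the frozen engine `PlaceRedMain.exists_reduction_of_gauss`).

* `exists_isRed_of_isModel` : the literal `exists_isRed_stmt` from the literals of the rows
  GR-T (`Model_exists_struct_stmt`, `Model_exists_transition_stmt`), GR-MH (`exists_isModel_stmt`)
  and GR-RL (`Real_isFF1_stmt`, `Real_isSeparable_stmt`, `Real_chart_stmt`, `Real_chart'_stmt` at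
  both realisations) as named hypotheses.
-/

set_option autoImplicit false

noncomputable section

namespace Fermat.Agent.S27P.GR.MainII

open Polynomial AlgebraicCurve IntermediateField
open Fermat.Agent.Lib.FF Fermat.Agent.Lib.Red Fermat.Agent.Lib.Red.PlaceRed
open Fermat.Agent.S27P.GR Fermat.Agent.S27P Fermat.Agent.S27P.GR.GaussModel
open Fermat.Agent.S27P.GR.SpecGauss

variable {Λ U : Type*} [CommRing Λ] [CommRing U] [Algebra Λ U] {n : ℕ} {M : Model Λ U n}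

/-! ### Realisations and polynomials -/

section Aux

variable {κ E : Type*} [Field κ] [Field E] [Algebra κ E] {φ : Λ →+* κ} {ψ : U →+* E}

/-- A realisation maps `p(u)` to `p^φ(ψ u)`. -/
theorem psi_aeval (h : Real M κ E φ ψ) (u : U) (p : Λ[X]) :
    ψ (aeval u p) = aeval (ψ u) (p.map φ) := by
  rw [aeval_def, aeval_def, hom_eval₂, eval₂_map]
  congr 1
  ext a
  exact h.compat a

theorem psi_x'_eq_inv (ψ : U →+* E) (M : Model Λ U n) : ψ M.x' = (ψ M.x)⁻¹ := by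
  have h : ψ M.x * ψ M.x' = 1 := by rw [← map_mul, M.hxx', map_one]
  exact eq_inv_of_mul_eq_one_right h

/-- Coordinates of an element of the finite chart ring. -/
theorem exists_rep_B (M : Model Λ U n) (w : M.B) :
    ∃ p : Fin n → Λ[X], (w : U) = ∑ i, aeval M.x (p i) * (M.b i : U) := by
  obtain ⟨p, hp, -⟩ := M.cert.free w
  refine ⟨p, ?_⟩
  have h := congrArg (M.B.val) hp
  rw [map_sum] at h
  rw [show (w : U) = M.B.val w from rfl, h]
  refine Finset.sum_congr rfl fun i _ => ?_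
  rw [map_mul, ← Polynomial.aeval_algHom_apply]
  rfl

/-- Coordinates of an element of the chart ring at infinity. -/
theorem exists_rep_B' (M : Model Λ U n) (w : M.B') :
    ∃ p : Fin n → Λ[X], (w : U) = ∑ i, aeval M.x' (p i) * (M.b' i : U) := by
  obtain ⟨p, hp, -⟩ := M.cert'.free w
  refine ⟨p, ?_⟩
  have h := congrArg (M.B'.val) hp
  rw [map_sum] at h
  rw [show (w : U) = M.B'.val w from rfl, h]
  refine Finset.sum_congr rfl fun i _ => ?_
  rw [map_mul, ← Polynomial.aeval_algHom_apply]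
  rfl

/-- The images of the chart basis form a basis over `κ(x)`: the degree is `n`. -/
theorem finrank_eq_of_real (h : Real M κ E φ ψ) : Module.finrank ↥(κ⟮ψ M.x⟯) E = n := by
  have hli : LinearIndependent ↥(κ⟮ψ M.x⟯) (fun i => ψ (M.b i : U)) :=
    GoodBasis.linearIndependent_adjoin h.trans _ h.indep
  have hsp : ⊤ ≤ Submodule.span ↥(κ⟮ψ M.x⟯) (Set.range fun i => ψ (M.b i : U)) := by
    rintro y -
    obtain ⟨d, rfl⟩ := GoodBasis.span_b h.trans h.span y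
    refine Submodule.sum_mem _ fun i _ => ?_
    rw [← Algebra.smul_def]
    exact Submodule.smul_mem _ _ (Submodule.subset_span ⟨i, rfl⟩)
  have := Module.finrank_eq_card_basis (Module.Basis.mk hli hsp)
  rw [this, Fintype.card_fin]

end Aux

/-! ### The lattice ring -/

section Assembly

variable {K' F' k Ft : Type*} [Field K'] [Field F'] [Algebra K' F'] [Field k] [Field Ft]
  [Algebra k Ft] {φ₁ : Λ →+* K'} {ψ₁ : U →+* F'} {φ₂ : Λ →+* k} {ψ₂ : U →+* Ft}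
  {A : ValuationSubring K'} {π : A →+* k}

/-- `φ₁` with values in `A`. -/
def phiA (hφ : ∀ a : Λ, ∃ h : φ₁ a ∈ A, π ⟨φ₁ a, h⟩ = φ₂ a) : Λ →+* A :=
  φ₁.codRestrict A (fun a => (hφ a).fst)

theorem map_phiA_subtype (hφ : ∀ a : Λ, ∃ h : φ₁ a ∈ A, π ⟨φ₁ a, h⟩ = φ₂ a) (p : Λ[X]) :
    (p.map (phiA hφ)).map A.subtype = p.map φ₁ := by
  rw [Polynomial.map_map]
  rfl

theorem map_phiA_pi (hφ : ∀ a : Λ, ∃ h : φ₁ a ∈ A, π ⟨φ₁ a, h⟩ = φ₂ a) (p : Λ[X]) :
    (p.map (phiA hφ)).map π = p.map φ₂ := by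
  rw [Polynomial.map_map]
  congr 1
  ext a
  exact (hφ a).snd

variable (h₁ : Real M K' F' φ₁ ψ₁) (h₂ : Real M k Ft φ₂ ψ₂)
  (hφ : ∀ a : Λ, ∃ h : φ₁ a ∈ A, π ⟨φ₁ a, h⟩ = φ₂ a)
  {B : Subring F'} {ρ : B →+* Ft} (hM : IsModel A π B ρ)
  (hBmem : ∀ y : F', y ∈ B ↔ ∃ p : Fin n → A[X],
    y = ∑ i, aeval (ψ₁ M.x) ((p i).map A.subtype) * ψ₁ (M.b i : U))
  (hρ : ∀ (y : B) (p : Fin n → A[X]),
    (y : F') = ∑ i, aeval (ψ₁ M.x) ((p i).map A.subtype) * ψ₁ (M.b i : U) →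
    ρ y = ∑ i, aeval (ψ₂ M.x) ((p i).map π) * ψ₂ (M.b i : U))

include h₁ h₂ hφ hBmem hρ in
/-- The finite chart ring of the model maps into the lattice ring, compatibly with `ρ`. -/
theorem exists_mem_B (w : M.B) : ∃ hw : ψ₁ (w : U) ∈ B, ρ ⟨ψ₁ (w : U), hw⟩ = ψ₂ (w : U) := by
  obtain ⟨p, hp⟩ := exists_rep_B M w
  have e1 : ψ₁ (w : U) =
      ∑ i, aeval (ψ₁ M.x) (((p i).map (phiA hφ)).map A.subtype) * ψ₁ (M.b i : U) := by
    rw [hp, map_sum]
    refine Finset.sum_congr rfl fun i _ => ?_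
    rw [map_mul, psi_aeval h₁, map_phiA_subtype]
  have hw : ψ₁ (w : U) ∈ B := (hBmem _).2 ⟨fun i => (p i).map (phiA hφ), e1⟩
  refine ⟨hw, ?_⟩
  rw [hρ ⟨_, hw⟩ (fun i => (p i).map (phiA hφ)) e1, hp, map_sum]
  refine Finset.sum_congr rfl fun i _ => ?_
  rw [map_mul, psi_aeval h₂, map_phiA_pi]

include h₁ h₂ hφ hBmem hρ in
/-- Every function of the overlap ring lies in the Gauss ring and reduces as prescribed. -/
theorem exists_mem_gaussRing (u : U) :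
    ∃ h : ψ₁ u ∈ gaussRing hM, gaussRed hM ⟨ψ₁ u, h⟩ = ψ₂ u := by
  obtain ⟨hxB, hρx⟩ := exists_mem_B h₁ h₂ hφ hBmem hρ ⟨M.x, M.hx⟩
  obtain ⟨m, hm⟩ := M.hB u
  obtain ⟨hwB, hρw⟩ := exists_mem_B h₁ h₂ hφ hBmem hρ ⟨M.x ^ m * u, hm⟩
  have hxt0 : ψ₂ M.x ≠ 0 := fun h0 => h₂.trans (h0 ▸ isAlgebraic_zero)
  have hx0 : ψ₁ M.x ≠ 0 := fun h0 => h₁.trans (h0 ▸ isAlgebraic_zero)
  have hbb : ρ ((⟨ψ₁ M.x, hxB⟩ : B) ^ m) ≠ 0 := by
    rw [map_pow, hρx]
    exact pow_ne_zero _ hxt0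
  have hy : ψ₁ u = ((⟨ψ₁ (M.x ^ m * u), hwB⟩ : B) : F') / (((⟨ψ₁ M.x, hxB⟩ : B) ^ m : B) : F') := by
    rw [Subring.coe_pow]
    show ψ₁ u = ψ₁ (M.x ^ m * u) / (ψ₁ M.x) ^ m
    rw [map_mul, map_pow, mul_div_cancel_left₀ _ (pow_ne_zero _ hx0)]
  have hmem : ψ₁ u ∈ gaussRing hM := (mem_gaussRing_iff hM).2 ⟨_, _, hbb, hy⟩
  refine ⟨hmem, ?_⟩
  rw [gaussRed_div hM ⟨_, hmem⟩ hbb hy, hρw, map_pow, hρx, map_mul, map_pow,
    mul_div_cancel_left₀ _ (pow_ne_zero _ hxt0)]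

end Assembly

/-! ### The reduction theorem, route II -/

section Main

variable {K' F' k Ft : Type*} [Field K'] [Field F'] [Algebra K' F'] [Field k] [Field Ft]
  [Algebra k Ft] {φ₁ : Λ →+* K'} {ψ₁ : U →+* F'} {φ₂ : Λ →+* k} {ψ₂ : U →+* Ft}

/-- **(GR-M), route II.**  The literal `exists_isRed_stmt` from a lattice model
(`hMH` = the conclusion of `exists_isModel_stmt` at `x := ψ₁ M.x`, `xt := ψ₂ M.x`,
`b := ψ₁ ∘ M.b`, `c := ψ₂ ∘ M.b`), the transition matrices of the model (GR-T) and the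
function-field facts of the two realisations (GR-RL). -/
theorem exists_isRed_of_isModel [IsAlgClosed K'] [IsAlgClosed k]
    (M : Model Λ U n) (h₁ : Real M K' F' φ₁ ψ₁) (h₂ : Real M k Ft φ₂ ψ₂)
    (hφ₁ : Function.Injective φ₁) (A : ValuationSubring K') (π : A →+* k)
    (hπ : Function.Surjective π) (hπ0 : ∀ a : A, ¬ IsUnit a → π a = 0)
    (hφ : ∀ a : Λ, ∃ h : φ₁ a ∈ A, π ⟨φ₁ a, h⟩ = φ₂ a)
    (htrans : Literals.Model_exists_transition_stmt M)
    (hMH : ∃ (B : Subring F') (ρ : B →+* Ft), IsModel A π B ρ ∧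
      (∀ y : F', y ∈ B ↔ ∃ p : Fin n → A[X],
        y = ∑ i, aeval (ψ₁ M.x) ((p i).map A.subtype) * ψ₁ (M.b i : U)) ∧
      (∀ (y : B) (p : Fin n → A[X]),
        (y : F') = ∑ i, aeval (ψ₁ M.x) ((p i).map A.subtype) * ψ₁ (M.b i : U) →
        ρ y = ∑ i, aeval (ψ₂ M.x) ((p i).map π) * ψ₂ (M.b i : U)))
    (hff1 : IsFF1 K' F' (ψ₁ M.x)) (hff2 : IsFF1 k Ft (ψ₂ M.x))
    (hsep1 : Algebra.IsSeparable ↥(K'⟮ψ₁ M.x⟯) F') (hsep2 : Algebra.IsSeparable ↥(k⟮ψ₂ M.x⟯) Ft)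
    (hch1 : Literals.Real_chart_stmt h₁) (hch2 : Literals.Real_chart_stmt h₂)
    (hch1' : Literals.Real_chart'_stmt h₁) (hch2' : Literals.Real_chart'_stmt h₂) :
    Literals.exists_isRed_stmt M h₁ h₂ hφ₁ A π hπ hπ0 hφ := by
  classical
  obtain ⟨B, ρ, hM, hBmem, hρ⟩ := hMH
  unfold Literals.exists_isRed_stmt
  have hR := redData_of_model hM
  have hU := exists_mem_gaussRing h₁ h₂ hφ hM hBmem hρ
  obtain ⟨hxO, hredx⟩ := hU M.x
  obtain ⟨hx'O, hredx'⟩ := hU M.x'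
  have hxx' : (⟨ψ₁ M.x, hxO⟩ : gaussRing hM) * ⟨ψ₁ M.x', hx'O⟩ = 1 := Subtype.ext (by
    show ψ₁ M.x * ψ₁ M.x' = 1
    rw [← map_mul, M.hxx', map_one])
  have hxu : IsUnit (⟨ψ₁ M.x, hxO⟩ : gaussRing hM) := IsUnit.of_mul_eq_one _ hxx'
  have hxt0 : ψ₂ M.x ≠ 0 := fun h0 => h₂.trans (h0 ▸ isAlgebraic_zero)
  have hx'inv : ψ₁ M.x' = (ψ₁ M.x)⁻¹ := psi_x'_eq_inv ψ₁ M
  have hxt'inv : ψ₂ M.x' = (ψ₂ M.x)⁻¹ := psi_x'_eq_inv ψ₂ M
  -- the family
  let bO : Fin n → gaussRing hM := fun i => ⟨ψ₁ (M.b i : U), (hU (M.b i : U)).fst⟩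
  have hredb : ∀ i, gaussRed hM (bO i) = ψ₂ (M.b i : U) := fun i => (hU (M.b i : U)).snd
  let bO' : Fin n → gaussRing hM := fun i => ⟨ψ₁ (M.b' i : U), (hU (M.b' i : U)).fst⟩
  have hredb' : ∀ i, gaussRed hM (bO' i) = ψ₂ (M.b' i : U) := fun i => (hU (M.b' i : U)).snd
  -- the function-field facts at `(xO, red xO)`
  have hFt : IsFF1 k Ft (gaussRed hM ⟨ψ₁ M.x, hxO⟩) := by rw [hredx]; exact hff2
  have : Algebra.IsSeparable ↥(K'⟮((⟨ψ₁ M.x, hxO⟩ : gaussRing hM) : F')⟯) F' := hsep1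
  have : Algebra.IsSeparable ↥(k⟮gaussRed hM ⟨ψ₁ M.x, hxO⟩⟯) Ft := by rw [hredx]; exact hsep2
  have hind : LinearIndependent ↥(k⟮gaussRed hM ⟨ψ₁ M.x, hxO⟩⟯) (fun i => gaussRed hM (bO i)) := by
    rw [show (fun i => gaussRed hM (bO i)) = fun i => ψ₂ (M.b i : U) from funext hredb, hredx]
    exact GoodBasis.linearIndependent_adjoin h₂.trans _ h₂.indep
  have hspan : ∀ y : F', ∃ c : Fin n → ↥(K'⟮((⟨ψ₁ M.x, hxO⟩ : gaussRing hM) : F')⟯),
      y = ∑ i, algebraMap ↥(K'⟮((⟨ψ₁ M.x, hxO⟩ : gaussRing hM) : F')⟯) F' (c i) * (bO i : F') :=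
    fun y => GoodBasis.span_b h₁.trans h₁.span y
  -- polynomial expressions over `A` in the Gauss ring
  have hcomb : ∀ (t : gaussRing hM) (e : Fin n → gaussRing hM) (P : Fin n → A[X]),
      ((∑ j, hR.evalO t.2 (P j) * e j : gaussRing hM) : F') =
        ∑ j, aeval (t : F') ((P j).map A.subtype) * (e j : F') := by
    intro t e P
    rw [← (gaussRing hM).subtype_apply, map_sum]
    refine Finset.sum_congr rfl fun j _ => ?_
    rw [map_mul]
    show ((hR.evalO t.2 (P j) : gaussRing hM) : F') * (e j : F') = _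
    rw [hR.coe_evalO]
  have hredcomb : ∀ (t : gaussRing hM) (e : Fin n → gaussRing hM) (P : Fin n → A[X]),
      gaussRed hM (∑ j, hR.evalO t.2 (P j) * e j) =
        ∑ j, aeval (gaussRed hM t) ((P j).map π) * gaussRed hM (e j) := by
    intro t e P
    rw [map_sum]
    refine Finset.sum_congr rfl fun j _ => ?_
    rw [map_mul, hR.red_evalO]
  have hlift : ∀ p : Fin n → k[X], ∃ P : Fin n → A[X], ∀ j, (P j).map π = p j := fun p =>
    ⟨fun j => (Polynomial.map_surjective π hπ (p j)).choose,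
      fun j => (Polynomial.map_surjective π hπ (p j)).choose_spec⟩
  -- `red` is onto
  have hredsurj : Function.Surjective (gaussRed hM) := by
    intro y
    obtain ⟨p, s, hs, hps⟩ := h₂.span y
    obtain ⟨P, hP⟩ := hlift p
    obtain ⟨S, hS⟩ := Polynomial.map_surjective π hπ s
    set N : gaussRing hM := ∑ j, hR.evalO hxO (P j) * bO j with hN
    set D : gaussRing hM := hR.evalO hxO S with hD
    have hredN : gaussRed hM N = aeval (ψ₂ M.x) s * y := by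
      rw [hN, hredcomb ⟨ψ₁ M.x, hxO⟩ bO P, hps, hredx]
      exact Finset.sum_congr rfl fun j _ => by rw [hP j, hredb j]
    have hredD : gaussRed hM D = aeval (ψ₂ M.x) s := by
      rw [hD, hR.red_evalO, hS, hredx]
    have hD0 : gaussRed hM D ≠ 0 := by
      rw [hredD]
      exact fun h0 => hs ((transcendental_iff.1 h₂.trans) _ h0)
    obtain ⟨w, hw⟩ := ((isUnit_iff hM D).2 hD0).exists_right_inv
    refine ⟨N * w, ?_⟩
    have h1 : gaussRed hM D * gaussRed hM w = 1 := by rw [← map_mul, hw, map_one]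
    rw [map_mul, hredN, eq_inv_of_mul_eq_one_right h1, hredD, mul_comm (aeval (ψ₂ M.x) s) y,
      mul_assoc, mul_inv_cancel₀ (by rw [← hredD]; exact hD0), mul_one]
  -- (T3), (T3')
  have hT3 : ∀ s : Ft, (∀ Q : Place k Ft, 0 ≤ Q.ord (gaussRed hM ⟨ψ₁ M.x, hxO⟩) → 0 ≤ Q.ord s) →
      ∃ y : gaussRing hM, gaussRed hM y = s ∧
        ∀ P : Place K' F', 0 ≤ P.ord (ψ₁ M.x) → 0 ≤ P.ord (y : F') := by
    intro s hs
    rw [hredx] at hs
    obtain ⟨p, hp⟩ := (hch2 s).1 hs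
    obtain ⟨P, hP⟩ := hlift p
    refine ⟨∑ j, hR.evalO hxO (P j) * bO j, ?_, ?_⟩
    · rw [hredcomb ⟨ψ₁ M.x, hxO⟩ bO P, hp, hredx]
      exact Finset.sum_congr rfl fun j _ => by rw [hP j, hredb j]
    · exact (hch1 _).2 ⟨fun j => (P j).map A.subtype, hcomb ⟨ψ₁ M.x, hxO⟩ bO P⟩
  have hT3' : ∀ s : Ft, (∀ Q : Place k Ft, Q.ord (gaussRed hM ⟨ψ₁ M.x, hxO⟩) ≤ 0 → 0 ≤ Q.ord s) →
      ∃ y : gaussRing hM, gaussRed hM y = s ∧
        ∀ P : Place K' F', P.ord (ψ₁ M.x) ≤ 0 → 0 ≤ P.ord (y : F') := by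
    intro s hs
    rw [hredx] at hs
    obtain ⟨p, hp⟩ := (hch2' s).1 hs
    obtain ⟨P, hP⟩ := hlift p
    refine ⟨∑ j, hR.evalO hx'O (P j) * bO' j, ?_, ?_⟩
    · rw [hredcomb ⟨ψ₁ M.x', hx'O⟩ bO' P, hp, hredx', hxt'inv]
      exact Finset.sum_congr rfl fun j _ => by rw [hP j, hredb' j]
    · refine (hch1' _).2 ⟨fun j => (P j).map A.subtype, ?_⟩
      rw [hcomb ⟨ψ₁ M.x', hx'O⟩ bO' P]
      show ∑ j, aeval (ψ₁ M.x') ((P j).map A.subtype) * ψ₁ (M.b' j : U) = _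
      rw [hx'inv]
  -- the engine
  obtain ⟨r, hr, hisRed, hrsurj⟩ := exists_isRed_of_model hM hπ ⟨ψ₁ M.x, hxO⟩ ⟨ψ₁ M.x', hx'O⟩
    hxx' hff1 hFt hredsurj bO hind hspan hT3 hT3'
  have := hff1.hasPrincipalDivisors
  have hnc : ∀ γ : k, gaussRed hM ⟨ψ₁ M.x, hxO⟩ ≠ algebraMap k Ft γ := fun γ hγ =>
    hFt.transcendental (hγ ▸ isAlgebraic_algebraMap γ)
  -- the genus
  have hgenus : genusFF K' F' = genusFF k Ft := by
    obtain ⟨e, T, T', hT, hT'⟩ := htrans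
    refine Cech.genusFF_eq_of_good_reduction φ₁ φ₂ hφ₁ hff1 hff2
      (fun i => ψ₁ (M.b i : U)) (fun i => ψ₁ (M.b' i : U)) (fun i => ψ₂ (M.b i : U))
      (fun i => ψ₂ (M.b' i : U))
      (GoodBasis.linearIndependent_adjoin h₁.trans _ h₁.indep)
      (GoodBasis.linearIndependent_adjoin h₂.trans _ h₂.indep) hch1 hch1' hch2 hch2' e T T'
      ?_ ?_ ?_ ?_
    · intro i
      have h := congrArg ψ₁ (hT i)
      rw [map_mul, map_pow, map_sum, hx'inv] at h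
      rw [h]
      exact Finset.sum_congr rfl fun j _ => by rw [map_mul, psi_aeval h₁, hx'inv]
    · intro j
      have h := congrArg ψ₁ (hT' j)
      rw [map_mul, map_pow, map_sum, hx'inv] at h
      rw [h]
      exact Finset.sum_congr rfl fun i _ => by rw [map_mul, psi_aeval h₁, hx'inv]
    · intro i
      have h := congrArg ψ₂ (hT i)
      rw [map_mul, map_pow, map_sum, hxt'inv] at h
      rw [h]
      exact Finset.sum_congr rfl fun j _ => by rw [map_mul, psi_aeval h₂, hxt'inv]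
    · intro j
      have h := congrArg ψ₂ (hT' j)
      rw [map_mul, map_pow, map_sum, hxt'inv] at h
      rw [h]
      exact Finset.sum_congr rfl fun i _ => by rw [map_mul, psi_aeval h₂, hxt'inv]
  refine ⟨gaussRing hM, gaussRed hM, r, hxu.unit, congrArg Subtype.val hxu.unit_spec, ?_, hisRed,
    hrsurj, hff1, hff2, hgenus, ?_, GaussModel.lift hM hπ, hU, ?_, ?_⟩
  · rw [hxu.unit_spec]
    exact hredx
  · rw [finrank_eq_of_real h₁, finrank_eq_of_real h₂]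
  · -- values on the finite chart
    intro P γ₀ hP u
    obtain ⟨p, hp⟩ := exists_rep_B M u
    have hf : ∀ P : Place K' F', 0 ≤ P.ord (ψ₁ M.x) → 0 ≤ P.ord (ψ₁ (u : U)) := by
      refine (hch1 _).2 ⟨fun i => (p i).map φ₁, ?_⟩
      rw [hp, map_sum]
      exact Finset.sum_congr rfl fun i _ => by rw [map_mul, psi_aeval h₁]
    obtain ⟨a, ha1, ha2⟩ := hr.exists_centre hR hxx' ⟨ψ₁ (u : U), (hU (u : U)).fst⟩ hf P γ₀ hP
    rw [(hU (u : U)).snd] at ha2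
    exact ⟨π a, ⟨a, rfl, ha1⟩, ha2⟩
  · -- values on the chart at infinity
    intro P γ₀ hP u
    obtain ⟨p, hp⟩ := exists_rep_B' M u
    have hf : ∀ P : Place K' F', P.ord (ψ₁ M.x) ≤ 0 → 0 ≤ P.ord (ψ₁ (u : U)) := by
      refine (hch1' _).2 ⟨fun i => (p i).map φ₁, ?_⟩
      rw [hp, map_sum]
      exact Finset.sum_congr rfl fun i _ => by rw [map_mul, psi_aeval h₁, hx'inv]
    obtain ⟨a, ha1, ha2⟩ := hr.exists_centre' hπ0 hR hxx' hnc
      ⟨ψ₁ (u : U), (hU (u : U)).fst⟩ hf P γ₀ hP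
    rw [(hU (u : U)).snd] at ha2
    exact ⟨π a, ⟨a, rfl, ha1⟩, ha2⟩

/-- **(GR-M), route II, from the row literals.**  `hstruct`, `htrans` are the literals of row
GR-T, `hMH` is the literal of row GR-MH (for all structure constants over `A[X]`), and the last
eight hypotheses are the literals of row GR-RL at the two realisations. -/
theorem exists_isRed_of_rows [IsAlgClosed K'] [IsAlgClosed k]
    (M : Model Λ U n) (h₁ : Real M K' F' φ₁ ψ₁) (h₂ : Real M k Ft φ₂ ψ₂)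
    (hφ₁ : Function.Injective φ₁) (A : ValuationSubring K') (π : A →+* k)
    (hπ : Function.Surjective π) (hπ0 : ∀ a : A, ¬ IsUnit a → π a = 0)
    (hφ : ∀ a : Λ, ∃ h : φ₁ a ∈ A, π ⟨φ₁ a, h⟩ = φ₂ a)
    (hstruct : Literals.Model_exists_struct_stmt M)
    (htrans : Literals.Model_exists_transition_stmt M)
    (hMH : ∀ (γ : Fin n → Fin n → Fin n → A[X])
      (hγb : ∀ i j, ψ₁ (M.b i : U) * ψ₁ (M.b j : U) =
        ∑ l, aeval (ψ₁ M.x) ((γ i j l).map A.subtype) * ψ₁ (M.b l : U))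
      (hγc : ∀ i j, ψ₂ (M.b i : U) * ψ₂ (M.b j : U) =
        ∑ l, aeval (ψ₂ M.x) ((γ i j l).map π) * ψ₂ (M.b l : U))
      (υ : Fin n → A[X])
      (hυb : (1 : F') = ∑ l, aeval (ψ₁ M.x) ((υ l).map A.subtype) * ψ₁ (M.b l : U))
      (hυc : (1 : Ft) = ∑ l, aeval (ψ₂ M.x) ((υ l).map π) * ψ₂ (M.b l : U)),
      Literals.exists_isModel_stmt A π hπ hπ0 (ψ₁ M.x) (ψ₂ M.x) h₁.trans h₂.trans
        (fun i => ψ₁ (M.b i : U)) (fun i => ψ₂ (M.b i : U)) h₁.indep h₁.span h₂.indep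
        γ hγb hγc υ hυb hυc)
    (hff1 : Literals.Real_isFF1_stmt h₁) (hff2 : Literals.Real_isFF1_stmt h₂)
    (hsep1 : Literals.Real_isSeparable_stmt h₁) (hsep2 : Literals.Real_isSeparable_stmt h₂)
    (hch1 : Literals.Real_chart_stmt h₁) (hch2 : Literals.Real_chart_stmt h₂)
    (hch1' : Literals.Real_chart'_stmt h₁) (hch2' : Literals.Real_chart'_stmt h₂) :
    Literals.exists_isRed_stmt M h₁ h₂ hφ₁ A π hπ hπ0 hφ := by
  obtain ⟨γ₀, υ₀, hγ₀, hυ₀⟩ := hstruct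
  refine exists_isRed_of_isModel M h₁ h₂ hφ₁ A π hπ hπ0 hφ htrans
    (hMH (fun i j l => (γ₀ i j l).map (phiA hφ)) ?_ ?_ (fun l => (υ₀ l).map (phiA hφ)) ?_ ?_)
    hff1 hff2 hsep1 hsep2 hch1 hch2 hch1' hch2'
  · intro i j
    rw [← map_mul, hγ₀ i j, map_sum]
    exact Finset.sum_congr rfl fun l _ => by rw [map_mul, psi_aeval h₁, map_phiA_subtype]
  · intro i j
    rw [← map_mul, hγ₀ i j, map_sum]
    exact Finset.sum_congr rfl fun l _ => by rw [map_mul, psi_aeval h₂, map_phiA_pi]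
  · rw [← map_one ψ₁, hυ₀, map_sum]
    exact Finset.sum_congr rfl fun l _ => by rw [map_mul, psi_aeval h₁, map_phiA_subtype]
  · rw [← map_one ψ₂, hυ₀, map_sum]
    exact Finset.sum_congr rfl fun l _ => by rw [map_mul, psi_aeval h₂, map_phiA_pi]

end Main

end Fermat.Agent.S27P.GR.MainII
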