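import Mathlib
import Fermat.Agent.S27P.GR.GaussOf
import Fermat.Agent.S27P.GR.Literals

/-!
# S27 / (GR), row GR-MH: the lattice ring `B_A` and its reduction `ρ` form a model

`exists_isModel` (literal `Literals.exists_isModel_stmt` of the (GR) cut v1.1): for two compatible
lattices (`b` in `F'/K'`, `c` in `Ft/k`, common structure constants `γ`, `υ` in `A[X]`), the
lattice `B = {∑ p_i(x) b_i | p_i ∈ A[X]}` is a subring of `F'`, `ρ (∑ p_i(x) b_i) = ∑ p̄_i(xt) c_i`
is a ring homomorphism `B → Ft`, and `GaussModel.IsModel A π B ρ`.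

This is `GaussOf.lat`, `GaussOf.latRed`, `GaussOf.isModel_lat` (already on main), restated.
-/

set_option autoImplicit false
set_option linter.unusedVariables false

noncomputable section

namespace Fermat.Agent.S27P.GR.ModelHomOf

open Polynomial Fermat.Agent.S27P.GR.StructConst Fermat.Agent.S27P.GR.GaussOf

/-- **GR-MH: the lattice ring and its reduction.** -/
theorem exists_isModel {K' F' k Ft : Type*} [Field K'] [Field F'] [Algebra K' F'] [Field k]
    [Field Ft] [Algebra k Ft] (A : ValuationSubring K') (π : A →+* k)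
    (hπ : Function.Surjective π) (hπ0 : ∀ a : A, ¬ IsUnit a → π a = 0) {n : ℕ} (x : F') (xt : Ft)
    (hx : Transcendental K' x) (hxt : Transcendental k xt) (b : Fin n → F') (c : Fin n → Ft)
    (hb : ∀ p : Fin n → K'[X], ∑ i, aeval x (p i) * b i = 0 → p = 0)
    (hbs : ∀ y : F', ∃ (p : Fin n → K'[X]) (s : K'[X]), s ≠ 0 ∧
      aeval x s * y = ∑ i, aeval x (p i) * b i)
    (hc : ∀ p : Fin n → k[X], ∑ i, aeval xt (p i) * c i = 0 → p = 0)
    (γ : Fin n → Fin n → Fin n → A[X])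
    (hγb : ∀ i j, b i * b j = ∑ l, aeval x ((γ i j l).map A.subtype) * b l)
    (hγc : ∀ i j, c i * c j = ∑ l, aeval xt ((γ i j l).map π) * c l)
    (υ : Fin n → A[X]) (hυb : (1 : F') = ∑ l, aeval x ((υ l).map A.subtype) * b l)
    (hυc : (1 : Ft) = ∑ l, aeval xt ((υ l).map π) * c l) :
    ∃ (B : Subring F') (ρ : B →+* Ft), GaussModel.IsModel A π B ρ ∧
      (∀ y : F', y ∈ B ↔ ∃ p : Fin n → A[X], y = ∑ i, aeval x ((p i).map A.subtype) * b i) ∧
      (∀ (y : B) (p : Fin n → A[X]), (y : F') = ∑ i, aeval x ((p i).map A.subtype) * b i →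
        ρ y = ∑ i, aeval xt ((p i).map π) * c i) := by
  refine ⟨lat A x b γ hγb υ hυb, latRed π xt c hb hγc hυc, isModel_lat hπ0 hx hbs hc, ?_, ?_⟩
  · intro y
    constructor
    · rintro ⟨p, rfl⟩
      exact ⟨p, rfl⟩
    · rintro ⟨p, rfl⟩
      exact ⟨p, rfl⟩
  · intro y p hy
    have h1 : y = latMk γ hγb υ hυb p := Subtype.ext hy
    rw [h1, latRed_latMk]
    rfl

/-- The same, as the statement-def of `GR/Literals.lean` (certifies that the literal is matched
verbatim). -/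
theorem exists_isModel_stmt {K' F' k Ft : Type*} [Field K'] [Field F'] [Algebra K' F'] [Field k]
    [Field Ft] [Algebra k Ft] (A : ValuationSubring K') (π : A →+* k)
    (hπ : Function.Surjective π) (hπ0 : ∀ a : A, ¬ IsUnit a → π a = 0) {n : ℕ} (x : F') (xt : Ft)
    (hx : Transcendental K' x) (hxt : Transcendental k xt) (b : Fin n → F') (c : Fin n → Ft)
    (hb : ∀ p : Fin n → K'[X], ∑ i, aeval x (p i) * b i = 0 → p = 0)
    (hbs : ∀ y : F', ∃ (p : Fin n → K'[X]) (s : K'[X]), s ≠ 0 ∧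
      aeval x s * y = ∑ i, aeval x (p i) * b i)
    (hc : ∀ p : Fin n → k[X], ∑ i, aeval xt (p i) * c i = 0 → p = 0)
    (γ : Fin n → Fin n → Fin n → A[X])
    (hγb : ∀ i j, b i * b j = ∑ l, aeval x ((γ i j l).map A.subtype) * b l)
    (hγc : ∀ i j, c i * c j = ∑ l, aeval xt ((γ i j l).map π) * c l)
    (υ : Fin n → A[X]) (hυb : (1 : F') = ∑ l, aeval x ((υ l).map A.subtype) * b l)
    (hυc : (1 : Ft) = ∑ l, aeval xt ((υ l).map π) * c l) :
    Literals.exists_isModel_stmt A π hπ hπ0 x xt hx hxt b c hb hbs hc γ hγb hγc υ hυb hυc :=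
  exists_isModel A π hπ hπ0 x xt hx hxt b c hb hbs hc γ hγb hγc υ hυb hυc

/-- `exists_gauss`, as the statement-def of `GR/Literals.lean` (certifies that
`GaussOf.exists_gauss` matches the literal verbatim). -/
theorem exists_gauss_stmt {K' F' k Ft : Type*} [Field K'] [Field F'] [Algebra K' F'] [Field k]
    [Field Ft] [Algebra k Ft] (A : ValuationSubring K') (π : A →+* k)
    (hπ : Function.Surjective π) (hπ0 : ∀ a : A, ¬ IsUnit a → π a = 0) {n : ℕ} (x : F') (xt : Ft)
    (hx : Transcendental K' x) (hxt : Transcendental k xt) (b : Fin n → F') (c : Fin n → Ft)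
    (hb : ∀ p : Fin n → K'[X], ∑ i, aeval x (p i) * b i = 0 → p = 0)
    (hbs : ∀ y : F', ∃ (p : Fin n → K'[X]) (s : K'[X]), s ≠ 0 ∧
      aeval x s * y = ∑ i, aeval x (p i) * b i)
    (hc : ∀ p : Fin n → k[X], ∑ i, aeval xt (p i) * c i = 0 → p = 0)
    (hcs : ∀ y : Ft, ∃ (p : Fin n → k[X]) (s : k[X]), s ≠ 0 ∧
      aeval xt s * y = ∑ i, aeval xt (p i) * c i)
    (γ : Fin n → Fin n → Fin n → A[X])
    (hγb : ∀ i j, b i * b j = ∑ l, aeval x ((γ i j l).map A.subtype) * b l)
    (hγc : ∀ i j, c i * c j = ∑ l, aeval xt ((γ i j l).map π) * c l)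
    (υ : Fin n → A[X]) (hυb : (1 : F') = ∑ l, aeval x ((υ l).map A.subtype) * b l)
    (hυc : (1 : Ft) = ∑ l, aeval xt ((υ l).map π) * c l) :
    Literals.exists_gauss_stmt A π hπ hπ0 x xt hx hxt b c hb hbs hc hcs γ hγb hγc υ hυb hυc :=
  GaussOf.exists_gauss A π hπ hπ0 x xt hx hxt b c hb hbs hc hcs γ hγb hγc υ hυb hυc

end Fermat.Agent.S27P.GR.ModelHomOf
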