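import Mathlib

/-!
# S27 brick (GR-NB): existence of a normal (reduced) basis — abstract core

Dedekind–Weber / Grothendieck: a `K[X]`-lattice `M` in a vector space carrying a
non-archimedean "degree" norm at infinity has a `K[X]`-basis which is orthogonal for the norm:
`deg (∑ cᵢ bᵢ) = maxᵢ (deg cᵢ + deg bᵢ)`.

For a function field `F/K(x)`, `M = B` the integral closure of `K[x]` and
`deg f = max_{P ∣ ∞} ⌈-ord_P f / e_P⌉`, this is the normal basis `b_i` of `B` over `K[x]` with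
`x^(-d_i) b_i` a basis of the integral closure of `K[1/x]` over `K[1/x]`.

The proof is by two exchange arguments on a linearly independent family of maximal size in `M`
with minimal total degree.  No finiteness of `M` over `K[X]` is assumed (it is a consequence),
and the statement is characteristic-free.
-/

set_option autoImplicit false

namespace Fermat.Agent.S27P.GR.NormalBasis

open Polynomial

/-- A degree function on a `K[X]`-module: a non-archimedean norm at infinity, written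
additively, with value `⊥` exactly at `0`. -/
structure IsDegNorm (K : Type*) [Field K] {V : Type*} [AddCommGroup V] [Module K[X] V]
    (deg : V → WithBot ℤ) : Prop where
  zero_iff : ∀ v, deg v = ⊥ ↔ v = 0
  add_le : ∀ v w, deg (v + w) ≤ max (deg v) (deg w)
  smul : ∀ (p : K[X]) (v : V), p ≠ 0 →
    deg (p • v) = ((p.natDegree : ℤ) : WithBot ℤ) + deg v

section Core

variable {K : Type*} [Field K] {V : Type*} [AddCommGroup V] [Module K[X] V]
  {deg : V → WithBot ℤ}

theorem IsDegNorm.deg_zero (h : IsDegNorm K deg) : deg 0 = ⊥ := (h.zero_iff 0).2 rfl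

theorem IsDegNorm.smul_le (h : IsDegNorm K deg) (p : K[X]) (v : V) {a : ℤ}
    (hv : deg v ≤ (a : WithBot ℤ)) :
    deg (p • v) ≤ (((p.natDegree : ℤ) + a : ℤ) : WithBot ℤ) := by
  by_cases hp : p = 0
  · subst hp
    rw [zero_smul, h.deg_zero]
    exact bot_le
  · rw [h.smul p v hp, WithBot.coe_add]
    gcongr

theorem IsDegNorm.sum_le (h : IsDegNorm K deg) {ι : Type*} (s : Finset ι) (t : ι → V)
    (D : WithBot ℤ) (ht : ∀ i ∈ s, deg (t i) ≤ D) : deg (∑ i ∈ s, t i) ≤ D := by
  classical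
  induction s using Finset.induction_on with
  | empty => simp [h.deg_zero]
  | insert a s ha ih =>
    rw [Finset.sum_insert ha]
    exact (h.add_le _ _).trans (max_le (ht a (Finset.mem_insert_self a s))
      (ih fun i hi => ht i (Finset.mem_insert_of_mem hi)))

theorem IsDegNorm.eq_zero_of_smul_eq_zero (h : IsDegNorm K deg) {p : K[X]} (hp : p ≠ 0) {v : V}
    (hv : p • v = 0) : v = 0 := by
  have h1 := h.smul p v hp
  rw [hv, h.deg_zero] at h1
  rw [← h.zero_iff]
  by_contra hne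
  obtain ⟨a, ha⟩ := WithBot.ne_bot_iff_exists.mp hne
  rw [← ha, ← WithBot.coe_add] at h1
  exact WithBot.bot_ne_coe h1

theorem IsDegNorm.coe_unbotD (h : IsDegNorm K deg) {v : V} (hv : v ≠ 0) :
    deg v = (((deg v).unbotD 0 : ℤ) : WithBot ℤ) := by
  obtain ⟨a, ha⟩ := WithBot.ne_bot_iff_exists.mp (mt (h.zero_iff v).1 hv)
  rw [← ha]
  rfl

/-- Exchange: replacing `b j` by `w`, where `p • w = ∑ cᵢ bᵢ` with `p ≠ 0` and `c j ≠ 0`, keeps
the family linearly independent. -/
theorem linearIndependent_update_of_rel {n : ℕ} {b : Fin n → V}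
    (hb : LinearIndependent K[X] b) (j : Fin n) (w : V) {p : K[X]} (hp : p ≠ 0)
    {c : Fin n → K[X]} (hrel : p • w = ∑ i, c i • b i) (hcj : c j ≠ 0) :
    LinearIndependent K[X] (Function.update b j w) := by
  classical
  rw [Fintype.linearIndependent_iff]
  intro g hg
  have h1 : g j • w + ∑ i ∈ Finset.univ.erase j, g i • b i = 0 := by
    rw [← hg, ← Finset.add_sum_erase _ _ (Finset.mem_univ j), Function.update_self]
    congr 1
    refine Finset.sum_congr rfl fun i hi => ?_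
    rw [Function.update_of_ne (Finset.ne_of_mem_erase hi)]
  have h2 : ∑ i, (g j * c i + if i = j then 0 else p * g i) • b i = 0 := by
    have h3 : p • (g j • w + ∑ i ∈ Finset.univ.erase j, g i • b i) = 0 := by
      rw [h1, smul_zero]
    rw [smul_add, smul_comm p (g j) w, hrel, Finset.smul_sum, Finset.smul_sum] at h3
    rw [← h3]
    simp only [add_smul, Finset.sum_add_distrib, mul_smul]
    congr 1
    rw [← Finset.add_sum_erase _ _ (Finset.mem_univ j), if_pos rfl, zero_smul, zero_add]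
    refine Finset.sum_congr rfl fun i hi => ?_
    rw [if_neg (Finset.ne_of_mem_erase hi), mul_smul]
  have h3 := (Fintype.linearIndependent_iff.mp hb) _ h2
  have hgj : g j = 0 := by
    have h4 := h3 j
    rw [if_pos rfl, add_zero] at h4
    exact (mul_eq_zero.mp h4).resolve_right hcj
  intro i
  by_cases hij : i = j
  · rw [hij]
    exact hgj
  · have h4 := h3 i
    rw [hgj, zero_mul, zero_add, if_neg hij] at h4
    exact (mul_eq_zero.mp h4).resolve_left hp

/-- A family in `M` is *degree-minimal* if it is linearly independent and no exchange lowers a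
degree: whenever `p • w = ∑ cᵢ bᵢ` with `w ∈ M`, `p ≠ 0`, `c j ≠ 0`, then `deg (b j) ≤ deg w`. -/
def IsMinimalFamily (deg : V → WithBot ℤ) (M : Submodule K[X] V) {n : ℕ} (b : Fin n → V) :
    Prop :=
  (∀ i, b i ∈ M) ∧ LinearIndependent K[X] b ∧
    ∀ (j : Fin n) (w : V) (p : K[X]) (c : Fin n → K[X]), w ∈ M → p ≠ 0 →
      p • w = ∑ i, c i • b i → c j ≠ 0 → deg (b j) ≤ deg w

/-- Existence of a degree-minimal family of maximal size. -/
theorem exists_isMinimalFamily (h : IsDegNorm K deg) (M : Submodule K[X] V)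
    (hbdd : ∃ d₀ : ℤ, ∀ v ∈ M, v ≠ 0 → (d₀ : WithBot ℤ) ≤ deg v)
    (hrank : ∃ N : ℕ, ∀ (m : ℕ) (w : Fin m → V), (∀ i, w i ∈ M) →
      LinearIndependent K[X] w → m ≤ N) :
    ∃ (n : ℕ) (b : Fin n → V), IsMinimalFamily deg M b ∧
      ∀ (w : Fin (n + 1) → V), (∀ i, w i ∈ M) → ¬ LinearIndependent K[X] w := by
  classical
  obtain ⟨d₀, hd₀⟩ := hbdd
  obtain ⟨N, hN⟩ := hrank
  let P : ℕ → Prop := fun m => ∃ w : Fin m → V, (∀ i, w i ∈ M) ∧ LinearIndependent K[X] w
  have hP0 : P 0 := ⟨Fin.elim0, fun i => i.elim0, linearIndependent_empty_type⟩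
  have hPn : P (Nat.findGreatest P N) := Nat.findGreatest_spec (Nat.zero_le N) hP0
  have hmax : ∀ m, Nat.findGreatest P N < m → ¬ P m := fun m hm hPm =>
    Nat.findGreatest_is_greatest hm (by obtain ⟨w, hw, hli⟩ := hPm; exact hN m w hw hli) hPm
  generalize Nat.findGreatest P N = n at hPn hmax
  let μ : (Fin n → V) → ℤ := fun b => ∑ i, (deg (b i)).unbotD 0
  obtain ⟨μ₀, ⟨b, hbM, hbli, rfl⟩, hμmin⟩ := Int.exists_least_of_bdd
    (P := fun z => ∃ b : Fin n → V, (∀ i, b i ∈ M) ∧ LinearIndependent K[X] b ∧ μ b = z)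
    ⟨n * d₀, by
      rintro z ⟨b, hbM, hbli, rfl⟩
      calc (n : ℤ) * d₀ = ∑ _i : Fin n, d₀ := by simp
        _ ≤ μ b := Finset.sum_le_sum fun i _ => by
            have hne : b i ≠ 0 := hbli.ne_zero i
            have h1 := hd₀ (b i) (hbM i) hne
            rw [h.coe_unbotD hne] at h1
            exact WithBot.coe_le_coe.mp h1⟩
    (by obtain ⟨w, hw, hli⟩ := hPn; exact ⟨_, w, hw, hli, rfl⟩)
  refine ⟨n, b, ⟨hbM, hbli, ?_⟩, fun w hw hli => hmax (n + 1) (Nat.lt_succ_self n) ⟨w, hw, hli⟩⟩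
  intro j w p c hwM hp hrel hcj
  by_contra hlt
  have hli' : LinearIndependent K[X] (Function.update b j w) :=
    linearIndependent_update_of_rel hbli j w hp hrel hcj
  have hM' : ∀ i, Function.update b j w i ∈ M := by
    intro i
    by_cases hij : i = j
    · rw [hij, Function.update_self]
      exact hwM
    · rw [Function.update_of_ne hij]
      exact hbM i
  have hμ := hμmin _ ⟨_, hM', hli', rfl⟩
  have hw0 : w ≠ 0 := by
    have h1 := hli'.ne_zero j
    rwa [Function.update_self] at h1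
  have hlt' : (deg w).unbotD 0 < (deg (b j)).unbotD 0 := by
    rw [h.coe_unbotD hw0, h.coe_unbotD (hbli.ne_zero j)] at hlt
    exact lt_of_not_ge fun hge => hlt (WithBot.coe_le_coe.mpr hge)
  have e1 : μ (Function.update b j w)
      = (deg w).unbotD 0 + ∑ i ∈ Finset.univ.erase j, (deg (b i)).unbotD 0 := by
    show ∑ i, (deg (Function.update b j w i)).unbotD 0 = _
    rw [← Finset.add_sum_erase _ _ (Finset.mem_univ j), Function.update_self]
    congr 1
    exact Finset.sum_congr rfl fun i hi => by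
      rw [Function.update_of_ne (Finset.ne_of_mem_erase hi)]
  have e2 : μ b = (deg (b j)).unbotD 0 + ∑ i ∈ Finset.univ.erase j, (deg (b i)).unbotD 0 :=
    (Finset.add_sum_erase _ _ (Finset.mem_univ j)).symm
  omega

/-- Division by `X ^ e` with the degree bookkeeping needed below. -/
theorem exists_div_X_pow (c : K[X]) (e : ℕ) :
    ∃ q r : K[X], c = r + X ^ e * q ∧ (c = 0 → r = 0) ∧
      (r ≠ 0 → r.natDegree < e ∧ r.natDegree ≤ c.natDegree) ∧
      (c ≠ 0 → e ≤ c.natDegree → q ≠ 0) := by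
  have hmon : (X ^ e : K[X]).Monic := monic_X_pow e
  refine ⟨c /ₘ X ^ e, c %ₘ X ^ e, (modByMonic_add_div c (X ^ e)).symm, ?_, ?_, ?_⟩
  · rintro rfl
    exact zero_modByMonic _
  · intro hr
    refine ⟨?_, natDegree_modByMonic_le_left⟩
    have h1 := degree_modByMonic_lt c hmon
    rw [degree_X_pow] at h1
    exact (natDegree_lt_iff_degree_lt hr).mpr h1
  · intro hc he h0
    have h1 := (divByMonic_eq_zero_iff hmon).mp h0
    rw [degree_X_pow, degree_eq_natDegree hc] at h1
    have h2 : c.natDegree < e := by exact_mod_cast h1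
    omega

/-- **Orthogonality** of a degree-minimal family. -/
theorem IsMinimalFamily.le_deg_sum (h : IsDegNorm K deg) {M : Submodule K[X] V} {n : ℕ}
    {b : Fin n → V} (hb : IsMinimalFamily deg M b) (c : Fin n → K[X]) (i₀ : Fin n)
    (hi₀ : c i₀ ≠ 0) :
    (((c i₀).natDegree : ℤ) : WithBot ℤ) + deg (b i₀) ≤ deg (∑ j, c j • b j) := by
  classical
  obtain ⟨hbM, hbli, hstar⟩ := hb
  obtain ⟨d, hd⟩ : ∃ d : Fin n → ℤ, ∀ i, deg (b i) = ((d i : ℤ) : WithBot ℤ) :=
    ⟨fun i => (deg (b i)).unbotD 0, fun i => h.coe_unbotD (hbli.ne_zero i)⟩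
  obtain ⟨i₁, hi₁mem, hi₁max⟩ := Finset.exists_max_image (Finset.univ.filter fun i => c i ≠ 0)
    (fun i => ((c i).natDegree : ℤ) + d i) ⟨i₀, by simp [hi₀]⟩
  have hi₁ : c i₁ ≠ 0 := (Finset.mem_filter.mp hi₁mem).2
  obtain ⟨D, hD⟩ : ∃ D : ℤ, D = ((c i₁).natDegree : ℤ) + d i₁ := ⟨_, rfl⟩
  have hDmax : ∀ i, c i ≠ 0 → ((c i).natDegree : ℤ) + d i ≤ D := fun i hi => by
    rw [hD]
    exact hi₁max i (by simp [hi])
  suffices hkey : ((D : ℤ) : WithBot ℤ) ≤ deg (∑ j, c j • b j) by
    refine le_trans ?_ hkey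
    rw [hd, ← WithBot.coe_add]
    exact WithBot.coe_le_coe.mpr (hDmax i₀ hi₀)
  by_contra hlt
  have hlt' : deg (∑ j, c j • b j) ≤ ((D - 1 : ℤ) : WithBot ℤ) := by
    generalize deg (∑ j, c j • b j) = z at hlt
    induction z using WithBot.recBotCoe with
    | bot => exact bot_le
    | coe a =>
      have h1 : a < D := lt_of_not_ge fun hge => hlt (WithBot.coe_le_coe.mpr hge)
      exact WithBot.coe_le_coe.mpr (by omega)
  obtain ⟨j₀, hj₀mem, hj₀max⟩ := Finset.exists_max_image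
    (Finset.univ.filter fun i => c i ≠ 0 ∧ ((c i).natDegree : ℤ) + d i = D) d
    ⟨i₁, by simp [hi₁, hD]⟩
  obtain ⟨hj₀, hj₀D⟩ := (Finset.mem_filter.mp hj₀mem).2
  obtain ⟨e, he⟩ : ∃ e : ℕ, e = (c j₀).natDegree := ⟨_, rfl⟩
  choose q r hqr hr0 hr hq using fun i => exists_div_X_pow (c i) e
  have hwM : ∑ i, q i • b i ∈ M := Submodule.sum_mem _ fun i _ => M.smul_mem _ (hbM i)
  have hq0 : q j₀ ≠ 0 := hq j₀ hj₀ he.le
  have hdw : ((d j₀ : ℤ) : WithBot ℤ) ≤ deg (∑ i, q i • b i) := by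
    have h1 := hstar j₀ (∑ i, q i • b i) 1 q hwM one_ne_zero (by rw [one_smul]) hq0
    rwa [hd] at h1
  have hXw : (X ^ e : K[X]) • (∑ i, q i • b i) = ∑ j, c j • b j + ∑ i, (-r i) • b i := by
    rw [Finset.smul_sum, ← Finset.sum_add_distrib]
    refine Finset.sum_congr rfl fun i _ => ?_
    rw [smul_smul, ← add_smul]
    congr 1
    rw [hqr i]
    ring
  have hsum : deg (∑ i, (-r i) • b i) ≤ ((D - 1 : ℤ) : WithBot ℤ) := by
    refine h.sum_le _ _ _ fun i _ => ?_
    by_cases hri : r i = 0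
    · rw [hri, neg_zero, zero_smul, h.deg_zero]
      exact bot_le
    · refine (h.smul_le (-r i) (b i) (hd i).le).trans (WithBot.coe_le_coe.mpr ?_)
      rw [natDegree_neg]
      have hci : c i ≠ 0 := fun h0 => hri (hr0 i h0)
      obtain ⟨h1, h2⟩ := hr i hri
      have h3 := hDmax i hci
      by_cases h4 : ((c i).natDegree : ℤ) + d i = D
      · have h5 := hj₀max i (by simp [hci, h4])
        omega
      · omega
  have h1 : deg ((X ^ e : K[X]) • (∑ i, q i • b i)) ≤ ((D - 1 : ℤ) : WithBot ℤ) := by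
    rw [hXw]
    exact (h.add_le _ _).trans (max_le hlt' hsum)
  rw [h.smul _ _ (pow_ne_zero e X_ne_zero), natDegree_X_pow] at h1
  have h2 : ((e : ℤ) : WithBot ℤ) + ((d j₀ : ℤ) : WithBot ℤ) ≤ ((D - 1 : ℤ) : WithBot ℤ) :=
    le_trans (by gcongr) h1
  rw [← WithBot.coe_add, WithBot.coe_le_coe] at h2
  omega

/-- A degree-minimal family of maximal size **spans** `M` over `K[X]`. -/
theorem IsMinimalFamily.span_eq (h : IsDegNorm K deg) {M : Submodule K[X] V} {n : ℕ}
    {b : Fin n → V} (hb : IsMinimalFamily deg M b)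
    (hmax : ∀ (w : Fin (n + 1) → V), (∀ i, w i ∈ M) → ¬ LinearIndependent K[X] w) :
    Submodule.span K[X] (Set.range b) = M := by
  classical
  obtain ⟨hbM, hbli, hstar⟩ := hb
  refine le_antisymm (Submodule.span_le.mpr ?_) ?_
  · rintro _ ⟨i, rfl⟩
    exact hbM i
  intro v hv
  have hnl := hmax (Fin.cons v b) (fun i => by
    refine Fin.cases ?_ (fun i => ?_) i
    · simpa using hv
    · simpa using hbM i)
  rw [Fintype.not_linearIndependent_iff] at hnl
  obtain ⟨g, hg, hg0⟩ := hnl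
  rw [Fin.sum_univ_succ] at hg
  simp only [Fin.cons_zero, Fin.cons_succ] at hg
  have hp : g 0 ≠ 0 := by
    intro h0
    rw [h0, zero_smul, zero_add] at hg
    have h3 := (Fintype.linearIndependent_iff.mp hbli) _ hg
    obtain ⟨i, hi⟩ := hg0
    exact hi (Fin.cases h0 (fun i => h3 i) i)
  obtain ⟨p, hpdef⟩ : ∃ p : K[X], p = g 0 := ⟨_, rfl⟩
  rw [← hpdef] at hg hp
  have hrel : p • v = ∑ i, (-(g i.succ)) • b i := by
    rw [eq_neg_of_add_eq_zero_left hg, ← Finset.sum_neg_distrib]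
    exact Finset.sum_congr rfl fun i _ => (neg_smul _ _).symm
  obtain ⟨q, r, hqr, hr⟩ : ∃ q r : Fin n → K[X], (∀ i, -(g i.succ) = p * q i + r i) ∧
      ∀ i, r i ≠ 0 → ((r i).natDegree : ℤ) ≤ (p.natDegree : ℤ) - 1 := by
    refine ⟨fun i => (-(g i.succ)) / p, fun i => (-(g i.succ)) % p,
      fun i => (EuclideanDomain.div_add_mod _ _).symm, fun i hri => ?_⟩
    have h1 := degree_mod_lt (-(g i.succ)) hp
    rw [degree_eq_natDegree hri, degree_eq_natDegree hp] at h1
    have h2 : ((-(g i.succ)) % p).natDegree < p.natDegree := by exact_mod_cast h1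
    show ((((-(g i.succ)) % p).natDegree : ℕ) : ℤ) ≤ (p.natDegree : ℤ) - 1
    omega
  have hv'M : v - ∑ i, q i • b i ∈ M :=
    M.sub_mem hv (Submodule.sum_mem _ fun i _ => M.smul_mem _ (hbM i))
  have hrel' : p • (v - ∑ i, q i • b i) = ∑ i, r i • b i := by
    rw [smul_sub, hrel, Finset.smul_sum, ← Finset.sum_sub_distrib]
    refine Finset.sum_congr rfl fun i _ => ?_
    rw [smul_smul, ← sub_smul, hqr i]
    congr 1
    ring
  by_cases hall : ∀ i, r i = 0
  · have h1 : p • (v - ∑ i, q i • b i) = 0 := by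
      rw [hrel']
      exact Finset.sum_eq_zero fun i _ => by rw [hall i, zero_smul]
    have h2 := sub_eq_zero.mp (h.eq_zero_of_smul_eq_zero hp h1)
    rw [h2]
    exact Submodule.sum_mem _ fun i _ =>
      Submodule.smul_mem _ _ (Submodule.subset_span ⟨i, rfl⟩)
  · exfalso
    obtain ⟨i₁, hi₁⟩ := not_forall.mp hall
    obtain ⟨d, hd⟩ : ∃ d : Fin n → ℤ, ∀ i, deg (b i) = ((d i : ℤ) : WithBot ℤ) :=
      ⟨fun i => (deg (b i)).unbotD 0, fun i => h.coe_unbotD (hbli.ne_zero i)⟩
    obtain ⟨j, hjmem, hjmax⟩ := Finset.exists_max_image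
      (Finset.univ.filter fun i => r i ≠ 0) d ⟨i₁, by simp [hi₁]⟩
    have hj : r j ≠ 0 := (Finset.mem_filter.mp hjmem).2
    have h1 : ((d j : ℤ) : WithBot ℤ) ≤ deg (v - ∑ i, q i • b i) := by
      have h0 := hstar j _ p r hv'M hp hrel' hj
      rwa [hd] at h0
    have h2 : deg (p • (v - ∑ i, q i • b i))
        ≤ (((p.natDegree : ℤ) - 1 + d j : ℤ) : WithBot ℤ) := by
      rw [hrel']
      refine h.sum_le _ _ _ fun i _ => ?_
      by_cases hri : r i = 0
      · rw [hri, zero_smul, h.deg_zero]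
        exact bot_le
      · refine (h.smul_le (r i) (b i) (hd i).le).trans (WithBot.coe_le_coe.mpr ?_)
        have h3 := hr i hri
        have h4 := hjmax i (by simp [hri])
        omega
    rw [h.smul p _ hp] at h2
    have h3 : ((p.natDegree : ℤ) : WithBot ℤ) + ((d j : ℤ) : WithBot ℤ)
        ≤ (((p.natDegree : ℤ) - 1 + d j : ℤ) : WithBot ℤ) :=
      le_trans (by gcongr) h2
    rw [← WithBot.coe_add, WithBot.coe_le_coe] at h3
    omega

/-- **Existence of a reduced (normal) basis**, bundled hypotheses. -/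
theorem exists_reduced_basis_of_isDegNorm (h : IsDegNorm K deg) (M : Submodule K[X] V)
    (hbdd : ∃ d₀ : ℤ, ∀ v ∈ M, v ≠ 0 → (d₀ : WithBot ℤ) ≤ deg v)
    (hrank : ∃ N : ℕ, ∀ (m : ℕ) (w : Fin m → V), (∀ i, w i ∈ M) →
      LinearIndependent K[X] w → m ≤ N) :
    ∃ (n : ℕ) (b : Fin n → V), (∀ i, b i ∈ M) ∧ LinearIndependent K[X] b ∧
      Submodule.span K[X] (Set.range b) = M ∧
      (∀ (w : Fin (n + 1) → V), (∀ i, w i ∈ M) → ¬ LinearIndependent K[X] w) ∧
      ∀ (c : Fin n → K[X]) (i : Fin n), c i ≠ 0 →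
        (((c i).natDegree : ℤ) : WithBot ℤ) + deg (b i) ≤ deg (∑ j, c j • b j) := by
  obtain ⟨n, b, hb, hmax⟩ := exists_isMinimalFamily h M hbdd hrank
  exact ⟨n, b, hb.1, hb.2.1, hb.span_eq h hmax, hmax, fun c i hi => hb.le_deg_sum h c i hi⟩

/-- **Existence of a reduced (normal) basis** (Dedekind–Weber), unbundled hypotheses.
`M` is a `K[X]`-submodule of a module `V` carrying a degree norm; nonzero elements of `M` have
degree bounded below, and linearly independent families in `M` have bounded size.  Then `M` is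
free with a basis `b` which is orthogonal for the norm. -/
theorem exists_reduced_basis (deg : V → WithBot ℤ)
    (hzero : ∀ v, deg v = ⊥ ↔ v = 0)
    (hadd : ∀ v w, deg (v + w) ≤ max (deg v) (deg w))
    (hsmul : ∀ (p : K[X]) (v : V), p ≠ 0 →
      deg (p • v) = ((p.natDegree : ℤ) : WithBot ℤ) + deg v)
    (M : Submodule K[X] V)
    (hbdd : ∃ d₀ : ℤ, ∀ v ∈ M, v ≠ 0 → (d₀ : WithBot ℤ) ≤ deg v)
    (hrank : ∃ N : ℕ, ∀ (m : ℕ) (w : Fin m → V), (∀ i, w i ∈ M) →
      LinearIndependent K[X] w → m ≤ N) :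
    ∃ (n : ℕ) (b : Fin n → V), (∀ i, b i ∈ M) ∧ LinearIndependent K[X] b ∧
      Submodule.span K[X] (Set.range b) = M ∧
      ∀ (c : Fin n → K[X]) (i : Fin n), c i ≠ 0 →
        (((c i).natDegree : ℤ) : WithBot ℤ) + deg (b i) ≤ deg (∑ j, c j • b j) := by
  obtain ⟨n, b, h1, h2, h3, -, h5⟩ :=
    exists_reduced_basis_of_isDegNorm (K := K) ⟨hzero, hadd, hsmul⟩ M hbdd hrank
  exact ⟨n, b, h1, h2, h3, h5⟩

/-- The trivial direction of the orthogonality formula (valid for every family). -/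
theorem IsDegNorm.deg_sum_smul_le (h : IsDegNorm K deg) {n : ℕ} (b : Fin n → V)
    (c : Fin n → K[X]) (D : ℤ)
    (d : Fin n → ℤ) (hd : ∀ i, deg (b i) ≤ ((d i : ℤ) : WithBot ℤ))
    (hcd : ∀ i, c i ≠ 0 → ((c i).natDegree : ℤ) + d i ≤ D) :
    deg (∑ j, c j • b j) ≤ ((D : ℤ) : WithBot ℤ) := by
  refine h.sum_le _ _ _ fun i _ => ?_
  by_cases hci : c i = 0
  · rw [hci, zero_smul, h.deg_zero]
    exact bot_le
  · exact (h.smul_le (c i) (b i) (hd i)).trans (WithBot.coe_le_coe.mpr (hcd i hci))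

end Core

end Fermat.Agent.S27P.GR.NormalBasis
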