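import Mathlib
import Fermat.Agent.Lib.FF.Setting
import Fermat.Agent.Lib.FF.Holo
import Fermat.Agent.Lib.ECHeight.Pole
import Fermat.Agent.S27P.GR.NormalBasis

/-!
# S27 brick (GR-NB): the normal basis of a function field `F/K(x)`

For `h : IsFF1 K F x` (characteristic-free), with `n = [F : K(x)]`, there are `b : Fin n → F` and
`d : Fin n → ℤ` such that

* `b` is a `K[x]`-basis of `B = {f | f regular at every place where x is regular}`;
* `x ^ (-d i) * b i` is a `K[1/x]`-basis of `B' = {f | f regular at every place where 1/x is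
  regular}`.

This is `exists_normal_basis`.  It is the abstract `exists_reduced_basis` applied to the
sup-norm at infinity `deg f = max_{P ∣ ∞} ⌈-ord_P f / e_P⌉`, `e_P = -ord_P x`.
-/

set_option autoImplicit false
set_option linter.style.haveILetI false

namespace Fermat.Agent.S27P.GR.NormalBasisFF

open Polynomial AlgebraicCurve IntermediateField Fermat.Agent.Lib.FF
  Fermat.Agent.S27P.GR.NormalBasis

open scoped IntermediateField.algebraAdjoinAdjoin

noncomputable section

variable {K F : Type*} [Field K] [Field F] [Algebra K F]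

/-! ### Orders -/

/-- A lower bound for the order of a sum, junk-safe at zero summands. -/
theorem le_ord_add (P : Place K F) {f g : F} {a : ℤ} (hf : f ≠ 0 → a ≤ P.ord f)
    (hg : g ≠ 0 → a ≤ P.ord g) (hfg : f + g ≠ 0) : a ≤ P.ord (f + g) := by
  rcases eq_or_ne f 0 with rfl | hf0
  · rw [zero_add] at hfg ⊢
    exact hg hfg
  rcases eq_or_ne g 0 with rfl | hg0
  · rw [add_zero] at hfg ⊢
    exact hf hfg
  exact (le_min (hf hf0) (hg hg0)).trans (Fermat.Agent.S24.ord_add_ge P hf0 hg0 hfg)

/-- The order of a nonzero polynomial in `x` at a pole of `x`. -/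
theorem ord_aeval_of_pole (P : Place K F) {x : F} (hx : P.ord x < 0) {p : K[X]} (hp : p ≠ 0)
    (hne : aeval x p ≠ 0) : P.ord (aeval x p) = (p.natDegree : ℤ) * P.ord x := by
  have hlc : p.leadingCoeff ≠ 0 := leadingCoeff_ne_zero.mpr hp
  have hmon : (p * C p.leadingCoeff⁻¹).Monic := monic_mul_leadingCoeff_inv hp
  have h1 := Fermat.Agent.Lib.ECHeight.ord_aeval_monic P hmon hx
  have hdeg : (p * C p.leadingCoeff⁻¹).natDegree = p.natDegree :=
    natDegree_mul_C (inv_ne_zero hlc)
  rw [hdeg] at h1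
  have h2 : aeval x p = aeval x (p * C p.leadingCoeff⁻¹) * algebraMap K F p.leadingCoeff := by
    rw [map_mul, aeval_C, mul_assoc, ← map_mul, inv_mul_cancel₀ hlc, map_one, mul_one]
  have hne' : aeval x (p * C p.leadingCoeff⁻¹) ≠ 0 := by
    intro h0
    rw [h0, zero_mul] at h2
    exact hne h2
  rw [h2, P.ord_mul hne' (by simpa using hlc), Fermat.Agent.S24.ord_algebraMap, add_zero, h1]

/-! ### The `K[X]`-module structure on `F` given by `x` -/

/-- `F` as a `K[X]`-module, `X` acting as multiplication by `x`. -/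
@[reducible] def polyModule (K : Type*) {F : Type*} [Field K] [Field F] [Algebra K F] (x : F) :
    Module K[X] F :=
  Module.compHom F (Polynomial.aeval x : K[X] →ₐ[K] F).toRingHom

theorem polyModule_smul (x : F) (p : K[X]) (f : F) :
    letI := polyModule K x
    p • f = aeval x p * f := rfl

/-! ### The sup-norm at infinity -/

/-- The local degree of `f` at a pole `P` of `x`: `⌈-ord_P f / e_P⌉`, `e_P = -ord_P x`. -/
def locDeg (x : F) (P : Place K F) (f : F) : ℤ := -(P.ord f / (-P.ord x))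

open Classical in
/-- The sup-norm at infinity with respect to a nonempty finite set `S` of poles of `x`. -/
def degInf (x : F) (S : Finset (Place K F)) (hS : S.Nonempty) (f : F) : WithBot ℤ :=
  if f = 0 then ⊥ else ((S.sup' hS (fun P => locDeg x P f) : ℤ) : WithBot ℤ)

theorem degInf_zero (x : F) (S : Finset (Place K F)) (hS : S.Nonempty) :
    degInf x S hS 0 = ⊥ := if_pos rfl

theorem degInf_of_ne_zero (x : F) (S : Finset (Place K F)) (hS : S.Nonempty) {f : F}
    (hf : f ≠ 0) : degInf x S hS f = ((S.sup' hS (fun P => locDeg x P f) : ℤ) : WithBot ℤ) :=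
  if_neg hf

theorem locDeg_add_le (x : F) {P : Place K F} (hP : P.ord x < 0) {f g : F} (hf : f ≠ 0)
    (hg : g ≠ 0) (hfg : f + g ≠ 0) :
    locDeg x P (f + g) ≤ max (locDeg x P f) (locDeg x P g) := by
  have h1 := Fermat.Agent.S24.ord_add_ge P hf hg hfg
  have he : 0 < -P.ord x := by omega
  unfold locDeg
  rcases le_total (P.ord f) (P.ord g) with h2 | h2
  · have h3 : P.ord f ≤ P.ord (f + g) := by rwa [min_eq_left h2] at h1
    have h4 := Int.ediv_le_ediv he h3
    exact le_max_of_le_left (by omega)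
  · have h3 : P.ord g ≤ P.ord (f + g) := by rwa [min_eq_right h2] at h1
    have h4 := Int.ediv_le_ediv he h3
    exact le_max_of_le_right (by omega)

theorem locDeg_aeval_mul (x : F) {P : Place K F} (hP : P.ord x < 0) {p : K[X]} (hp : p ≠ 0)
    (hne : aeval x p ≠ 0) {f : F} (hf : f ≠ 0) :
    locDeg x P (aeval x p * f) = (p.natDegree : ℤ) + locDeg x P f := by
  unfold locDeg
  rw [P.ord_mul hne hf, ord_aeval_of_pole P hP hp hne]
  have he : -P.ord x ≠ 0 := by omega
  have h1 : (p.natDegree : ℤ) * P.ord x + P.ord f = P.ord f + (-(p.natDegree : ℤ)) * (-P.ord x) := by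
    ring
  rw [h1, Int.add_mul_ediv_right _ _ he]
  ring

/-- The sup-norm at infinity is a degree norm for the `K[X]`-module structure given by `x`. -/
theorem isDegNorm_degInf {x : F} (hx : Transcendental K x) (S : Finset (Place K F))
    (hS : S.Nonempty) (hpole : ∀ P ∈ S, P.ord x < 0) :
    letI := polyModule K x
    IsDegNorm K (degInf x S hS) := by
  letI := polyModule K x
  have haeval : ∀ p : K[X], p ≠ 0 → aeval x p ≠ 0 := fun p hp h0 =>
    hp ((transcendental_iff.mp hx) p h0)
  refine ⟨fun f => ?_, fun f g => ?_, fun p f hp => ?_⟩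
  · unfold degInf
    split_ifs with h0
    · simp [h0]
    · exact ⟨fun h1 => absurd h1 WithBot.coe_ne_bot, fun h1 => absurd h1 h0⟩
  · rcases eq_or_ne f 0 with rfl | hf
    · rw [zero_add]
      exact le_max_right _ _
    rcases eq_or_ne g 0 with rfl | hg
    · rw [add_zero]
      exact le_max_left _ _
    rcases eq_or_ne (f + g) 0 with hfg | hfg
    · rw [hfg, degInf_zero]
      exact bot_le
    rw [degInf_of_ne_zero x S hS hf, degInf_of_ne_zero x S hS hg, degInf_of_ne_zero x S hS hfg,
      ← WithBot.coe_max, WithBot.coe_le_coe]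
    refine Finset.sup'_le hS _ fun P hP => ?_
    refine (locDeg_add_le x (hpole P hP) hf hg hfg).trans (max_le_max ?_ ?_)
    · exact Finset.le_sup' (fun P => locDeg x P f) hP
    · exact Finset.le_sup' (fun P => locDeg x P g) hP
  · show degInf x S hS (aeval x p * f) = _
    rcases eq_or_ne f 0 with rfl | hf
    · rw [mul_zero, degInf_zero, WithBot.add_bot]
    have hne := haeval p hp
    rw [degInf_of_ne_zero x S hS hf, degInf_of_ne_zero x S hS (mul_ne_zero hne hf),
      ← WithBot.coe_add, WithBot.coe_inj]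
    apply le_antisymm
    · refine Finset.sup'_le hS _ fun P hP => ?_
      rw [locDeg_aeval_mul x (hpole P hP) hp hne hf]
      have := Finset.le_sup' (fun P => locDeg x P f) hP
      omega
    · obtain ⟨P, hP, hPeq⟩ := Finset.exists_mem_eq_sup' hS (fun P => locDeg x P f)
      rw [hPeq, ← locDeg_aeval_mul x (hpole P hP) hp hne hf]
      exact Finset.le_sup' (fun P => locDeg x P (aeval x p * f)) hP

/-! ### `K[X]`-independence versus `K(x)`-independence -/

theorem mem_adjoin_aeval (x : F) (p : K[X]) : aeval x p ∈ K⟮x⟯ :=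
  (IntermediateField.mem_adjoin_simple_iff K _).mpr ⟨p, 1, by simp⟩

/-- `K[X]`-independence (through `x`) implies `K(x)`-independence. -/
theorem linearIndependent_adjoin_of_poly {x : F} (hx : Transcendental K x) {ι : Type*}
    [Fintype ι] {w : ι → F}
    (hw : letI := polyModule K x; LinearIndependent K[X] w) : LinearIndependent K⟮x⟯ w := by
  classical
  letI := polyModule K x
  have haeval : ∀ p : K[X], p ≠ 0 → aeval x p ≠ 0 := fun p hp h0 =>
    hp ((transcendental_iff.mp hx) p h0)
  rw [Fintype.linearIndependent_iff]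
  intro a ha
  have hrep : ∀ i, ∃ p q : K[X], q ≠ 0 ∧ ((a i : K⟮x⟯) : F) * aeval x q = aeval x p := by
    intro i
    obtain ⟨r, s, hrs⟩ := (IntermediateField.mem_adjoin_simple_iff K _).mp (a i).2
    by_cases hs : s = 0
    · refine ⟨0, 1, one_ne_zero, ?_⟩
      rw [hs, map_zero, div_zero] at hrs
      rw [hrs, zero_mul, map_zero]
    · refine ⟨r, s, hs, ?_⟩
      rw [hrs, div_mul_cancel₀ _ (haeval s hs)]
  choose p q hq hpq using hrep
  have hQ : aeval x (∏ j, q j) ≠ 0 :=
    haeval _ (Finset.prod_ne_zero_iff.mpr fun j _ => hq j)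
  have hc : ∀ i, aeval x (p i * ∏ j ∈ Finset.univ.erase i, q j)
      = ((a i : K⟮x⟯) : F) * aeval x (∏ j, q j) := by
    intro i
    rw [map_mul, ← hpq i, mul_assoc, ← map_mul, Finset.mul_prod_erase _ _ (Finset.mem_univ i)]
  have ha' : ∑ i, ((a i : K⟮x⟯) : F) * w i = 0 := by
    rw [← ha]
    refine Finset.sum_congr rfl fun i _ => ?_
    rw [Algebra.smul_def, IntermediateField.algebraMap_apply]
  have hsum : ∑ i, (p i * ∏ j ∈ Finset.univ.erase i, q j) • w i = 0 := by
    show ∑ i, aeval x (p i * ∏ j ∈ Finset.univ.erase i, q j) * w i = 0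
    have h1 : ∑ i, aeval x (p i * ∏ j ∈ Finset.univ.erase i, q j) * w i
        = aeval x (∏ j, q j) * ∑ i, ((a i : K⟮x⟯) : F) * w i := by
      rw [Finset.mul_sum]
      refine Finset.sum_congr rfl fun i _ => ?_
      rw [hc i]
      ring
    rw [h1, ha', mul_zero]
  have h0 := (Fintype.linearIndependent_iff.mp hw) _ hsum
  intro i
  have h1 := hc i
  rw [h0 i, map_zero] at h1
  have h2 : ((a i : K⟮x⟯) : F) = 0 := (mul_eq_zero.mp h1.symm).resolve_right hQ
  exact Subtype.ext h2

/-! ### The ring of functions regular in the finite chart -/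

/-- `B = {f | f is regular wherever x is regular}` as a `K[X]`-submodule of `F`. -/
def finSub (K : Type*) {F : Type*} [Field K] [Field F] [Algebra K F] (x : F) :
    letI := polyModule K x
    Submodule K[X] F :=
  letI := polyModule K x
  { carrier := {f | ∀ P : Place K F, 0 ≤ P.ord x → 0 ≤ P.ord f}
    add_mem' := by
      intro f g hf hg P hP
      rcases eq_or_ne (f + g) 0 with h0 | h0
      · rw [h0, Place.ord_zero]
      · exact le_ord_add P (fun _ => hf P hP) (fun _ => hg P hP) h0
    zero_mem' := fun P _ => by rw [Place.ord_zero]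
    smul_mem' := by
      intro c f hf P hP
      show 0 ≤ P.ord (aeval x c * f)
      rcases eq_or_ne (aeval x c) 0 with h0 | h0
      · rw [h0, zero_mul, Place.ord_zero]
      rcases eq_or_ne f 0 with rfl | hf0
      · rw [mul_zero, Place.ord_zero]
      rw [P.ord_mul h0 hf0]
      have h1 := Fermat.Agent.Lib.ECHeight.ord_aeval_nonneg P c hP
      have h2 := hf P hP
      omega }

theorem mem_finSub (x : F) (f : F) :
    letI := polyModule K x
    f ∈ finSub K x ↔ ∀ P : Place K F, 0 ≤ P.ord x → 0 ≤ P.ord f := Iff.rfl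

/-- Nonzero elements of `B` have nonnegative degree at infinity. -/
theorem zero_le_degInf_of_mem {x : F} (h : IsFF1 K F x) (S : Finset (Place K F))
    (hS : S.Nonempty) (hSmem : ∀ P, P ∈ S ↔ P.ord x < 0) {f : F}
    (hf : ∀ P : Place K F, 0 ≤ P.ord x → 0 ≤ P.ord f) (hf0 : f ≠ 0) :
    ((0 : ℤ) : WithBot ℤ) ≤ degInf x S hS f := by
  rw [degInf_of_ne_zero x S hS hf0, WithBot.coe_le_coe]
  by_contra hneg
  have hlt : ∀ P ∈ S, 0 < P.ord f := by
    intro P hP
    have h1 : locDeg x P f < 0 :=
      lt_of_le_of_lt (Finset.le_sup' (fun P => locDeg x P f) hP) (not_le.mp hneg)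
    have he : 0 < -P.ord x := by
      have := (hSmem P).1 hP
      omega
    unfold locDeg at h1
    have h2 : 1 ≤ P.ord f / (-P.ord x) := by omega
    have h3 := (Int.le_ediv_iff_mul_le he).mp h2
    omega
  have hall : ∀ P : Place K F, 0 ≤ P.ord f := by
    intro P
    rcases lt_or_ge (P.ord x) 0 with hP | hP
    · exact (hlt P ((hSmem P).2 hP)).le
    · exact hf P hP
  obtain ⟨c, hc⟩ := h.const_of_ord_nonneg f hall
  obtain ⟨P₀, hP₀⟩ := hS
  have h1 := hlt P₀ hP₀
  rw [hc, Fermat.Agent.S24.ord_algebraMap] at h1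
  exact lt_irrefl _ h1

/-- Every function has a nonzero polynomial multiple in `B`. -/
theorem exists_poly_mul_mem {x : F} (h : IsFF1 K F x) (f : F) :
    ∃ q : K[X], q ≠ 0 ∧ ∀ P : Place K F, 0 ≤ P.ord x → 0 ≤ P.ord (aeval x q * f) := by
  haveI := h.finiteDimensional
  have halg : IsAlgebraic ↥(Algebra.adjoin K {x}) f := by
    have h1 : IsAlgebraic ↥(K⟮x⟯) f := (Algebra.IsAlgebraic.of_finite ↥(K⟮x⟯) F).isAlgebraic _
    exact (IsFractionRing.isAlgebraic_iff ↥(Algebra.adjoin K {x}) ↥(K⟮x⟯) F).mpr h1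
  obtain ⟨y, hy0, hy⟩ := halg.exists_integral_multiple
  obtain ⟨q, hq⟩ : ∃ q : K[X], aeval x q = (y : F) := by
    have h3 : (y : F) ∈ (Polynomial.aeval (R := K) x).range := by
      rw [← Algebra.adjoin_singleton_eq_range_aeval]
      exact y.2
    exact h3
  refine ⟨q, ?_, fun P hP => ?_⟩
  · rintro rfl
    apply hy0
    apply Subtype.ext
    rw [← hq, map_zero]
    rfl
  · have h4 : aeval x q * f = y • f := by
      rw [hq]
      rfl
    rw [h4]
    exact Holo.ord_nonneg_of_isIntegral hy P hP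

/-- **Normal basis** of a function field, with the size `n` as a variable. -/
theorem exists_normal_basis_aux {x : F} (h : IsFF1 K F x) :
    ∃ (n : ℕ) (b : Fin n → F) (d : Fin n → ℤ), n = Module.finrank K⟮x⟯ F ∧
      LinearIndependent K⟮x⟯ b ∧
      (∀ f : F, (∀ P : Place K F, 0 ≤ P.ord x → 0 ≤ P.ord f) ↔
        ∃ c : Fin n → K[X], f = ∑ i, aeval x (c i) * b i) ∧
      (∀ f : F, (∀ P : Place K F, P.ord x ≤ 0 → 0 ≤ P.ord f) ↔
        ∃ c : Fin n → K[X], f = ∑ i, aeval x⁻¹ (c i) * (x ^ (-d i) * b i)) := by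
  classical
  letI := polyModule K x
  haveI := h.finiteDimensional
  have hx := h.transcendental
  have hx0 : x ≠ 0 := by
    rintro rfl
    exact hx isAlgebraic_zero
  have haeval : ∀ p : K[X], p ≠ 0 → aeval x p ≠ 0 := fun p hp h0 =>
    hp ((transcendental_iff.mp hx) p h0)
  obtain ⟨hfin, -⟩ := h.poles_le
  obtain ⟨S, hSmem⟩ : ∃ S : Finset (Place K F), ∀ P, P ∈ S ↔ P.ord x < 0 :=
    ⟨hfin.toFinset, fun P => by rw [Set.Finite.mem_toFinset]; rfl⟩
  have hS : S.Nonempty := by
    by_contra hne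
    rw [Finset.not_nonempty_iff_eq_empty] at hne
    obtain ⟨c, hc⟩ := h.const_of_ord_nonneg x (fun P => by
      by_contra hlt
      have h1 : P ∈ S := (hSmem P).2 (not_le.mp hlt)
      rw [hne] at h1
      exact absurd h1 (Finset.notMem_empty P))
    exact hx (hc ▸ isAlgebraic_algebraMap c)
  have hnorm : IsDegNorm K (degInf x S hS) :=
    isDegNorm_degInf hx S hS (fun P hP => (hSmem P).1 hP)
  obtain ⟨n, b, hbM, hbli, hspan, -, horth⟩ := exists_reduced_basis_of_isDegNorm hnorm
    (finSub K x)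
    ⟨0, fun f hf hf0 => zero_le_degInf_of_mem h S hS hSmem hf hf0⟩
    ⟨Module.finrank K⟮x⟯ F, fun m w _ hw =>
      by simpa using (linearIndependent_adjoin_of_poly hx hw).fintype_card_le_finrank⟩
  have hbK : LinearIndependent K⟮x⟯ b := linearIndependent_adjoin_of_poly hx hbli
  have hb0 : ∀ i, b i ≠ 0 := fun i => hbK.ne_zero i
  -- the finite chart
  have hfinite : ∀ f : F, (∀ P : Place K F, 0 ≤ P.ord x → 0 ≤ P.ord f) ↔
      ∃ c : Fin n → K[X], f = ∑ i, aeval x (c i) * b i := by
    intro f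
    rw [← mem_finSub (K := K) x f, ← hspan, Submodule.mem_span_range_iff_exists_fun]
    exact ⟨fun ⟨c, hc⟩ => ⟨c, hc.symm⟩, fun ⟨c, hc⟩ => ⟨c, hc.symm⟩⟩
  -- the rank
  have hn : n = Module.finrank K⟮x⟯ F := by
    have hspanK : ⊤ ≤ Submodule.span K⟮x⟯ (Set.range b) := by
      intro f _
      obtain ⟨q, hq0, hq⟩ := exists_poly_mul_mem h f
      obtain ⟨c, hc⟩ := (hfinite _).mp hq
      have hf : f = ∑ i, (⟨aeval x (c i) / aeval x q,
          div_mem (mem_adjoin_aeval x (c i)) (mem_adjoin_aeval x q)⟩ : K⟮x⟯) • b i := by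
        have h1 : f = (aeval x q)⁻¹ * (aeval x q * f) := by
          rw [← mul_assoc, inv_mul_cancel₀ (haeval q hq0), one_mul]
        rw [h1, hc, Finset.mul_sum]
        refine Finset.sum_congr rfl fun i _ => ?_
        rw [Algebra.smul_def, IntermediateField.algebraMap_apply]
        show _ = aeval x (c i) / aeval x q * b i
        ring
      rw [hf]
      exact Submodule.sum_mem _ fun i _ =>
        Submodule.smul_mem _ _ (Submodule.subset_span ⟨i, rfl⟩)
    have h1 := Module.finrank_eq_card_basis (Module.Basis.mk hbK hspanK)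
    rw [h1]
    simp
  -- the degrees
  obtain ⟨d, hd⟩ : ∃ d : Fin n → ℤ, ∀ i, degInf x S hS (b i) = ((d i : ℤ) : WithBot ℤ) :=
    ⟨fun i => S.sup' hS (fun P => locDeg x P (b i)), fun i => degInf_of_ne_zero x S hS (hb0 i)⟩
  have hdloc : ∀ i, ∀ P ∈ S, locDeg x P (b i) ≤ d i := by
    intro i P hP
    have h1 := hd i
    rw [degInf_of_ne_zero x S hS (hb0 i), WithBot.coe_inj] at h1
    rw [← h1]
    exact Finset.le_sup' (fun P => locDeg x P (b i)) hP
  refine ⟨n, b, d, hn, hbK, hfinite, fun f => ⟨fun hf => ?_, ?_⟩⟩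
  · -- `f ∈ B'` is a `K[1/x]`-combination of the `x ^ (-d i) * b i`
    rcases eq_or_ne f 0 with rfl | hf0
    · exact ⟨fun _ => 0, by simp⟩
    obtain ⟨hzfin, -⟩ := h.zeros_le
    obtain ⟨m, hm⟩ : ∃ m : ℕ, ∀ P : Place K F, 0 < P.ord x → -P.ord f ≤ (m : ℤ) := by
      refine ⟨∑ P ∈ hzfin.toFinset, (-P.ord f).toNat, fun P hP => ?_⟩
      have h1 : (-P.ord f).toNat ≤ ∑ P ∈ hzfin.toFinset, (-P.ord f).toNat :=
        Finset.single_le_sum (f := fun P : Place K F => (-P.ord f).toNat)
          (fun _ _ => Nat.zero_le _) ((Set.Finite.mem_toFinset hzfin).2 hP)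
      have h2 : -P.ord f ≤ ((-P.ord f).toNat : ℤ) := Int.self_le_toNat _
      omega
    have hxm : x ^ m ≠ 0 := pow_ne_zero m hx0
    have hgB : ∀ P : Place K F, 0 ≤ P.ord x → 0 ≤ P.ord (x ^ m * f) := by
      intro P hP
      have h1 : P.ord (x ^ m) = (m : ℤ) * P.ord x := by
        have h2 := P.ord_zpow x (m : ℤ)
        rwa [zpow_natCast] at h2
      rw [P.ord_mul hxm hf0, h1]
      rcases hP.lt_or_eq with hpos | hzero
      · have h3 := hm P hpos
        have h4 : (m : ℤ) * 1 ≤ (m : ℤ) * P.ord x :=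
          mul_le_mul_of_nonneg_left (by omega) (Int.natCast_nonneg m)
        omega
      · rw [← hzero, mul_zero, zero_add]
        exact hf P (by omega)
    obtain ⟨c, hc⟩ := (hfinite _).mp hgB
    -- degree bookkeeping
    have hdegf : degInf x S hS f ≤ ((0 : ℤ) : WithBot ℤ) := by
      rw [degInf_of_ne_zero x S hS hf0, WithBot.coe_le_coe]
      refine Finset.sup'_le hS _ fun P hP => ?_
      have h1 : 0 ≤ P.ord f := hf P ((hSmem P).1 hP).le
      have he : 0 ≤ -P.ord x := by
        have := (hSmem P).1 hP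
        omega
      have h2 := Int.ediv_nonneg h1 he
      unfold locDeg
      omega
    have hdegg : degInf x S hS (x ^ m * f) ≤ ((m : ℤ) : WithBot ℤ) := by
      have h1 := hnorm.smul (X ^ m : K[X]) f (pow_ne_zero m X_ne_zero)
      have h2 : (X ^ m : K[X]) • f = x ^ m * f := by
        show aeval x (X ^ m : K[X]) * f = _
        rw [map_pow, aeval_X]
      rw [h2, natDegree_X_pow] at h1
      rw [h1]
      calc ((m : ℤ) : WithBot ℤ) + degInf x S hS f ≤ ((m : ℤ) : WithBot ℤ) + ((0 : ℤ) : WithBot ℤ) := by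
            gcongr
        _ = ((m : ℤ) : WithBot ℤ) := by rw [← WithBot.coe_add, add_zero]
    have hcd : ∀ i, c i ≠ 0 → ((c i).natDegree : ℤ) + d i ≤ m := by
      intro i hci
      have h1 := horth c i hci
      have h2 : ∑ j, c j • b j = x ^ m * f := hc.symm
      rw [h2, hd i, ← WithBot.coe_add] at h1
      exact WithBot.coe_le_coe.mp (h1.trans hdegg)
    -- the reflected coefficients
    have hrefl : ∀ i, ∃ c' : K[X], aeval x⁻¹ c' * (x ^ (-d i) * b i)
        = (x ^ m)⁻¹ * (aeval x (c i) * b i) := by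
      intro i
      by_cases hci : c i = 0
      · exact ⟨0, by rw [hci, map_zero, map_zero, zero_mul, zero_mul, mul_zero]⟩
      have h1 := hcd i hci
      obtain ⟨N, hN⟩ : ∃ N : ℕ, (N : ℤ) = m - d i := ⟨(m - d i).toNat, by omega⟩
      have hle : (c i).natDegree ≤ N := by omega
      refine ⟨reflect N (c i), ?_⟩
      letI : Invertible x := invertibleOfNonzero hx0
      have h2 := eval₂_reflect_mul_pow (algebraMap K F) x N (c i) hle
      rw [invOf_eq_inv] at h2
      have h3 : aeval x⁻¹ (reflect N (c i)) = aeval x (c i) * (x ^ N)⁻¹ := by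
        rw [aeval_def, aeval_def, ← h2, mul_assoc, mul_inv_cancel₀ (pow_ne_zero N hx0), mul_one]
      have h4 : x ^ (-d i) = x ^ N * (x ^ m)⁻¹ := by
        have h5 : -d i = (N : ℤ) - (m : ℤ) := by omega
        rw [h5, zpow_sub₀ hx0, zpow_natCast, zpow_natCast, div_eq_mul_inv]
      rw [h3, h4]
      field_simp
    choose c' hc' using hrefl
    refine ⟨c', ?_⟩
    have h1 : f = (x ^ m)⁻¹ * (x ^ m * f) := by
      rw [← mul_assoc, inv_mul_cancel₀ hxm, one_mul]
    rw [h1, hc, Finset.mul_sum]
    exact Finset.sum_congr rfl fun i _ => (hc' i).symm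
  · -- conversely
    rintro ⟨c, rfl⟩ P hP
    rw [← Fermat.Agent.S24.mem_iff_ord_nonneg]
    refine Subring.sum_mem _ fun i _ => ?_
    refine P.toValuationSubring.mul_mem _ _ ?_ ?_
    · rw [Fermat.Agent.S24.mem_iff_ord_nonneg]
      refine Fermat.Agent.Lib.ECHeight.ord_aeval_nonneg P (c i) ?_
      rw [P.ord_inv]
      omega
    · rw [Fermat.Agent.S24.mem_iff_ord_nonneg]
      have hz : x ^ (-d i) ≠ 0 := zpow_ne_zero _ hx0
      rw [P.ord_mul hz (hb0 i), P.ord_zpow]
      rcases hP.lt_or_eq with hneg | hzero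
      · have h1 := hdloc i P ((hSmem P).2 hneg)
        unfold locDeg at h1
        have he : 0 < -P.ord x := by omega
        have h2 : -d i ≤ P.ord (b i) / (-P.ord x) := by omega
        have h3 := (Int.le_ediv_iff_mul_le he).mp h2
        nlinarith
      · rw [hzero, mul_zero, zero_add]
        exact (mem_finSub (K := K) x (b i)).mp (hbM i) P (by omega)

/-- **(GR-NB) Normal basis of a function field.**  For `IsFF1 K F x` and `n = [F : K(x)]` there
are `b : Fin n → F`, `d : Fin n → ℤ` with: `b` is `K(x)`-linearly independent, the functions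
regular wherever `x` is regular are exactly the `K[x]`-combinations of the `b i`, and the
functions regular wherever `1/x` is regular are exactly the `K[1/x]`-combinations of the
`x ^ (-d i) * b i`. -/
theorem exists_normal_basis {x : F} (h : IsFF1 K F x) :
    ∃ (b : Fin (Module.finrank K⟮x⟯ F) → F) (d : Fin (Module.finrank K⟮x⟯ F) → ℤ),
      LinearIndependent K⟮x⟯ b ∧
      (∀ f : F, (∀ P : Place K F, 0 ≤ P.ord x → 0 ≤ P.ord f) ↔
        ∃ c : Fin (Module.finrank K⟮x⟯ F) → K[X], f = ∑ i, aeval x (c i) * b i) ∧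
      (∀ f : F, (∀ P : Place K F, P.ord x ≤ 0 → 0 ≤ P.ord f) ↔
        ∃ c : Fin (Module.finrank K⟮x⟯ F) → K[X],
          f = ∑ i, aeval x⁻¹ (c i) * (x ^ (-d i) * b i)) := by
  obtain ⟨n, b, d, rfl, h1, h2, h3⟩ := exists_normal_basis_aux h
  exact ⟨b, d, h1, h2, h3⟩

end

end Fermat.Agent.S27P.GR.NormalBasisFF
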