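import Mathlib
import Fermat.Agent.S27P.GR.Defs

/-!
# S27 / (GR), row GR-RS (first half): the chart-at-infinity basis of a realisation is independent

For a realisation `h : Real M κ E φ ψ` of a model, `Real` only says that the images `ψ (b i)` of
the basis of the finite chart are independent over `κ[X]`, `X = ψ x`.  Here we prove
`Real.indep'`: the images `ψ (b' i)` of the basis of the chart at infinity are independent over
`κ[X']`, `X' = ψ x' = X⁻¹`.

The proof is linear algebra over `E` with Laurent-polynomial entries: by `hB`, `hB'` and freeness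
of the two charts, `b' = C b` and `b = C' b'` for matrices `C, C'` whose entries are Laurent
polynomials in `X`; independence of `b` gives `C' C = 1`, hence `C C' = 1`, and a relation
`v · b' = 0` gives `v C = 0`, hence `v = 0`.

This file imports only Mathlib and `GR/Defs`, so that the files of row GR-RL may import it.
-/

set_option autoImplicit false

namespace Fermat.Agent.S27P.GR

open Polynomial

namespace RealIndep

section Laurent

variable (κ : Type*) {E : Type*} [Field κ] [Field E] [Algebra κ E]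

/-- `c` is a Laurent polynomial in `X` with coefficients in `κ`. -/
def IsLaurent (X c : E) : Prop := ∃ (N : ℕ) (p : κ[X]), X ^ N * c = aeval X p

variable {κ}

theorem isLaurent_aeval (X : E) (p : κ[X]) : IsLaurent κ X (aeval X p) :=
  ⟨0, p, by rw [pow_zero, one_mul]⟩

theorem isLaurent_zero (X : E) : IsLaurent κ X 0 := ⟨0, 0, by rw [mul_zero, map_zero]⟩

theorem isLaurent_one (X : E) : IsLaurent κ X 1 := ⟨0, 1, by rw [pow_zero, one_mul, map_one]⟩

theorem IsLaurent.add {X c d : E} (hc : IsLaurent κ X c) (hd : IsLaurent κ X d) :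
    IsLaurent κ X (c + d) := by
  obtain ⟨N, p, hp⟩ := hc
  obtain ⟨N', q, hq⟩ := hd
  refine ⟨N + N', Polynomial.X ^ N' * p + Polynomial.X ^ N * q, ?_⟩
  rw [map_add, map_mul, map_mul, map_pow, map_pow, aeval_X, ← hp, ← hq, pow_add]
  ring

theorem IsLaurent.mul {X c d : E} (hc : IsLaurent κ X c) (hd : IsLaurent κ X d) :
    IsLaurent κ X (c * d) := by
  obtain ⟨N, p, hp⟩ := hc
  obtain ⟨N', q, hq⟩ := hd
  refine ⟨N + N', p * q, ?_⟩
  rw [map_mul, ← hp, ← hq, pow_add]
  ring

theorem IsLaurent.neg {X c : E} (hc : IsLaurent κ X c) : IsLaurent κ X (-c) := by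
  obtain ⟨N, p, hp⟩ := hc
  exact ⟨N, -p, by rw [map_neg, ← hp, mul_neg]⟩

theorem IsLaurent.sub {X c d : E} (hc : IsLaurent κ X c) (hd : IsLaurent κ X d) :
    IsLaurent κ X (c - d) := by
  rw [sub_eq_add_neg]; exact hc.add hd.neg

theorem IsLaurent.sum {ι : Type*} {X : E} (s : Finset ι) (f : ι → E)
    (hf : ∀ i ∈ s, IsLaurent κ X (f i)) : IsLaurent κ X (∑ i ∈ s, f i) :=
  Finset.sum_induction f (IsLaurent κ X) (fun _ _ h h' => h.add h') (isLaurent_zero X) hf

theorem isLaurent_pow_self (X : E) (m : ℕ) : IsLaurent κ X (X ^ m) :=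
  ⟨0, Polynomial.X ^ m, by rw [pow_zero, one_mul, map_pow, aeval_X]⟩

theorem isLaurent_inv_pow {X X' : E} (hXX' : X * X' = 1) (m : ℕ) : IsLaurent κ X (X' ^ m) :=
  ⟨m, 1, by rw [← mul_pow, hXX', one_pow, map_one]⟩

theorem isLaurent_aeval_inv {X X' : E} (hXX' : X * X' = 1) (q : κ[X]) :
    IsLaurent κ X (aeval X' q) := by
  rw [aeval_eq_sum_range]
  refine IsLaurent.sum _ _ fun i _ => ?_
  rw [Algebra.smul_def]
  have h1 : IsLaurent κ X (algebraMap κ E (q.coeff i)) := by
    have h := isLaurent_aeval X (C (q.coeff i) : κ[X])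
    rwa [aeval_C] at h
  exact h1.mul (isLaurent_inv_pow hXX' i)

/-- A family which is independent over `κ[X]` is independent over the Laurent polynomials. -/
theorem eq_zero_of_isLaurent {n : ℕ} {X : E} (hX0 : X ≠ 0) (b : Fin n → E)
    (hb : ∀ p : Fin n → κ[X], ∑ i, aeval X (p i) * b i = 0 → p = 0)
    (c : Fin n → E) (hc : ∀ l, IsLaurent κ X (c l)) (h : ∑ l, c l * b l = 0) : ∀ l, c l = 0 := by
  choose N p hp using hc
  set Nt : ℕ := ∑ l, N l with hNt
  have hle : ∀ l, N l ≤ Nt := fun l =>
    Finset.single_le_sum (f := N) (fun i _ => Nat.zero_le _) (Finset.mem_univ l)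
  have hkey : ∀ l, aeval X (Polynomial.X ^ (Nt - N l) * p l) = X ^ Nt * c l := by
    intro l
    rw [map_mul, map_pow, aeval_X, ← hp l, ← mul_assoc, ← pow_add, Nat.sub_add_cancel (hle l)]
  have h0 : (fun l => Polynomial.X ^ (Nt - N l) * p l) = 0 := by
    apply hb
    have h1 : ∑ l, aeval X (Polynomial.X ^ (Nt - N l) * p l) * b l
        = X ^ Nt * ∑ l, c l * b l := by
      rw [Finset.mul_sum]
      refine Finset.sum_congr rfl fun l _ => ?_
      rw [hkey l, mul_assoc]
    rw [h1, h, mul_zero]
  intro l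
  have h2 : Polynomial.X ^ (Nt - N l) * p l = 0 := congrFun h0 l
  have h3 : p l = 0 := (mul_eq_zero.1 h2).resolve_left (pow_ne_zero _ Polynomial.X_ne_zero)
  have h4 : X ^ N l * c l = 0 := by rw [hp l, h3, map_zero]
  exact (mul_eq_zero.1 h4).resolve_left (pow_ne_zero _ hX0)

end Laurent

section Core

variable {κ E : Type*} [Field κ] [Field E] [Algebra κ E]

/-- **Independence of the basis of the chart at infinity**, field-level form: if `b` is
independent over `κ[X]` and `b`, `b'` are related by transition relations with Laurent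
coefficients in both directions, then `b'` is independent over `κ[X']`, `X' = X⁻¹`. -/
theorem indep_of_transition {n : ℕ} {X X' : E} (hXX' : X * X' = 1) (hX : Transcendental κ X)
    (b b' : Fin n → E)
    (hb : ∀ p : Fin n → κ[X], ∑ i, aeval X (p i) * b i = 0 → p = 0)
    (hI : ∀ i, ∃ (m : ℕ) (q : Fin n → κ[X]), X ^ m * b' i = ∑ j, aeval X (q j) * b j)
    (hII : ∀ j, ∃ (m : ℕ) (q : Fin n → κ[X]), X' ^ m * b j = ∑ i, aeval X' (q i) * b' i) :
    ∀ p : Fin n → κ[X], ∑ i, aeval X' (p i) * b' i = 0 → p = 0 := by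
  classical
  have hX0 : X ≠ 0 := left_ne_zero_of_mul_eq_one hXX'
  have hX'X : X' * X = 1 := by rw [mul_comm]; exact hXX'
  have hX'inv : X' = X⁻¹ := eq_inv_of_mul_eq_one_right hXX'
  choose mI qI hI using hI
  choose mII qII hII using hII
  set Cm : Matrix (Fin n) (Fin n) E := fun i j => X' ^ mI i * aeval X (qI i j) with hCm
  set Cm' : Matrix (Fin n) (Fin n) E := fun j i => X ^ mII j * aeval X' (qII j i) with hCm'
  have hC : ∀ i, b' i = ∑ j, Cm i j * b j := by
    intro i
    have h1 : b' i = X' ^ mI i * (X ^ mI i * b' i) := by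
      rw [← mul_assoc, ← mul_pow, hX'X, one_pow, one_mul]
    rw [h1, hI i, Finset.mul_sum]
    refine Finset.sum_congr rfl fun j _ => ?_
    rw [hCm, mul_assoc]
  have hC' : ∀ j, b j = ∑ i, Cm' j i * b' i := by
    intro j
    have h1 : b j = X ^ mII j * (X' ^ mII j * b j) := by
      rw [← mul_assoc, ← mul_pow, hXX', one_pow, one_mul]
    rw [h1, hII j, Finset.mul_sum]
    refine Finset.sum_congr rfl fun i _ => ?_
    rw [hCm', mul_assoc]
  have hCL : ∀ i j, IsLaurent κ X (Cm i j) := fun i j =>
    (isLaurent_inv_pow hXX' (mI i)).mul (isLaurent_aeval X (qI i j))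
  have hCL' : ∀ j i, IsLaurent κ X (Cm' j i) := fun j i =>
    (isLaurent_pow_self X (mII j)).mul (isLaurent_aeval_inv hXX' (qII j i))
  -- `C' * C = 1`
  have h1 : Cm' * Cm = 1 := by
    ext j l
    have hz := eq_zero_of_isLaurent hX0 b hb (fun l => (Cm' * Cm) j l - (1 : Matrix _ _ E) j l)
      (fun l => by
        refine IsLaurent.sub ?_ ?_
        · rw [Matrix.mul_apply]
          exact IsLaurent.sum _ _ fun i _ => (hCL' j i).mul (hCL i l)
        · rw [Matrix.one_apply]
          split_ifs
          · exact isLaurent_one X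
          · exact isLaurent_zero X)
      (by
        have e1 : ∑ l, ((Cm' * Cm) j l - (1 : Matrix _ _ E) j l) * b l
            = ∑ l, (Cm' * Cm) j l * b l - ∑ l, (1 : Matrix _ _ E) j l * b l := by
          rw [← Finset.sum_sub_distrib]
          exact Finset.sum_congr rfl fun l _ => sub_mul _ _ _
        have e2 : ∑ l, (1 : Matrix _ _ E) j l * b l = b j := by
          simp [Matrix.one_apply]
        have e3 : ∑ l, (Cm' * Cm) j l * b l = b j := by
          have e4 : ∑ l, (Cm' * Cm) j l * b l = ∑ i, Cm' j i * ∑ l, Cm i l * b l := by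
            simp only [Matrix.mul_apply, Finset.sum_mul, Finset.mul_sum]
            rw [Finset.sum_comm]
            refine Finset.sum_congr rfl fun i _ => Finset.sum_congr rfl fun l _ => ?_
            rw [mul_assoc]
          rw [e4, hC' j]
          exact Finset.sum_congr rfl fun i _ => by rw [← hC i]
        rw [e1, e2, e3, sub_self]) l
    exact sub_eq_zero.1 hz
  have h2 : Cm * Cm' = 1 := (Matrix.mul_eq_one_comm_of_card_eq (Fin n) (Fin n) E rfl).mp h1
  -- the relation
  intro p hp
  set v : Fin n → E := fun i => aeval X' (p i) with hv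
  have hvC : Matrix.vecMul v Cm = 0 := by
    funext l
    have hz := eq_zero_of_isLaurent hX0 b hb (fun l => Matrix.vecMul v Cm l)
      (fun l => by
        show IsLaurent κ X (∑ i, v i * Cm i l)
        exact IsLaurent.sum _ _ fun i _ => (isLaurent_aeval_inv hXX' (p i)).mul (hCL i l))
      (by
        have e4 : ∑ l, Matrix.vecMul v Cm l * b l = ∑ i, v i * ∑ l, Cm i l * b l := by
          simp only [Matrix.vecMul, dotProduct, Finset.sum_mul, Finset.mul_sum]
          rw [Finset.sum_comm]
          refine Finset.sum_congr rfl fun i _ => Finset.sum_congr rfl fun l _ => ?_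
          rw [mul_assoc]
        rw [e4, ← hp]
        exact Finset.sum_congr rfl fun i _ => by rw [← hC i]) l
    exact hz
  have hv0 : v = 0 := by
    have h3 : Matrix.vecMul (Matrix.vecMul v Cm) Cm' = v := by
      rw [Matrix.vecMul_vecMul, h2, Matrix.vecMul_one]
    rw [← h3, hvC, Matrix.zero_vecMul]
  have hX' : Transcendental κ X' := by
    intro halg
    apply hX
    have h4 := halg.inv
    rwa [hX'inv, inv_inv] at h4
  funext i
  exact (transcendental_iff.1 hX') (p i) (congrFun hv0 i)

end Core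

section Chart

variable {Λ U : Type*} [CommRing Λ] [CommRing U] [Algebra Λ U]
variable {κ E : Type*} [Field κ] [Field E] [Algebra κ E]

/-- Evaluation of a polynomial in a chart ring, pushed to the field `E`. -/
theorem psi_aeval (B : Subalgebra Λ U) (z : U) (hz : z ∈ B) {φ : Λ →+* κ} {ψ : U →+* E}
    (hcompat : ∀ a : Λ, ψ (algebraMap Λ U a) = algebraMap κ E (φ a)) (p : Λ[X]) :
    ψ ((aeval (⟨z, hz⟩ : B) p : B) : U) = aeval (ψ z) (p.map φ) := by
  induction p using Polynomial.induction_on' with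
  | add p q hp hq =>
    rw [map_add, Subalgebra.coe_add, map_add, hp, hq, Polynomial.map_add, map_add]
  | monomial m a =>
    rw [aeval_monomial, Polynomial.map_monomial, aeval_monomial]
    show ψ (algebraMap Λ U a * z ^ m) = _
    rw [map_mul, map_pow, hcompat]

/-- The image in `E` of an element of a free chart ring `B = ⊕ Λ[z] b_i` is a `κ[ψ z]`-combination
of the images of the basis. -/
theorem exists_eq_sum (B : Subalgebra Λ U) (z : U) (hz : z ∈ B) {n : ℕ} (b : Fin n → B)
    (hfree : ∀ f : B, ∃! p : Fin n → Λ[X], f = ∑ i, aeval (⟨z, hz⟩ : B) (p i) * b i)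
    {φ : Λ →+* κ} {ψ : U →+* E}
    (hcompat : ∀ a : Λ, ψ (algebraMap Λ U a) = algebraMap κ E (φ a)) (u : U) (hu : u ∈ B) :
    ∃ p : Fin n → κ[X], ψ u = ∑ j, aeval (ψ z) (p j) * ψ (b j : U) := by
  obtain ⟨p, hp, -⟩ := hfree ⟨u, hu⟩
  refine ⟨fun j => (p j).map φ, ?_⟩
  have h1 : u = ∑ i, ((aeval (⟨z, hz⟩ : B) (p i) : B) : U) * (b i : U) := by
    have h2 := congrArg (Subtype.val : B → U) hp
    rw [AddSubmonoidClass.coe_finsetSum] at h2
    exact h2
  conv_lhs => rw [h1]
  rw [map_sum]
  refine Finset.sum_congr rfl fun j _ => ?_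
  rw [map_mul, psi_aeval B z hz hcompat]

end Chart

end RealIndep

section Main

variable {Λ U : Type*} [CommRing Λ] [CommRing U] [Algebra Λ U] {n : ℕ} {M : Model Λ U n}
  {κ E : Type*} [Field κ] [Field E] [Algebra κ E] {φ : Λ →+* κ} {ψ : U →+* E}

/-- **GR-RS, `Real.indep'`**: in a realisation of a model, the images of the basis `b'` of the
chart at infinity are independent over `κ[X']`, `X' = ψ x'`. -/
theorem Real.indep' (h : Real M κ E φ ψ) :
    ∀ p : Fin n → κ[X], ∑ i, aeval (ψ M.x') (p i) * ψ (M.b' i : U) = 0 → p = 0 := by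
  have hXX' : ψ M.x * ψ M.x' = 1 := by rw [← map_mul, M.hxx', map_one]
  refine RealIndep.indep_of_transition hXX' h.trans (fun i => ψ (M.b i : U))
    (fun i => ψ (M.b' i : U)) h.indep ?_ ?_
  · intro i
    obtain ⟨m, hm⟩ := M.hB (M.b' i : U)
    obtain ⟨q, hq⟩ := RealIndep.exists_eq_sum M.B M.x M.hx M.b M.cert.free h.compat _ hm
    exact ⟨m, q, by rw [← hq, map_mul, map_pow]⟩
  · intro j
    obtain ⟨m, hm⟩ := M.hB' (M.b j : U)
    obtain ⟨q, hq⟩ := RealIndep.exists_eq_sum M.B' M.x' M.hx' M.b' M.cert'.free h.compat _ hm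
    exact ⟨m, q, by rw [← hq, map_mul, map_pow]⟩

/-- The transition relations of a realisation, chart at infinity in terms of the finite chart. -/
theorem Real.exists_transition (h : Real M κ E φ ψ) (i : Fin n) :
    ∃ (m : ℕ) (q : Fin n → κ[X]),
      ψ M.x ^ m * ψ (M.b' i : U) = ∑ j, aeval (ψ M.x) (q j) * ψ (M.b j : U) := by
  obtain ⟨m, hm⟩ := M.hB (M.b' i : U)
  obtain ⟨q, hq⟩ := RealIndep.exists_eq_sum M.B M.x M.hx M.b M.cert.free h.compat _ hm
  exact ⟨m, q, by rw [← hq, map_mul, map_pow]⟩

/-- The transition relations of a realisation, finite chart in terms of the chart at infinity. -/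
theorem Real.exists_transition' (h : Real M κ E φ ψ) (j : Fin n) :
    ∃ (m : ℕ) (q : Fin n → κ[X]),
      ψ M.x' ^ m * ψ (M.b j : U) = ∑ i, aeval (ψ M.x') (q i) * ψ (M.b' i : U) := by
  obtain ⟨m, hm⟩ := M.hB' (M.b j : U)
  obtain ⟨q, hq⟩ := RealIndep.exists_eq_sum M.B' M.x' M.hx' M.b' M.cert'.free h.compat _ hm
  exact ⟨m, q, by rw [← hq, map_mul, map_pow]⟩

end Main

end Fermat.Agent.S27P.GR
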