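/-
S27 / (GR), brick GR-SPEC, the GLOBAL step (helper14).

`spec_of_chartIneq`: the field `spec` of `Lib.Red.OneStep.IsRed` (`r_* div(u) = div(red u)` for
all units `u` of the Gauss ring `O`) from the two CHART INEQUALITIES

  `Σ_{P ↦ Q} ord_P(a) ≤ ord_Q(red a)`,   `a` regular on the tube of `Q`,

for `a` in the model ring `M₁` of the finite chart (`Q` with `ord_Q(red x) ≥ 0`) and in the model
ring `M₂` of the chart at infinity (`Q` a pole of `red x`), by a degree count: both `div(a)` and
`div(red a)` have degree `0`, and the pole degree of `red x` is at most the pole degree of `x`.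
No norms, no Hensel.  The chart inequality itself is `GR/IdealRed.red_mem_prod` (ideal reduction).
-/
import Mathlib
import Fermat.Agent.Lib.Red.OneStepGlue

set_option autoImplicit false
set_option linter.unusedSectionVars false

namespace Fermat.Agent.S27P.GR.SpecGlobal

open AlgebraicCurve Fermat.Agent.Lib.Red.OneStep Fermat.Agent.Lib.Red.OneStepGlue
open Fermat.Agent.Lib.FF

section Basic

variable {L F : Type*} [Field L] [Field F] [Algebra L F] [HasPrincipalDivisors L F]

theorem degree_pdiv (f : F) : Divisor.degree (pdiv L f) = 0 := by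
  unfold pdiv
  split_ifs with hf
  · simp
  · exact (HasPrincipalDivisors.exists_divisor (K := L) f hf).choose_spec.2

theorem pdiv_mul {f g : F} (hf : f ≠ 0) (hg : g ≠ 0) :
    pdiv L (f * g) = pdiv L f + pdiv L g := by
  ext P
  rw [Finsupp.add_apply, pdiv_apply, pdiv_apply, pdiv_apply, P.ord_mul hf hg]

theorem pdiv_inv (f : F) : pdiv L f⁻¹ = - pdiv L f := by
  ext P
  rw [Finsupp.neg_apply, pdiv_apply, pdiv_apply, P.ord_inv]

theorem pdiv_pow (f : F) (n : ℕ) : pdiv L (f ^ n) = n • pdiv L f := by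
  ext P
  rw [Finsupp.smul_apply, pdiv_apply, pdiv_apply, ord_npow, nsmul_eq_mul]

theorem eq_pdiv {f : F} {D : Divisor L F} (hD : ∀ P, D P = P.ord f) : D = pdiv L f := by
  ext P
  rw [hD, pdiv_apply]

end Basic

section Push

variable {α β : Type*}

/-- Two finitely supported functions which agree on the fibre of `Q` have the same push-forward
at `Q`. -/
theorem mapDomain_congr_fibre (r : α → β) (D D' : α →₀ ℤ) (Q : β)
    (h : ∀ P, r P = Q → D P = D' P) :
    Finsupp.mapDomain r D Q = Finsupp.mapDomain r D' Q := by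
  classical
  have h0 : Finsupp.mapDomain r (D - D') Q = 0 := by
    rw [mapDomain_apply_eq_sum]
    refine Finset.sum_eq_zero fun P hP => ?_
    have := h P (Finset.mem_filter.1 hP).2
    rw [Finsupp.sub_apply, this, sub_self]
  have h1 : D = D' + (D - D') := by abel
  rw [h1, Finsupp.mapDomain_add, Finsupp.add_apply, h0, add_zero]

end Push

variable {L F k Ft : Type*} [Field L] [Field F] [Algebra L F] [Field k] [Field Ft] [Algebra k Ft]
variable {O : ValuationSubring F}

theorem degree_mapDomain (r : Place L F → Place k Ft) (hL : ∀ P : Place L F, P.deg = 1)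
    (hk : ∀ Q : Place k Ft, Q.deg = 1) (D : Divisor L F) :
    Divisor.degree (Finsupp.mapDomain r D) = Divisor.degree D := by
  induction D using Finsupp.induction with
  | zero => simp
  | single_add P n D _ _ ih =>
    rw [Finsupp.mapDomain_add, map_add, map_add, ih, Finsupp.mapDomain_single,
      Divisor.degree_single, Divisor.degree_single, hL, hk]

/-- **The chart inequality** for `a : O` over a set `V` of places of the special fibre: `red a ≠ 0`,
`a` is regular on the tube of every `Q ∈ V`, and the zeros of `a` in the tube of `Q`, counted with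
multiplicity, are at most `ord_Q (red a)`. -/
def ChartIneq (red : O →+* Ft) (r : Place L F → Place k Ft) (V : Set (Place k Ft)) (a : O) :
    Prop :=
  red a ≠ 0 ∧ ∀ Q ∈ V, (∀ P, r P = Q → 0 ≤ P.ord (a : F)) ∧
    ∀ D : Divisor L F, (∀ P, D P = P.ord (a : F)) → Finsupp.mapDomain r D Q ≤ Q.ord (red a)

theorem coe_ne_zero_of_red_ne_zero {red : O →+* Ft} {a : O} (ha : red a ≠ 0) : (a : F) ≠ 0 := by
  intro h
  apply ha
  have : a = 0 := Subtype.ext h
  rw [this, map_zero]

/-- **`IsRed.spec` from the two chart inequalities and the pole degrees.** -/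
theorem spec_of_chartIneq (red : O →+* Ft) (r : Place L F → Place k Ft)
    (x : Oˣ) (hF : IsFF1 L F ((x : O) : F)) (hFt : IsFF1 k Ft (red (x : O)))
    (hdeg : Divisor.degree hFt.poleDiv ≤ Divisor.degree hF.poleDiv)
    (M₁ M₂ : Set O)
    (h₁ : ∀ a ∈ M₁, ChartIneq red r {Q | 0 ≤ Q.ord (red (x : O))} a)
    (h₂ : ∀ a ∈ M₂, ChartIneq red r {Q | Q.ord (red (x : O)) < 0} a)
    (hx₁ : (x : O) ∈ M₁) (hx₂ : ((x⁻¹ : Oˣ) : O) ∈ M₂)
    (hsw : ∀ a ∈ M₁, ∃ N : ℕ, a * ((x⁻¹ : Oˣ) : O) ^ N ∈ M₂)
    (hfrac : ∀ u : Oˣ, ∃ a ∈ M₁, ∃ b ∈ M₁, (u : O) * b = a)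
    (u : Oˣ) (D : Divisor L F) (hD : ∀ P, D P = P.ord ((u : O) : F)) (Q : Place k Ft) :
    Finsupp.mapDomain r D Q = Q.ord (red u) := by
  classical
  have := hF.hasPrincipalDivisors
  have := hFt.hasPrincipalDivisors
  have hL : ∀ P : Place L F, P.deg = 1 := hF.deg_eq_one
  have hk : ∀ Q : Place k Ft, Q.deg = 1 := hFt.deg_eq_one
  have hkpos : ∀ Q : Place k Ft, 0 < Q.deg := fun Q => by rw [hk]; exact Nat.one_pos
  set xF : F := ((x : O) : F) with hxF
  set xb : Ft := red (x : O) with hxb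
  have hxF0 : xF ≠ 0 := coe_unit_ne_zero x
  have hxb0 : xb ≠ 0 := (x.isUnit.map red).ne_zero
  have hinvF : (((x⁻¹ : Oˣ) : O) : F) = xF⁻¹ := coe_units_inv x
  have hinvb : red ((x⁻¹ : Oˣ) : O) = xb⁻¹ := by
    have h1 : red ((x⁻¹ : Oˣ) : O) * xb = 1 := by
      rw [hxb, ← map_mul, ← Units.val_mul, inv_mul_cancel, Units.val_one, map_one]
    exact eq_inv_of_mul_eq_one_left h1
  have hx1 : ∀ Q : Place k Ft, 0 ≤ Q.ord xb → (∀ P, r P = Q → 0 ≤ P.ord xF) ∧
      ∀ D : Divisor L F, (∀ P, D P = P.ord xF) → Finsupp.mapDomain r D Q ≤ Q.ord xb :=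
    (h₁ _ hx₁).2
  have hx2 : ∀ Q : Place k Ft, Q.ord xb < 0 →
      (∀ P, r P = Q → 0 ≤ P.ord (((x⁻¹ : Oˣ) : O) : F)) ∧
      ∀ D : Divisor L F, (∀ P, D P = P.ord (((x⁻¹ : Oˣ) : O) : F)) →
        Finsupp.mapDomain r D Q ≤ Q.ord (red ((x⁻¹ : Oˣ) : O)) :=
    (h₂ _ hx₂).2
  -- (A) the push-forward of the pole divisor of `x` is at most the pole divisor of `red x`
  have hA : ∀ Q : Place k Ft, (Finsupp.mapDomain r hF.poleDiv - hFt.poleDiv) Q ≤ 0 := by
    intro Q
    rw [Finsupp.sub_apply, IsFF1.poleDiv_apply]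
    by_cases hQ : 0 ≤ Q.ord xb
    · have h0 : Finsupp.mapDomain r hF.poleDiv Q = 0 := by
        rw [mapDomain_congr_fibre r hF.poleDiv 0 Q, Finsupp.mapDomain_zero, Finsupp.zero_apply]
        intro P hP
        have := (hx1 Q hQ).1 P hP
        rw [IsFF1.poleDiv_apply, Finsupp.zero_apply]
        exact max_eq_right (by omega)
      rw [h0, max_eq_right (by omega)]
      omega
    · rw [not_le] at hQ
      have h0 : Finsupp.mapDomain r hF.poleDiv Q = Finsupp.mapDomain r (pdiv L xF⁻¹) Q := by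
        apply mapDomain_congr_fibre
        intro P hP
        have := (hx2 Q hQ).1 P hP
        rw [hinvF, P.ord_inv] at this
        rw [IsFF1.poleDiv_apply, pdiv_apply, P.ord_inv]
        exact max_eq_left (by omega)
      have h1 := (hx2 Q hQ).2 (pdiv L xF⁻¹) (fun P => by rw [pdiv_apply, hinvF])
      rw [hinvb, Q.ord_inv] at h1
      rw [h0, max_eq_left (by omega)]
      omega
  -- (B) hence equality
  have hB : Finsupp.mapDomain r hF.poleDiv = hFt.poleDiv := by
    have hneg : -(Finsupp.mapDomain r hF.poleDiv - hFt.poleDiv) = 0 := by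
      apply eq_zero_of_nonneg_of_degree_le _ hkpos
      · intro Q
        rw [Finsupp.neg_apply]
        have := hA Q
        omega
      · rw [map_neg, map_sub, degree_mapDomain r hL hk]
        omega
    have := neg_eq_zero.mp hneg
    exact sub_eq_zero.mp this
  -- (C) `spec` for `x⁻¹` at the poles of `red x`
  have hC : ∀ Q : Place k Ft, Q.ord xb < 0 →
      Finsupp.mapDomain r (pdiv L xF⁻¹) Q = - Q.ord xb := by
    intro Q hQ
    have h0 : Finsupp.mapDomain r hF.poleDiv Q = Finsupp.mapDomain r (pdiv L xF⁻¹) Q := by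
      apply mapDomain_congr_fibre
      intro P hP
      have := (hx2 Q hQ).1 P hP
      rw [hinvF, P.ord_inv] at this
      rw [IsFF1.poleDiv_apply, pdiv_apply, P.ord_inv]
      exact max_eq_left (by omega)
    rw [← h0, hB, IsFF1.poleDiv_apply]
    exact max_eq_left (by omega)
  -- (D) `spec` for the elements of `M₁`
  have hD1 : ∀ a ∈ M₁, ∀ Q : Place k Ft,
      Finsupp.mapDomain r (pdiv L (a : F)) Q = Q.ord (red a) := by
    intro a ha
    obtain ⟨hra, ha1⟩ := h₁ a ha
    have haF : (a : F) ≠ 0 := coe_ne_zero_of_red_ne_zero hra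
    have hle : ∀ Q : Place k Ft, Finsupp.mapDomain r (pdiv L (a : F)) Q ≤ Q.ord (red a) := by
      intro Q
      by_cases hQ : 0 ≤ Q.ord xb
      · exact (ha1 Q hQ).2 _ (fun P => pdiv_apply _ P)
      · rw [not_le] at hQ
        obtain ⟨N, hN⟩ := hsw a ha
        obtain ⟨hra', ha2⟩ := h₂ _ hN
        have hcoe : ((a * ((x⁻¹ : Oˣ) : O) ^ N : O) : F) = (a : F) * xF⁻¹ ^ N := by
          push_cast
          rw [hinvF]
        have hred : red (a * ((x⁻¹ : Oˣ) : O) ^ N) = red a * xb⁻¹ ^ N := by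
          rw [map_mul, map_pow, hinvb]
        have hpd : pdiv L ((a : F) * xF⁻¹ ^ N) = pdiv L (a : F) + N • pdiv L xF⁻¹ := by
          rw [pdiv_mul haF (pow_ne_zero _ (inv_ne_zero hxF0)), pdiv_pow]
        have h3 := (ha2 Q hQ).2 (pdiv L ((a : F) * xF⁻¹ ^ N))
          (fun P => by rw [pdiv_apply, hcoe])
        rw [hpd, Finsupp.mapDomain_add, Finsupp.add_apply, Finsupp.mapDomain_smul,
          Finsupp.smul_apply, hC Q hQ, hred,
          Q.ord_mul hra (pow_ne_zero _ (inv_ne_zero hxb0)), ord_npow, Q.ord_inv,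
          nsmul_eq_mul] at h3
        linarith
    have hE : pdiv k (red a) - Finsupp.mapDomain r (pdiv L (a : F)) = 0 := by
      apply eq_zero_of_nonneg_of_degree_le _ hkpos
      · intro Q
        rw [Finsupp.sub_apply, pdiv_apply]
        have := hle Q
        omega
      · rw [map_sub, degree_mapDomain r hL hk, degree_pdiv, degree_pdiv]
        omega
    intro Q
    have := congrArg (fun E : Divisor k Ft => E Q) hE
    simp only [Finsupp.sub_apply, Finsupp.zero_apply, pdiv_apply] at this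
    omega
  -- (E) units
  obtain ⟨a, ha, b, hb, hab⟩ := hfrac u
  have hra := (h₁ a ha).1
  have hrb := (h₁ b hb).1
  have haF : (a : F) ≠ 0 := coe_ne_zero_of_red_ne_zero hra
  have hbF : (b : F) ≠ 0 := coe_ne_zero_of_red_ne_zero hrb
  have huF : ((u : O) : F) ≠ 0 := coe_unit_ne_zero u
  have hcoe : (a : F) = ((u : O) : F) * (b : F) := by
    rw [← hab]
    push_cast
    rfl
  have hred : red a = red u * red b := by rw [← hab, map_mul]
  have h1 := hD1 a ha Q
  have h2 := hD1 b hb Q
  rw [hcoe, pdiv_mul huF hbF, Finsupp.mapDomain_add, Finsupp.add_apply, hred,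
    Q.ord_mul (u.isUnit.map red).ne_zero hrb] at h1
  rw [eq_pdiv hD]
  omega

end Fermat.Agent.S27P.GR.SpecGlobal
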