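import Mathlib
import Fermat.Agent.S27P.GR.Defs

/-!
# S27 / (GR), row GR-E3: spreading out

A chart certificate `ChartCert K C z β` over a field `K` involves finitely many elements of `C`,
hence finitely many coefficients in `K`.  For every subring `Λ ⊆ K` containing them, the
`Λ[z]`-lattice `latSub` spanned by `β` is a `Λ`-subalgebra of `R` carrying the same certificate
over `Λ` (`exists_finset_chartCert`, `exists_finset_localCert`).  Two charts inside a function
field `F/K` then give a `Model Λ U n` with its tautological realisation (`exists_model_of_certs`).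
-/

set_option autoImplicit false

noncomputable section

namespace Fermat.Agent.S27P.GR.Spread

open Polynomial Fermat.Agent.S27P.GR

/-! ### Polynomials with coefficients in a subring -/

section PolyIn

variable {K : Type*} [CommRing K]

/-- All coefficients of `p` lie in the subring `Λ`. -/
def PolyIn (Λ : Subring K) (p : K[X]) : Prop := ∀ m, p.coeff m ∈ Λ

theorem polyIn_zero (Λ : Subring K) : PolyIn Λ (0 : K[X]) := fun m => by
  rw [coeff_zero]; exact Λ.zero_mem

theorem polyIn_one (Λ : Subring K) : PolyIn Λ (1 : K[X]) := fun m => by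
  rw [coeff_one]; split_ifs
  · exact Λ.one_mem
  · exact Λ.zero_mem

theorem polyIn_X (Λ : Subring K) : PolyIn Λ (X : K[X]) := fun m => by
  rw [coeff_X]; split_ifs
  · exact Λ.one_mem
  · exact Λ.zero_mem

theorem polyIn_C {Λ : Subring K} {c : K} (hc : c ∈ Λ) : PolyIn Λ (C c) := fun m => by
  rw [coeff_C]; split_ifs
  · exact hc
  · exact Λ.zero_mem

theorem PolyIn.add {Λ : Subring K} {p q : K[X]} (hp : PolyIn Λ p) (hq : PolyIn Λ q) :
    PolyIn Λ (p + q) := fun m => by
  rw [coeff_add]; exact Λ.add_mem (hp m) (hq m)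

theorem PolyIn.mul {Λ : Subring K} {p q : K[X]} (hp : PolyIn Λ p) (hq : PolyIn Λ q) :
    PolyIn Λ (p * q) := fun m => by
  rw [coeff_mul]
  exact Λ.sum_mem fun x _ => Λ.mul_mem (hp _) (hq _)

theorem polyIn_sum {Λ : Subring K} {ι : Type*} (s : Finset ι) (p : ι → K[X])
    (h : ∀ a ∈ s, PolyIn Λ (p a)) : PolyIn Λ (∑ a ∈ s, p a) := fun m => by
  rw [finsetSum_coeff]
  exact Λ.sum_mem fun a ha => h a ha m

theorem polyIn_of_coeffs_subset {Λ : Subring K} {p : K[X]} (h : (p.coeffs : Set K) ⊆ Λ) :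
    PolyIn Λ p := fun m => by
  by_cases h0 : p.coeff m = 0
  · rw [h0]; exact Λ.zero_mem
  · exact h (Finset.mem_coe.mpr (coeff_mem_coeffs h0))

theorem PolyIn.coeffs_subset {Λ : Subring K} {p : K[X]} (h : PolyIn Λ p) :
    (p.coeffs : Set K) ⊆ Λ := by
  intro c hc
  rw [Finset.mem_coe, mem_coeffs_iff] at hc
  obtain ⟨m, -, rfl⟩ := hc
  exact h m

end PolyIn

/-! ### Coordinates in a free chart -/

section Chart

variable {K : Type*} [Field K] {R : Type*} [CommRing R] [Algebra K R] {z : R} {n : ℕ}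
  {β : Fin n → R} (hfree : ∀ f : R, ∃! p : Fin n → K[X], f = ∑ i, aeval z (p i) * β i)

/-- The coordinates of `f` in the `K[z]`-basis `β`. -/
def coord (f : R) : Fin n → K[X] := (hfree f).choose

theorem coord_spec (f : R) : f = ∑ i, aeval z (coord hfree f i) * β i :=
  (hfree f).choose_spec.1

theorem coord_unique {f : R} {p : Fin n → K[X]} (hp : f = ∑ i, aeval z (p i) * β i) :
    coord hfree f = p :=
  ((hfree f).choose_spec.2 p hp).symm

theorem coord_add (f g : R) : coord hfree (f + g) = coord hfree f + coord hfree g := by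
  apply coord_unique
  conv_lhs => rw [coord_spec hfree f, coord_spec hfree g]
  rw [← Finset.sum_add_distrib]
  refine Finset.sum_congr rfl fun i _ => ?_
  simp only [Pi.add_apply, map_add]
  ring

theorem coord_zero : coord hfree 0 = 0 := by
  apply coord_unique
  simp

theorem coord_sum {ι : Type*} (s : Finset ι) (f : ι → R) :
    coord hfree (∑ a ∈ s, f a) = ∑ a ∈ s, coord hfree (f a) := by
  classical
  induction s using Finset.induction_on with
  | empty => simp [coord_zero]
  | insert a s ha ih => rw [Finset.sum_insert ha, Finset.sum_insert ha, coord_add, ih]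

theorem coord_aeval_mul (q : K[X]) (f : R) :
    coord hfree (aeval z q * f) = fun i => q * coord hfree f i := by
  apply coord_unique
  conv_lhs => rw [coord_spec hfree f]
  rw [Finset.mul_sum]
  refine Finset.sum_congr rfl fun i _ => ?_
  rw [map_mul]
  ring

theorem coord_basis (j : Fin n) : coord hfree (β j) = Pi.single j 1 := by
  classical
  apply coord_unique
  rw [Finset.sum_eq_single j]
  · simp
  · intro i _ hij
    simp [hij]
  · intro h
    exact absurd (Finset.mem_univ j) h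

theorem coord_mul (f g : R) :
    coord hfree (f * g) = fun l => ∑ i, ∑ j,
      coord hfree f i * coord hfree g j * coord hfree (β i * β j) l := by
  have h : f * g = ∑ i, ∑ j,
      aeval z (coord hfree f i * coord hfree g j) * (β i * β j) := by
    conv_lhs => rw [coord_spec hfree f, coord_spec hfree g]
    rw [Finset.sum_mul_sum]
    refine Finset.sum_congr rfl fun i _ => Finset.sum_congr rfl fun j _ => ?_
    rw [map_mul]
    ring
  rw [h, coord_sum]
  funext l
  rw [Finset.sum_apply]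
  refine Finset.sum_congr rfl fun i _ => ?_
  rw [coord_sum, Finset.sum_apply]
  refine Finset.sum_congr rfl fun j _ => ?_
  rw [coord_aeval_mul]

/-- `f` lies in the `Λ[z]`-lattice spanned by `β`. -/
def IsLat (Λ : Subring K) (f : R) : Prop := ∀ i, PolyIn Λ (coord hfree f i)

theorem isLat_zero (Λ : Subring K) : IsLat hfree Λ 0 := fun i => by
  rw [coord_zero]; exact polyIn_zero Λ

theorem IsLat.add {Λ : Subring K} {f g : R} (hf : IsLat hfree Λ f) (hg : IsLat hfree Λ g) :
    IsLat hfree Λ (f + g) := fun i => by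
  rw [coord_add]; exact (hf i).add (hg i)

theorem isLat_basis (Λ : Subring K) (j : Fin n) : IsLat hfree Λ (β j) := fun i => by
  classical
  rw [coord_basis, Pi.single_apply]
  split_ifs
  · exact polyIn_one Λ
  · exact polyIn_zero Λ

theorem IsLat.aeval_mul {Λ : Subring K} {q : K[X]} (hq : PolyIn Λ q) {f : R}
    (hf : IsLat hfree Λ f) : IsLat hfree Λ (aeval z q * f) := fun i => by
  rw [coord_aeval_mul]; exact hq.mul (hf i)

theorem IsLat.mul {Λ : Subring K} (hmul : ∀ i j, IsLat hfree Λ (β i * β j)) {f g : R}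
    (hf : IsLat hfree Λ f) (hg : IsLat hfree Λ g) : IsLat hfree Λ (f * g) := fun l => by
  rw [coord_mul]
  exact polyIn_sum _ _ fun i _ => polyIn_sum _ _ fun j _ => ((hf i).mul (hg j)).mul (hmul i j l)

theorem isLat_algebraMap {Λ : Subring K} (hone : IsLat hfree Λ 1) {c : K} (hc : c ∈ Λ) :
    IsLat hfree Λ (algebraMap K R c) := by
  have h : algebraMap K R c = aeval z (C c) * 1 := by rw [aeval_C, mul_one]
  rw [h]
  exact hone.aeval_mul hfree (polyIn_C hc)

theorem isLat_z {Λ : Subring K} (hone : IsLat hfree Λ 1) : IsLat hfree Λ z := by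
  have h : aeval z (X : K[X]) * 1 = z := by rw [aeval_X, mul_one]
  have h2 := hone.aeval_mul hfree (polyIn_X Λ)
  rwa [h] at h2

open Classical in
/-- The finite set of the coefficients of the coordinates of `f`. -/
def cf (f : R) : Finset K := Finset.univ.biUnion fun i => (coord hfree f i).coeffs

theorem isLat_of_cf_subset {Λ : Subring K} {f : R} (h : (cf hfree f : Set K) ⊆ Λ) :
    IsLat hfree Λ f := fun i => by
  classical
  exact polyIn_of_coeffs_subset fun c hc =>
    h (Finset.mem_coe.mpr (Finset.mem_biUnion.mpr ⟨i, Finset.mem_univ i, Finset.mem_coe.mp hc⟩))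

/-- The `Λ[z]`-lattice spanned by `β`, a `Λ`-subalgebra of `R` as soon as `1` and the products
`β i * β j` lie in it. -/
def latSub (Λ : Subring K) (hone : IsLat hfree Λ 1)
    (hmul : ∀ i j, IsLat hfree Λ (β i * β j)) : Subalgebra Λ R where
  carrier := {f | IsLat hfree Λ f}
  mul_mem' := fun hf hg => IsLat.mul hfree hmul hf hg
  one_mem' := hone
  add_mem' := fun hf hg => IsLat.add hfree hf hg
  zero_mem' := isLat_zero hfree Λ
  algebraMap_mem' := fun c => isLat_algebraMap hfree hone c.2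

theorem mem_latSub {Λ : Subring K} {hone : IsLat hfree Λ 1}
    {hmul : ∀ i j, IsLat hfree Λ (β i * β j)} {f : R} :
    f ∈ latSub hfree Λ hone hmul ↔ IsLat hfree Λ f := Iff.rfl

open Classical in
/-- The finite set of the coefficients of the coordinates of the elements of `T`. -/
def cfs (T : Finset R) : Finset K := T.biUnion (cf hfree)

theorem isLat_of_cfs_subset {Λ : Subring K} {T : Finset R} (h : (cfs hfree T : Set K) ⊆ Λ)
    {f : R} (hf : f ∈ T) : IsLat hfree Λ f := by
  classical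
  refine isLat_of_cf_subset hfree fun c hc => h ?_
  exact Finset.mem_coe.mpr (Finset.mem_biUnion.mpr ⟨f, hf, Finset.mem_coe.mp hc⟩)

end Chart

/-! ### The lattice as a `Λ`-algebra -/

section Lat

variable {K : Type*} [Field K] {R : Type*} [CommRing R] [Algebra K R] {z : R} {n : ℕ}
  {β : Fin n → R} (hfree : ∀ f : R, ∃! p : Fin n → K[X], f = ∑ i, aeval z (p i) * β i)
  (Λ : Subring K) (hone : IsLat hfree Λ 1) (hmul : ∀ i j, IsLat hfree Λ (β i * β j))

/-- `z` as an element of the lattice. -/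
def zL : latSub hfree Λ hone hmul := ⟨z, isLat_z hfree hone⟩

/-- `β i` as an element of the lattice. -/
def βL (i : Fin n) : latSub hfree Λ hone hmul := ⟨β i, isLat_basis hfree Λ i⟩

@[simp] theorem coe_zL : ((zL hfree Λ hone hmul : latSub hfree Λ hone hmul) : R) = z := rfl

@[simp] theorem coe_βL (i : Fin n) :
    ((βL hfree Λ hone hmul i : latSub hfree Λ hone hmul) : R) = β i := rfl

theorem coe_algebraMap_lat (c : Λ) :
    ((algebraMap Λ (latSub hfree Λ hone hmul) c : latSub hfree Λ hone hmul) : R)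
      = algebraMap K R (c : K) := rfl

theorem coe_aeval_zL (p : Λ[X]) :
    ((aeval (zL hfree Λ hone hmul) p : latSub hfree Λ hone hmul) : R)
      = aeval z (p.map Λ.subtype) := by
  rw [← Subalgebra.aeval_coe]
  exact (aeval_map_algebraMap K z p).symm

theorem latSub_free (f : latSub hfree Λ hone hmul) :
    ∃! p : Fin n → Λ[X],
      f = ∑ i, aeval (zL hfree Λ hone hmul) (p i) * βL hfree Λ hone hmul i := by
  have hf : IsLat hfree Λ (f : R) := f.2
  have key : ∀ p : Fin n → Λ[X],
      ((∑ i, aeval (zL hfree Λ hone hmul) (p i) * βL hfree Λ hone hmul i :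
        latSub hfree Λ hone hmul) : R) = ∑ i, aeval z ((p i).map Λ.subtype) * β i := by
    intro p
    rw [AddSubmonoidClass.coe_finsetSum]
    refine Finset.sum_congr rfl fun i _ => ?_
    rw [Subalgebra.coe_mul, coe_aeval_zL, coe_βL]
  refine ⟨fun i => (coord hfree (f : R) i).toSubring Λ (hf i).coeffs_subset, ?_, ?_⟩
  · apply Subtype.ext
    rw [key]
    conv_lhs => rw [coord_spec hfree (f : R)]
    refine Finset.sum_congr rfl fun i _ => ?_
    rw [map_toSubring]
  · intro p hp
    have h1 : (f : R) = ∑ i, aeval z ((p i).map Λ.subtype) * β i := by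
      rw [← key, ← hp]
    have h2 := coord_unique hfree h1
    funext i
    apply Polynomial.map_injective Λ.subtype Subtype.val_injective
    rw [map_toSubring, h2]

theorem latSub_eq_sum (f : latSub hfree Λ hone hmul) :
    f = ∑ i, ∑ m ∈ Finset.range ((coord hfree (f : R) i).natDegree + 1),
      algebraMap Λ (latSub hfree Λ hone hmul) ⟨(coord hfree (f : R) i).coeff m, f.2 i m⟩ *
        zL hfree Λ hone hmul ^ m * βL hfree Λ hone hmul i := by
  apply Subtype.ext
  rw [AddSubmonoidClass.coe_finsetSum]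
  conv_lhs => rw [coord_spec hfree (f : R)]
  refine Finset.sum_congr rfl fun i _ => ?_
  rw [AddSubmonoidClass.coe_finsetSum, aeval_eq_sum_range, Finset.sum_mul]
  refine Finset.sum_congr rfl fun m _ => ?_
  rw [Subalgebra.coe_mul, Subalgebra.coe_mul, Subalgebra.coe_pow, coe_zL, coe_βL,
    coe_algebraMap_lat, Algebra.smul_def]

/-- Induction on the lattice: it is spanned over `Λ` by the `z ^ m * β i`. -/
theorem lat_induction {P : latSub hfree Λ hone hmul → Prop} (h0 : P 0)
    (hadd : ∀ f g, P f → P g → P (f + g))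
    (hgen : ∀ (c : Λ) (m : ℕ) (i : Fin n),
      P (algebraMap Λ (latSub hfree Λ hone hmul) c * zL hfree Λ hone hmul ^ m *
        βL hfree Λ hone hmul i))
    (f : latSub hfree Λ hone hmul) : P f := by
  rw [latSub_eq_sum hfree Λ hone hmul f]
  refine Finset.sum_induction _ P hadd h0 fun i _ => ?_
  exact Finset.sum_induction _ P hadd h0 fun m _ => hgen _ m i

/-! ### Spreading out a local certificate -/

theorem exists_finset_localCert {a : K} {m : ℕ} (h : LocalCertN K R z a m) :
    ∃ S : Finset K, ∀ (Λ : Subring K) (hone : IsLat hfree Λ 1)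
      (hmul : ∀ i j, IsLat hfree Λ (β i * β j)) (ha : a ∈ Λ), (S : Set K) ⊆ Λ →
      LocalCertN Λ (latSub hfree Λ hone hmul) (zL hfree Λ hone hmul) ⟨a, ha⟩ m := by
  classical
  obtain ⟨τ, v, u, c, N, w, h1, h2, h3, h4⟩ := h
  choose r2 s2 h2 using h2
  choose κ3 r3 s3 h3 using fun j i => h3 j (β i)
  -- the finitely many elements of `R` and of `K` involved
  let T : Finset R := Finset.univ.image τ ∪ Finset.univ.image v ∪ Finset.univ.image u ∪
    Finset.univ.image r2 ∪ Finset.univ.image s2 ∪ {w} ∪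
    Finset.univ.image (fun ji : Fin m × Fin n => r3 ji.1 ji.2) ∪
    Finset.univ.image (fun ji : Fin m × Fin n => s3 ji.1 ji.2)
  let TK : Finset K := Finset.univ.image (fun j => ((c j : Kˣ) : K)) ∪
    Finset.univ.image (fun j => (((c j)⁻¹ : Kˣ) : K)) ∪
    Finset.univ.image (fun ji : Fin m × Fin n => κ3 ji.1 ji.2)
  refine ⟨cfs hfree T ∪ TK, ?_⟩
  intro Λ hone hmul ha hS
  have hT : ∀ f ∈ T, IsLat hfree Λ f := fun f hf =>
    isLat_of_cfs_subset hfree (fun c hc => hS (by
      rw [Finset.coe_union]; exact Or.inl hc)) hf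
  have hTK : ∀ c ∈ TK, c ∈ Λ := fun c hc => hS (by
    rw [Finset.coe_union]; exact Or.inr (Finset.mem_coe.mpr hc))
  have hτ : ∀ j, IsLat hfree Λ (τ j) := fun j => hT _ (by simp [T])
  have hv : ∀ j, IsLat hfree Λ (v j) := fun j => hT _ (by simp [T])
  have hu : ∀ j, IsLat hfree Λ (u j) := fun j => hT _ (by simp [T])
  have hr2 : ∀ j, IsLat hfree Λ (r2 j) := fun j => hT _ (by simp [T])
  have hs2 : ∀ j, IsLat hfree Λ (s2 j) := fun j => hT _ (by simp [T])
  have hw : IsLat hfree Λ w := hT _ (by simp [T])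
  have hr3 : ∀ j i, IsLat hfree Λ (r3 j i) := fun j i => hT _ (by
    simp only [T, Finset.mem_union, Finset.mem_image, Finset.mem_univ, true_and]
    exact Or.inl (Or.inr ⟨(j, i), rfl⟩))
  have hs3 : ∀ j i, IsLat hfree Λ (s3 j i) := fun j i => hT _ (by
    simp only [T, Finset.mem_union, Finset.mem_image, Finset.mem_univ, true_and]
    exact Or.inr ⟨(j, i), rfl⟩)
  have hc : ∀ j, ((c j : Kˣ) : K) ∈ Λ := fun j => hTK _ (by simp [TK])
  have hc' : ∀ j, (((c j)⁻¹ : Kˣ) : K) ∈ Λ := fun j => hTK _ (by simp [TK])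
  have hκ3 : ∀ j i, κ3 j i ∈ Λ := fun j i => hTK _ (by
    simp only [TK, Finset.mem_union, Finset.mem_image, Finset.mem_univ, true_and]
    exact Or.inr ⟨(j, i), rfl⟩)
  set L := latSub hfree Λ hone hmul with hL
  set zl : L := zL hfree Λ hone hmul with hzl
  set al : L := algebraMap Λ L ⟨a, ha⟩ with hal
  let cΛ : Fin m → Λˣ := fun j =>
    ⟨⟨c j, hc j⟩, ⟨((c j)⁻¹ : Kˣ), hc' j⟩, Subtype.ext (by simp), Subtype.ext (by simp)⟩
  refine ⟨fun j => ⟨τ j, hτ j⟩, fun j => ⟨v j, hv j⟩, fun j => ⟨u j, hu j⟩, cΛ, N, ⟨w, hw⟩,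
    fun j => Subtype.ext (h1 j), fun j => ⟨⟨r2 j, hr2 j⟩, ⟨s2 j, hs2 j⟩, Subtype.ext (h2 j)⟩,
    fun j => ?_, ?_⟩
  · -- (C3): `L = Λ + (τ j, z - a)`, from the generators
    have hβ : ∀ i, ∃ (κ : Λ) (r s : L), βL hfree Λ hone hmul i - algebraMap Λ L κ
        = (⟨τ j, hτ j⟩ : L) * r + (zl - al) * s := fun i =>
      ⟨⟨κ3 j i, hκ3 j i⟩, ⟨r3 j i, hr3 j i⟩, ⟨s3 j i, hs3 j i⟩, Subtype.ext (h3 j i)⟩
    have hzmul : ∀ f : L, (∃ (κ : Λ) (r s : L), f - algebraMap Λ L κ
        = (⟨τ j, hτ j⟩ : L) * r + (zl - al) * s) →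
        ∃ (κ : Λ) (r s : L), zl * f - algebraMap Λ L κ
          = (⟨τ j, hτ j⟩ : L) * r + (zl - al) * s := by
      rintro f ⟨κ, r, s, e⟩
      refine ⟨⟨a, ha⟩ * κ, al * r, f + al * s, ?_⟩
      rw [map_mul]
      linear_combination al * e
    have hcmul : ∀ (c₀ : Λ) (f : L), (∃ (κ : Λ) (r s : L), f - algebraMap Λ L κ
        = (⟨τ j, hτ j⟩ : L) * r + (zl - al) * s) →
        ∃ (κ : Λ) (r s : L), algebraMap Λ L c₀ * f - algebraMap Λ L κ
          = (⟨τ j, hτ j⟩ : L) * r + (zl - al) * s := by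
      rintro c₀ f ⟨κ, r, s, e⟩
      refine ⟨c₀ * κ, algebraMap Λ L c₀ * r, algebraMap Λ L c₀ * s, ?_⟩
      rw [map_mul]
      linear_combination algebraMap Λ L c₀ * e
    have hpow : ∀ (k : ℕ) (i : Fin n), ∃ (κ : Λ) (r s : L),
        zl ^ k * βL hfree Λ hone hmul i - algebraMap Λ L κ
          = (⟨τ j, hτ j⟩ : L) * r + (zl - al) * s := by
      intro k i
      induction k with
      | zero => simpa using hβ i
      | succ k ih =>
        have := hzmul _ ih
        rwa [← mul_assoc, ← pow_succ'] at this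
    intro f
    refine lat_induction hfree Λ hone hmul
      (P := fun f => ∃ (κ : Λ) (r s : L), f - algebraMap Λ L κ
        = (⟨τ j, hτ j⟩ : L) * r + (zl - al) * s) ?_ ?_ ?_ f
    · exact ⟨0, 0, 0, by simp⟩
    · rintro f g ⟨κ₁, r₁, s₁, e₁⟩ ⟨κ₂, r₂, s₂, e₂⟩
      refine ⟨κ₁ + κ₂, r₁ + r₂, s₁ + s₂, ?_⟩
      rw [map_add]
      linear_combination e₁ + e₂
    · intro c₀ k i
      have := hcmul c₀ _ (hpow k i)
      rwa [← mul_assoc] at this
  · -- (C4)
    apply Subtype.ext
    rw [Subalgebra.coe_pow, Subalgebra.coe_mul]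
    have hprod : ((∏ j, (⟨τ j, hτ j⟩ : L) : L) : R) = ∏ j, τ j := by
      rw [SubmonoidClass.coe_finsetProd]
    rw [hprod]
    exact h4

end Lat

/-! ### Spreading out a chart certificate -/

section ChartCert

variable {K : Type*} [Field K] {R : Type*} [CommRing R] [Algebra K R] {z : R} {n : ℕ}
  {β : Fin n → R}

theorem exists_finset_chartCert (h : ChartCert K R z β) :
    ∃ S : Finset K, ∀ Λ : Subring K, (S : Set K) ⊆ Λ →
      ∃ (hone : IsLat h.free Λ 1) (hmul : ∀ i j, IsLat h.free Λ (β i * β j)),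
        ChartCert Λ (latSub h.free Λ hone hmul) (zL h.free Λ hone hmul)
          (βL h.free Λ hone hmul) := by
  classical
  obtain ⟨βd, T, m, a, l, hT, hdisc, hloc⟩ := h.disc
  choose m' hloc using hloc
  choose Sq hSq using fun q => exists_finset_localCert h.free (hloc q)
  let TR : Finset R := {1} ∪ Finset.univ.image (fun ij : Fin n × Fin n => β ij.1 * β ij.2) ∪
    Finset.univ.image βd
  let TK : Finset K := {(l : K), ((l⁻¹ : Kˣ) : K)} ∪ Finset.univ.image a ∪
    Finset.univ.biUnion Sq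
  refine ⟨cfs h.free TR ∪ TK, fun Λ hS => ?_⟩
  have hTR : ∀ f ∈ TR, IsLat h.free Λ f := fun f hf =>
    isLat_of_cfs_subset h.free (fun c hc => hS (by
      rw [Finset.coe_union]; exact Or.inl hc)) hf
  have hTK : ∀ c ∈ TK, c ∈ Λ := fun c hc => hS (by
    rw [Finset.coe_union]; exact Or.inr (Finset.mem_coe.mpr hc))
  have hone : IsLat h.free Λ 1 := hTR _ (by simp [TR])
  have hmul : ∀ i j, IsLat h.free Λ (β i * β j) := fun i j => hTR _ (by
    simp only [TR, Finset.mem_union, Finset.mem_image, Finset.mem_univ, true_and]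
    exact Or.inl (Or.inr ⟨(i, j), rfl⟩))
  have hβd : ∀ j, IsLat h.free Λ (βd j) := fun j => hTR _ (by simp [TR])
  have hl : (l : K) ∈ Λ := hTK _ (by simp [TK])
  have hl' : ((l⁻¹ : Kˣ) : K) ∈ Λ := hTK _ (by simp [TK])
  have ha : ∀ q, a q ∈ Λ := fun q => hTK _ (by simp [TK])
  have hSq' : ∀ q, (Sq q : Set K) ⊆ Λ := fun q c hc => hTK _ (by
    simp only [TK, Finset.mem_union, Finset.mem_biUnion, Finset.mem_univ, true_and]
    exact Or.inr ⟨q, Finset.mem_coe.mp hc⟩)
  refine ⟨hone, hmul, ⟨latSub_free h.free Λ hone hmul, ?_⟩⟩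
  have hTcoord : ∀ i j s, coord h.free (β i * βd j * β s) = T i j s := fun i j s =>
    coord_unique h.free (hT i j s)
  have hTin : ∀ i j s t, PolyIn Λ (T i j s t) := by
    intro i j s t
    rw [← hTcoord]
    exact (((isLat_basis h.free Λ i).mul h.free hmul (hβd j)).mul h.free hmul
      (isLat_basis h.free Λ s)) t
  set L := latSub h.free Λ hone hmul with hL
  let lΛ : Λˣ := ⟨⟨l, hl⟩, ⟨((l⁻¹ : Kˣ) : K), hl'⟩, Subtype.ext (by simp), Subtype.ext (by simp)⟩
  refine ⟨fun j => ⟨βd j, hβd j⟩,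
    fun i j s t => (T i j s t).toSubring Λ (hTin i j s t).coeffs_subset, m,
    fun q => ⟨a q, ha q⟩, lΛ, ?_, ?_, ?_⟩
  · intro i j s
    apply Subtype.ext
    rw [AddSubmonoidClass.coe_finsetSum, Subalgebra.coe_mul, Subalgebra.coe_mul]
    simp only [coe_βL]
    rw [hT i j s]
    refine Finset.sum_congr rfl fun t _ => ?_
    rw [Subalgebra.coe_mul, coe_aeval_zL, map_toSubring, coe_βL]
  · intro i j
    apply Polynomial.map_injective Λ.subtype Subtype.val_injective
    rw [Polynomial.map_sum]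
    simp only [map_toSubring]
    rw [hdisc i j]
    split_ifs
    · rw [Polynomial.map_mul, Polynomial.map_C, Polynomial.map_prod]
      simp [lΛ]
    · simp
  · intro q
    exact ⟨m' q, hSq q Λ hone hmul (ha q) (hSq' q)⟩

end ChartCert

/-! ### Transport of certificates along an isomorphism -/

section Transport

variable {Λ : Type*} [CommRing Λ] {R R' : Type*} [CommRing R] [CommRing R'] [Algebra Λ R]
  [Algebra Λ R']

theorem map_aeval_of_compat (e : R →+* R') (he : ∀ c : Λ, e (algebraMap Λ R c) = algebraMap Λ R' c)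
    (z : R) (p : Λ[X]) : e (aeval z p) = aeval (e z) p := by
  rw [aeval_def, aeval_def, hom_eval₂]
  congr 1
  exact RingHom.ext he

theorem localCertN_of_ringEquiv (e : R ≃+* R')
    (he : ∀ c : Λ, e (algebraMap Λ R c) = algebraMap Λ R' c) {z : R} {a : Λ} {m : ℕ}
    (h : LocalCertN Λ R z a m) : LocalCertN Λ R' (e z) a m := by
  obtain ⟨τ, v, u, c, N, w, h1, h2, h3, h4⟩ := h
  refine ⟨fun j => e (τ j), fun j => e (v j), fun j => e (u j), c, N, e w, fun j => ?_,
    fun j => ?_, fun j f => ?_, ?_⟩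
  · have := congrArg e (h1 j)
    rw [map_mul, map_sub, he, map_mul] at this
    exact this
  · obtain ⟨r, s, hrs⟩ := h2 j
    refine ⟨e r, e s, ?_⟩
    have := congrArg e hrs
    rw [map_sub, he, map_add, map_mul, map_mul, map_sub, he] at this
    exact this
  · obtain ⟨κ, r, s, hrs⟩ := h3 j (e.symm f)
    refine ⟨κ, e r, e s, ?_⟩
    have := congrArg e hrs
    rw [map_sub, he, map_add, map_mul, map_mul, map_sub, he, RingEquiv.apply_symm_apply] at this
    exact this
  · have := congrArg e h4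
    rw [map_pow, map_prod, map_mul, map_sub, he] at this
    exact this

theorem chartCert_of_ringEquiv (e : R ≃+* R')
    (he : ∀ c : Λ, e (algebraMap Λ R c) = algebraMap Λ R' c) {z : R} {n : ℕ} {β : Fin n → R}
    (h : ChartCert Λ R z β) : ChartCert Λ R' (e z) (fun i => e (β i)) := by
  have hsum : ∀ p : Fin n → Λ[X],
      e (∑ i, aeval z (p i) * β i) = ∑ i, aeval (e z) (p i) * e (β i) := by
    intro p
    rw [map_sum]
    refine Finset.sum_congr rfl fun i _ => ?_
    rw [map_mul]
    exact congrArg (· * e (β i)) (map_aeval_of_compat (e : R →+* R') he z (p i))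
  refine ⟨fun f => ?_, ?_⟩
  · obtain ⟨p, hp, huniq⟩ := h.free (e.symm f)
    refine ⟨p, ?_, fun p' hp' => huniq p' ?_⟩
    · show f = ∑ i, aeval (e z) (p i) * e (β i)
      rw [← hsum, ← hp, RingEquiv.apply_symm_apply]
    · show e.symm f = ∑ i, aeval z (p' i) * β i
      apply e.injective
      rw [hsum, RingEquiv.apply_symm_apply]
      exact hp'
  · obtain ⟨βd, T, m, a, l, hT, hdisc, hloc⟩ := h.disc
    refine ⟨fun j => e (βd j), T, m, a, l, fun i j s => ?_, hdisc, fun q => ?_⟩
    · rw [← hsum, ← hT i j s, map_mul, map_mul]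
    · obtain ⟨m', hm'⟩ := hloc q
      exact ⟨m', localCertN_of_ringEquiv e he hm'⟩

/-- A subalgebra is isomorphic to its image under an injective algebra map, viewed inside any
subalgebra containing that image. -/
def equivComap {F : Type*} [CommRing F] [Algebra Λ F] (g : R →ₐ[Λ] F)
    (hg : Function.Injective g) (L : Subalgebra Λ R) (V : Subalgebra Λ F) (hV : L.map g ≤ V) :
    L ≃+* ((L.map g).comap V.val) :=
  RingEquiv.ofBijective
    ({ toFun := fun f => ⟨⟨g f, hV (Subalgebra.mem_map.mpr ⟨f, f.2, rfl⟩)⟩,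
        (Subalgebra.mem_map.mpr ⟨f, f.2, rfl⟩ : g f ∈ L.map g)⟩
       map_one' := Subtype.ext (Subtype.ext (map_one g))
       map_mul' := fun a b => Subtype.ext (Subtype.ext (map_mul g (a : R) (b : R)))
       map_zero' := Subtype.ext (Subtype.ext (map_zero g))
       map_add' := fun a b => Subtype.ext (Subtype.ext (map_add g (a : R) (b : R))) } :
      L →+* ((L.map g).comap V.val))
    ⟨fun a b hab => Subtype.ext (hg (congrArg
        (fun t : ((L.map g).comap V.val) => ((t : V) : F)) hab)),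
      fun u => by
        have hu : ((u : V) : F) ∈ L.map g := u.2
        obtain ⟨f, hf, hfu⟩ := Subalgebra.mem_map.mp hu
        exact ⟨⟨f, hf⟩, Subtype.ext (Subtype.ext hfu)⟩⟩

theorem equivComap_apply_coe {F : Type*} [CommRing F] [Algebra Λ F] (g : R →ₐ[Λ] F)
    (hg : Function.Injective g) (L : Subalgebra Λ R) (V : Subalgebra Λ F) (hV : L.map g ≤ V)
    (f : L) : (((equivComap g hg L V hV f : (L.map g).comap V.val) : V) : F) = g f := rfl

theorem equivComap_algebraMap {F : Type*} [CommRing F] [Algebra Λ F] (g : R →ₐ[Λ] F)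
    (hg : Function.Injective g) (L : Subalgebra Λ R) (V : Subalgebra Λ F) (hV : L.map g ≤ V)
    (c : Λ) : equivComap g hg L V hV (algebraMap Λ L c) = algebraMap Λ _ c :=
  Subtype.ext (Subtype.ext (g.commutes c))

/-- The subalgebra `V[1/x] ∩ …` of all `y` with `x ^ k * y ∈ V` for some `k`. -/
def locSub {F : Type*} [CommRing F] [Algebra Λ F] (V : Subalgebra Λ F) (x : F) (hx : x ∈ V) :
    Subalgebra Λ F where
  carrier := {y | ∃ k : ℕ, x ^ k * y ∈ V}
  mul_mem' := by
    rintro a b ⟨k, hk⟩ ⟨l, hl⟩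
    refine ⟨k + l, ?_⟩
    have : x ^ (k + l) * (a * b) = (x ^ k * a) * (x ^ l * b) := by ring
    rw [this]
    exact V.mul_mem hk hl
  one_mem' := ⟨0, by simp [V.one_mem]⟩
  add_mem' := by
    rintro a b ⟨k, hk⟩ ⟨l, hl⟩
    refine ⟨k + l, ?_⟩
    have : x ^ (k + l) * (a + b) = x ^ l * (x ^ k * a) + x ^ k * (x ^ l * b) := by ring
    rw [this]
    exact V.add_mem (V.mul_mem (V.pow_mem hx l) hk) (V.mul_mem (V.pow_mem hx k) hl)
  zero_mem' := ⟨0, by simp [V.zero_mem]⟩
  algebraMap_mem' := fun c => ⟨0, by simp⟩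

theorem mem_locSub {F : Type*} [CommRing F] [Algebra Λ F] {V : Subalgebra Λ F} {x : F}
    {hx : x ∈ V} {y : F} : y ∈ locSub V x hx ↔ ∃ k : ℕ, x ^ k * y ∈ V := Iff.rfl

theorem le_locSub {F : Type*} [CommRing F] [Algebra Λ F] (V : Subalgebra Λ F) (x : F)
    (hx : x ∈ V) : V ≤ locSub V x hx := fun y hy => ⟨0, by simpa using hy⟩

end Transport

/-! ### The model inside a function field -/

section Model

universe u v

variable {K : Type u} {F : Type v} [Field K] [Field F] [Algebra K F]
  {R R' : Type*} [CommRing R] [CommRing R'] [Algebra K R] [Algebra K R']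

/-- A lattice of one chart lies, up to a power of the coordinate of the other chart, in the
lattice of the other chart (given this for the basis, with coefficients in `Λ`). -/
theorem exists_pow_mul_mem (ι : R →ₐ[K] F) (ι' : R' →ₐ[K] F) {z : R} {z' : R'}
    (hzz' : ι z * ι' z' = 1) {n n' : ℕ} {β : Fin n → R} {β' : Fin n' → R'}
    (hfree : ∀ f : R, ∃! p : Fin n → K[X], f = ∑ i, aeval z (p i) * β i)
    (hfree' : ∀ f : R', ∃! p : Fin n' → K[X], f = ∑ i, aeval z' (p i) * β' i)
    (Λ : Subring K) (hone : IsLat hfree Λ 1) (hmul : ∀ i j, IsLat hfree Λ (β i * β j))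
    (hone' : IsLat hfree' Λ 1) (hmul' : ∀ i j, IsLat hfree' Λ (β' i * β' j))
    (c' : Fin n → R') (m : Fin n → ℕ) (hc' : ∀ i, ι' z' ^ m i * ι (β i) = ι' (c' i))
    (hc'lat : ∀ i, IsLat hfree' Λ (c' i)) (f : latSub hfree Λ hone hmul) :
    ∃ M : ℕ, ι' z' ^ M * ι (f : R) ∈
      (latSub hfree' Λ hone' hmul').map (ι'.restrictScalars Λ) := by
  have hz' : ι' z' ∈ (latSub hfree' Λ hone' hmul').map (ι'.restrictScalars Λ) :=
    Subalgebra.mem_map.mpr ⟨z', isLat_z hfree' hone', rfl⟩
  refine lat_induction hfree Λ hone hmul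
    (P := fun f => ∃ M : ℕ, ι' z' ^ M * ι (f : R) ∈
      (latSub hfree' Λ hone' hmul').map (ι'.restrictScalars Λ)) ?_ ?_ ?_ f
  · exact ⟨0, by simp⟩
  · rintro f g ⟨M₁, h₁⟩ ⟨M₂, h₂⟩
    refine ⟨M₁ + M₂, ?_⟩
    have : ι' z' ^ (M₁ + M₂) * ι ((f + g : latSub hfree Λ hone hmul) : R)
        = ι' z' ^ M₂ * (ι' z' ^ M₁ * ι (f : R)) + ι' z' ^ M₁ * (ι' z' ^ M₂ * ι (g : R)) := by
      rw [Subalgebra.coe_add, map_add]
      ring
    rw [this]
    exact Subalgebra.add_mem _ (Subalgebra.mul_mem _ (Subalgebra.pow_mem _ hz' _) h₁)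
      (Subalgebra.mul_mem _ (Subalgebra.pow_mem _ hz' _) h₂)
  · intro c k i
    refine ⟨k + m i, ?_⟩
    have h1 : ι ((algebraMap Λ (latSub hfree Λ hone hmul) c * zL hfree Λ hone hmul ^ k *
        βL hfree Λ hone hmul i : latSub hfree Λ hone hmul) : R)
        = algebraMap K F (c : K) * ι z ^ k * ι (β i) := by
      rw [Subalgebra.coe_mul, Subalgebra.coe_mul, Subalgebra.coe_pow, coe_zL, coe_βL,
        coe_algebraMap_lat, map_mul, map_mul, map_pow, AlgHom.commutes]
    have h2 : ι' z' ^ (k + m i) * (algebraMap K F (c : K) * ι z ^ k * ι (β i))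
        = algebraMap K F (c : K) * (ι z * ι' z') ^ k * (ι' z' ^ m i * ι (β i)) := by ring
    rw [h1, h2, hzz', one_pow, mul_one, hc' i]
    refine Subalgebra.mem_map.mpr ⟨algebraMap K R' (c : K) * c' i, ?_, ?_⟩
    · exact IsLat.mul hfree' hmul' (isLat_algebraMap hfree' hone' c.2) (hc'lat i)
    · show ι' (algebraMap K R' (c : K) * c' i) = _
      rw [map_mul, AlgHom.commutes]

/-- **Spreading out.**  Two chart certificates over `K` for two charts `R ∋ z`, `R' ∋ z'` of a
function field `F/K` (`ι z * ι' z' = 1`), with a single uniformiser at `z' = 0`, give a model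
over a finitely generated subring `Λ` of `K` (containing any given finite set `S₀`) together
with its tautological realisation in `F/K`. -/
theorem exists_model_of_certs
    (ι : R →ₐ[K] F) (ι' : R' →ₐ[K] F) (hι : Function.Injective ι) (hι' : Function.Injective ι')
    (z : R) (z' : R') (hzz' : ι z * ι' z' = 1) (htr : Transcendental K (ι z))
    {n : ℕ} (β : Fin n → R) (β' : Fin n → R')
    (hC : ChartCert K R z β) (hC' : ChartCert K R' z' β') (hinf : LocalCertN K R' z' 0 1)
    (hRR' : ∀ c : R, ∃ (m : ℕ) (c' : R'), ι' z' ^ m * ι c = ι' c')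
    (hR'R : ∀ c' : R', ∃ (m : ℕ) (c : R), ι z ^ m * ι' c' = ι c)
    (hgen : ∀ y : F, ∃ (c : R) (s : K[X]), s ≠ 0 ∧ aeval (ι z) s * y = ι c)
    (S₀ : Finset K) :
    ∃ (Λ : Type u) (_ : CommRing Λ) (U : Type v) (_ : CommRing U) (_ : Algebra Λ U)
      (M : Model Λ U n) (φ : Λ →+* K) (ψ : U →+* F),
      Real M K F φ ψ ∧ Function.Injective φ ∧ Function.Injective ψ ∧
      (∃ s : Finset Λ, Subring.closure (s : Set Λ) = ⊤) ∧
      ψ M.x = ι z ∧ ψ M.x' = ι' z' ∧ ∀ c ∈ S₀, c ∈ φ.range := by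
  classical
  obtain ⟨SA, hSA⟩ := exists_finset_chartCert hC
  obtain ⟨SA', hSA'⟩ := exists_finset_chartCert hC'
  obtain ⟨SI, hSI⟩ := exists_finset_localCert hC'.free hinf
  choose m1 c1 hc1 using fun i => hRR' (β i)
  choose m2 c2 hc2 using fun j => hR'R (β' j)
  let S : Finset K := SA ∪ SA' ∪ SI ∪ (Finset.univ.biUnion fun i => cf hC'.free (c1 i)) ∪
    (Finset.univ.biUnion fun j => cf hC.free (c2 j)) ∪ S₀
  let Λ : Subring K := Subring.closure (S : Set K)
  have hS : ∀ c ∈ S, c ∈ Λ := fun c hc => Subring.subset_closure (Finset.mem_coe.mpr hc)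
  obtain ⟨hone, hmul, hcert⟩ := hSA Λ (fun c hc => hS c (by
    simp only [S, Finset.mem_union]; exact Or.inl (Or.inl (Or.inl (Or.inl (Or.inl hc))))))
  obtain ⟨hone', hmul', hcert'⟩ := hSA' Λ (fun c hc => hS c (by
    simp only [S, Finset.mem_union]; exact Or.inl (Or.inl (Or.inl (Or.inl (Or.inr hc))))))
  have hcinf : LocalCertN Λ (latSub hC'.free Λ hone' hmul') (zL hC'.free Λ hone' hmul')
      (0 : Λ) 1 := hSI Λ hone' hmul' Λ.zero_mem (fun c hc => hS c (by
    simp only [S, Finset.mem_union]; exact Or.inl (Or.inl (Or.inl (Or.inr hc)))))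
  have hc1lat : ∀ i, IsLat hC'.free Λ (c1 i) := fun i =>
    isLat_of_cf_subset hC'.free fun c hc => hS c (by
      simp only [S, Finset.mem_union, Finset.mem_biUnion, Finset.mem_univ, true_and]
      exact Or.inl (Or.inl (Or.inr ⟨i, hc⟩)))
  have hc2lat : ∀ j, IsLat hC.free Λ (c2 j) := fun j =>
    isLat_of_cf_subset hC.free fun c hc => hS c (by
      simp only [S, Finset.mem_union, Finset.mem_biUnion, Finset.mem_univ, true_and]
      exact Or.inl (Or.inr ⟨j, hc⟩))
  -- the two lattices and their images in `F`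
  let L : Subalgebra Λ R := latSub hC.free Λ hone hmul
  let L' : Subalgebra Λ R' := latSub hC'.free Λ hone' hmul'
  let g : R →ₐ[Λ] F := ι.restrictScalars Λ
  let g' : R' →ₐ[Λ] F := ι'.restrictScalars Λ
  let BF : Subalgebra Λ F := L.map g
  let BF' : Subalgebra Λ F := L'.map g'
  have hxBF : ι z ∈ BF := Subalgebra.mem_map.mpr ⟨z, isLat_z hC.free hone, rfl⟩
  have hx'BF' : ι' z' ∈ BF' := Subalgebra.mem_map.mpr ⟨z', isLat_z hC'.free hone', rfl⟩
  have hz'z : ι' z' * ι z = 1 := by rw [mul_comm]; exact hzz'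
  let U₀ : Subalgebra Λ F := locSub BF (ι z) hxBF
  have hBU : BF ≤ U₀ := le_locSub _ _ _
  have hB'U : BF' ≤ U₀ := by
    intro y hy
    obtain ⟨f', hf', rfl⟩ := Subalgebra.mem_map.mp hy
    exact exists_pow_mul_mem ι' ι hz'z hC'.free hC.free Λ hone' hmul' hone hmul c2 m2 hc2
      hc2lat ⟨f', hf'⟩
  let e : L ≃+* (BF.comap U₀.val) := equivComap g hι L U₀ hBU
  let e' : L' ≃+* (BF'.comap U₀.val) := equivComap g' hι' L' U₀ hB'U
  have he : ∀ c : Λ, e (algebraMap Λ L c) = algebraMap Λ _ c :=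
    equivComap_algebraMap g hι L U₀ hBU
  have he' : ∀ c : Λ, e' (algebraMap Λ L' c) = algebraMap Λ _ c :=
    equivComap_algebraMap g' hι' L' U₀ hB'U
  have hxU : ι z ∈ U₀ := hBU hxBF
  have hx'U : ι' z' ∈ U₀ := hB'U hx'BF'
  have hpos : 0 < n := by
    refine Nat.pos_of_ne_zero fun h0 => ?_
    have : IsEmpty (Fin n) := by rw [h0]; infer_instance
    have h1 := coord_spec hC.free (1 : R)
    rw [Finset.univ_eq_empty, Finset.sum_empty] at h1
    have h2 : (1 : F) = 0 := by rw [← map_one ι, h1, map_zero]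
    exact one_ne_zero h2
  have hci := localCertN_of_ringEquiv (R := L') (R' := BF'.comap U₀.val) e' he' hcinf
  have hcc := chartCert_of_ringEquiv (R := L) (R' := BF.comap U₀.val) e he hcert
  have hcc' := chartCert_of_ringEquiv (R := L') (R' := BF'.comap U₀.val) e' he' hcert'
  let M : Model Λ U₀ n :=
    { x := ⟨ι z, hxU⟩
      x' := ⟨ι' z', hx'U⟩
      B := BF.comap U₀.val
      B' := BF'.comap U₀.val
      b := fun i => e (βL hC.free Λ hone hmul i)
      b' := fun i => e' (βL hC'.free Λ hone' hmul' i)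
      hxx' := Subtype.ext hzz'
      hx := hxBF
      hx' := hx'BF'
      cert := hcc
      cert' := hcc'
      cert_inf := hci
      hB := by
        rintro ⟨y, k, hk⟩
        exact ⟨k, hk⟩
      hB' := by
        rintro ⟨y, k, hk⟩
        obtain ⟨f, hf, hfy⟩ := Subalgebra.mem_map.mp hk
        obtain ⟨N, hN⟩ := exists_pow_mul_mem ι ι' hzz' hC.free hC'.free Λ hone hmul hone' hmul'
          c1 m1 hc1 hc1lat ⟨f, hf⟩
        refine ⟨N, ?_⟩
        show ι' z' ^ N * y ∈ BF'
        have h1 : ι' z' ^ k * ι z ^ k = 1 := by rw [← mul_pow, hz'z, one_pow]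
        have hfy' : ι f = ι z ^ k * y := hfy
        have h2 : ι' z' ^ N * y = ι' z' ^ k * (ι' z' ^ N * ι f) := by
          rw [hfy']
          linear_combination (-(ι' z' ^ N * y)) * h1
        rw [h2]
        exact Subalgebra.mul_mem _ (Subalgebra.pow_mem _ hx'BF' _) hN
      pos := hpos }
  refine ⟨Λ, inferInstance, U₀, inferInstance, inferInstance, M, Λ.subtype,
    (U₀.val : U₀ →+* F), ⟨fun a => rfl, htr, fun y => ?_, fun p hp => ?_⟩,
    Subtype.val_injective, Subtype.val_injective, ?_, rfl, rfl, fun c hc => ?_⟩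
  · obtain ⟨c, s, hs, hc⟩ := hgen y
    refine ⟨coord hC.free c, s, hs, ?_⟩
    show aeval (ι z) s * y = ∑ i, aeval (ι z) (coord hC.free c i) * ι (β i)
    rw [hc]
    conv_lhs => rw [coord_spec hC.free c]
    rw [map_sum]
    refine Finset.sum_congr rfl fun i _ => ?_
    rw [map_mul, aeval_algHom_apply]
  · have hp' : ∑ i, aeval (ι z) (p i) * ι (β i) = 0 := hp
    have h1 : ι (∑ i, aeval z (p i) * β i) = 0 := by
      rw [map_sum, ← hp']
      refine Finset.sum_congr rfl fun i _ => ?_
      rw [map_mul, aeval_algHom_apply]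
    have h2 : (0 : R) = ∑ i, aeval z (p i) * β i := (hι (h1.trans (map_zero ι).symm)).symm
    have h3 := coord_unique hC.free h2
    rw [coord_zero] at h3
    exact h3.symm
  · refine ⟨S.subtype (· ∈ Λ), eq_top_iff.mpr ?_⟩
    rintro ⟨y, hy⟩ -
    refine Subring.closure_induction
      (p := fun y hy => (⟨y, hy⟩ : Λ) ∈ Subring.closure ((S.subtype (· ∈ Λ) : Finset Λ) : Set Λ))
      ?_ ?_ ?_ ?_ ?_ ?_ hy
    · intro x hx
      exact Subring.subset_closure (Finset.mem_coe.mpr (Finset.mem_subtype.mpr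
        (Finset.mem_coe.mp hx)))
    · exact Subring.zero_mem _
    · exact Subring.one_mem _
    · intro x y hx hy hx' hy'
      exact Subring.add_mem _ hx' hy'
    · intro x hx hx'
      exact Subring.neg_mem _ hx'
    · intro x y hx hy hx' hy'
      exact Subring.mul_mem _ hx' hy'
  · exact ⟨⟨c, hS c (by simp only [S, Finset.mem_union]; exact Or.inr hc)⟩, rfl⟩

end Model

end Fermat.Agent.S27P.GR.Spread
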