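import Mathlib
import Fermat.Agent.S27P.GR.Defs

/-!
# S27 / (GR-E3): spreading out (twin file, helper74)

From a two-chart certificate over a field `K` (two `ChartCert`s, a `LocalCertN` at the single pole,
the transition data) to a `Model` over a finitely generated subring `Λ ⊆ K`, together with its
tautological realisation.

Method: "eventually over finitely generated subrings" (`Ev`): a property of subrings of `K` that
holds for every subring containing a fixed finite set.  Every certificate element is a finite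
datum, so every clause of the certificate holds eventually; finitely many eventual properties hold
simultaneously.
-/

set_option autoImplicit false

noncomputable section

namespace Fermat.Agent.S27P.GR.Spread74

open Polynomial

universe u v w

/-! ### Eventually over finitely generated subrings -/

section Ev

variable {K : Type u} [Field K]

/-- `P` holds for every subring containing some fixed finite set. -/
def Ev (P : Subring K → Prop) : Prop :=
  ∃ S : Finset K, ∀ Λ : Subring K, (S : Set K) ⊆ Λ → P Λ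

theorem Ev.mono {P Q : Subring K → Prop} (hP : Ev P) (h : ∀ Λ, P Λ → Q Λ) : Ev Q := by
  obtain ⟨S, hS⟩ := hP
  exact ⟨S, fun Λ hΛ => h Λ (hS Λ hΛ)⟩

theorem Ev.and {P Q : Subring K → Prop} (hP : Ev P) (hQ : Ev Q) : Ev (fun Λ => P Λ ∧ Q Λ) := by
  classical
  obtain ⟨S, hS⟩ := hP
  obtain ⟨T, hT⟩ := hQ
  refine ⟨S ∪ T, fun Λ hΛ => ⟨hS Λ ?_, hT Λ ?_⟩⟩
  · exact fun a ha => hΛ (by simp [Finset.mem_coe.1 ha])
  · exact fun a ha => hΛ (by simp [Finset.mem_coe.1 ha])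

theorem Ev.all {ι : Type*} [Finite ι] {P : ι → Subring K → Prop} (h : ∀ i, Ev (P i)) :
    Ev (fun Λ => ∀ i, P i Λ) := by
  classical
  cases nonempty_fintype ι
  choose S hS using h
  refine ⟨Finset.univ.biUnion S, fun Λ hΛ i => hS i Λ ?_⟩
  intro a ha
  exact hΛ (by simpa using ⟨i, Finset.mem_coe.1 ha⟩)

theorem Ev.const {p : Prop} (h : p) : Ev (fun _ : Subring K => p) :=
  ⟨∅, fun _ _ => h⟩

theorem Ev.mem (a : K) : Ev (fun Λ : Subring K => a ∈ Λ) :=
  ⟨{a}, fun Λ hΛ => hΛ (by simp)⟩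

/-- Polynomials with coefficients in `Λ`, as a subring of `K[X]`. -/
def PΛ (Λ : Subring K) : Subring K[X] := (Polynomial.mapRingHom Λ.subtype).range

theorem mem_PΛ {Λ : Subring K} {p : K[X]} : p ∈ PΛ Λ ↔ ∃ q : Λ[X], q.map Λ.subtype = p :=
  Iff.rfl

theorem mem_PΛ_iff {Λ : Subring K} {p : K[X]} : p ∈ PΛ Λ ↔ ∀ k, p.coeff k ∈ Λ := by
  rw [mem_PΛ, ← Polynomial.mem_lifts, Polynomial.lifts_iff_coeff_lifts]
  simp

theorem C_mem_PΛ {Λ : Subring K} {a : K} (ha : a ∈ Λ) : (C a : K[X]) ∈ PΛ Λ :=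
  ⟨C ⟨a, ha⟩, by simp⟩

theorem X_mem_PΛ {Λ : Subring K} : (X : K[X]) ∈ PΛ Λ :=
  ⟨X, by simp⟩

theorem Ev.poly (p : K[X]) : Ev (fun Λ : Subring K => p ∈ PΛ Λ) := by
  refine ⟨p.coeffs, fun Λ hΛ => mem_PΛ_iff.2 fun k => ?_⟩
  by_cases hk : p.coeff k = 0
  · rw [hk]; exact Λ.zero_mem
  · exact hΛ (Finset.mem_coe.2 (Polynomial.coeff_mem_coeffs hk))

/-- The finitely generated subring `Subring.closure S` is generated by the preimage of `S`. -/
theorem closure_preimage_eq_top (S : Set K) :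
    Subring.closure ((Subring.closure S).subtype ⁻¹' S) = ⊤ := by
  rw [eq_top_iff]
  rintro ⟨x, hx⟩ -
  induction hx using Subring.closure_induction with
  | mem y hy => exact Subring.subset_closure hy
  | zero => exact Subring.zero_mem _
  | one => exact Subring.one_mem _
  | add y y' hy hy' h h' => exact Subring.add_mem _ h h'
  | neg y hy h => exact Subring.neg_mem _ h
  | mul y y' hy hy' h h' => exact Subring.mul_mem _ h h'

end Ev

/-! ### (C3) from the generators -/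

/-- Clause (C3) of a local certificate holds for every element as soon as it holds for the
elements of a spanning family. -/
theorem c3_of_basis {k R : Type*} [CommRing k] [CommRing R] [Algebra k R] {n : ℕ} (z : R)
    (β : Fin n → R) (hspan : ∀ f : R, ∃ p : Fin n → k[X], f = ∑ i, aeval z (p i) * β i)
    (τ : R) (a : k)
    (hβ : ∀ i, ∃ (κ : k) (r s : R),
      β i - algebraMap k R κ = τ * r + (z - algebraMap k R a) * s) (f : R) :
    ∃ (κ : k) (r s : R), f - algebraMap k R κ = τ * r + (z - algebraMap k R a) * s := by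
  let T : Subalgebra k R :=
    { carrier := {f | ∃ (κ : k) (r s : R),
        f - algebraMap k R κ = τ * r + (z - algebraMap k R a) * s}
      mul_mem' := by
        rintro f g ⟨κ₁, r₁, s₁, h₁⟩ ⟨κ₂, r₂, s₂, h₂⟩
        refine ⟨κ₁ * κ₂, f * r₂ + algebraMap k R κ₂ * r₁, f * s₂ + algebraMap k R κ₂ * s₁, ?_⟩
        rw [map_mul]
        linear_combination f * h₂ + algebraMap k R κ₂ * h₁
      add_mem' := by
        rintro f g ⟨κ₁, r₁, s₁, h₁⟩ ⟨κ₂, r₂, s₂, h₂⟩
        refine ⟨κ₁ + κ₂, r₁ + r₂, s₁ + s₂, ?_⟩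
        rw [map_add]
        linear_combination h₁ + h₂
      algebraMap_mem' := fun c => ⟨c, 0, 0, by simp⟩ }
  have hz : z ∈ T := ⟨a, 0, 1, by simp⟩
  obtain ⟨p, rfl⟩ := hspan f
  have hmem : ∑ i, aeval z (p i) * β i ∈ T :=
    Subalgebra.sum_mem _ fun i _ => Subalgebra.mul_mem _
      (Algebra.adjoin_le (Set.singleton_subset_iff.2 hz)
        (Polynomial.aeval_mem_adjoin_singleton k z)) (hβ i)
  exact hmem

/-! ### A chart: coordinates and the subalgebra of elements with `Λ`-coordinates -/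

section Chart

variable {K : Type u} [Field K] {C : Type w} [CommRing C] [Algebra K C] {n : ℕ}
  {z : C} {β : Fin n → C}
  (hf : ∀ f : C, ∃! p : Fin n → K[X], f = ∑ i, aeval z (p i) * β i)

/-- The coordinates of `f` in the `K[z]`-basis `β`. -/
def co (f : C) : Fin n → K[X] := (hf f).choose

theorem co_spec (f : C) : f = ∑ i, aeval z (co hf f i) * β i := (hf f).choose_spec.1

theorem co_unique {f : C} {p : Fin n → K[X]} (h : f = ∑ i, aeval z (p i) * β i) :
    co hf f = p :=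
  ((hf f).choose_spec.2 p h).symm

theorem co_add (f g : C) : co hf (f + g) = co hf f + co hf g := by
  apply co_unique
  conv_lhs => rw [co_spec hf f, co_spec hf g]
  simp [add_mul, Finset.sum_add_distrib]

theorem co_zero : co hf (0 : C) = 0 := co_unique hf (by simp)

theorem co_neg (f : C) : co hf (-f) = -co hf f := by
  apply co_unique
  conv_lhs => rw [co_spec hf f]
  simp [Finset.sum_neg_distrib]

theorem co_sum {ι : Type*} (s : Finset ι) (g : ι → C) :
    co hf (∑ a ∈ s, g a) = ∑ a ∈ s, co hf (g a) := by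
  classical
  induction s using Finset.induction_on with
  | empty => simpa using co_zero hf
  | insert a s ha ih => rw [Finset.sum_insert ha, Finset.sum_insert ha, co_add, ih]

theorem co_aeval_mul (q : K[X]) (f : C) : co hf (aeval z q * f) = fun i => q * co hf f i := by
  apply co_unique
  conv_lhs => rw [co_spec hf f]
  simp [Finset.mul_sum, mul_assoc]

theorem co_basis (i : Fin n) : co hf (β i) = Pi.single i 1 := by
  classical
  apply co_unique
  simp [Pi.single_apply]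

theorem co_mul (f g : C) (l : Fin n) :
    co hf (f * g) l = ∑ i, ∑ j, co hf f i * co hf g j * co hf (β i * β j) l := by
  have h : f * g = ∑ i, ∑ j, aeval z (co hf f i * co hf g j) * (β i * β j) := by
    conv_lhs => rw [co_spec hf f, co_spec hf g]
    rw [Finset.sum_mul_sum]
    refine Finset.sum_congr rfl fun i _ => Finset.sum_congr rfl fun j _ => ?_
    rw [map_mul]
    ring
  rw [h, co_sum, Finset.sum_apply]
  refine Finset.sum_congr rfl fun i _ => ?_
  rw [co_sum, Finset.sum_apply]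
  refine Finset.sum_congr rfl fun j _ => ?_
  rw [co_aeval_mul]

include hf in
/-- `z` is transcendental over `K` as soon as the basis is nonempty. -/
theorem aeval_eq_zero_imp (hn : 0 < n) (q : K[X]) (hq : aeval z q = 0) : q = 0 := by
  classical
  have h0 : (0 : C) = ∑ i, aeval z ((Pi.single (⟨0, hn⟩ : Fin n) q : Fin n → K[X]) i) * β i := by
    rw [Finset.sum_eq_single (⟨0, hn⟩ : Fin n)]
    · simp [hq]
    · intro b _ hb
      simp [hb]
    · simp
  have h1 := co_unique hf h0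
  rw [co_zero] at h1
  have := congrFun h1 ⟨0, hn⟩
  simpa using this.symm

/-- The structure constants and the unit have coefficients in `Λ`. -/
def Good (Λ : Subring K) : Prop :=
  (∀ i, co hf 1 i ∈ PΛ Λ) ∧ ∀ i j l, co hf (β i * β j) l ∈ PΛ Λ

theorem ev_good : Ev (fun Λ => Good hf Λ) :=
  (Ev.all fun _ => Ev.poly _).and (Ev.all fun _ => Ev.all fun _ => Ev.all fun _ => Ev.poly _)

/-- The elements of the chart whose coordinates have coefficients in `Λ`. -/
def sub (Λ : Subring K) (hΛ : Good hf Λ) : Subalgebra Λ C where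
  carrier := {f | ∀ i, co hf f i ∈ PΛ Λ}
  mul_mem' := by
    intro f g hf' hg' l
    rw [co_mul]
    exact Subring.sum_mem _ fun i _ => Subring.sum_mem _ fun j _ =>
      Subring.mul_mem _ (Subring.mul_mem _ (hf' i) (hg' j)) (hΛ.2 i j l)
  add_mem' := by
    intro f g hf' hg' i
    rw [co_add]
    exact Subring.add_mem _ (hf' i) (hg' i)
  algebraMap_mem' := by
    intro a i
    have h : algebraMap Λ C a = aeval z (Polynomial.C (a : K)) * 1 := by
      rw [aeval_C, mul_one]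
      rfl
    rw [h, co_aeval_mul]
    exact Subring.mul_mem _ (C_mem_PΛ a.2) (hΛ.1 i)

theorem mem_sub {Λ : Subring K} {hΛ : Good hf Λ} {f : C} :
    f ∈ sub hf Λ hΛ ↔ ∀ i, co hf f i ∈ PΛ Λ := Iff.rfl

theorem ev_mem_sub (e : C) : Ev (fun Λ => ∀ hΛ : Good hf Λ, e ∈ sub hf Λ hΛ) :=
  (Ev.all fun i => Ev.poly (co hf e i)).mono fun _ h _ => h

theorem z_mem_sub {Λ : Subring K} (hΛ : Good hf Λ) : z ∈ sub hf Λ hΛ := by
  intro i
  have h := co_aeval_mul hf (X : K[X]) 1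
  simp only [aeval_X, mul_one] at h
  rw [h]
  exact Subring.mul_mem _ X_mem_PΛ (hΛ.1 i)

theorem basis_mem_sub {Λ : Subring K} (hΛ : Good hf Λ) (i : Fin n) : β i ∈ sub hf Λ hΛ := by
  classical
  intro j
  rw [co_basis, Pi.single_apply]
  split_ifs
  · exact Subring.one_mem _
  · exact Subring.zero_mem _

theorem aeval_sub_coe {Λ : Subring K} (hΛ : Good hf Λ) (y : sub hf Λ hΛ) (q : Λ[X]) :
    ((aeval y q : sub hf Λ hΛ) : C) = aeval (y : C) (q.map Λ.subtype) := by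
  rw [← Subalgebra.aeval_coe]
  exact (Polynomial.aeval_map_algebraMap K (y : C) q).symm

/-- `sub` is free over `Λ[z]` on `β`. -/
theorem sub_free {Λ : Subring K} (hΛ : Good hf Λ) :
    ∀ f : sub hf Λ hΛ, ∃! p : Fin n → Λ[X],
      f = ∑ i, aeval (⟨z, z_mem_sub hf hΛ⟩ : sub hf Λ hΛ) (p i) * ⟨β i, basis_mem_sub hf hΛ i⟩ := by
  intro f
  have hmem : ∀ i, ∃ q : Λ[X], q.map Λ.subtype = co hf (f : C) i := fun i => mem_PΛ.1 (f.2 i)
  choose q hq using hmem
  refine ⟨q, ?_, ?_⟩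
  · apply Subtype.ext
    rw [AddSubmonoidClass.coe_finsetSum]
    conv_lhs => rw [co_spec hf (f : C)]
    refine Finset.sum_congr rfl fun i _ => ?_
    rw [MulMemClass.coe_mul, aeval_sub_coe, hq]
  · intro p hp
    have h1 : (f : C) = ∑ i, aeval z ((p i).map Λ.subtype) * β i := by
      conv_lhs => rw [hp]
      rw [AddSubmonoidClass.coe_finsetSum]
      refine Finset.sum_congr rfl fun i _ => ?_
      rw [MulMemClass.coe_mul, aeval_sub_coe]
    have h2 := co_unique hf h1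
    funext i
    apply Polynomial.map_injective Λ.subtype Λ.subtype_injective
    rw [hq, h2]

/-- The coordinates of `e` have coefficients in `Λ`. -/
def CoIn (Λ : Subring K) (e : C) : Prop := ∀ i, co hf e i ∈ PΛ Λ

theorem ev_coIn (e : C) : Ev (fun Λ => CoIn hf Λ e) := Ev.all fun i => Ev.poly (co hf e i)

theorem coe_algebraMap_sub {Λ : Subring K} (hΛ : Good hf Λ) (a : Λ) :
    ((algebraMap Λ (sub hf Λ hΛ) a : sub hf Λ hΛ) : C) = algebraMap K C (a : K) := rfl

/-- A unit of `K` which lies in `Λ` together with its inverse. -/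
def unitΛ {Λ : Subring K} (c : Kˣ) (h : (c : K) ∈ Λ) (h' : ((c⁻¹ : Kˣ) : K) ∈ Λ) : Λˣ :=
  ⟨⟨c, h⟩, ⟨((c⁻¹ : Kˣ) : K), h'⟩, Subtype.ext (by simp), Subtype.ext (by simp)⟩

@[simp] theorem coe_unitΛ {Λ : Subring K} (c : Kˣ) (h : (c : K) ∈ Λ)
    (h' : ((c⁻¹ : Kˣ) : K) ∈ Λ) : (((unitΛ c h h' : Λˣ) : Λ) : K) = c := rfl

/-- A local certificate over `K` descends to every sufficiently large subring. -/
theorem ev_localCert {a : K} {m : ℕ} (h : LocalCertN K C z a m) :
    Ev (fun Λ => ∀ (hΛ : Good hf Λ) (aΛ : Λ), (aΛ : K) = a →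
      LocalCertN Λ (sub hf Λ hΛ) ⟨z, z_mem_sub hf hΛ⟩ aΛ m) := by
  obtain ⟨τ, v, u, c, N, w, h1, h2, h3, h4⟩ := h
  choose r s hrs using h2
  choose κ' r' s' h3' using fun j i => h3 j (β i)
  have hev : Ev (fun Λ : Subring K => CoIn hf Λ w ∧ ∀ j, (c j : K) ∈ Λ ∧
      (((c j)⁻¹ : Kˣ) : K) ∈ Λ ∧ CoIn hf Λ (τ j) ∧ CoIn hf Λ (v j) ∧ CoIn hf Λ (u j) ∧
      CoIn hf Λ (r j) ∧ CoIn hf Λ (s j) ∧
      ∀ i, κ' j i ∈ Λ ∧ CoIn hf Λ (r' j i) ∧ CoIn hf Λ (s' j i)) :=
    (ev_coIn hf w).and (Ev.all fun j => (Ev.mem _).and ((Ev.mem _).and ((ev_coIn hf _).and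
      ((ev_coIn hf _).and ((ev_coIn hf _).and ((ev_coIn hf _).and ((ev_coIn hf _).and
        (Ev.all fun i => (Ev.mem _).and ((ev_coIn hf _).and (ev_coIn hf _))))))))))
  refine hev.mono fun Λ hall hΛ aΛ haΛ => ?_
  obtain ⟨hw, hj⟩ := hall
  refine ⟨fun j => ⟨τ j, (hj j).2.2.1⟩, fun j => ⟨v j, (hj j).2.2.2.1⟩,
    fun j => ⟨u j, (hj j).2.2.2.2.1⟩, fun j => unitΛ (c j) (hj j).1 (hj j).2.1, N, ⟨w, hw⟩,
    ?_, ?_, ?_, ?_⟩
  · intro j
    apply Subtype.ext
    simp only [MulMemClass.coe_mul, AddSubgroupClass.coe_sub, coe_algebraMap_sub, haΛ]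
    exact h1 j
  · intro j
    refine ⟨⟨r j, (hj j).2.2.2.2.2.1⟩, ⟨s j, (hj j).2.2.2.2.2.2.1⟩, ?_⟩
    apply Subtype.ext
    simp only [MulMemClass.coe_mul, AddSubgroupClass.coe_sub, AddMemClass.coe_add,
      coe_algebraMap_sub, haΛ, coe_unitΛ]
    exact hrs j
  · intro j f
    refine c3_of_basis (k := Λ) (R := sub hf Λ hΛ) ⟨z, z_mem_sub hf hΛ⟩
      (fun i => ⟨β i, basis_mem_sub hf hΛ i⟩) (fun f => (sub_free hf hΛ f).exists) _ aΛ
      (fun i => ?_) f
    refine ⟨⟨κ' j i, ((hj j).2.2.2.2.2.2.2 i).1⟩, ⟨r' j i, ((hj j).2.2.2.2.2.2.2 i).2.1⟩,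
      ⟨s' j i, ((hj j).2.2.2.2.2.2.2 i).2.2⟩, ?_⟩
    apply Subtype.ext
    simp only [MulMemClass.coe_mul, AddSubgroupClass.coe_sub, AddMemClass.coe_add,
      coe_algebraMap_sub, haΛ]
    exact h3' j i
  · apply Subtype.ext
    simp only [MulMemClass.coe_mul, AddSubgroupClass.coe_sub, coe_algebraMap_sub, haΛ,
      SubmonoidClass.coe_pow, SubmonoidClass.coe_finsetProd]
    exact h4

/-- A chart certificate over `K` descends to every sufficiently large subring. -/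
theorem ev_chartCert (hC : ChartCert K C z β) :
    Ev (fun Λ => ∀ hΛ : Good hC.free Λ,
      ChartCert Λ (sub hC.free Λ hΛ) ⟨z, z_mem_sub hC.free hΛ⟩
        (fun i => ⟨β i, basis_mem_sub hC.free hΛ i⟩)) := by
  obtain ⟨βd, T, m, a, l, hT, htr, hloc⟩ := hC.disc
  choose m' hloc' using hloc
  have hev : Ev (fun Λ : Subring K => ((l : K) ∈ Λ ∧ ((l⁻¹ : Kˣ) : K) ∈ Λ) ∧
      (∀ j, CoIn hC.free Λ (βd j)) ∧ (∀ q, a q ∈ Λ) ∧
      ∀ q, ∀ (hΛ : Good hC.free Λ) (aΛ : Λ), (aΛ : K) = a q →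
        LocalCertN Λ (sub hC.free Λ hΛ) ⟨z, z_mem_sub hC.free hΛ⟩ aΛ (m' q)) :=
    ((Ev.mem _).and (Ev.mem _)).and ((Ev.all fun j => ev_coIn hC.free _).and
      ((Ev.all fun q => Ev.mem _).and (Ev.all fun q => ev_localCert hC.free (hloc' q))))
  refine hev.mono fun Λ hall hΛ => ?_
  obtain ⟨⟨hl, hl'⟩, hβd, ha, hq⟩ := hall
  have hTmem : ∀ i j s t, T i j s t ∈ PΛ Λ := by
    intro i j s t
    have h1 : co hC.free (β i * βd j * β s) = T i j s := co_unique _ (hT i j s)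
    rw [← h1]
    exact (sub hC.free Λ hΛ).mul_mem ((sub hC.free Λ hΛ).mul_mem (basis_mem_sub _ hΛ i) (hβd j))
      (basis_mem_sub _ hΛ s) t
  choose TΛ hTΛ using fun i j s t => mem_PΛ.1 (hTmem i j s t)
  refine ⟨sub_free hC.free hΛ, fun j => ⟨βd j, hβd j⟩, TΛ, m, fun q => ⟨a q, ha q⟩,
    unitΛ l hl hl', ?_, ?_, fun q => ⟨m' q, hq q hΛ ⟨a q, ha q⟩ rfl⟩⟩
  · intro i j s
    apply Subtype.ext
    rw [AddSubmonoidClass.coe_finsetSum]
    simp only [MulMemClass.coe_mul, aeval_sub_coe, hTΛ]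
    exact hT i j s
  · intro i j
    apply Polynomial.map_injective Λ.subtype Λ.subtype_injective
    rw [Polynomial.map_sum]
    simp only [hTΛ]
    rw [htr i j]
    split_ifs
    · simp [Polynomial.map_prod]
    · simp

end Chart

/-! ### Transport of certificates along an isomorphism -/

section Equiv

variable {k : Type*} [CommRing k] {R R' : Type*} [CommRing R] [CommRing R'] [Algebra k R]
  [Algebra k R']

theorem localCertN_equiv (e : R ≃ₐ[k] R') {z : R} {a : k} {m : ℕ} (h : LocalCertN k R z a m) :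
    LocalCertN k R' (e z) a m := by
  obtain ⟨τ, v, u, c, N, w, h1, h2, h3, h4⟩ := h
  refine ⟨fun j => e (τ j), fun j => e (v j), fun j => e (u j), c, N, e w, ?_, ?_, ?_, ?_⟩
  · intro j
    have := congrArg e (h1 j)
    simpa using this
  · intro j
    obtain ⟨r, s, hrs⟩ := h2 j
    refine ⟨e r, e s, ?_⟩
    have := congrArg e hrs
    simpa using this
  · intro j f
    obtain ⟨κ, r, s, hrs⟩ := h3 j (e.symm f)
    refine ⟨κ, e r, e s, ?_⟩
    have := congrArg e hrs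
    simpa using this
  · have := congrArg e h4
    simpa using this

theorem chartCert_equiv (e : R ≃ₐ[k] R') {n : ℕ} {z : R} {β : Fin n → R}
    (h : ChartCert k R z β) : ChartCert k R' (e z) (fun i => e (β i)) := by
  have haev : ∀ q : k[X], e (aeval z q) = aeval (e z) q := fun q =>
    (Polynomial.aeval_algHom_apply (e : R →ₐ[k] R') z q).symm
  refine ⟨?_, ?_⟩
  · intro f
    obtain ⟨p, hp, hpu⟩ := h.free (e.symm f)
    refine ⟨p, ?_, ?_⟩
    · have := congrArg e hp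
      rw [e.apply_symm_apply, map_sum] at this
      simpa only [map_mul, haev] using this
    · intro p' hp'
      apply hpu
      have := congrArg e.symm hp'
      rw [map_sum] at this
      rw [this]
      refine Finset.sum_congr rfl fun i _ => ?_
      rw [map_mul, e.symm_apply_apply, ← haev, e.symm_apply_apply]
  · obtain ⟨βd, T, m, a, l, hT, htr, hloc⟩ := h.disc
    refine ⟨fun j => e (βd j), T, m, a, l, ?_, htr, fun q => ?_⟩
    · intro i j s
      have := congrArg e (hT i j s)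
      rw [map_sum] at this
      simpa only [map_mul, haev] using this
    · obtain ⟨m', hm'⟩ := hloc q
      exact ⟨m', localCertN_equiv e hm'⟩

end Equiv

/-! ### Localisation inside a commutative ring -/

section Loc

variable {Λ : Type*} [CommRing Λ] {F : Type*} [CommRing F] [Algebra Λ F]

/-- `B[1/x]` inside `F`: the elements `u` with `x ^ m * u ∈ B` for some `m`. -/
def loc (B : Subalgebra Λ F) (x : F) (hx : x ∈ B) : Subalgebra Λ F where
  carrier := {u | ∃ m : ℕ, x ^ m * u ∈ B}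
  mul_mem' := by
    rintro u u' ⟨m, hm⟩ ⟨m', hm'⟩
    refine ⟨m + m', ?_⟩
    have h : x ^ (m + m') * (u * u') = (x ^ m * u) * (x ^ m' * u') := by ring
    rw [h]
    exact B.mul_mem hm hm'
  add_mem' := by
    rintro u u' ⟨m, hm⟩ ⟨m', hm'⟩
    refine ⟨m + m', ?_⟩
    have h : x ^ (m + m') * (u + u') = x ^ m' * (x ^ m * u) + x ^ m * (x ^ m' * u') := by ring
    rw [h]
    exact B.add_mem (B.mul_mem (B.pow_mem hx _) hm) (B.mul_mem (B.pow_mem hx _) hm')
  algebraMap_mem' := fun a => ⟨0, by simp⟩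

theorem mem_loc {B : Subalgebra Λ F} {x : F} {hx : x ∈ B} {u : F} :
    u ∈ loc B x hx ↔ ∃ m : ℕ, x ^ m * u ∈ B := Iff.rfl

theorem le_loc (B : Subalgebra Λ F) (x : F) (hx : x ∈ B) : B ≤ loc B x hx :=
  fun u hu => ⟨0, by simpa using hu⟩

theorem inv_mem_loc (B : Subalgebra Λ F) (x : F) (hx : x ∈ B) {x' : F} (hxx' : x * x' = 1) :
    x' ∈ loc B x hx :=
  ⟨1, by simp [hxx']⟩

theorem loc_le (B : Subalgebra Λ F) (x : F) (hx : x ∈ B) (V : Subalgebra Λ F) (hBV : B ≤ V)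
    {x' : F} (hx' : x' ∈ V) (hxx' : x * x' = 1) : loc B x hx ≤ V := by
  rintro u ⟨m, hm⟩
  have h : u = x' ^ m * (x ^ m * u) := by
    rw [← mul_assoc, ← mul_pow, mul_comm x' x, hxx', one_pow, one_mul]
  rw [h]
  exact V.mul_mem (V.pow_mem hx' _) (hBV hm)

end Loc

/-! ### The image of a `Λ`-chart in the function field -/

section Img

variable {K : Type u} [Field K] {F : Type v} [Field F] [Algebra K F]
  {C : Type w} [CommRing C] [Algebra K C] (ι : C →ₐ[K] F) {n : ℕ} {z : C} {β : Fin n → C}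
  (hf : ∀ f : C, ∃! p : Fin n → K[X], f = ∑ i, aeval z (p i) * β i)

/-- The image in `F` of the elements with `Λ`-coordinates. -/
def img (Λ : Subring K) (hΛ : Good hf Λ) : Subalgebra Λ F :=
  (sub hf Λ hΛ).map (ι.restrictScalars Λ)

theorem mem_img {Λ : Subring K} {hΛ : Good hf Λ} {y : F} :
    y ∈ img ι hf Λ hΛ ↔ ∃ f ∈ sub hf Λ hΛ, ι f = y := Iff.rfl

theorem apply_mem_img {Λ : Subring K} (hΛ : Good hf Λ) {f : C} (h : f ∈ sub hf Λ hΛ) :
    ι f ∈ img ι hf Λ hΛ := ⟨f, h, rfl⟩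

theorem sub_eq_sum {Λ : Subring K} (hΛ : Good hf Λ) {f : C} (h : f ∈ sub hf Λ hΛ) :
    ∃ q : Fin n → Λ[X], f = ∑ i, aeval z ((q i).map Λ.subtype) * β i := by
  obtain ⟨q, hq⟩ := (sub_free hf hΛ ⟨f, h⟩).exists
  refine ⟨q, ?_⟩
  have h1 := congrArg Subtype.val hq
  rw [AddSubmonoidClass.coe_finsetSum] at h1
  simpa only [MulMemClass.coe_mul, aeval_sub_coe] using h1

theorem apply_aeval_map {Λ : Subring K} (q : Λ[X]) (c : C) :
    ι (aeval c (q.map Λ.subtype)) = aeval (ι c) q := by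
  have h1 : aeval c (q.map Λ.subtype) = aeval c q := Polynomial.aeval_map_algebraMap K c q
  rw [h1]
  exact (Polynomial.aeval_algHom_apply (ι.restrictScalars Λ) c q).symm

theorem img_le {Λ : Subring K} (hΛ : Good hf Λ) (V : Subalgebra Λ F) (hz : ι z ∈ V)
    (hβ : ∀ i, ι (β i) ∈ V) : img ι hf Λ hΛ ≤ V := by
  rintro y ⟨f, hfm, rfl⟩
  obtain ⟨q, hq⟩ := sub_eq_sum hf hΛ hfm
  change ι f ∈ V
  rw [hq, map_sum]
  refine V.sum_mem fun i _ => ?_
  rw [map_mul, apply_aeval_map]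
  exact V.mul_mem (Algebra.adjoin_le (Set.singleton_subset_iff.2 hz)
    (Polynomial.aeval_mem_adjoin_singleton Λ (ι z))) (hβ i)

end Img

/-! ### A chart inside an ambient subalgebra -/

section ChartIn

variable {K : Type u} [Field K] {F : Type v} [Field F] [Algebra K F]
  {C : Type w} [CommRing C] [Algebra K C] (ι : C →ₐ[K] F) {n : ℕ} {z : C} {β : Fin n → C}
  (hf : ∀ f : C, ∃! p : Fin n → K[X], f = ∑ i, aeval z (p i) * β i)

/-- The image of the `Λ`-chart, as a subalgebra of an ambient subalgebra `U` of `F`. -/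
def chartIn {Λ : Subring K} (hΛ : Good hf Λ) (U : Subalgebra Λ F) : Subalgebra Λ U :=
  (img ι hf Λ hΛ).comap U.val

theorem mem_chartIn {Λ : Subring K} {hΛ : Good hf Λ} {U : Subalgebra Λ F} {u : U} :
    u ∈ chartIn ι hf hΛ U ↔ (u : F) ∈ img ι hf Λ hΛ := Iff.rfl

/-- The `Λ`-chart is isomorphic to its image in `U`. -/
def chartEquiv (hι : Function.Injective ι) {Λ : Subring K} (hΛ : Good hf Λ)
    (U : Subalgebra Λ F) (hU : img ι hf Λ hΛ ≤ U) :
    sub hf Λ hΛ ≃ₐ[Λ] chartIn ι hf hΛ U :=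
  AlgEquiv.ofBijective
    ((((ι.restrictScalars Λ).comp (sub hf Λ hΛ).val).codRestrict U
        (fun f => hU (apply_mem_img ι hf hΛ f.2))).codRestrict (chartIn ι hf hΛ U)
      (fun f => apply_mem_img ι hf hΛ f.2))
    ⟨fun f g h => Subtype.ext (hι (congrArg (fun y : chartIn ι hf hΛ U => ((y : U) : F)) h)),
      fun b => by
        obtain ⟨f, hfm, hfb⟩ := (mem_img ι hf).1 ((mem_chartIn ι hf).1 b.2)
        exact ⟨⟨f, hfm⟩, Subtype.ext (Subtype.ext hfb)⟩⟩

theorem coe_chartEquiv (hι : Function.Injective ι) {Λ : Subring K} (hΛ : Good hf Λ)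
    (U : Subalgebra Λ F) (hU : img ι hf Λ hΛ ≤ U) (f : sub hf Λ hΛ) :
    (((chartEquiv ι hf hι hΛ U hU f : chartIn ι hf hΛ U) : U) : F) = ι (f : C) := rfl

end ChartIn

/-! ### The model -/

section Model

variable {K : Type u} [Field K] {F : Type v} [Field F] [Algebra K F]
  {C : Type w} [CommRing C] [Algebra K C] {C' : Type*} [CommRing C'] [Algebra K C']
  (ι : C →ₐ[K] F) (ι' : C' →ₐ[K] F)
  {n : ℕ} {z : C} {β : Fin n → C} {z' : C'} {β' : Fin n → C'}
  (hf : ∀ f : C, ∃! p : Fin n → K[X], f = ∑ i, aeval z (p i) * β i)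
  (hf' : ∀ f : C', ∃! p : Fin n → K[X], f = ∑ i, aeval z' (p i) * β' i)

/-- The overlap ring `B[1/x]` inside `F`. -/
def ovl (Λ : Subring K) (hΛ : Good hf Λ) : Subalgebra Λ F :=
  loc (img ι hf Λ hΛ) (ι z) (apply_mem_img ι hf hΛ (z_mem_sub hf hΛ))

theorem ovl_le {Λ : Subring K} (hΛ : Good hf Λ) (hΛ' : Good hf' Λ) (hzz' : ι z * ι' z' = 1)
    (htr' : ∀ i, ∃ (m : ℕ) (c' : C'), c' ∈ sub hf' Λ hΛ' ∧ ι' c' = ι' z' ^ m * ι (β i)) :
    ovl ι hf Λ hΛ ≤ ovl ι' hf' Λ hΛ' := by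
  refine loc_le _ _ _ _ (img_le ι hf hΛ _ ?_ ?_) ?_ hzz'
  · exact inv_mem_loc _ _ _ (by rw [mul_comm]; exact hzz')
  · intro i
    obtain ⟨m, c', hc', h⟩ := htr' i
    exact ⟨m, by rw [← h]; exact apply_mem_img ι' hf' hΛ' hc'⟩
  · exact le_loc _ _ _ (apply_mem_img ι' hf' hΛ' (z_mem_sub hf' hΛ'))

theorem exists_model_of_good (hι : Function.Injective ι) (hι' : Function.Injective ι')
    (hn : 0 < n) (hzz' : ι z * ι' z' = 1) (Λ : Subring K) (hΛ : Good hf Λ) (hΛ' : Good hf' Λ)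
    (hcert : ChartCert Λ (sub hf Λ hΛ) ⟨z, z_mem_sub hf hΛ⟩
      (fun i => ⟨β i, basis_mem_sub hf hΛ i⟩))
    (hcert' : ChartCert Λ (sub hf' Λ hΛ') ⟨z', z_mem_sub hf' hΛ'⟩
      (fun i => ⟨β' i, basis_mem_sub hf' hΛ' i⟩))
    (hinf : LocalCertN Λ (sub hf' Λ hΛ') ⟨z', z_mem_sub hf' hΛ'⟩ 0 1)
    (htr : ∀ i, ∃ (m : ℕ) (c : C), c ∈ sub hf Λ hΛ ∧ ι c = ι z ^ m * ι' (β' i))
    (htr' : ∀ i, ∃ (m : ℕ) (c' : C'), c' ∈ sub hf' Λ hΛ' ∧ ι' c' = ι' z' ^ m * ι (β i))
    (hfrac : ∀ y : F, ∃ (s : K[X]) (c : C), s ≠ 0 ∧ ι c = aeval (ι z) s * y) :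
    ∃ (U : Subalgebra Λ F) (M : Model Λ U n),
      Real M K F Λ.subtype ((U.val : U →ₐ[Λ] F) : U →+* F) ∧
      ((M.x : U) : F) = ι z ∧ ((M.x' : U) : F) = ι' z' ∧ (∀ i, (((M.b i : M.B) : U) : F) = ι (β i)) ∧
      (∀ i, (((M.b' i : M.B') : U) : F) = ι' (β' i)) ∧
      (∀ u : M.B, ((u : U) : F) ∈ ι.range) ∧ (∀ u : M.B', ((u : U) : F) ∈ ι'.range) := by
  have hzz'' : ι' z' * ι z = 1 := by rw [mul_comm]; exact hzz'
  obtain ⟨U, hUdef⟩ : ∃ U, U = ovl ι hf Λ hΛ := ⟨_, rfl⟩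
  have hUeq : U = ovl ι' hf' Λ hΛ' :=
    hUdef.trans (le_antisymm (ovl_le ι ι' hf hf' hΛ hΛ' hzz' htr')
      (ovl_le ι' ι hf' hf hΛ' hΛ hzz'' htr))
  have hle : img ι hf Λ hΛ ≤ U := hUdef ▸ le_loc _ _ _
  have hle' : img ι' hf' Λ hΛ' ≤ U := hUeq ▸ le_loc _ _ _
  have hmem : ∀ u : F, u ∈ U → ∃ m : ℕ, ι z ^ m * u ∈ img ι hf Λ hΛ := by
    rw [hUdef]
    exact fun u h => h
  have hmem' : ∀ u : F, u ∈ U → ∃ m : ℕ, ι' z' ^ m * u ∈ img ι' hf' Λ hΛ' := by
    rw [hUeq]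
    exact fun u h => h
  let e := chartEquiv ι hf hι hΛ U hle
  let e' := chartEquiv ι' hf' hι' hΛ' U hle'
  let M : Model Λ U n :=
    { x := (e ⟨z, z_mem_sub hf hΛ⟩ : U)
      x' := (e' ⟨z', z_mem_sub hf' hΛ'⟩ : U)
      B := chartIn ι hf hΛ U
      B' := chartIn ι' hf' hΛ' U
      b := fun i => e ⟨β i, basis_mem_sub hf hΛ i⟩
      b' := fun i => e' ⟨β' i, basis_mem_sub hf' hΛ' i⟩
      hxx' := Subtype.ext hzz'
      hx := (e ⟨z, z_mem_sub hf hΛ⟩).2
      hx' := (e' ⟨z', z_mem_sub hf' hΛ'⟩).2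
      cert := chartCert_equiv (R' := chartIn ι hf hΛ U) e hcert
      cert' := chartCert_equiv (R' := chartIn ι' hf' hΛ' U) e' hcert'
      cert_inf := localCertN_equiv (R' := chartIn ι' hf' hΛ' U) e' hinf
      hB := fun u => by
        obtain ⟨m, hm⟩ := hmem u u.2
        exact ⟨m, hm⟩
      hB' := fun u => by
        obtain ⟨m, hm⟩ := hmem' u u.2
        exact ⟨m, hm⟩
      pos := hn }
  have haev : ∀ q : K[X], aeval (ι z) q = ι (aeval z q) := fun q =>
    Polynomial.aeval_algHom_apply ι z q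
  refine ⟨U, M, ⟨fun a => rfl, ?_, ?_, ?_⟩, rfl, rfl, fun i => rfl, fun i => rfl, ?_, ?_⟩
  rotate_left 3
  · intro u
    obtain ⟨f, -, hfu⟩ := (mem_img ι hf).1 ((mem_chartIn ι hf).1 u.2)
    exact ⟨f, hfu⟩
  · intro u
    obtain ⟨f, -, hfu⟩ := (mem_img ι' hf').1 ((mem_chartIn ι' hf').1 u.2)
    exact ⟨f, hfu⟩
  · rw [transcendental_iff]
    intro q hq
    change aeval (ι z) q = 0 at hq
    rw [haev] at hq
    exact aeval_eq_zero_imp hf hn q (hι (by rw [hq, map_zero]))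
  · intro y
    obtain ⟨s, c, hs, hc⟩ := hfrac y
    refine ⟨co hf c, s, hs, ?_⟩
    change aeval (ι z) s * y = ∑ i, aeval (ι z) (co hf c i) * ι (β i)
    rw [← hc]
    conv_lhs => rw [co_spec hf c]
    rw [map_sum]
    refine Finset.sum_congr rfl fun i _ => ?_
    rw [map_mul, haev]
  · intro p hp
    change ∑ i, aeval (ι z) (p i) * ι (β i) = 0 at hp
    have h1 : ι (∑ i, aeval z (p i) * β i) = 0 := by
      rw [map_sum, ← hp]
      refine Finset.sum_congr rfl fun i _ => ?_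
      rw [map_mul, haev]
    have h2 : (0 : C) = ∑ i, aeval z (p i) * β i := (hι (by rw [h1, map_zero])).symm
    have h3 := co_unique hf h2
    rw [co_zero] at h3
    exact h3.symm

end Model

/-! ### Spreading out -/

section Main

variable {K : Type u} [Field K] {F : Type v} [Field F] [Algebra K F]
  {C : Type*} [CommRing C] [Algebra K C] {C' : Type*} [CommRing C'] [Algebra K C']

/-- **Spreading out**, with a prescribed finite set `S₀ ⊆ K` inside the base ring: a two-chart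
certificate over the field `K` (charts `C ∋ z`, `C' ∋ z'` embedded in `F`, `z z' = 1`, transition
data, `F = Frac C`) comes from a `Model` over a finitely generated subring `Λ` of `K`, of which
`(K, F)` is a realisation. -/
theorem exists_model_of_certs' (ι : C →ₐ[K] F) (ι' : C' →ₐ[K] F) (hι : Function.Injective ι)
    (hι' : Function.Injective ι') {n : ℕ} (hn : 0 < n) {z : C} {β : Fin n → C} {z' : C'}
    {β' : Fin n → C'} (hzz' : ι z * ι' z' = 1)
    (hC : ChartCert K C z β) (hC' : ChartCert K C' z' β') (hinf : LocalCertN K C' z' 0 1)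
    (htr : ∀ i, ∃ (m : ℕ) (c : C), ι c = ι z ^ m * ι' (β' i))
    (htr' : ∀ i, ∃ (m : ℕ) (c' : C'), ι' c' = ι' z' ^ m * ι (β i))
    (hfrac : ∀ y : F, ∃ (s : K[X]) (c : C), s ≠ 0 ∧ ι c = aeval (ι z) s * y)
    (S₀ : Finset K) :
    ∃ (Λ : Type u) (_ : CommRing Λ) (U : Type v) (_ : CommRing U) (_ : Algebra Λ U)
      (M : Model Λ U n) (φ : Λ →+* K) (ψ : U →+* F),
      Real M K F φ ψ ∧ Function.Injective φ ∧ Function.Injective ψ ∧
      (∃ s : Finset Λ, Subring.closure (s : Set Λ) = ⊤) ∧ (∀ a ∈ S₀, a ∈ φ.range) ∧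
      ψ M.x = ι z ∧ ψ M.x' = ι' z' ∧ (∀ i, ψ (M.b i : U) = ι (β i)) ∧
      (∀ i, ψ (M.b' i : U) = ι' (β' i)) ∧
      (∀ u : M.B, ψ (u : U) ∈ ι.range) ∧ (∀ u : M.B', ψ (u : U) ∈ ι'.range) := by
  classical
  choose mt ct hct using htr
  choose mt' ct' hct' using htr'
  have hev : Ev (fun Λ : Subring K =>
      (Good hC.free Λ ∧ Good hC'.free Λ) ∧
      (∀ hΛ : Good hC.free Λ, ChartCert Λ (sub hC.free Λ hΛ) ⟨z, z_mem_sub hC.free hΛ⟩
        (fun i => ⟨β i, basis_mem_sub hC.free hΛ i⟩)) ∧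
      (∀ hΛ' : Good hC'.free Λ, ChartCert Λ (sub hC'.free Λ hΛ') ⟨z', z_mem_sub hC'.free hΛ'⟩
        (fun i => ⟨β' i, basis_mem_sub hC'.free hΛ' i⟩)) ∧
      (∀ (hΛ' : Good hC'.free Λ) (aΛ : Λ), (aΛ : K) = 0 →
        LocalCertN Λ (sub hC'.free Λ hΛ') ⟨z', z_mem_sub hC'.free hΛ'⟩ aΛ 1) ∧
      (∀ i, CoIn hC.free Λ (ct i)) ∧ (∀ i, CoIn hC'.free Λ (ct' i)) ∧
      ∀ a : S₀, (a : K) ∈ Λ) :=
    ((ev_good _).and (ev_good _)).and ((ev_chartCert hC).and ((ev_chartCert hC').and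
      ((ev_localCert hC'.free hinf).and ((Ev.all fun i => ev_coIn _ _).and
        ((Ev.all fun i => ev_coIn _ _).and (Ev.all fun a => Ev.mem _))))))
  obtain ⟨S, hS⟩ := hev
  obtain ⟨⟨hΛ, hΛ'⟩, h1, h2, h3, h4, h5, h6⟩ :=
    hS (Subring.closure (S : Set K)) Subring.subset_closure
  obtain ⟨U, M, hR, hx, hx', hb, hb', hBr, hBr'⟩ :=
    exists_model_of_good ι ι' hC.free hC'.free hι hι' hn hzz' _ hΛ hΛ' (h1 hΛ) (h2 hΛ')
      (h3 hΛ' 0 rfl) (fun i => ⟨mt i, ct i, h4 i, hct i⟩) (fun i => ⟨mt' i, ct' i, h5 i, hct' i⟩)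
      hfrac
  refine ⟨Subring.closure (S : Set K), inferInstance, U, inferInstance, inferInstance, M,
    (Subring.closure (S : Set K)).subtype, _, hR, Subtype.val_injective, Subtype.val_injective,
    ⟨S.preimage _ Subtype.val_injective.injOn, ?_⟩, ?_, hx, hx', hb, hb', hBr, hBr'⟩
  · rw [Finset.coe_preimage]
    exact closure_preimage_eq_top _
  · intro a ha
    exact ⟨⟨a, h6 ⟨a, ha⟩⟩, rfl⟩

/-- **Spreading out** ((GR-E3), the literal of the cut). -/
theorem exists_model_of_certs (ι : C →ₐ[K] F) (ι' : C' →ₐ[K] F) (hι : Function.Injective ι)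
    (hι' : Function.Injective ι') {n : ℕ} (hn : 0 < n) {z : C} {β : Fin n → C} {z' : C'}
    {β' : Fin n → C'} (hzz' : ι z * ι' z' = 1)
    (hC : ChartCert K C z β) (hC' : ChartCert K C' z' β') (hinf : LocalCertN K C' z' 0 1)
    (htr : ∀ i, ∃ (m : ℕ) (c : C), ι c = ι z ^ m * ι' (β' i))
    (htr' : ∀ i, ∃ (m : ℕ) (c' : C'), ι' c' = ι' z' ^ m * ι (β i))
    (hfrac : ∀ y : F, ∃ (s : K[X]) (c : C), s ≠ 0 ∧ ι c = aeval (ι z) s * y) :
    ∃ (Λ : Type u) (_ : CommRing Λ) (U : Type v) (_ : CommRing U) (_ : Algebra Λ U)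
      (M : Model Λ U n) (φ : Λ →+* K) (ψ : U →+* F),
      Real M K F φ ψ ∧ Function.Injective φ ∧ Function.Injective ψ ∧
      ∃ s : Finset Λ, Subring.closure (s : Set Λ) = ⊤ := by
  obtain ⟨Λ, i1, U, i2, i3, M, φ, ψ, hR, hφ, hψ, hs, -⟩ :=
    exists_model_of_certs' ι ι' hι hι' hn hzz' hC hC' hinf htr htr' hfrac ∅
  exact ⟨Λ, i1, U, i2, i3, M, φ, ψ, hR, hφ, hψ, hs⟩

end Main

end Fermat.Agent.S27P.GR.Spread74
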