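import Mathlib
import Fermat.Agent.S27P.GR.Defs

/-!
# S27 / (GR): spreading out — descent of the certificates to finitely generated subrings

`K` a field, `F` a `K`-algebra, `C` a chart ring over `K` with an injective `ι : C →ₐ[K] F`,
`z : C`, `β : Fin n → C` a `K[z]`-basis of `C`.  For a subring `Λ` of `K` the chart ring over
`Λ` is `chartΛ ι z β Λ := Algebra.adjoin Λ ({ι z} ∪ range (ι ∘ β))` (always a ring).

`Ev P` means: `P Λ` holds for all subrings `Λ` containing a suitable finite subset of `K`.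

* `ev_localCertN` : a local certificate over `K` is eventually a local certificate over `Λ`;
* `ev_chartCert` : a chart certificate over `K` is eventually a chart certificate over `Λ`.
-/

set_option autoImplicit false

noncomputable section

namespace Fermat.Agent.S27P.GR.SpreadF

open Polynomial

section Ev

variable {K : Type*} [Field K]

/-- `P` holds for all sufficiently large subrings of `K` (those containing a suitable finite
set). -/
def Ev (P : Subring K → Prop) : Prop :=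
  ∃ s : Finset K, ∀ Λ : Subring K, (↑s : Set K) ⊆ Λ → P Λ

theorem Ev.mono {P Q : Subring K → Prop} (h : Ev P) (hPQ : ∀ Λ, P Λ → Q Λ) : Ev Q := by
  obtain ⟨s, hs⟩ := h
  exact ⟨s, fun Λ hΛ => hPQ Λ (hs Λ hΛ)⟩

theorem Ev.and {P Q : Subring K → Prop} (hP : Ev P) (hQ : Ev Q) :
    Ev (fun Λ => P Λ ∧ Q Λ) := by
  classical
  obtain ⟨s, hs⟩ := hP
  obtain ⟨t, ht⟩ := hQ
  refine ⟨s ∪ t, fun Λ hΛ => ⟨hs Λ ?_, ht Λ ?_⟩⟩
  · exact fun c hc => hΛ (by simp [Finset.mem_coe.mp hc])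
  · exact fun c hc => hΛ (by simp [Finset.mem_coe.mp hc])

theorem Ev.mp {P Q : Subring K → Prop} (hP : Ev P) (hQ : Ev (fun Λ => P Λ → Q Λ)) : Ev Q :=
  (hP.and hQ).mono fun _ h => h.2 h.1

theorem ev_of_forall {P : Subring K → Prop} (h : ∀ Λ, P Λ) : Ev P :=
  ⟨∅, fun Λ _ => h Λ⟩

theorem Ev.forall_fintype {ι : Type*} [Finite ι] {P : ι → Subring K → Prop}
    (h : ∀ i, Ev (P i)) : Ev (fun Λ => ∀ i, P i Λ) := by
  classical
  cases nonempty_fintype ι
  choose s hs using h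
  refine ⟨Finset.univ.biUnion s, fun Λ hΛ i => hs i Λ ?_⟩
  intro c hc
  apply hΛ
  simp only [Finset.coe_biUnion, Finset.coe_univ, Set.mem_univ, Set.iUnion_true, Set.mem_iUnion]
  exact ⟨i, hc⟩

theorem Ev.exists_subring {P : Subring K → Prop} (h : Ev P) :
    ∃ s : Finset K, P (Subring.closure (↑s : Set K)) := by
  obtain ⟨s, hs⟩ := h
  exact ⟨s, hs _ Subring.subset_closure⟩

theorem ev_mem (c : K) : Ev (fun Λ => c ∈ Λ) := by
  classical
  exact ⟨{c}, fun Λ hΛ => hΛ (by simp)⟩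

/-- A polynomial over `K` eventually has all its coefficients in `Λ`. -/
theorem ev_lifts (p : K[X]) : Ev (fun Λ => ∃ q : (↥Λ)[X], q.map Λ.subtype = p) := by
  classical
  refine ⟨p.coeffs, fun Λ hΛ => ?_⟩
  have h : p ∈ Polynomial.lifts Λ.subtype := by
    rw [Polynomial.lifts_iff_coeff_lifts]
    intro m
    by_cases hm : p.coeff m = 0
    · exact ⟨0, by rw [hm]; rfl⟩
    · exact ⟨⟨p.coeff m, hΛ (Finset.mem_coe.mpr (Polynomial.coeff_mem_coeffs hm))⟩, rfl⟩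
  exact h

end Ev

section Chart

variable {K : Type*} [Field K] {F : Type*} [Field F] [Algebra K F]
  {C : Type*} [CommRing C] [Algebra K C] (ι : C →ₐ[K] F) {n : ℕ} (z : C) (β : Fin n → C)

/-- The chart ring over the subring `Λ` of `K`: the `Λ`-subalgebra of `F` generated by `ι z` and
the `ι (β i)`. -/
def chartΛ (Λ : Subring K) : Subalgebra ↥Λ F :=
  Algebra.adjoin ↥Λ (insert (ι z) (Set.range fun i => ι (β i)))

/-- The coordinate `z` in the chart ring over `Λ`. -/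
def zΛ (Λ : Subring K) : ↥(chartΛ ι z β Λ) :=
  ⟨ι z, Algebra.subset_adjoin (Set.mem_insert _ _)⟩

/-- The basis elements in the chart ring over `Λ`. -/
def βΛ (Λ : Subring K) (i : Fin n) : ↥(chartΛ ι z β Λ) :=
  ⟨ι (β i), Algebra.subset_adjoin (Set.mem_insert_of_mem _ ⟨i, rfl⟩)⟩

@[simp] theorem coe_zΛ (Λ : Subring K) : ((zΛ ι z β Λ : ↥(chartΛ ι z β Λ)) : F) = ι z := rfl

@[simp] theorem coe_βΛ (Λ : Subring K) (i : Fin n) :
    ((βΛ ι z β Λ i : ↥(chartΛ ι z β Λ)) : F) = ι (β i) := rfl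

/-- The `Λ[z]`-lattice spanned by `β` inside `F`. -/
def latt (Λ : Subring K) : Set F :=
  {f | ∃ p : Fin n → (↥Λ)[X], f = ∑ i, aeval (ι z) (p i) * ι (β i)}

variable {ι z β}

theorem aeval_lift (Λ : Subring K) (q : (↥Λ)[X]) :
    aeval (ι z) q = ι (aeval z (q.map Λ.subtype)) := by
  rw [← aeval_algHom_apply]
  exact (aeval_map_algebraMap K (ι z) q).symm

theorem sum_eq_ι (Λ : Subring K) (p : Fin n → (↥Λ)[X]) :
    ∑ i, aeval (ι z) (p i) * ι (β i) = ι (∑ i, aeval z ((p i).map Λ.subtype) * β i) := by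
  rw [map_sum]
  refine Finset.sum_congr rfl fun i _ => ?_
  rw [map_mul, aeval_lift]

theorem coe_aeval_zΛ (Λ : Subring K) (q : (↥Λ)[X]) :
    ((aeval (zΛ ι z β Λ) q : ↥(chartΛ ι z β Λ)) : F) = aeval (ι z) q :=
  ((chartΛ ι z β Λ).aeval_coe (zΛ ι z β Λ) q).symm

theorem coe_sum_Λ (Λ : Subring K) (p : Fin n → (↥Λ)[X]) :
    ((∑ i, aeval (zΛ ι z β Λ) (p i) * βΛ ι z β Λ i : ↥(chartΛ ι z β Λ)) : F)
      = ∑ i, aeval (ι z) (p i) * ι (β i) := by
  rw [AddSubmonoidClass.coe_finsetSum]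
  refine Finset.sum_congr rfl fun i _ => ?_
  rw [MulMemClass.coe_mul, coe_aeval_zΛ, coe_βΛ]

theorem latt_subset_chart (Λ : Subring K) {f : F} (hf : f ∈ latt ι z β Λ) :
    f ∈ chartΛ ι z β Λ := by
  obtain ⟨p, rfl⟩ := hf
  rw [← coe_sum_Λ]
  exact Subtype.mem _

theorem zero_mem_latt (Λ : Subring K) : (0 : F) ∈ latt ι z β Λ :=
  ⟨fun _ => 0, by simp⟩

theorem add_mem_latt (Λ : Subring K) {f g : F} (hf : f ∈ latt ι z β Λ)
    (hg : g ∈ latt ι z β Λ) : f + g ∈ latt ι z β Λ := by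
  obtain ⟨p, rfl⟩ := hf
  obtain ⟨q, rfl⟩ := hg
  refine ⟨fun i => p i + q i, ?_⟩
  rw [← Finset.sum_add_distrib]
  refine Finset.sum_congr rfl fun i _ => ?_
  rw [map_add, add_mul]

theorem sum_mem_latt (Λ : Subring K) {κ : Type*} (s : Finset κ) (f : κ → F)
    (hf : ∀ i ∈ s, f i ∈ latt ι z β Λ) : ∑ i ∈ s, f i ∈ latt ι z β Λ :=
  Finset.sum_induction f (· ∈ latt ι z β Λ) (fun _ _ => add_mem_latt Λ) (zero_mem_latt Λ) hf

theorem aeval_mul_mem_latt (Λ : Subring K) (q : (↥Λ)[X]) {f : F} (hf : f ∈ latt ι z β Λ) :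
    aeval (ι z) q * f ∈ latt ι z β Λ := by
  obtain ⟨p, rfl⟩ := hf
  refine ⟨fun i => q * p i, ?_⟩
  rw [Finset.mul_sum]
  refine Finset.sum_congr rfl fun i _ => ?_
  rw [map_mul, mul_assoc]

theorem basis_mem_latt (Λ : Subring K) (i : Fin n) : ι (β i) ∈ latt ι z β Λ := by
  classical
  refine ⟨fun j => if j = i then 1 else 0, ?_⟩
  rw [Finset.sum_eq_single i]
  · simp
  · intro j _ hj
    simp [hj]
  · intro h
    exact absurd (Finset.mem_univ i) h

/-- `Λ` is *good* for the chart if the structure constants of `β` and the coordinates of `1`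
have coefficients in `Λ`. -/
def IsGood (ι : C →ₐ[K] F) (z : C) (β : Fin n → C) (Λ : Subring K) : Prop :=
  (∀ i j, ι (β i) * ι (β j) ∈ latt ι z β Λ) ∧ (1 : F) ∈ latt ι z β Λ

theorem mul_mem_latt {Λ : Subring K} (hg : IsGood ι z β Λ) {f g : F}
    (hf : f ∈ latt ι z β Λ) (hg' : g ∈ latt ι z β Λ) : f * g ∈ latt ι z β Λ := by
  obtain ⟨p, rfl⟩ := hf
  obtain ⟨q, rfl⟩ := hg'
  rw [Finset.sum_mul_sum]
  refine sum_mem_latt Λ _ _ fun i _ => sum_mem_latt Λ _ _ fun j _ => ?_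
  have h : aeval (ι z) (p i) * ι (β i) * (aeval (ι z) (q j) * ι (β j))
      = aeval (ι z) (p i * q j) * (ι (β i) * ι (β j)) := by
    rw [map_mul]
    ring
  rw [h]
  exact aeval_mul_mem_latt Λ _ (hg.1 i j)

theorem chart_subset_latt {Λ : Subring K} (hg : IsGood ι z β Λ) {f : F}
    (hf : f ∈ chartΛ ι z β Λ) : f ∈ latt ι z β Λ := by
  unfold chartΛ at hf
  induction hf using Algebra.adjoin_induction with
  | mem x hx =>
    rcases hx with rfl | ⟨i, rfl⟩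
    · have h := aeval_mul_mem_latt Λ (X : (↥Λ)[X]) hg.2
      rwa [aeval_X, mul_one] at h
    · exact basis_mem_latt Λ i
  | algebraMap r =>
    have h := aeval_mul_mem_latt Λ (Polynomial.C r : (↥Λ)[X]) hg.2
    rwa [aeval_C, mul_one] at h
  | add x y _ _ hx hy => exact add_mem_latt Λ hx hy
  | mul x y _ _ hx hy => exact mul_mem_latt hg hx hy

theorem mem_chart_iff {Λ : Subring K} (hg : IsGood ι z β Λ) (f : F) :
    f ∈ chartΛ ι z β Λ ↔ f ∈ latt ι z β Λ :=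
  ⟨chart_subset_latt hg, latt_subset_chart Λ⟩

/-- An element of `C` with coordinates liftable to `Λ[X]` lies in the lattice. -/
theorem mem_latt_of_lifts {Λ : Subring K} {f : C} {p : Fin n → K[X]}
    (hf : f = ∑ i, aeval z (p i) * β i) (hp : ∀ i, ∃ q : (↥Λ)[X], q.map Λ.subtype = p i) :
    ι f ∈ latt ι z β Λ := by
  choose q hq using hp
  refine ⟨q, ?_⟩
  rw [sum_eq_ι, hf]
  simp only [hq]

/-- Every element of `C` is eventually in the lattice. -/
theorem ev_mem_latt (hspan : ∀ f : C, ∃ p : Fin n → K[X], f = ∑ i, aeval z (p i) * β i)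
    (f : C) : Ev (fun Λ => ι f ∈ latt ι z β Λ) := by
  obtain ⟨p, hp⟩ := hspan f
  exact (Ev.forall_fintype fun i => ev_lifts (p i)).mono fun Λ h => mem_latt_of_lifts hp h

theorem ev_isGood (hspan : ∀ f : C, ∃ p : Fin n → K[X], f = ∑ i, aeval z (p i) * β i) :
    Ev (IsGood ι z β) := by
  have h1 : Ev (fun Λ => ∀ i j, ι (β i) * ι (β j) ∈ latt ι z β Λ) :=
    Ev.forall_fintype fun i => Ev.forall_fintype fun j => by
      have := ev_mem_latt (ι := ι) hspan (β i * β j)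
      simpa only [map_mul] using this
  have h2 : Ev (fun Λ => (1 : F) ∈ latt ι z β Λ) := by
    have := ev_mem_latt (ι := ι) hspan (1 : C)
    simpa only [map_one] using this
  exact h1.and h2

/-- Freeness of the chart ring over `Λ`. -/
theorem free_Λ (hι : Function.Injective ι)
    (hfree : ∀ f : C, ∃! p : Fin n → K[X], f = ∑ i, aeval z (p i) * β i)
    {Λ : Subring K} (hg : IsGood ι z β Λ) (f : ↥(chartΛ ι z β Λ)) :
    ∃! p : Fin n → (↥Λ)[X], f = ∑ i, aeval (zΛ ι z β Λ) (p i) * βΛ ι z β Λ i := by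
  obtain ⟨p, hp⟩ := chart_subset_latt hg f.2
  refine ⟨p, Subtype.ext (by rw [coe_sum_Λ]; exact hp), ?_⟩
  intro p' hp'
  have h1 : (f : F) = ∑ i, aeval (ι z) (p' i) * ι (β i) := by
    rw [← coe_sum_Λ, ← hp']
  rw [hp, sum_eq_ι, sum_eq_ι] at h1
  have h2 := hι h1
  have h3 : (fun i => (p i).map Λ.subtype) = fun i => (p' i).map Λ.subtype :=
    (hfree _).unique rfl h2
  funext i
  exact (Polynomial.map_injective Λ.subtype Subtype.val_injective (congrFun h3 i)).symm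

/-- An element of `C` lying in the lattice, as an element of the chart ring over `Λ`. -/
def liftΛ {Λ : Subring K} (f : C) (hf : ι f ∈ latt ι z β Λ) : ↥(chartΛ ι z β Λ) :=
  ⟨ι f, latt_subset_chart Λ hf⟩

@[simp] theorem coe_liftΛ {Λ : Subring K} (f : C) (hf : ι f ∈ latt ι z β Λ) :
    ((liftΛ f hf : ↥(chartΛ ι z β Λ)) : F) = ι f := rfl

theorem coe_algebraMap_Λ (Λ : Subring K) (a : ↥Λ) :
    ((algebraMap ↥Λ ↥(chartΛ ι z β Λ) a : ↥(chartΛ ι z β Λ)) : F) = algebraMap K F (a : K) :=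
  rfl

/-- Division with remainder by `X - a` in the chart ring over `Λ`. -/
theorem aeval_zΛ_eq (Λ : Subring K) (a : ↥Λ) (p : (↥Λ)[X]) :
    aeval (zΛ ι z β Λ) p = algebraMap ↥Λ ↥(chartΛ ι z β Λ) (p.eval a)
      + (zΛ ι z β Λ - algebraMap ↥Λ ↥(chartΛ ι z β Λ) a)
        * aeval (zΛ ι z β Λ) (p /ₘ (X - Polynomial.C a)) := by
  conv_lhs => rw [← modByMonic_add_div p (X - Polynomial.C a), modByMonic_X_sub_C_eq_C_eval]
  rw [map_add, map_mul, aeval_C, map_sub, aeval_X, aeval_C]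

/-- The local certificate over `Λ` from explicit witnesses over `K` with coefficients in `Λ`. -/
theorem localCertN_Λ (hι : Function.Injective ι)
    (hfree : ∀ f : C, ∃! p : Fin n → K[X], f = ∑ i, aeval z (p i) * β i)
    {Λ : Subring K} (hg : IsGood ι z β Λ) {a : K} {m : ℕ}
    (τ v u : Fin m → C) (c : Fin m → Kˣ) (N : ℕ) (w : C)
    (h1 : ∀ j, v j * (z - algebraMap K C a) = u j * τ j)
    (r2 s2 : Fin m → C)
    (h2 : ∀ j, v j - algebraMap K C (c j : K) = τ j * r2 j + (z - algebraMap K C a) * s2 j)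
    (κ3 : Fin m → Fin n → K) (r3 s3 : Fin m → Fin n → C)
    (h3 : ∀ j i, β i - algebraMap K C (κ3 j i) = τ j * r3 j i + (z - algebraMap K C a) * s3 j i)
    (h4 : (∏ j, τ j) ^ N = (z - algebraMap K C a) * w)
    (ha : a ∈ Λ)
    (hτ : ∀ j, ι (τ j) ∈ latt ι z β Λ) (hv : ∀ j, ι (v j) ∈ latt ι z β Λ)
    (hu : ∀ j, ι (u j) ∈ latt ι z β Λ) (hw : ι w ∈ latt ι z β Λ)
    (hc : ∀ j, (c j : K) ∈ Λ) (hc' : ∀ j, (((c j)⁻¹ : Kˣ) : K) ∈ Λ)
    (hr2 : ∀ j, ι (r2 j) ∈ latt ι z β Λ) (hs2 : ∀ j, ι (s2 j) ∈ latt ι z β Λ)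
    (hκ3 : ∀ j i, κ3 j i ∈ Λ)
    (hr3 : ∀ j i, ι (r3 j i) ∈ latt ι z β Λ) (hs3 : ∀ j i, ι (s3 j i) ∈ latt ι z β Λ) :
    LocalCertN ↥Λ ↥(chartΛ ι z β Λ) (zΛ ι z β Λ) ⟨a, ha⟩ m := by
  have hιa : ι (algebraMap K C a) = algebraMap K F a := ι.commutes a
  let cΛ : Fin m → (↥Λ)ˣ := fun j =>
    ⟨⟨(c j : K), hc j⟩, ⟨(((c j)⁻¹ : Kˣ) : K), hc' j⟩,
      Subtype.ext (by simp), Subtype.ext (by simp)⟩
  refine ⟨fun j => liftΛ (τ j) (hτ j), fun j => liftΛ (v j) (hv j), fun j => liftΛ (u j) (hu j),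
    cΛ, N, liftΛ w hw, ?_, ?_, ?_, ?_⟩
  · intro j
    apply Subtype.ext
    have := congrArg ι (h1 j)
    rw [map_mul, map_sub, map_mul, hιa] at this
    exact this
  · intro j
    refine ⟨liftΛ (r2 j) (hr2 j), liftΛ (s2 j) (hs2 j), ?_⟩
    apply Subtype.ext
    have := congrArg ι (h2 j)
    rw [map_sub, map_add, map_mul, map_mul, map_sub, hιa, ι.commutes] at this
    exact this
  · intro j f
    obtain ⟨p, hp, -⟩ := free_Λ hι hfree hg f
    set aΛ : ↥Λ := ⟨a, ha⟩ with haΛ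
    set D : ↥(chartΛ ι z β Λ) := zΛ ι z β Λ - algebraMap ↥Λ ↥(chartΛ ι z β Λ) aΛ with hD
    have hB : ∀ i, βΛ ι z β Λ i = algebraMap ↥Λ ↥(chartΛ ι z β Λ) ⟨κ3 j i, hκ3 j i⟩
        + liftΛ (τ j) (hτ j) * liftΛ (r3 j i) (hr3 j i) + D * liftΛ (s3 j i) (hs3 j i) := by
      intro i
      apply Subtype.ext
      have := congrArg ι (h3 j i)
      rw [map_sub, map_add, map_mul, map_mul, map_sub, hιa, ι.commutes] at this
      have h' : ι (β i) = algebraMap K F (κ3 j i) + ι (τ j) * ι (r3 j i)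
          + (ι z - algebraMap K F a) * ι (s3 j i) := by
        linear_combination this
      exact h'
    have hA : ∀ i, aeval (zΛ ι z β Λ) (p i)
        = algebraMap ↥Λ ↥(chartΛ ι z β Λ) ((p i).eval aΛ)
          + D * aeval (zΛ ι z β Λ) (p i /ₘ (X - Polynomial.C aΛ)) := fun i =>
      aeval_zΛ_eq Λ aΛ (p i)
    refine ⟨∑ i, (p i).eval aΛ * ⟨κ3 j i, hκ3 j i⟩,
      ∑ i, algebraMap ↥Λ ↥(chartΛ ι z β Λ) ((p i).eval aΛ) * liftΛ (r3 j i) (hr3 j i),
      ∑ i, (algebraMap ↥Λ ↥(chartΛ ι z β Λ) ((p i).eval aΛ) * liftΛ (s3 j i) (hs3 j i)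
        + aeval (zΛ ι z β Λ) (p i /ₘ (X - Polynomial.C aΛ)) * βΛ ι z β Λ i), ?_⟩
    have key : ∀ i, aeval (zΛ ι z β Λ) (p i) * βΛ ι z β Λ i
        - algebraMap ↥Λ ↥(chartΛ ι z β Λ) ((p i).eval aΛ * ⟨κ3 j i, hκ3 j i⟩)
        = liftΛ (τ j) (hτ j)
            * (algebraMap ↥Λ ↥(chartΛ ι z β Λ) ((p i).eval aΛ) * liftΛ (r3 j i) (hr3 j i))
          + D * (algebraMap ↥Λ ↥(chartΛ ι z β Λ) ((p i).eval aΛ) * liftΛ (s3 j i) (hs3 j i)
            + aeval (zΛ ι z β Λ) (p i /ₘ (X - Polynomial.C aΛ)) * βΛ ι z β Λ i) := by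
      intro i
      rw [hA i, map_mul]
      linear_combination (algebraMap ↥Λ ↥(chartΛ ι z β Λ) ((p i).eval aΛ)) * hB i
    calc f - algebraMap ↥Λ ↥(chartΛ ι z β Λ) (∑ i, (p i).eval aΛ * ⟨κ3 j i, hκ3 j i⟩)
        = ∑ i, (aeval (zΛ ι z β Λ) (p i) * βΛ ι z β Λ i
          - algebraMap ↥Λ ↥(chartΛ ι z β Λ) ((p i).eval aΛ * ⟨κ3 j i, hκ3 j i⟩)) := by
          rw [Finset.sum_sub_distrib, ← hp, map_sum]
      _ = ∑ i, (liftΛ (τ j) (hτ j)
            * (algebraMap ↥Λ ↥(chartΛ ι z β Λ) ((p i).eval aΛ) * liftΛ (r3 j i) (hr3 j i))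
          + D * (algebraMap ↥Λ ↥(chartΛ ι z β Λ) ((p i).eval aΛ) * liftΛ (s3 j i) (hs3 j i)
            + aeval (zΛ ι z β Λ) (p i /ₘ (X - Polynomial.C aΛ)) * βΛ ι z β Λ i)) :=
          Finset.sum_congr rfl fun i _ => key i
      _ = _ := by rw [Finset.sum_add_distrib, Finset.mul_sum, Finset.mul_sum]
  · apply Subtype.ext
    have := congrArg ι h4
    rw [map_pow, map_prod, map_mul, map_sub, hιa] at this
    rw [SubmonoidClass.coe_pow, SubmonoidClass.coe_finsetProd]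
    exact this

/-- **Descent of a local certificate**: a local certificate over `K` is a local certificate
over every sufficiently large subring `Λ`. -/
theorem ev_localCertN (hι : Function.Injective ι)
    (hfree : ∀ f : C, ∃! p : Fin n → K[X], f = ∑ i, aeval z (p i) * β i)
    {a : K} {m : ℕ} (h : LocalCertN K C z a m) :
    Ev (fun Λ => ∃ ha : a ∈ Λ, LocalCertN ↥Λ ↥(chartΛ ι z β Λ) (zΛ ι z β Λ) ⟨a, ha⟩ m) := by
  have hspan : ∀ f : C, ∃ p : Fin n → K[X], f = ∑ i, aeval z (p i) * β i :=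
    fun f => (hfree f).exists
  obtain ⟨τ, v, u, c, N, w, h1, h2, h3, h4⟩ := h
  choose r2 s2 h2 using h2
  have h3' : ∀ j i, ∃ (κ : K) (r s : C),
      β i - algebraMap K C κ = τ j * r + (z - algebraMap K C a) * s := fun j i => h3 j (β i)
  choose κ3 r3 s3 h3' using h3'
  have e0 := ev_isGood (ι := ι) hspan
  have e1 := ev_mem a
  have e2 : Ev (fun Λ => ∀ j, ι (τ j) ∈ latt ι z β Λ) :=
    Ev.forall_fintype fun j => ev_mem_latt hspan (τ j)
  have e3 : Ev (fun Λ => ∀ j, ι (v j) ∈ latt ι z β Λ) :=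
    Ev.forall_fintype fun j => ev_mem_latt hspan (v j)
  have e4 : Ev (fun Λ => ∀ j, ι (u j) ∈ latt ι z β Λ) :=
    Ev.forall_fintype fun j => ev_mem_latt hspan (u j)
  have e5 : Ev (fun Λ => ι w ∈ latt ι z β Λ) := ev_mem_latt hspan w
  have e6 : Ev (fun Λ : Subring K => ∀ j, (c j : K) ∈ Λ) :=
    Ev.forall_fintype fun j => ev_mem _
  have e7 : Ev (fun Λ : Subring K => ∀ j, (((c j)⁻¹ : Kˣ) : K) ∈ Λ) :=
    Ev.forall_fintype fun j => ev_mem _
  have e8 : Ev (fun Λ => ∀ j, ι (r2 j) ∈ latt ι z β Λ) :=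
    Ev.forall_fintype fun j => ev_mem_latt hspan (r2 j)
  have e9 : Ev (fun Λ => ∀ j, ι (s2 j) ∈ latt ι z β Λ) :=
    Ev.forall_fintype fun j => ev_mem_latt hspan (s2 j)
  have e10 : Ev (fun Λ : Subring K => ∀ j i, κ3 j i ∈ Λ) :=
    Ev.forall_fintype fun j => Ev.forall_fintype fun i => ev_mem _
  have e11 : Ev (fun Λ => ∀ j i, ι (r3 j i) ∈ latt ι z β Λ) :=
    Ev.forall_fintype fun j => Ev.forall_fintype fun i => ev_mem_latt hspan (r3 j i)
  have e12 : Ev (fun Λ => ∀ j i, ι (s3 j i) ∈ latt ι z β Λ) :=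
    Ev.forall_fintype fun j => Ev.forall_fintype fun i => ev_mem_latt hspan (s3 j i)
  refine (e0.and (e1.and (e2.and (e3.and (e4.and (e5.and (e6.and (e7.and (e8.and (e9.and
    (e10.and (e11.and e12)))))))))))).mono ?_
  rintro Λ ⟨g0, g1, g2, g3, g4, g5, g6, g7, g8, g9, g10, g11, g12⟩
  exact ⟨g1, localCertN_Λ hι hfree g0 τ v u c N w h1 r2 s2 h2 κ3 r3 s3 h3' h4 g1 g2 g3 g4 g5
    g6 g7 g8 g9 g10 g11 g12⟩

/-- **Descent of a chart certificate**: a chart certificate over `K` is a chart certificate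
over every sufficiently large subring `Λ`. -/
theorem ev_chartCert (hι : Function.Injective ι) (h : ChartCert K C z β) :
    Ev (fun Λ => ChartCert ↥Λ ↥(chartΛ ι z β Λ) (zΛ ι z β Λ) (βΛ ι z β Λ)) := by
  have hfree := h.free
  have hspan : ∀ f : C, ∃ p : Fin n → K[X], f = ∑ i, aeval z (p i) * β i :=
    fun f => (hfree f).exists
  obtain ⟨βd, T, m, a, l, hT, htr, hloc⟩ := h.disc
  choose m' hloc using hloc
  have e0 := ev_isGood (ι := ι) hspan
  have e1 : Ev (fun Λ => ∀ j, ι (βd j) ∈ latt ι z β Λ) :=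
    Ev.forall_fintype fun j => ev_mem_latt hspan (βd j)
  have e2 : Ev (fun Λ : Subring K => ∀ i j s t, ∃ q : (↥Λ)[X], q.map Λ.subtype = T i j s t) :=
    Ev.forall_fintype fun i => Ev.forall_fintype fun j => Ev.forall_fintype fun s =>
      Ev.forall_fintype fun t => ev_lifts _
  have e3 : Ev (fun Λ : Subring K => ∀ q, a q ∈ Λ) := Ev.forall_fintype fun q => ev_mem _
  have e4 : Ev (fun Λ : Subring K => (l : K) ∈ Λ) := ev_mem _
  have e5 : Ev (fun Λ : Subring K => ((l⁻¹ : Kˣ) : K) ∈ Λ) := ev_mem _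
  have e6 : Ev (fun Λ => ∀ q, ∃ ha : a q ∈ Λ,
      LocalCertN ↥Λ ↥(chartΛ ι z β Λ) (zΛ ι z β Λ) ⟨a q, ha⟩ (m' q)) :=
    Ev.forall_fintype fun q => ev_localCertN hι hfree (hloc q)
  refine (e0.and (e1.and (e2.and (e3.and (e4.and (e5.and e6)))))).mono ?_
  rintro Λ ⟨g0, g1, g2, g3, g4, g5, g6⟩
  choose TΛ hTΛ using g2
  let lΛ : (↥Λ)ˣ := ⟨⟨(l : K), g4⟩, ⟨((l⁻¹ : Kˣ) : K), g5⟩,
    Subtype.ext (by simp), Subtype.ext (by simp)⟩
  refine ⟨free_Λ hι hfree g0, fun j => liftΛ (βd j) (g1 j), TΛ, m, fun q => ⟨a q, g3 q⟩, lΛ,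
    ?_, ?_, ?_⟩
  · intro i j s
    apply Subtype.ext
    rw [coe_sum_Λ, sum_eq_ι]
    simp only [hTΛ]
    rw [← hT i j s, map_mul, map_mul]
    rfl
  · intro i j
    apply Polynomial.map_injective Λ.subtype Subtype.val_injective
    rw [Polynomial.map_sum]
    simp only [hTΛ]
    rw [htr i j]
    split_ifs
    · rw [Polynomial.map_mul, Polynomial.map_prod, Polynomial.map_C]
      simp only [Polynomial.map_sub, Polynomial.map_X, Polynomial.map_C]
      rfl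
    · rw [Polynomial.map_zero]
  · intro q
    obtain ⟨_, hq⟩ := g6 q
    exact ⟨m' q, hq⟩

end Chart

end Fermat.Agent.S27P.GR.SpreadF
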