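import Mathlib
import Fermat.Agent.S27P.GR.Defs
import Fermat.Agent.S27P.GR.Transport
import Fermat.Agent.S27P.GR.SpreadF

/-!
# S27 / (GR): spreading out — the model over a finitely generated subring

Two chart rings `C ∋ z`, `C' ∋ z'` over a field `K` inside a field `F` (injective `K`-algebra
maps `ι`, `ι'`, `ι z * ι' z' = 1`), each with a chart certificate, one uniformiser at `z' = 0`,
and transition elements (`ι z ^ m * ι' (β' i) ∈ ι(C)`, and symmetrically).  Then there is a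
finite subset `s` of `K` such that over `Λ := Subring.closure s` the `Λ`-subalgebra
`overlapΛ` of `F` generated by both charts carries a `Model`, realised tautologically in `F/K`.
-/

set_option autoImplicit false

noncomputable section

namespace Fermat.Agent.S27P.GR.SpreadModel

open Polynomial Fermat.Agent.S27P.GR.SpreadF

section Equiv

/-- A subalgebra `S ≤ T` of `A`, as a subalgebra of `T`. -/
def comapEquiv {R A : Type*} [CommRing R] [CommRing A] [Algebra R A] (S T : Subalgebra R A)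
    (h : S ≤ T) : ↥S ≃ₐ[R] ↥(S.comap T.val) where
  toFun s := ⟨⟨s, h s.2⟩, s.2⟩
  invFun u := ⟨(u : T), u.2⟩
  left_inv _ := rfl
  right_inv _ := rfl
  map_mul' _ _ := rfl
  map_add' _ _ := rfl
  commutes' _ := rfl

variable {k R R' : Type*} [CommRing k] [CommRing R] [CommRing R'] [Algebra k R] [Algebra k R']

theorem free_of_algEquiv (e : R ≃ₐ[k] R') {n : ℕ} (z : R) (β : Fin n → R)
    (h : ∀ f : R, ∃! p : Fin n → k[X], f = ∑ i, aeval z (p i) * β i) (f : R') :
    ∃! p : Fin n → k[X], f = ∑ i, aeval (e z) (p i) * e (β i) := by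
  have key : ∀ p : Fin n → k[X],
      e (∑ i, aeval z (p i) * β i) = ∑ i, aeval (e z) (p i) * e (β i) := by
    intro p
    rw [map_sum]
    refine Finset.sum_congr rfl fun i _ => ?_
    rw [map_mul, aeval_algHom_apply]
  obtain ⟨p, hp, huniq⟩ := h (e.symm f)
  refine ⟨p, ?_, ?_⟩
  · show f = ∑ i, aeval (e z) (p i) * e (β i)
    rw [← key, ← hp, e.apply_symm_apply]
  · intro p' hp'
    have hp'' : f = ∑ i, aeval (e z) (p' i) * e (β i) := hp'
    apply huniq
    show e.symm f = ∑ i, aeval z (p' i) * β i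
    rw [hp'', ← key, e.symm_apply_apply]

theorem localCertN_of_algEquiv (e : R ≃ₐ[k] R') {z : R} {a : k} {m : ℕ}
    (h : LocalCertN k R z a m) : LocalCertN k R' (e z) a m :=
  LocalCertN.map (RingHom.id k) (e : R →+* R') (fun a => e.commutes a)
    (fun f => Submodule.subset_span ⟨e.symm f, e.apply_symm_apply f⟩) h

theorem chartCert_of_algEquiv (e : R ≃ₐ[k] R') {n : ℕ} {z : R} {β : Fin n → R}
    (h : ChartCert k R z β) : ChartCert k R' (e z) (fun i => e (β i)) :=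
  ChartCert.map (RingHom.id k) (e : R →+* R') (fun a => e.commutes a) h
    (free_of_algEquiv e z β h.free)

end Equiv

section Model

variable {K : Type*} [Field K] {F : Type*} [Field F] [Algebra K F]
  {C : Type*} [CommRing C] [Algebra K C] {C' : Type*} [CommRing C'] [Algebra K C']
  (ι : C →ₐ[K] F) (ι' : C' →ₐ[K] F) {n : ℕ} (z : C) (z' : C') (β : Fin n → C) (β' : Fin n → C')

/-- The overlap ring over `Λ`: the `Λ`-subalgebra of `F` generated by both charts. -/
def overlapΛ (Λ : Subring K) : Subalgebra ↥Λ F :=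
  Algebra.adjoin ↥Λ (insert (ι z) (Set.range fun i => ι (β i))
    ∪ insert (ι' z') (Set.range fun i => ι' (β' i)))

theorem chart_le_overlap (Λ : Subring K) : chartΛ ι z β Λ ≤ overlapΛ ι ι' z z' β β' Λ :=
  Algebra.adjoin_mono Set.subset_union_left

theorem chart'_le_overlap (Λ : Subring K) : chartΛ ι' z' β' Λ ≤ overlapΛ ι ι' z z' β β' Λ :=
  Algebra.adjoin_mono Set.subset_union_right

theorem overlapΛ_comm (Λ : Subring K) :
    overlapΛ ι' ι z' z β' β Λ = overlapΛ ι ι' z z' β β' Λ := by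
  unfold overlapΛ
  rw [Set.union_comm]

variable {ι ι' z z' β β'}

/-- Every element of the overlap ring becomes a chart element after multiplication by a power
of `z`. -/
theorem exists_pow_mul_mem {Λ : Subring K} (hzz' : ι z * ι' z' = 1)
    (gtr : ∀ i, ∃ m : ℕ, ι z ^ m * ι' (β' i) ∈ chartΛ ι z β Λ) {f : F}
    (hf : f ∈ overlapΛ ι ι' z z' β β' Λ) : ∃ m : ℕ, ι z ^ m * f ∈ chartΛ ι z β Λ := by
  have hz : ι z ∈ chartΛ ι z β Λ := (zΛ ι z β Λ).2
  unfold overlapΛ at hf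
  induction hf using Algebra.adjoin_induction with
  | mem f hf =>
    rcases hf with hf | hf
    · exact ⟨0, by rw [pow_zero, one_mul]; exact Algebra.subset_adjoin hf⟩
    · rcases hf with rfl | ⟨i, rfl⟩
      · exact ⟨1, by rw [pow_one, hzz']; exact one_mem _⟩
      · exact gtr i
  | algebraMap r =>
    exact ⟨0, by rw [pow_zero, one_mul]; exact Subalgebra.algebraMap_mem _ r⟩
  | add f g _ _ hf hg =>
    obtain ⟨m₁, h₁⟩ := hf
    obtain ⟨m₂, h₂⟩ := hg
    refine ⟨m₁ + m₂, ?_⟩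
    have e : ι z ^ (m₁ + m₂) * (f + g)
        = ι z ^ m₂ * (ι z ^ m₁ * f) + ι z ^ m₁ * (ι z ^ m₂ * g) := by ring
    rw [e]
    exact add_mem (mul_mem (pow_mem hz _) h₁) (mul_mem (pow_mem hz _) h₂)
  | mul f g _ _ hf hg =>
    obtain ⟨m₁, h₁⟩ := hf
    obtain ⟨m₂, h₂⟩ := hg
    refine ⟨m₁ + m₂, ?_⟩
    have e : ι z ^ (m₁ + m₂) * (f * g) = (ι z ^ m₁ * f) * (ι z ^ m₂ * g) := by ring
    rw [e]
    exact mul_mem h₁ h₂

/-- The model over `Λ`, for `Λ` large enough (hypotheses `gB … gtr'`). -/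
def modelΛ {Λ : Subring K} (hzz' : ι z * ι' z' = 1) (hn : 0 < n)
    (gB : ChartCert ↥Λ ↥(chartΛ ι z β Λ) (zΛ ι z β Λ) (βΛ ι z β Λ))
    (gB' : ChartCert ↥Λ ↥(chartΛ ι' z' β' Λ) (zΛ ι' z' β' Λ) (βΛ ι' z' β' Λ))
    (ginf : LocalCertN ↥Λ ↥(chartΛ ι' z' β' Λ) (zΛ ι' z' β' Λ) 0 1)
    (gtr : ∀ i, ∃ m : ℕ, ι z ^ m * ι' (β' i) ∈ chartΛ ι z β Λ)
    (gtr' : ∀ i, ∃ m : ℕ, ι' z' ^ m * ι (β i) ∈ chartΛ ι' z' β' Λ) :
    Model ↥Λ ↥(overlapΛ ι ι' z z' β β' Λ) n where
  x := ⟨ι z, chart_le_overlap ι ι' z z' β β' Λ (zΛ ι z β Λ).2⟩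
  x' := ⟨ι' z', chart'_le_overlap ι ι' z z' β β' Λ (zΛ ι' z' β' Λ).2⟩
  B := (chartΛ ι z β Λ).comap (overlapΛ ι ι' z z' β β' Λ).val
  B' := (chartΛ ι' z' β' Λ).comap (overlapΛ ι ι' z z' β β' Λ).val
  b := fun i => comapEquiv _ _ (chart_le_overlap ι ι' z z' β β' Λ) (βΛ ι z β Λ i)
  b' := fun i => comapEquiv _ _ (chart'_le_overlap ι ι' z z' β β' Λ) (βΛ ι' z' β' Λ i)
  hxx' := Subtype.ext hzz'
  hx := (zΛ ι z β Λ).2
  hx' := (zΛ ι' z' β' Λ).2
  cert := chartCert_of_algEquiv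
    (R' := ↥((chartΛ ι z β Λ).comap (overlapΛ ι ι' z z' β β' Λ).val))
    (comapEquiv (chartΛ ι z β Λ) (overlapΛ ι ι' z z' β β' Λ)
      (chart_le_overlap ι ι' z z' β β' Λ)) gB
  cert' := chartCert_of_algEquiv
    (R' := ↥((chartΛ ι' z' β' Λ).comap (overlapΛ ι ι' z z' β β' Λ).val))
    (comapEquiv (chartΛ ι' z' β' Λ) (overlapΛ ι ι' z z' β β' Λ)
      (chart'_le_overlap ι ι' z z' β β' Λ)) gB'
  cert_inf := localCertN_of_algEquiv
    (R' := ↥((chartΛ ι' z' β' Λ).comap (overlapΛ ι ι' z z' β β' Λ).val))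
    (comapEquiv (chartΛ ι' z' β' Λ) (overlapΛ ι ι' z z' β β' Λ)
      (chart'_le_overlap ι ι' z z' β β' Λ)) ginf
  hB := fun u => exists_pow_mul_mem hzz' gtr u.2
  hB' := fun u => by
    have hu : (u : F) ∈ overlapΛ ι' ι z' z β' β Λ := by
      rw [overlapΛ_comm]
      exact u.2
    exact exists_pow_mul_mem (by rw [mul_comm]; exact hzz') gtr' hu
  pos := hn

/-- The tautological realisation of the model over `Λ` in `F/K`. -/
theorem real_modelΛ {Λ : Subring K} (hι : Function.Injective ι)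
    (hfree : ∀ f : C, ∃! p : Fin n → K[X], f = ∑ i, aeval z (p i) * β i)
    (hx : Transcendental K (ι z))
    (hgen : ∀ y : F, ∃ (p : Fin n → K[X]) (s : K[X]), s ≠ 0 ∧
      aeval (ι z) s * y = ∑ i, aeval (ι z) (p i) * ι (β i))
    (hzz' : ι z * ι' z' = 1) (hn : 0 < n)
    (gB : ChartCert ↥Λ ↥(chartΛ ι z β Λ) (zΛ ι z β Λ) (βΛ ι z β Λ))
    (gB' : ChartCert ↥Λ ↥(chartΛ ι' z' β' Λ) (zΛ ι' z' β' Λ) (βΛ ι' z' β' Λ))
    (ginf : LocalCertN ↥Λ ↥(chartΛ ι' z' β' Λ) (zΛ ι' z' β' Λ) 0 1)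
    (gtr : ∀ i, ∃ m : ℕ, ι z ^ m * ι' (β' i) ∈ chartΛ ι z β Λ)
    (gtr' : ∀ i, ∃ m : ℕ, ι' z' ^ m * ι (β i) ∈ chartΛ ι' z' β' Λ) :
    Real (modelΛ hzz' hn gB gB' ginf gtr gtr') K F Λ.subtype
      (overlapΛ ι ι' z z' β β' Λ).val.toRingHom where
  compat := fun _ => rfl
  trans := by
    show Transcendental K (ι z)
    exact hx
  span := by
    show ∀ y : F, ∃ (p : Fin n → K[X]) (s : K[X]), s ≠ 0 ∧
      aeval (ι z) s * y = ∑ i, aeval (ι z) (p i) * ι (β i)
    exact hgen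
  indep := by
    intro p hp
    have hp' : ∑ i, aeval (ι z) (p i) * ι (β i) = 0 := hp
    have h1 : ι (∑ i, aeval z (p i) * β i) = ι 0 := by
      rw [map_zero, ← hp', map_sum]
      refine Finset.sum_congr rfl fun i _ => ?_
      rw [map_mul, aeval_algHom_apply]
    have h2 := hι h1
    exact (hfree 0).unique h2.symm (by simp)

end Model

section Exists

/-- The closure of `s` is generated, as a ring, by the elements of `s`. -/
theorem subring_closure_coe_preimage {R : Type*} [Ring R] (s : Set R) :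
    Subring.closure (((↑) : ↥(Subring.closure s) → R) ⁻¹' s) = ⊤ := by
  rw [eq_top_iff]
  rintro ⟨x, hx⟩ -
  induction hx using Subring.closure_induction with
  | mem x hx => exact Subring.subset_closure hx
  | zero => exact Subring.zero_mem _
  | one => exact Subring.one_mem _
  | add x y hx hy hx' hy' => exact Subring.add_mem _ hx' hy'
  | neg x hx hx' => exact Subring.neg_mem _ hx'
  | mul x y hx hy hx' hy' => exact Subring.mul_mem _ hx' hy'

universe u v

variable {K : Type u} [Field K] {F : Type v} [Field F] [Algebra K F]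
  {C : Type*} [CommRing C] [Algebra K C] {C' : Type*} [CommRing C'] [Algebra K C']
  {ι : C →ₐ[K] F} {ι' : C' →ₐ[K] F} {n : ℕ} {z : C} {z' : C'} {β : Fin n → C}
  {β' : Fin n → C'}

/-- **Spreading out, eventual form**: over every sufficiently large subring `Λ` of `K` the two
charts form a `Model`, realised tautologically in `F/K`. -/
theorem ev_model (hι : Function.Injective ι) (hι' : Function.Injective ι')
    (hzz' : ι z * ι' z' = 1) (hn : 0 < n)
    (hc : ChartCert K C z β) (hc' : ChartCert K C' z' β') (hinf : LocalCertN K C' z' 0 1)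
    (htr : ∀ i, ∃ m : ℕ, ι z ^ m * ι' (β' i) ∈ Set.range ι)
    (htr' : ∀ i, ∃ m : ℕ, ι' z' ^ m * ι (β i) ∈ Set.range ι')
    (hx : Transcendental K (ι z))
    (hgen : ∀ y : F, ∃ (p : Fin n → K[X]) (s : K[X]), s ≠ 0 ∧
      aeval (ι z) s * y = ∑ i, aeval (ι z) (p i) * ι (β i)) :
    Ev (fun Λ : Subring K => ∃ M : Model ↥Λ ↥(overlapΛ ι ι' z z' β β' Λ) n,
      Real M K F Λ.subtype (overlapΛ ι ι' z z' β β' Λ).val.toRingHom ∧
      ((M.x : ↥(overlapΛ ι ι' z z' β β' Λ)) : F) = ι z ∧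
      ((M.x' : ↥(overlapΛ ι ι' z z' β β' Λ)) : F) = ι' z' ∧
      (∀ i, (((M.b i : ↥M.B) : ↥(overlapΛ ι ι' z z' β β' Λ)) : F) = ι (β i)) ∧
      (∀ i, (((M.b' i : ↥M.B') : ↥(overlapΛ ι ι' z z' β β' Λ)) : F) = ι' (β' i))) := by
  have hspan : ∀ f : C, ∃ p : Fin n → K[X], f = ∑ i, aeval z (p i) * β i :=
    fun f => (hc.free f).exists
  have hspan' : ∀ f : C', ∃ p : Fin n → K[X], f = ∑ i, aeval z' (p i) * β' i :=
    fun f => (hc'.free f).exists
  have e1 := ev_chartCert hι hc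
  have e2 := ev_chartCert hι' hc'
  have e3 := ev_localCertN hι' hc'.free hinf
  have e4 : Ev (fun Λ => ∀ i, ∃ m : ℕ, ι z ^ m * ι' (β' i) ∈ chartΛ ι z β Λ) := by
    choose m c hmc using htr
    exact (Ev.forall_fintype fun i => ev_mem_latt (ι := ι) hspan (c i)).mono fun Λ h i =>
      ⟨m i, by rw [← hmc i]; exact latt_subset_chart Λ (h i)⟩
  have e5 : Ev (fun Λ => ∀ i, ∃ m : ℕ, ι' z' ^ m * ι (β i) ∈ chartΛ ι' z' β' Λ) := by
    choose m c hmc using htr'
    exact (Ev.forall_fintype fun i => ev_mem_latt (ι := ι') hspan' (c i)).mono fun Λ h i =>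
      ⟨m i, by rw [← hmc i]; exact latt_subset_chart Λ (h i)⟩
  refine (e1.and (e2.and (e3.and (e4.and e5)))).mono ?_
  rintro Λ ⟨g1, g2, ⟨_, g3⟩, g4, g5⟩
  exact ⟨modelΛ hzz' hn g1 g2 g3 g4 g5, real_modelΛ hι hc.free hx hgen hzz' hn g1 g2 g3 g4 g5,
    rfl, rfl, fun _ => rfl, fun _ => rfl⟩

/-- **Spreading out** (row GR-E3, core): two certified charts over `K` inside `F` come from a
`Model` over a finitely generated subring `Λ` of `K`, realised tautologically in `F/K`. -/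
theorem exists_model_of_charts (hι : Function.Injective ι) (hι' : Function.Injective ι')
    (hzz' : ι z * ι' z' = 1) (hn : 0 < n)
    (hc : ChartCert K C z β) (hc' : ChartCert K C' z' β') (hinf : LocalCertN K C' z' 0 1)
    (htr : ∀ i, ∃ m : ℕ, ι z ^ m * ι' (β' i) ∈ Set.range ι)
    (htr' : ∀ i, ∃ m : ℕ, ι' z' ^ m * ι (β i) ∈ Set.range ι')
    (hx : Transcendental K (ι z))
    (hgen : ∀ y : F, ∃ (p : Fin n → K[X]) (s : K[X]), s ≠ 0 ∧
      aeval (ι z) s * y = ∑ i, aeval (ι z) (p i) * ι (β i)) :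
    ∃ (Λ : Type u) (_ : CommRing Λ) (U : Type v) (_ : CommRing U) (_ : Algebra Λ U)
      (M : Model Λ U n) (φ : Λ →+* K) (ψ : U →+* F),
      Real M K F φ ψ ∧ Function.Injective φ ∧ Function.Injective ψ ∧
      (ψ M.x = ι z ∧ ψ M.x' = ι' z' ∧ (∀ i, ψ (M.b i : U) = ι (β i)) ∧
        ∀ i, ψ (M.b' i : U) = ι' (β' i)) ∧
      ∃ s : Finset Λ, Subring.closure (s : Set Λ) = ⊤ := by
  classical
  obtain ⟨s, M, hM, hxM⟩ :=
    (ev_model hι hι' hzz' hn hc hc' hinf htr htr' hx hgen).exists_subring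
  refine ⟨↥(Subring.closure (↑s : Set K)), inferInstance,
    ↥(overlapΛ ι ι' z z' β β' (Subring.closure (↑s : Set K))), inferInstance, inferInstance, M,
    (Subring.closure (↑s : Set K)).subtype,
    (overlapΛ ι ι' z z' β β' (Subring.closure (↑s : Set K))).val.toRingHom, hM,
    Subtype.val_injective, Subtype.val_injective, hxM, ?_⟩
  have hfin : (((↑) : ↥(Subring.closure (↑s : Set K)) → K) ⁻¹' (↑s : Set K)).Finite :=
    s.finite_toSet.preimage Subtype.val_injective.injOn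
  exact ⟨hfin.toFinset, by
    rw [Set.Finite.coe_toFinset]
    exact subring_closure_coe_preimage _⟩

end Exists

end Fermat.Agent.S27P.GR.SpreadModel
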