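/-
S27 / (GR), row GR-TOP (helper73), hypothesis form: the seam (GR) → (INJ)/(INST).

`exists_goodRed_of` : the literal `Literals.exists_goodRed_stmt` from the literals of
* GR-M   (`Literals.exists_isRed_stmt`),
* GR-RL  (`Literals.Real_exists_bad_set_stmt` of the special fibre),
* GR-RS  (`Literals.Real_sep_stmt`, `Literals.Real_sep'_stmt` of the special fibre),
taken as hypotheses.  The closed form `exists_goodRed` lives in `GR/Top.lean`.

Content of the packaging: `Inj.RedPic.GoodRed` (pole degrees do not drop: `deg (x)_∞ = [F : K(x)]`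
on both sides), the two `Inj.Centre.IsChart` (the finite chart and the chart at infinity), and the
covering of the places of the generic fibre by the two charts.
-/
import Mathlib
import Fermat.Agent.S27P.GR.Literals
import Fermat.Agent.Lib.FF.CharP.Fund

set_option autoImplicit false

noncomputable section

namespace Fermat.Agent.S27P.GR.TopOf

open Polynomial AlgebraicCurve IntermediateField
open Fermat.Agent.Lib.FF Fermat.Agent.Lib.Red Fermat.Agent.Lib.Red.PlaceRed
open Fermat.Agent.S27P.GR Fermat.Agent.S27P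

/-! ### Pole degrees -/

section Deg

variable {K F : Type*} [Field K] [Field F] [Algebra K F]

/-- `deg (x)_∞ = [F : K(x)]` over an algebraically closed constant field (any characteristic). -/
theorem degree_poleDiv_eq_finrank [IsAlgClosed K] {x : F} (h : IsFF1 K F x) :
    Divisor.degree h.poleDiv = (Module.finrank K⟮x⟯ F : ℤ) := by
  have := h.finiteDimensional
  obtain ⟨hfin, hsum⟩ := CharP.polesOf_finite_sum x h.transcendental
  have hset : h.poles_le.choose.toFinset = hfin.toFinset := by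
    ext v
    simp
  rw [h.degree_eq_sum, IsFF1.support_poleDiv, hset]
  refine Eq.trans (Finset.sum_congr rfl fun v hv => ?_) hsum
  rw [IsFF1.poleDiv_apply]
  have : v.ord x < 0 := hfin.mem_toFinset.mp hv
  omega

variable {k Ft : Type*} [Field k] [Field Ft] [Algebra k Ft]

/-- Equal degrees `[F : K(x)] = [Ft : k(xt)]` give equal pole degrees. -/
theorem degree_poleDiv_le_of_finrank_eq [IsAlgClosed K] [IsAlgClosed k] {x y : F} {xt yt : Ft}
    (hL : IsFF1 K F x) (hk : IsFF1 k Ft xt) (hx : x = y) (hxt : xt = yt)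
    (hfin : Module.finrank K⟮y⟯ F = Module.finrank k⟮yt⟯ Ft) :
    Divisor.degree hL.poleDiv ≤ Divisor.degree hk.poleDiv := by
  subst hx
  subst hxt
  rw [degree_poleDiv_eq_finrank hL, degree_poleDiv_eq_finrank hk, hfin]

end Deg

/-! ### Values -/

section Val

variable {L F : Type*} [Field L] [Field F] [Algebra L F]

/-- A function with a value at `P` is regular at `P`. -/
theorem ord_nonneg_of_lt_one (P : Place L F) {f : F} {c : L}
    (h : P.adicValuation (f - algebraMap L F c) < 1) : 0 ≤ P.ord f := by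
  have h1 : P.adicValuation f ≤ 1 := Inj.Centre.ValAt.le_one (P := P) (f := f) (c := c) h
  rw [adicValuation_le_one_iff_mem] at h1
  exact (Fermat.Agent.S24.mem_iff_ord_nonneg P).1 h1

/-- The value of `f⁻¹` at a place where `f` takes the nonzero value `c`. -/
theorem inv_sub_lt_one (P : Place L F) {f : F} {c : L} (hc : c ≠ 0)
    (h : P.adicValuation (f - algebraMap L F c) < 1) :
    P.adicValuation (f⁻¹ - algebraMap L F c⁻¹) < 1 := by
  have hC1 : P.adicValuation (algebraMap L F c) = 1 := adicValuation_algebraMap_eq_one P hc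
  have hf1 : P.adicValuation f = 1 := by
    have e : f = (f - algebraMap L F c) + algebraMap L F c := by ring
    rw [e, Valuation.map_add_eq_of_lt_right, hC1]
    rw [hC1]
    exact h
  have hf0 : f ≠ 0 := by
    intro h0
    rw [h0, map_zero] at hf1
    exact zero_ne_one hf1
  have hC0 : algebraMap L F c ≠ 0 := by simpa using hc
  have e : f⁻¹ - algebraMap L F c⁻¹
      = -((f - algebraMap L F c) * f⁻¹ * algebraMap L F c⁻¹) := by
    rw [map_inv₀]
    field_simp
    ring
  rw [e, Valuation.map_neg, map_mul, map_mul, map_inv₀, hf1, inv_one, mul_one,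
    adicValuation_algebraMap_eq_one P (inv_ne_zero hc), mul_one]
  exact h

end Val

/-! ### The covering by the two charts -/

section Cover

variable {L F k : Type*} [Field L] [Field F] [Algebra L F] [Field k]

/-- Every place with trivial residue extension lies on the chart `x ∈ A` or on the chart
`x' ∈ 𝔪_A` (`x x' = 1`). -/
theorem evK_or_evK_inv (A : ValuationSubring L) (π : A →+* k)
    (hπ0 : ∀ a : A, ¬ IsUnit a → π a = 0) (P : Place L F) (hres : RR.ResK P) {x x' : F}
    (hxx' : x * x' = 1) :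
    (∃ γ₀ : k, EvK A π P x γ₀) ∨ EvK A π P x' 0 := by
  have hinv : x' = x⁻¹ := eq_inv_of_mul_eq_one_right hxx'
  by_cases hP : 0 ≤ P.ord x
  · obtain ⟨c, hc⟩ := OneStep.exists_const_sub_pos P hres hP
    have hval : P.adicValuation (x - algebraMap L F c) < 1 := by
      rcases hc with hc | hc
      · rw [hc, sub_self, map_zero]
        exact zero_lt_one
      · exact Inj.Centre.valAt_of_ord_pos P hc
    by_cases hcA : c ∈ A
    · exact Or.inl ⟨π ⟨c, hcA⟩, ⟨c, hcA⟩, rfl, hval⟩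
    · right
      have hc0 : c ≠ 0 := fun h => hcA (h ▸ A.zero_mem)
      have hcinv : c⁻¹ ∈ A := (A.mem_or_inv_mem c).resolve_left hcA
      have hnu : ¬ IsUnit (⟨c⁻¹, hcinv⟩ : A) := by
        rintro ⟨w, hw⟩
        apply hcA
        have h1 : ((w⁻¹ : Aˣ) : A) * (⟨c⁻¹, hcinv⟩ : A) = 1 := by
          rw [← hw]
          exact Units.inv_mul w
        have h2 : (((w⁻¹ : Aˣ) : A) : L) * c⁻¹ = 1 := congrArg Subtype.val h1
        have h3 : (((w⁻¹ : Aˣ) : A) : L) = c := by
          have := eq_inv_of_mul_eq_one_left h2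
          rwa [inv_inv] at this
        rw [← h3]
        exact ((w⁻¹ : Aˣ) : A).2
      refine ⟨⟨c⁻¹, hcinv⟩, hπ0 _ hnu, ?_⟩
      rw [hinv]
      exact inv_sub_lt_one P hc0 hval
  · right
    have hpos : 0 < P.ord x' := by
      rw [hinv, Place.ord_inv]
      omega
    have hx'0 : x' ≠ 0 := by
      intro h0
      rw [h0, Place.ord_zero] at hpos
      exact lt_irrefl _ hpos
    exact EvK.of_lt_one ((adicValuation_lt_one_iff P hx'0).2 hpos)

end Cover

/-! ### The seam -/

section Top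

variable {Λ U : Type*} [CommRing Λ] [CommRing U] [Algebra Λ U] {n : ℕ} (M : Model Λ U n)
  {K' F' k Ft : Type*} [Field K'] [Field F'] [Algebra K' F'] [Field k] [Field Ft] [Algebra k Ft]
  [IsAlgClosed K'] [IsAlgClosed k] {φ₁ : Λ →+* K'} {ψ₁ : U →+* F'}
  (h₁ : Real M K' F' φ₁ ψ₁) {φ₂ : Λ →+* k} {ψ₂ : U →+* Ft} (h₂ : Real M k Ft φ₂ ψ₂)
  (hφ₁ : Function.Injective φ₁) (A : ValuationSubring K') (π : A →+* k)
  (hπ : Function.Surjective π) (hπ0 : ∀ a : A, ¬ IsUnit a → π a = 0)
  (hφ : ∀ a : Λ, ∃ h : φ₁ a ∈ A, π ⟨φ₁ a, h⟩ = φ₂ a)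

include hπ0 in
/-- **GR-TOP, hypothesis form**: the good-reduction package (`GoodRed`, genus equality, the
reduction of the model functions, the two charts and the covering) from the reduction theorem
GR-M, the bad set of the special fibre (GR-RL) and the separation of the places of the special
fibre by the chart functions (GR-RS). -/
theorem exists_goodRed_of
    (hM : Literals.exists_isRed_stmt M h₁ h₂ hφ₁ A π hπ hπ0 hφ)
    (hbad : Literals.Real_exists_bad_set_stmt h₂)
    (hsep : ∀ (Q Q' : Place k Ft) (hQ : 0 ≤ Q.ord (ψ₂ M.x)) (hQ' : 0 ≤ Q'.ord (ψ₂ M.x))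
      (hv : ∀ u : M.B, ∀ γ : k, Q.adicValuation (ψ₂ (u : U) - algebraMap k Ft γ) < 1 →
        Q'.adicValuation (ψ₂ (u : U) - algebraMap k Ft γ) < 1),
      Literals.Real_sep_stmt h₂ Q Q' hQ hQ' hv)
    (hsep' : ∀ (Q Q' : Place k Ft) (hQ : Q.ord (ψ₂ M.x) ≤ 0) (hQ' : Q'.ord (ψ₂ M.x) ≤ 0)
      (hv : ∀ u : M.B', ∀ γ : k, Q.adicValuation (ψ₂ (u : U) - algebraMap k Ft γ) < 1 →
        Q'.adicValuation (ψ₂ (u : U) - algebraMap k Ft γ) < 1),
      Literals.Real_sep'_stmt h₂ Q Q' hQ hQ' hv) :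
    Literals.exists_goodRed_stmt M h₁ h₂ hφ₁ A π hπ hπ0 hφ := by
  unfold Literals.exists_isRed_stmt at hM
  unfold Literals.Real_exists_bad_set_stmt at hbad
  unfold Literals.exists_goodRed_stmt
  obtain ⟨O, red, r, xO, hx1, hx2, hred, hsurj, ff1, ff2, hgen, hfin, hlift, hU, hB, hB'⟩ := hM
  have hxx₁ : ψ₁ M.x * ψ₁ M.x' = 1 := by rw [← map_mul, M.hxx', map_one]
  have hxx₂ : ψ₂ M.x * ψ₂ M.x' = 1 := by rw [← map_mul, M.hxx', map_one]
  have hinv₂ : ψ₂ M.x' = (ψ₂ M.x)⁻¹ := eq_inv_of_mul_eq_one_right hxx₂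
  have ffL : IsFF1 K' F' ((xO : O) : F') := by rw [hx1]; exact ff1
  have ffk : IsFF1 k Ft (red (xO : O)) := by rw [hx2]; exact ff2
  refine ⟨O, red, r, xO, hx1, hx2, ?_, hgen, hU, ?_, ?_, ?_⟩
  · -- `GoodRed`
    refine ⟨hred, ffL, ffk, hsurj, hgen.le, ?_, hlift, ?_⟩
    · exact degree_poleDiv_le_of_finrank_eq ffL ffk hx1 hx2 hfin
    · obtain ⟨S₀, hS₀⟩ := hbad
      refine ⟨S₀, fun Q hQ => ?_⟩
      rw [hx2]
      exact hS₀ Q hQ
  · -- the finite chart
    refine ⟨?_, ?_, ?_⟩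
    · rintro P ⟨γ₀, hγ₀⟩
      obtain ⟨γ, -, hv⟩ := hB P γ₀ hγ₀ ⟨M.x, M.hx⟩
      exact ord_nonneg_of_lt_one (r P) hv
    · rintro P ⟨γ₀, hγ₀⟩ f ⟨u, hfu⟩
      obtain ⟨γ, ⟨a, ha, hPa⟩, hv⟩ := hB P γ₀ hγ₀ u
      obtain ⟨hmem, hredu⟩ := hU (u : U)
      have hf : f = ⟨ψ₁ (u : U), hmem⟩ := Subtype.ext hfu
      refine ⟨a, ?_, ?_⟩
      · show P.adicValuation ((f : F') - algebraMap K' F' (a : K')) < 1
        rw [hfu]
        exact hPa
      · show (r P).adicValuation (red f - algebraMap k Ft (π a)) < 1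
        rw [hf, hredu, ha]
        exact hv
    · intro Q hQ Q' hQ' hv
      refine hsep Q Q' hQ hQ' (fun u γ hγ => ?_)
      obtain ⟨hmem, hredu⟩ := hU (u : U)
      have h3 : Inj.Centre.ValAt Q' (red ⟨ψ₁ (u : U), hmem⟩) γ := by
        refine hv ⟨ψ₁ (u : U), hmem⟩ ⟨u, rfl⟩ γ ?_
        show Q.adicValuation (red ⟨ψ₁ (u : U), hmem⟩ - algebraMap k Ft γ) < 1
        rw [hredu]
        exact hγ
      have h4 : Q'.adicValuation (red ⟨ψ₁ (u : U), hmem⟩ - algebraMap k Ft γ) < 1 := h3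
      rw [hredu] at h4
      exact h4
  · -- the chart at infinity
    refine ⟨?_, ?_, ?_⟩
    · rintro P ⟨γ₀, hγ₀⟩
      obtain ⟨γ, -, hv⟩ := hB' P γ₀ hγ₀ ⟨M.x', M.hx'⟩
      have h0 : 0 ≤ (r P).ord (ψ₂ M.x') := ord_nonneg_of_lt_one (r P) hv
      rw [hinv₂, Place.ord_inv] at h0
      show (r P).ord (ψ₂ M.x) ≤ 0
      omega
    · rintro P ⟨γ₀, hγ₀⟩ f ⟨u, hfu⟩
      obtain ⟨γ, ⟨a, ha, hPa⟩, hv⟩ := hB' P γ₀ hγ₀ u
      obtain ⟨hmem, hredu⟩ := hU (u : U)
      have hf : f = ⟨ψ₁ (u : U), hmem⟩ := Subtype.ext hfu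
      refine ⟨a, ?_, ?_⟩
      · show P.adicValuation ((f : F') - algebraMap K' F' (a : K')) < 1
        rw [hfu]
        exact hPa
      · show (r P).adicValuation (red f - algebraMap k Ft (π a)) < 1
        rw [hf, hredu, ha]
        exact hv
    · intro Q hQ Q' hQ' hv
      refine hsep' Q Q' hQ hQ' (fun u γ hγ => ?_)
      obtain ⟨hmem, hredu⟩ := hU (u : U)
      have h3 : Inj.Centre.ValAt Q' (red ⟨ψ₁ (u : U), hmem⟩) γ := by
        refine hv ⟨ψ₁ (u : U), hmem⟩ ⟨u, rfl⟩ γ ?_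
        show Q.adicValuation (red ⟨ψ₁ (u : U), hmem⟩ - algebraMap k Ft γ) < 1
        rw [hredu]
        exact hγ
      have h4 : Q'.adicValuation (red ⟨ψ₁ (u : U), hmem⟩ - algebraMap k Ft γ) < 1 := h3
      rw [hredu] at h4
      exact h4
  · -- the covering
    intro P
    exact evK_or_evK_inv A π hπ0 P (ff1.resK P) hxx₁

end Top

end Fermat.Agent.S27P.GR.TopOf
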